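/-
Item 75 (S18), BLOCK A (helper9): the ABSTRACT theorem "prime-to-l torsion injects under a good
constant reduction", in the language of the prelude (`AlgebraicCurve.Place`, `Divisor`).

Setting: `K ⊇ A` valued field with residue map `π : A → k`; `F / K`, `Fb / k` function fields;
`O ⊆ F` a valuation ring with reduction map `red : O → Fb` (the "Gauss valuation"), and a map
`r : Place K F → Place k Fb` with the NET COUNT property
  `r_*(div u) = div (red u)` for all `u ∈ O` with `red u ≠ 0`.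
All of this is derived from the hypothesis `h : ReductionInputsModL A N` of S18 (slice A0).
What is NOT derived from `h` is good reduction, which enters Block A only through
`GoodRed` (= LIFT: for divisors of large degree, `L(D)` has an `A`-basis in `O` reducing to a
`k`-basis of `L(r_* D)`); this is delivered by Block B.

This file: definitions + the exact statements (Props) of the slices A1..A6.
-/
import Mathlib
import Fermat.Agent.S24.PlaceBasic

set_option autoImplicit false

noncomputable section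

open AlgebraicCurve

namespace H9S18

/-! ### Generic notions on a function field `F / K` -/

section Generic

variable {K F : Type*} [Field K] [Field F] [Algebra K F]

/-- `f ∈ L(D)` : `f = 0` or `div f + D ≥ 0`. -/
def InL (D : Divisor K F) (f : F) : Prop := f = 0 ∨ ∀ v : Place K F, -D v ≤ v.ord f

/-- `D = div f`. -/
def IsDivOf (f : F) (D : Divisor K F) : Prop := ∀ P : Place K F, D P = P.ord f

/-- `D ≥ 0`. -/
def Eff (D : Divisor K F) : Prop := ∀ P : Place K F, 0 ≤ D P

/-- `D` is effective and multiplicity free. -/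
def MultFree (D : Divisor K F) : Prop := ∀ P : Place K F, D P = 0 ∨ D P = 1

/-- `y` is regular at `P` with value `a ∈ K` (i.e. `y - a ∈ m_P`). -/
def ValAt (P : Place K F) (y : F) (a : K) : Prop :=
  P.adicValuation (y - algebraMap K F a) < 1

variable (K F) in
/-- Every place has residue field `K`: a function regular at `P` has a value in `K`. -/
def ExistsValue : Prop :=
  ∀ (P : Place K F) (y : F), y ∈ P.toValuationSubring → ∃ a : K, ValAt P y a

variable (K F) in
/-- Facts on the function field `F / K` used by Block A (both for `F / K` and `Fb / k`):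
principal divisors exist (finitely many zeros and poles, degree `0`) and places are rational. -/
structure CurveFacts : Prop where
  hpd : HasPrincipalDivisors K F
  value : ExistsValue K F

variable (K F) in
/-- Extra facts needed on the REDUCED function field `Fb / k` (all from Riemann-Roch):
* `const`: a function without zeros and poles is constant;
* `unif`: for an effective divisor `G` of large degree not containing `Q` there is
  `φ ∈ L(G)` with a simple zero at `Q`;
* `inf`: there are infinitely many places. -/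
structure RedCurveFacts : Prop extends CurveFacts K F where
  const : ∀ φ : F, φ ≠ 0 → (∀ Q : Place K F, Q.ord φ = 0) → φ ∈ Set.range (algebraMap K F)
  unif : ∃ N₁ : ℤ, ∀ (Q : Place K F) (G : Divisor K F), Eff G → G Q = 0 →
    N₁ ≤ Divisor.degree G → ∃ φ : F, InL G φ ∧ Q.ord φ = 1
  inf : Infinite (Place K F)

end Generic

/-! ### The reduction datum -/

/-- A constant reduction datum. -/
structure RedDatum (K F k Fb : Type*) [Field K] [Field F] [Algebra K F]
    [Field k] [Field Fb] [Algebra k Fb] where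
  /-- valuation ring of the constant field -/
  A : ValuationSubring K
  /-- residue map of `A` -/
  π : A →+* k
  /-- the valuation ring of `F` ("Gauss valuation") -/
  O : ValuationSubring F
  /-- the reduction map -/
  red : O →+* Fb
  /-- reduction of places -/
  r : Place K F → Place k Fb
  π_surj : Function.Surjective π
  π_nonunit : ∀ a : A, ¬ IsUnit a → π a = 0
  red_surj : Function.Surjective red
  red_nonunit : ∀ y : O, ¬ IsUnit y → red y = 0
  const_mem : ∀ a : K, a ∈ A → algebraMap K F a ∈ O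
  red_const : ∀ (a : K) (ha : a ∈ A),
    red ⟨algebraMap K F a, const_mem a ha⟩ = algebraMap k Fb (π ⟨a, ha⟩)
  /-- the value group of `O` is that of `A` -/
  unit_scale : ∀ f : F, f ≠ 0 →
    ∃ c : K, c ≠ 0 ∧ ∃ h : algebraMap K F c * f ∈ O, red ⟨algebraMap K F c * f, h⟩ ≠ 0
  deg_r : ∀ P : Place K F, (r P).deg = P.deg
  /-- NET COUNT: `r_*(div u) = div (red u)` -/
  netcount : ∀ (u : F) (hu : u ∈ O), red ⟨u, hu⟩ ≠ 0 → ∀ D : Divisor K F, IsDivOf u D →
    ∀ Q : Place k Fb, Finsupp.mapDomain r D Q = Q.ord (red ⟨u, hu⟩)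

namespace RedDatum

variable {K F k Fb : Type*} [Field K] [Field F] [Algebra K F] [Field k] [Field Fb] [Algebra k Fb]
variable (R : RedDatum K F k Fb)

/-- push forward of divisors `r_*`. -/
def push (D : Divisor K F) : Divisor k Fb := Finsupp.mapDomain R.r D

/-- `y` has no pole in the residue disc `r⁻¹(Q)`. -/
def NoPoleOn (Q : Place k Fb) (y : F) : Prop :=
  ∀ P : Place K F, R.r P = Q → y ∈ P.toValuationSubring

/-- `x ∈ c • O`. -/
def DvdO (c : K) (x : F) : Prop := ∃ t : F, t ∈ R.O ∧ x = algebraMap K F c * t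

/-- `c ∈ m_A`, `c ≠ 0`. -/
def Small (c : K) : Prop := c ≠ 0 ∧ ∃ hc : c ∈ R.A, R.π ⟨c, hc⟩ = 0

/-- The valuation of `A` has rank one. -/
def RankOne : Prop :=
  ∀ c : K, R.Small c → ∀ C : K, C ≠ 0 → ∃ n : ℕ, C * (c ^ n)⁻¹ ∉ R.A

/-- `m` is invertible in the residue field. -/
def GoodInt (m : ℕ) : Prop := (m : k) ≠ 0

/-- LIFT for the divisor `D`: `L(D)` has a `K`-basis `w` in `O` whose reduction is a `k`-basis
of `L(r_* D)`. -/
def HasOrthBasis (D : Divisor K F) : Prop :=
  ∃ (s : ℕ) (w : Fin s → F) (hw : ∀ i, w i ∈ R.O),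
    (∀ i, InL D (w i)) ∧
    LinearIndependent k (fun i => R.red ⟨w i, hw i⟩) ∧
    (∀ ψ : Fb, InL (R.push D) ψ →
      ψ ∈ Submodule.span k (Set.range fun i => R.red ⟨w i, hw i⟩)) ∧
    (∀ y : F, InL D y → y ∈ Submodule.span K (Set.range w))

/-- GOOD REDUCTION, in the form used by Block A (delivered by Block B). -/
def GoodRed : Prop :=
  ∃ N₀ : ℤ, ∀ D : Divisor K F, N₀ ≤ Divisor.degree D → R.HasOrthBasis D

/-! ### Statements of the slices -/

/-- A1a. reduction maps `L(D) ∩ O` into `L(r_* D)`. -/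
def RedMemLStatement : Prop :=
  ∀ (D : Divisor K F) (y : F) (hy : y ∈ R.O), InL D y → InL (R.push D) (R.red ⟨y, hy⟩)

/-- A1b. values of `O`-integral functions without poles in a disc are `A`-integral and
compatible with reduction. -/
def ValueIntegralStatement : Prop :=
  ∀ (Q : Place k Fb) (y : F) (hy : y ∈ R.O), R.NoPoleOn Q y →
    ∀ P : Place K F, R.r P = Q → ∀ a : K, ValAt P y a →
      ∃ ha : a ∈ R.A, ValAt Q (R.red ⟨y, hy⟩) (R.π ⟨a, ha⟩)

/-- A1c. a coordinate on a disc has simple zeros and is injective. -/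
def CoordSimpleStatement : Prop :=
  ∀ (Q : Place k Fb) (z : F) (hz : z ∈ R.O), R.NoPoleOn Q z → Q.ord (R.red ⟨z, hz⟩) = 1 →
    ∀ P : Place K F, R.r P = Q → ∀ a : K, ValAt P z a →
      P.ord (z - algebraMap K F a) = 1 ∧
      ∀ P' : Place K F, R.r P' = Q → P' ≠ P → P'.ord (z - algebraMap K F a) = 0

/-- A1d. Lipschitz estimate on a disc. -/
def LipschitzStatement : Prop :=
  ∀ (Q : Place k Fb) (z w : F) (hz : z ∈ R.O) (_hw : w ∈ R.O), R.NoPoleOn Q z →
    R.NoPoleOn Q w → Q.ord (R.red ⟨z, hz⟩) = 1 →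
    ∀ P₁ P₂ : Place K F, R.r P₁ = Q → R.r P₂ = Q →
    ∀ a₁ a₂ b₁ b₂ : K, ValAt P₁ z a₁ → ValAt P₂ z a₂ → ValAt P₁ w b₁ → ValAt P₂ w b₂ →
      ∃ x : K, x ∈ R.A ∧ b₁ - b₂ = x * (a₁ - a₂)

/-- A2a. every residue disc is nonempty. -/
def SurjStatement : Prop := Function.Surjective R.r

/-- A2b. good coordinates exist at every place of `Fb`. -/
def ExistsCoordStatement : Prop :=
  ∀ Q : Place k Fb, ∃ (z : F) (hz : z ∈ R.O), R.NoPoleOn Q z ∧ Q.ord (R.red ⟨z, hz⟩) = 1

/-- A3a. LOCAL ANALYSIS: if `div f = m (E' - E)` with `r_* E = r_* E'` multiplicity free and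
`f = 1 + c t`, then `red t ∈ L(r_* E)`. -/
def LAStatement (m : ℕ) : Prop :=
  ∀ (Eb : Divisor k Fb), MultFree Eb → ∀ E E' : Divisor K F, Eff E → Eff E' →
    R.push E = Eb → R.push E' = Eb →
    ∀ f : F, f ≠ 0 → (∀ P : Place K F, P.ord f = m * (E' P - E P)) →
    ∀ c : K, R.Small c → ∀ (t : F) (ht : t ∈ R.O), f = 1 + algebraMap K F c * t →
      InL Eb (R.red ⟨t, ht⟩)

/-- A3b. LOCAL ANALYSIS, closeness: `f ≡ 1 mod c` forces the points of `E'` and `E` in a disc
to be `c`-close in any coordinate. -/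
def LACloseStatement (m : ℕ) : Prop :=
  ∀ (Eb : Divisor k Fb), MultFree Eb → ∀ E E' : Divisor K F, Eff E → Eff E' →
    R.push E = Eb → R.push E' = Eb →
    ∀ f : F, f ≠ 0 → (∀ P : Place K F, P.ord f = m * (E' P - E P)) →
    ∀ c : K, R.Small c → R.DvdO c (f - 1) →
    ∀ (Q : Place k Fb) (z : F) (hz : z ∈ R.O), R.NoPoleOn Q z → Q.ord (R.red ⟨z, hz⟩) = 1 →
    ∀ P' P₀ : Place K F, R.r P' = Q → R.r P₀ = Q → E' P' = 1 → E P₀ = 1 →
    ∀ a b : K, ValAt P' z a → ValAt P₀ z b → ∃ x : K, x ∈ R.A ∧ a - b = c * x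

/-- A4. IMPROVEMENT (Newton step): precision `c` is improved to `c ^ 2`. -/
def ImproveStatement (m : ℕ) : Prop :=
  ∀ (Eb : Divisor k Fb), MultFree Eb → ∀ E E' : Divisor K F, Eff E → Eff E' →
    R.push E = Eb → R.push E' = Eb → R.HasOrthBasis E → R.HasOrthBasis (m • E) →
    ∀ f : F, f ≠ 0 → (∀ P : Place K F, P.ord f = m * (E' P - E P)) →
    ∀ c : K, R.Small c → R.DvdO c (f - 1) →
      ∃ (g : F) (E₁ : Divisor K F), g ≠ 0 ∧ Eff E₁ ∧ R.push E₁ = Eb ∧
        (∀ P : Place K F, P.ord g = E₁ P - E P) ∧ R.DvdO (c ^ 2) (f * (g ^ m)⁻¹ - 1)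

/-- A5. CLOSEDNESS: if `E' - E₀` is approximated to every precision `c ^ n` by divisors
`E_n ~ E₀`, then `E' ~ E₀`. -/
def ClosedStatement (m : ℕ) : Prop :=
  ∀ (Eb : Divisor k Fb), MultFree Eb → ∀ E₀ E' : Divisor K F, Eff E₀ → Eff E' →
    R.push E₀ = Eb → R.push E' = Eb → R.HasOrthBasis E₀ →
    ∀ c : K, R.Small c →
    (∀ n : ℕ, ∃ (g f₁ : F) (E₁ : Divisor K F), g ≠ 0 ∧ f₁ ≠ 0 ∧ Eff E₁ ∧ R.push E₁ = Eb ∧
        (∀ P : Place K F, P.ord g = E₁ P - E₀ P) ∧
        (∀ P : Place K F, P.ord f₁ = m * (E' P - E₁ P)) ∧ R.DvdO (c ^ n) (f₁ - 1)) →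
    E' - E₀ ∈ Divisor.principal (K := K) (F := F)

/-- A6a. NORMALISATION (Steps 1-2): a class in the kernel of reduction killed by `m` is
represented by `E' - E₀` with `r_* E' = r_* E₀` multiplicity free of large degree and
`m (E' - E₀) = div f`, `red f = 1`. -/
def NormalizeStatement (m : ℕ) : Prop :=
  ∀ D : Divisor K F, Divisor.degree D = 0 → m • D ∈ Divisor.principal (K := K) (F := F) →
    R.push D ∈ Divisor.principal (K := k) (F := Fb) → ∀ N₀ : ℤ,
      ∃ (Eb : Divisor k Fb) (E₀ E' : Divisor K F) (f : F), MultFree Eb ∧ Eff E₀ ∧ Eff E' ∧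
        N₀ ≤ Divisor.degree E₀ ∧ R.push E₀ = Eb ∧ R.push E' = Eb ∧
        D - (E' - E₀) ∈ Divisor.principal (K := K) (F := F) ∧ f ≠ 0 ∧
        (∀ P : Place K F, P.ord f = m * (E' P - E₀ P)) ∧
        ∃ hf : f ∈ R.O, R.red ⟨f, hf⟩ = 1

/-- The MAIN abstract statement: a divisor class of degree `0` killed by `m` (prime to the
residue characteristic) whose reduction is principal is principal. -/
def MainStatement (m : ℕ) : Prop :=
  ∀ D : Divisor K F, Divisor.degree D = 0 → m • D ∈ Divisor.principal (K := K) (F := F) →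
    R.push D ∈ Divisor.principal (K := k) (F := Fb) →
    D ∈ Divisor.principal (K := K) (F := F)

end RedDatum

end H9S18
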