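import Mathlib
import Fermat.Prelude.Def_ModularCurve_ReductionModL

/-!
# W2-B (S18), foundation slice GV, part 1 (helper28): the Gauss ring of a valuation subring

`L` a field, `A` a valuation subring of `L`, `π : A →+* k` a ring homomorphism to a field.
`gvEps A : A((q)) → L((q))` and `gvRho π : A((q)) → k((q))` are the coefficientwise maps
(they are the prelude's `coeffMap A.subtype`, `coeffMap π` of `IsPlaceReductionAlong`).

`gvO A π = { f / g : f, g ∈ A((q)), ρ g ≠ 0 } ⊆ L((q))` with its reduction map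
`gvRed A π : gvO A π →+* k((q))`.  Nothing here uses discreteness of the valuation.
-/

set_option autoImplicit false
open ModularCurve HahnSeries

noncomputable section

namespace H28GV

variable {L : Type*} [Field L] (A : ValuationSubring L) {k : Type*} [Field k] (π : A →+* k)

/-- embedding of `A`-integral series into series over `L` -/
def gvEps : LaurentSeries A →+* LaurentSeries L := coeffMap A.subtype

/-- reduction of `A`-integral series -/
def gvRho : LaurentSeries A →+* LaurentSeries k := coeffMap π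

@[simp] theorem gvEps_coeff (f : LaurentSeries A) (n : ℤ) :
    (gvEps A f).coeff n = ((f.coeff n : A) : L) := rfl

@[simp] theorem gvRho_coeff (f : LaurentSeries A) (n : ℤ) :
    (gvRho A π f).coeff n = π (f.coeff n) := rfl

theorem gvEps_def (f : LaurentSeries A) : gvEps A f = coeffMap A.subtype f := rfl

theorem gvRho_def (f : LaurentSeries A) : gvRho A π f = coeffMap π f := rfl

theorem gvEps_injective : Function.Injective (gvEps A) := by
  intro f g h
  ext n
  have := congrArg (fun x => x.coeff n) h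
  simp only [gvEps_coeff] at this
  exact_mod_cast this

theorem gvEps_eq_zero_iff (f : LaurentSeries A) : gvEps A f = 0 ↔ f = 0 :=
  ⟨fun h => gvEps_injective A (h.trans (map_zero _).symm), fun h => by rw [h, map_zero]⟩

theorem gvEps_ne_zero_of_rho (f : LaurentSeries A) (h : gvRho A π f ≠ 0) : gvEps A f ≠ 0 := by
  intro h0
  rw [gvEps_eq_zero_iff] at h0
  exact h (by rw [h0, map_zero])

/-- lifting a series over `L` with coefficients in `A` -/
theorem gv_exists_eps_eq (x : LaurentSeries L) (h : ∀ n, x.coeff n ∈ A) :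
    ∃ f : LaurentSeries A, gvEps A f = x := by
  refine ⟨⟨fun n => ⟨x.coeff n, h n⟩, x.isPWO_support.mono ?_⟩, ?_⟩
  · intro n hn
    rw [Function.mem_support] at hn
    rw [HahnSeries.mem_support]
    intro h0
    exact hn (Subtype.ext h0)
  · ext n
    rfl

/-! ### The Gauss ring -/

/-- the ring of quotients `f / g` of `A`-integral series with `ρ g ≠ 0`, inside `L((q))` -/
def gvO : Subring (LaurentSeries L) where
  carrier := {x | ∃ f g : LaurentSeries A, gvRho A π g ≠ 0 ∧ x * gvEps A g = gvEps A f}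
  mul_mem' := by
    rintro x y ⟨f, g, hg, h⟩ ⟨f', g', hg', h'⟩
    refine ⟨f * f', g * g', ?_, ?_⟩
    · rw [map_mul]; exact mul_ne_zero hg hg'
    · rw [map_mul, map_mul, ← h, ← h']; ring
  one_mem' := ⟨1, 1, by rw [map_one]; exact one_ne_zero, by simp⟩
  add_mem' := by
    rintro x y ⟨f, g, hg, h⟩ ⟨f', g', hg', h'⟩
    refine ⟨f * g' + f' * g, g * g', ?_, ?_⟩
    · rw [map_mul]; exact mul_ne_zero hg hg'
    · rw [map_add, map_mul, map_mul, map_mul, ← h, ← h']; ring
  zero_mem' := ⟨0, 1, by rw [map_one]; exact one_ne_zero, by simp⟩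
  neg_mem' := by
    rintro x ⟨f, g, hg, h⟩
    exact ⟨-f, g, hg, by rw [map_neg, ← h]; ring⟩

theorem mem_gvO_iff (x : LaurentSeries L) : x ∈ gvO A π ↔
    ∃ f g : LaurentSeries A, gvRho A π g ≠ 0 ∧ x * gvEps A g = gvEps A f := Iff.rfl

theorem gvEps_mem_gvO (f : LaurentSeries A) : gvEps A f ∈ gvO A π :=
  ⟨f, 1, by rw [map_one]; exact one_ne_zero, by simp⟩

/-- the reduction map as a function -/
def gvRedFun (x : gvO A π) : LaurentSeries k :=
  gvRho A π (Classical.choose x.2) / gvRho A π (Classical.choose (Classical.choose_spec x.2))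

theorem gv_rho_div_eq_of_rep (x : LaurentSeries L) (f g f' g' : LaurentSeries A)
    (hg : gvRho A π g ≠ 0) (h : x * gvEps A g = gvEps A f)
    (hg' : gvRho A π g' ≠ 0) (h' : x * gvEps A g' = gvEps A f') :
    gvRho A π f' / gvRho A π g' = gvRho A π f / gvRho A π g := by
  rw [div_eq_div_iff hg' hg, ← map_mul, ← map_mul]
  congr 1
  apply gvEps_injective A
  rw [map_mul, map_mul, ← h, ← h']
  ring

theorem gvRedFun_eq (x : gvO A π) (f g : LaurentSeries A)
    (hg : gvRho A π g ≠ 0) (h : (x : LaurentSeries L) * gvEps A g = gvEps A f) :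
    gvRedFun A π x = gvRho A π f / gvRho A π g := by
  have hs := Classical.choose_spec (Classical.choose_spec x.2)
  exact gv_rho_div_eq_of_rep A π (x : LaurentSeries L) f g _ _ hg h hs.1 hs.2

/-- the reduction map `gvO → k((q))` -/
def gvRed : gvO A π →+* LaurentSeries k where
  toFun := gvRedFun A π
  map_one' := by
    rw [gvRedFun_eq A π 1 1 1 (by rw [map_one]; exact one_ne_zero) (by simp), map_one, div_one]
  map_mul' := by
    rintro ⟨x, f, g, hg, h⟩ ⟨y, f', g', hg', h'⟩
    rw [gvRedFun_eq A π ⟨x, f, g, hg, h⟩ f g hg h, gvRedFun_eq A π ⟨y, f', g', hg', h'⟩ f' g' hg' h',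
      gvRedFun_eq A π _ (f * f') (g * g') (by rw [map_mul]; exact mul_ne_zero hg hg')
        (by show x * y * _ = _; rw [map_mul, map_mul, ← h, ← h']; ring),
      map_mul, map_mul, div_mul_div_comm]
  map_zero' := by
    rw [gvRedFun_eq A π 0 0 1 (by rw [map_one]; exact one_ne_zero) (by simp), map_zero, zero_div]
  map_add' := by
    rintro ⟨x, f, g, hg, h⟩ ⟨y, f', g', hg', h'⟩
    rw [gvRedFun_eq A π ⟨x, f, g, hg, h⟩ f g hg h, gvRedFun_eq A π ⟨y, f', g', hg', h'⟩ f' g' hg' h',
      gvRedFun_eq A π _ (f * g' + f' * g) (g * g') (by rw [map_mul]; exact mul_ne_zero hg hg')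
        (by show (x + y) * _ = _; rw [map_add, map_mul, map_mul, map_mul, ← h, ← h']; ring),
      map_add, map_mul, map_mul, map_mul, div_add_div _ _ hg hg']
    congr 1
    ring

theorem gvRed_eq (x : gvO A π) (f g : LaurentSeries A)
    (hg : gvRho A π g ≠ 0) (h : (x : LaurentSeries L) * gvEps A g = gvEps A f) :
    gvRed A π x = gvRho A π f / gvRho A π g := gvRedFun_eq A π x f g hg h

theorem gvRed_eps (f : LaurentSeries A) :
    gvRed A π ⟨gvEps A f, gvEps_mem_gvO A π f⟩ = gvRho A π f := by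
  rw [gvRed_eq A π ⟨gvEps A f, gvEps_mem_gvO A π f⟩ f 1 (by rw [map_one]; exact one_ne_zero)
    (by rw [map_one, mul_one]), map_one, div_one]

/-- variant of `gvRed_eps` with an arbitrary membership proof -/
theorem gvRed_eps' (f : LaurentSeries A) (h : gvEps A f ∈ gvO A π) :
    gvRed A π ⟨gvEps A f, h⟩ = gvRho A π f := gvRed_eps A π f

/-- elements of `gvO` with nonzero reduction are units of `gvO` -/
theorem gv_inv_mem (x : gvO A π) (hx : gvRed A π x ≠ 0) : ((x : LaurentSeries L))⁻¹ ∈ gvO A π := by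
  obtain ⟨x, f, g, hg, h⟩ := x
  rw [gvRed_eq A π ⟨x, f, g, hg, h⟩ f g hg h] at hx
  have hf : gvRho A π f ≠ 0 := fun h0 => hx (by rw [h0, zero_div])
  have hg0 : gvEps A g ≠ 0 := gvEps_ne_zero_of_rho A π g hg
  have hf0 : gvEps A f ≠ 0 := gvEps_ne_zero_of_rho A π f hf
  have hx0 : x ≠ 0 := by
    rintro rfl
    rw [zero_mul] at h
    exact hf0 h.symm
  refine ⟨g, f, hf, ?_⟩
  show x⁻¹ * gvEps A f = gvEps A g
  rw [← h, ← mul_assoc, inv_mul_cancel₀ hx0, one_mul]

theorem gv_ne_zero_of_red (x : gvO A π) (hx : gvRed A π x ≠ 0) : (x : LaurentSeries L) ≠ 0 := by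
  intro h0
  apply hx
  have : x = 0 := Subtype.ext h0
  rw [this, map_zero]

theorem gvRed_inv (x : gvO A π) (hx : gvRed A π x ≠ 0) :
    gvRed A π ⟨_, gv_inv_mem A π x hx⟩ = (gvRed A π x)⁻¹ := by
  have h1 : gvRed A π x * gvRed A π ⟨_, gv_inv_mem A π x hx⟩ = 1 := by
    rw [← map_mul]
    have : x * ⟨_, gv_inv_mem A π x hx⟩ = 1 := by
      apply Subtype.ext
      show (x : LaurentSeries L) * (x : LaurentSeries L)⁻¹ = 1
      exact mul_inv_cancel₀ (gv_ne_zero_of_red A π x hx)
    rw [this, map_one]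
  exact eq_inv_of_mul_eq_one_right h1

/-- quotients: `x / y ∈ gvO` when `y` has nonzero reduction -/
theorem gv_div_mem (x y : gvO A π) (hy : gvRed A π y ≠ 0) :
    (x : LaurentSeries L) / (y : LaurentSeries L) ∈ gvO A π := by
  rw [div_eq_mul_inv]
  exact (gvO A π).mul_mem x.2 (gv_inv_mem A π y hy)

theorem gvRed_div (x y : gvO A π) (hy : gvRed A π y ≠ 0) :
    gvRed A π ⟨_, gv_div_mem A π x y hy⟩ = gvRed A π x / gvRed A π y := by
  have : (⟨_, gv_div_mem A π x y hy⟩ : gvO A π) = x * ⟨_, gv_inv_mem A π y hy⟩ :=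
    Subtype.ext (div_eq_mul_inv _ _)
  rw [this, map_mul, gvRed_inv A π y hy, div_eq_mul_inv]

/-! ### Constants -/

/-- the constant series of an element of `A` -/
theorem gvEps_C (a : A) : gvEps A (HahnSeries.C a) = HahnSeries.C (a : L) := by
  ext n
  rw [gvEps_coeff]
  by_cases hn : n = 0
  · subst hn
    simp
  · rw [HahnSeries.C_apply, HahnSeries.C_apply, HahnSeries.coeff_single_of_ne hn,
      HahnSeries.coeff_single_of_ne hn]
    rfl

theorem gvRho_C (a : A) : gvRho A π (HahnSeries.C a) = HahnSeries.C (π a) := by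
  ext n
  rw [gvRho_coeff]
  by_cases hn : n = 0
  · subst hn
    simp
  · rw [HahnSeries.C_apply, HahnSeries.C_apply, HahnSeries.coeff_single_of_ne hn,
      HahnSeries.coeff_single_of_ne hn, map_zero]

theorem gv_C_mem (a : A) : HahnSeries.C (a : L) ∈ gvO A π := by
  rw [← gvEps_C]
  exact gvEps_mem_gvO A π _

theorem gvRed_C (a : A) : gvRed A π ⟨HahnSeries.C (a : L), gv_C_mem A π a⟩ = HahnSeries.C (π a) := by
  have h := gvRed_eps A π (HahnSeries.C a)
  rw [gvRho_C] at h
  rw [← h]
  congr 1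
  exact Subtype.ext (gvEps_C A a).symm

end H28GV
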