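import Mathlib
import Fermat.Agent.S18.GVBase_helper28

/-!
# W2-B (S18), foundation slice GV, part 2 (helper28): Gauss' lemma over a valuation subring

* `gv_exists_max`: in a finite family of elements of `L`, not all zero, one has maximal valuation.
* `gv_exists_primitive`: a nonzero polynomial over `L` is a constant times a polynomial over `A`
  with a coefficient equal to `1`.
* `gvEv`: evaluation of polynomials over `A` at `A`-integral series, compatibility with `ε`, `ρ`.
* `gv_rat`: every nonzero element of `L(t)` (`t = ε t₀`, `ρ t₀` transcendental over `k`) is a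
  constant times a unit of the Gauss ring, whose reduction lies in `k(ρ t₀)`.
-/

set_option autoImplicit false
open ModularCurve HahnSeries

noncomputable section

namespace H28GV

variable {L : Type*} [Field L] (A : ValuationSubring L) {k : Type*} [Field k] (π : A →+* k)

/-- in a finite family, not all zero, some member has maximal valuation -/
theorem gv_exists_max {ι : Type*} (s : Finset ι) (a : ι → L) (h : ∃ i ∈ s, a i ≠ 0) :
    ∃ i₀ ∈ s, a i₀ ≠ 0 ∧ ∀ i ∈ s, a i / a i₀ ∈ A := by
  classical
  obtain ⟨j, hj, hj0⟩ := h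
  obtain ⟨i₀, hi₀, hmax⟩ := Finset.exists_max_image s (fun i => A.valuation (a i)) ⟨j, hj⟩
  have h0 : a i₀ ≠ 0 := by
    intro h0
    have h1 := hmax j hj
    simp only [h0, map_zero] at h1
    exact hj0 ((A.valuation.zero_iff).mp (le_antisymm h1 zero_le))
  refine ⟨i₀, hi₀, h0, fun i hi => ?_⟩
  rw [← A.valuation_le_one_iff, map_div₀]
  have hv0 : A.valuation (a i₀) ≠ 0 := (A.valuation.ne_zero_iff).mpr h0
  rw [div_le_iff₀ (zero_lt_iff.mpr hv0), one_mul]
  exact hmax i hi

/-- units of `A` do not reduce to zero -/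
theorem gv_pi_ne_zero_of_inv_mem (a : A) (ha : ((a : L))⁻¹ ∈ A) (h0 : (a : L) ≠ 0) : π a ≠ 0 := by
  intro h
  have h1 : a * ⟨_, ha⟩ = 1 := Subtype.ext (mul_inv_cancel₀ h0)
  have h2 := congrArg π h1
  rw [map_mul, h, zero_mul, map_one] at h2
  exact zero_ne_one h2

theorem gv_pi_one_ne_zero : π 1 ≠ 0 := by
  rw [map_one]; exact one_ne_zero

/-- **Gauss**: a nonzero polynomial is a constant times a polynomial over `A` with a coefficient `1` -/
theorem gv_exists_primitive (p : Polynomial L) (hp : p ≠ 0) :
    ∃ (c : L) (p₀ : Polynomial A), c ≠ 0 ∧ (∃ i, p₀.coeff i = 1) ∧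
      p = Polynomial.C c * p₀.map A.subtype := by
  classical
  have hne : ∃ i ∈ p.support, p.coeff i ≠ 0 := by
    obtain ⟨i, hi⟩ := Polynomial.support_nonempty.mpr hp
    exact ⟨i, hi, Polynomial.mem_support_iff.mp hi⟩
  obtain ⟨i₀, hi₀, h0, hmem⟩ := gv_exists_max A p.support (fun i => p.coeff i) hne
  have hall : ∀ i, p.coeff i / p.coeff i₀ ∈ A := by
    intro i
    by_cases hi : i ∈ p.support
    · exact hmem i hi
    · rw [Polynomial.notMem_support_iff.mp hi, zero_div]
      exact A.zero_mem
  refine ⟨p.coeff i₀, ∑ i ∈ p.support, Polynomial.monomial i ⟨_, hall i⟩, h0, ⟨i₀, ?_⟩, ?_⟩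
  · rw [Polynomial.finsetSum_coeff]
    rw [Finset.sum_eq_single i₀]
    · rw [Polynomial.coeff_monomial, if_pos rfl]
      exact Subtype.ext (div_self h0)
    · intro i _ hi
      rw [Polynomial.coeff_monomial, if_neg hi]
    · intro h
      exact absurd hi₀ h
  · ext n
    rw [Polynomial.coeff_C_mul, Polynomial.coeff_map, Polynomial.finsetSum_coeff]
    by_cases hn : n ∈ p.support
    · rw [Finset.sum_eq_single n]
      · rw [Polynomial.coeff_monomial, if_pos rfl]
        show p.coeff n = p.coeff i₀ * (p.coeff n / p.coeff i₀)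
        field_simp
      · intro i _ hi
        rw [Polynomial.coeff_monomial, if_neg hi]
      · intro h
        exact absurd hn h
    · rw [Finset.sum_eq_zero, map_zero, mul_zero]
      · exact Polynomial.notMem_support_iff.mp hn
      · intro i hi
        rw [Polynomial.coeff_monomial, if_neg]
        rintro rfl
        exact hn hi

theorem gv_map_ne_zero_of_coeff_one (p₀ : Polynomial A) (h : ∃ i, p₀.coeff i = 1) :
    p₀.map π ≠ 0 := by
  obtain ⟨i, hi⟩ := h
  intro h0
  have := congrArg (fun q => q.coeff i) h0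
  simp only [Polynomial.coeff_map, hi, map_one, Polynomial.coeff_zero] at this
  exact one_ne_zero this

/-! ### Evaluation of polynomials over `A` at `A`-integral series -/

/-- evaluation of a polynomial over `A` at a series over `A` -/
def gvEv (t : LaurentSeries A) (P : Polynomial A) : LaurentSeries A :=
  P.eval₂ (HahnSeries.C : A →+* LaurentSeries A) t

theorem gvEps_ev (t : LaurentSeries A) (P : Polynomial A) :
    gvEps A (gvEv A t P) = Polynomial.aeval (gvEps A t) (P.map A.subtype) := by
  rw [gvEv, Polynomial.hom_eval₂, Polynomial.aeval_def, Polynomial.eval₂_map]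
  congr 1
  ext c : 1
  rw [RingHom.comp_apply, RingHom.comp_apply, algebraMap_laurentSeries_eq_single]
  exact gvEps_C A c

theorem gvRho_ev (t : LaurentSeries A) (P : Polynomial A) :
    gvRho A π (gvEv A t P) = Polynomial.aeval (gvRho A π t) (P.map π) := by
  rw [gvEv, Polynomial.hom_eval₂, Polynomial.aeval_def, Polynomial.eval₂_map]
  congr 1
  ext c : 1
  rw [RingHom.comp_apply, RingHom.comp_apply, algebraMap_laurentSeries_eq_single]
  exact gvRho_C A π c

theorem gv_aeval_mem_adjoin {K : Type*} [Field K] (s : LaurentSeries K) (p : Polynomial K) :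
    Polynomial.aeval s p ∈ IntermediateField.adjoin K {s} :=
  (IntermediateField.mem_adjoin_simple_iff _ _).mpr ⟨p, 1, by rw [map_one, div_one]⟩

theorem gv_aeval_primitive (t : LaurentSeries A) (c : L) (P₀ : Polynomial A) :
    Polynomial.aeval (gvEps A t) (Polynomial.C c * P₀.map A.subtype) =
      HahnSeries.C c * gvEps A (gvEv A t P₀) := by
  rw [map_mul, Polynomial.aeval_C, gvEps_ev, algebraMap_laurentSeries_eq_single]
  rfl

/-- **Gauss for `L(t)`**: a nonzero element of `L(ε t)` is a constant times a quotient of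
evaluations of polynomials over `A` with nonzero reductions. -/
theorem gv_rat (t : LaurentSeries A) (ht : Transcendental k (gvRho A π t))
    (x : LaurentSeries L) (hx : x ∈ IntermediateField.adjoin L {gvEps A t}) (hx0 : x ≠ 0) :
    ∃ (c : L) (P Q : Polynomial A), c ≠ 0 ∧ gvRho A π (gvEv A t P) ≠ 0 ∧
      gvRho A π (gvEv A t Q) ≠ 0 ∧
      x * gvEps A (gvEv A t Q) = HahnSeries.C c * gvEps A (gvEv A t P) := by
  obtain ⟨r, s, hrs⟩ := (IntermediateField.mem_adjoin_simple_iff _ _).mp hx
  have hs0 : Polynomial.aeval (gvEps A t) s ≠ 0 := by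
    intro h
    rw [h, div_zero] at hrs
    exact hx0 hrs
  have hr0 : Polynomial.aeval (gvEps A t) r ≠ 0 := by
    intro h
    rw [h, zero_div] at hrs
    exact hx0 hrs
  have hs : s ≠ 0 := by
    rintro rfl
    exact hs0 (map_zero _)
  have hr : r ≠ 0 := by
    rintro rfl
    exact hr0 (map_zero _)
  obtain ⟨a, P, ha, hP1, hP⟩ := gv_exists_primitive A r hr
  obtain ⟨b, Q, hb, hQ1, hQ⟩ := gv_exists_primitive A s hs
  have hPred : gvRho A π (gvEv A t P) ≠ 0 := by
    rw [gvRho_ev]
    intro h0
    exact gv_map_ne_zero_of_coeff_one A π P hP1 ((transcendental_iff.mp ht) _ h0)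
  have hQred : gvRho A π (gvEv A t Q) ≠ 0 := by
    rw [gvRho_ev]
    intro h0
    exact gv_map_ne_zero_of_coeff_one A π Q hQ1 ((transcendental_iff.mp ht) _ h0)
  refine ⟨a / b, P, Q, div_ne_zero ha hb, hPred, hQred, ?_⟩
  have hCb : (HahnSeries.C b : LaurentSeries L) ≠ 0 := by
    intro h
    exact hb (HahnSeries.C_injective (h.trans (map_zero _).symm))
  have hQ0 : gvEps A (gvEv A t Q) ≠ 0 := gvEps_ne_zero_of_rho A π _ hQred
  rw [hrs, hP, hQ, gv_aeval_primitive, gv_aeval_primitive, map_div₀]
  field_simp

end H28GV
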