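import Mathlib
import Fermat.Agent.S18.GVRat_helper28

/-!
# W2-B (S18), foundation slice GV, part 3 (helper28): orthonormal families over a valuation ring

* `gv_echelon`: every `L`-subspace of `L^ι` is spanned by vectors with coordinates in `A` whose
  reductions are linearly independent over `k` (no completeness, no discreteness).
* `gv_ortho_sub`: the same inside the span of an orthonormal family of `A`-integral series.
-/

set_option autoImplicit false
open ModularCurve HahnSeries

noncomputable section

namespace H28GV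

variable {L : Type*} [Field L] (A : ValuationSubring L) {k : Type*} [Field k] (π : A →+* k)

/-- coordinates in `A` seen in `L` -/
def gvCo {ι : Type*} (x : ι → A) : ι → L := fun i => ((x i : A) : L)

/-- coordinates in `A` reduced to `k` -/
def gvCoRed {ι : Type*} (x : ι → A) : ι → k := fun i => π (x i)

/-- **Echelon lemma**: a subspace of `L^ι` has an `A`-integral spanning family with linearly
independent reductions. -/
theorem gv_echelon {ι : Type*} [Fintype ι] (V : Submodule L (ι → L)) :
    ∃ (n : ℕ) (x : Fin n → (ι → A)),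
      (∀ j, gvCo A (x j) ∈ V) ∧
      LinearIndependent k (fun j => gvCoRed A π (x j)) ∧
      V ≤ Submodule.span L (Set.range (fun j => gvCo A (x j))) := by
  classical
  induction' hd : Module.finrank L V using Nat.strong_induction_on with d ih generalizing V
  by_cases hV : V = ⊥
  · subst hV
    exact ⟨0, Fin.elim0, fun j => j.elim0, linearIndependent_empty_type, bot_le⟩
  obtain ⟨v, hvV, hv0⟩ := Submodule.exists_mem_ne_zero_of_ne_bot hV
  have hex : ∃ i ∈ (Finset.univ : Finset ι), v i ≠ 0 := by
    by_contra h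
    push Not at h
    exact hv0 (funext fun i => h i (Finset.mem_univ i))
  obtain ⟨i₀, -, h0, hmem⟩ := gv_exists_max A Finset.univ v hex
  set x₁ : ι → A := fun i => ⟨v i / v i₀, hmem i (Finset.mem_univ i)⟩ with hx₁
  have hx₁v : gvCo A x₁ = (v i₀)⁻¹ • v := by
    funext i
    show v i / v i₀ = (v i₀)⁻¹ * v i
    rw [div_eq_inv_mul]
  have hx₁V : gvCo A x₁ ∈ V := by
    rw [hx₁v]
    exact V.smul_mem _ hvV
  have hx₁i₀ : x₁ i₀ = 1 := Subtype.ext (div_self h0)
  set V' : Submodule L (ι → L) := V ⊓ LinearMap.ker (LinearMap.proj i₀ : (ι → L) →ₗ[L] L) with hV'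
  have hlt : V' < V := by
    refine lt_of_le_of_ne inf_le_left ?_
    intro h
    have h1 : gvCo A x₁ ∈ V' := h ▸ hx₁V
    have h2 : gvCo A x₁ i₀ = 0 := h1.2
    have h3 : gvCo A x₁ i₀ = 1 := by
      show ((x₁ i₀ : A) : L) = 1
      rw [hx₁i₀]; rfl
    rw [h3] at h2
    exact one_ne_zero h2
  have hfin : Module.finrank L V' < d := by
    rw [← hd]
    exact Submodule.finrank_lt_finrank_of_lt hlt
  obtain ⟨n', x', hx'V, hx'li, hx'span⟩ := ih _ hfin V' rfl
  refine ⟨n' + 1, Fin.cons x₁ x', ?_, ?_, ?_⟩
  · intro j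
    refine Fin.cases ?_ (fun j' => ?_) j
    · rw [Fin.cons_zero]; exact hx₁V
    · rw [Fin.cons_succ]; exact (hx'V j').1
  · have hcons : (fun j : Fin (n' + 1) => gvCoRed A π ((Fin.cons x₁ x' : Fin (n' + 1) → (ι → A)) j)) =
        Fin.cons (gvCoRed A π x₁) (fun j => gvCoRed A π (x' j)) := by
      funext j
      refine Fin.cases ?_ (fun j' => ?_) j
      · simp
      · simp
    rw [hcons, linearIndependent_finCons]
    refine ⟨hx'li, ?_⟩
    intro hmem
    have hle : Submodule.span k (Set.range fun j => gvCoRed A π (x' j)) ≤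
        LinearMap.ker (LinearMap.proj i₀ : (ι → k) →ₗ[k] k) := by
      rw [Submodule.span_le]
      rintro _ ⟨j, rfl⟩
      show π (x' j i₀) = 0
      have h1 : gvCo A (x' j) i₀ = 0 := (hx'V j).2
      have h2 : x' j i₀ = 0 := Subtype.ext h1
      rw [h2, map_zero]
    have h1 : gvCoRed A π x₁ i₀ = 0 := hle hmem
    have h2 : gvCoRed A π x₁ i₀ = 1 := by
      show π (x₁ i₀) = 1
      rw [hx₁i₀, map_one]
    rw [h2] at h1
    exact one_ne_zero h1
  · intro u hu
    have hrange : Set.range (fun j : Fin (n' + 1) => gvCo A ((Fin.cons x₁ x' : Fin (n' + 1) → (ι → A)) j)) =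
        insert (gvCo A x₁) (Set.range fun j => gvCo A (x' j)) := by
      ext z
      constructor
      · rintro ⟨j, rfl⟩
        refine Fin.cases ?_ (fun j' => ?_) j
        · left; simp
        · right; exact ⟨j', by simp⟩
      · rintro (rfl | ⟨j', rfl⟩)
        · exact ⟨0, by simp⟩
        · exact ⟨j'.succ, by simp⟩
    rw [hrange]
    have hu' : u - u i₀ • gvCo A x₁ ∈ V' := by
      refine ⟨V.sub_mem hu (V.smul_mem _ hx₁V), ?_⟩
      show (u - u i₀ • gvCo A x₁) i₀ = 0
      show u i₀ - u i₀ * ((x₁ i₀ : A) : L) = 0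
      rw [hx₁i₀]
      show u i₀ - u i₀ * 1 = 0
      ring
    have h1 : u - u i₀ • gvCo A x₁ ∈ Submodule.span L (insert (gvCo A x₁)
        (Set.range fun j => gvCo A (x' j))) :=
      Submodule.span_mono (Set.subset_insert _ _) (hx'span hu')
    have h2 : u i₀ • gvCo A x₁ ∈ Submodule.span L (insert (gvCo A x₁)
        (Set.range fun j => gvCo A (x' j))) :=
      Submodule.smul_mem _ _ (Submodule.subset_span (Set.mem_insert _ _))
    have h3 := Submodule.add_mem _ h1 h2
    rwa [sub_add_cancel] at h3

/-! ### Orthonormal families of integral series -/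

section Family

variable {ι : Type*} [Fintype ι] (w : ι → LaurentSeries A)

/-- the `A`-combination `Σ b_i w_i` -/
def gvComb (b : ι → A) : LaurentSeries A := ∑ i, HahnSeries.C (b i) * w i

theorem gvEps_comb (b : ι → A) :
    gvEps A (gvComb A w b) = ∑ i, (gvCo A b i) • gvEps A (w i) := by
  rw [gvComb, map_sum]
  refine Finset.sum_congr rfl (fun i _ => ?_)
  rw [map_mul, gvEps_C, HahnSeries.C_mul_eq_smul]
  rfl

theorem gvRho_comb (b : ι → A) :
    gvRho A π (gvComb A w b) = ∑ i, (gvCoRed A π b i) • gvRho A π (w i) := by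
  rw [gvComb, map_sum]
  refine Finset.sum_congr rfl (fun i _ => ?_)
  rw [map_mul, gvRho_C, HahnSeries.C_mul_eq_smul]
  rfl

/-- scaling a nonzero coefficient vector -/
theorem gv_scale (a : ι → L) (ha : a ≠ 0) :
    ∃ (c : L) (b : ι → A), c ≠ 0 ∧ (∃ i, b i = 1) ∧ ∀ i, a i = c * ((b i : A) : L) := by
  classical
  have hex : ∃ i ∈ (Finset.univ : Finset ι), a i ≠ 0 := by
    by_contra h
    push Not at h
    exact ha (funext fun i => h i (Finset.mem_univ i))
  obtain ⟨i₀, -, h0, hmem⟩ := gv_exists_max A Finset.univ a hex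
  refine ⟨a i₀, fun i => ⟨a i / a i₀, hmem i (Finset.mem_univ i)⟩, h0,
    ⟨i₀, Subtype.ext (div_self h0)⟩, fun i => ?_⟩
  show a i = a i₀ * (a i / a i₀)
  field_simp

variable {w}

/-- a combination with a coefficient `1` of an orthonormal family has nonzero reduction -/
theorem gvRho_comb_ne_zero (hw : LinearIndependent k (fun i => gvRho A π (w i)))
    (b : ι → A) (hb : ∃ i, π (b i) ≠ 0) : gvRho A π (gvComb A w b) ≠ 0 := by
  obtain ⟨i, hi⟩ := hb
  rw [gvRho_comb]
  intro h0
  exact hi ((Fintype.linearIndependent_iff.mp hw) (gvCoRed A π b) h0 i)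

/-- an orthonormal family is linearly independent over `L` -/
theorem gv_ortho_linearIndependent (hw : LinearIndependent k (fun i => gvRho A π (w i))) :
    LinearIndependent L (fun i => gvEps A (w i)) := by
  rw [Fintype.linearIndependent_iff]
  intro a ha
  by_contra hne
  push Not at hne
  have ha0 : a ≠ 0 := by
    intro h
    obtain ⟨i, hi⟩ := hne
    exact hi (by rw [h]; rfl)
  obtain ⟨c, b, hc, ⟨i₀, hb1⟩, hab⟩ := gv_scale A a ha0
  have h1 : (∑ i, a i • gvEps A (w i)) = c • gvEps A (gvComb A w b) := by
    rw [gvEps_comb, Finset.smul_sum]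
    refine Finset.sum_congr rfl (fun i _ => ?_)
    rw [smul_smul, hab i]
    rfl
  rw [h1] at ha
  have h2 : gvEps A (gvComb A w b) = 0 := by
    rcases smul_eq_zero.mp ha with h | h
    · exact absurd h hc
    · exact h
  have h3 : gvRho A π (gvComb A w b) ≠ 0 :=
    gvRho_comb_ne_zero A π hw b ⟨i₀, by rw [hb1, map_one]; exact one_ne_zero⟩
  exact gvEps_ne_zero_of_rho A π _ h3 h2

/-- **Orthonormal bases of subspaces**: a subspace of the span of an orthonormal family is the
span of an orthonormal family of `A`-combinations. -/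
theorem gv_ortho_sub (hw : LinearIndependent k (fun i => gvRho A π (w i)))
    (V : Submodule L (LaurentSeries L))
    (hV : V ≤ Submodule.span L (Set.range fun i => gvEps A (w i))) :
    ∃ (n : ℕ) (x : Fin n → (ι → A)),
      (∀ j, gvEps A (gvComb A w (x j)) ∈ V) ∧
      LinearIndependent k (fun j => gvRho A π (gvComb A w (x j))) ∧
      V ≤ Submodule.span L (Set.range fun j => gvEps A (gvComb A w (x j))) := by
  classical
  set T : (ι → L) →ₗ[L] LaurentSeries L := Fintype.linearCombination L (fun i => gvEps A (w i))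
    with hT
  set Tk : (ι → k) →ₗ[k] LaurentSeries k := Fintype.linearCombination k (fun i => gvRho A π (w i))
    with hTk
  have hTapp : ∀ b : ι → A, T (gvCo A b) = gvEps A (gvComb A w b) := by
    intro b
    rw [gvEps_comb, hT, Fintype.linearCombination_apply]
  have hTkapp : ∀ b : ι → A, Tk (gvCoRed A π b) = gvRho A π (gvComb A w b) := by
    intro b
    rw [gvRho_comb, hTk, Fintype.linearCombination_apply]
  have hTkinj : Function.Injective Tk := by
    rw [← LinearMap.ker_eq_bot, LinearMap.ker_eq_bot']
    intro a ha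
    rw [hTk, Fintype.linearCombination_apply] at ha
    exact funext fun i => (Fintype.linearIndependent_iff.mp hw) a ha i
  obtain ⟨n, x, hxV, hxli, hxspan⟩ := gv_echelon A π (V.comap T)
  refine ⟨n, x, fun j => ?_, ?_, ?_⟩
  · rw [← hTapp]
    exact hxV j
  · have h1 := hxli.map' Tk (LinearMap.ker_eq_bot.mpr hTkinj)
    have h2 : (⇑Tk ∘ fun j => gvCoRed A π (x j)) = fun j => gvRho A π (gvComb A w (x j)) := by
      funext j
      exact hTkapp (x j)
    rw [h2] at h1
    exact h1
  · intro v hv
    have hv' := hV hv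
    rw [← Fintype.range_linearCombination] at hv'
    obtain ⟨a, rfl⟩ := hv'
    have ha : a ∈ V.comap T := hv
    have h1 := hxspan ha
    have h2 : T a ∈ (Submodule.span L (Set.range fun j => gvCo A (x j))).map T :=
      Submodule.mem_map_of_mem h1
    rw [Submodule.map_span] at h2
    have h3 : (⇑T '' Set.range fun j => gvCo A (x j)) =
        Set.range fun j => gvEps A (gvComb A w (x j)) := by
      rw [← Set.range_comp]
      congr 1
      funext j
      exact hTapp (x j)
    rw [h3] at h2
    exact h2

end Family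

end H28GV
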