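import Mathlib
import Fermat.Agent.S18.GVOrtho_helper28

/-!
# W2-B (S18), foundation slice GV, part 4 (helper28): families over `L(t)`

`t` an `A`-integral series with `ρ t` transcendental over `k`; `K = L(ε t)`, `K̄ = k(ρ t)`.
`y : ι → A((q))` a finite family whose reductions are linearly independent over `K̄`.

* `gv_common_den`: common denominators for a finite family in `K`.
* `gv_main_sum`: a nonzero `K`-combination of the `ε y_i` is `c · ε f / ε g`, `c ≠ 0`,
  `ρ f ≠ 0`, `ρ g ≠ 0`, with `g = Q(t)` and `f = Σ R_i(t) y_i`.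
* `gv_pow_family_li`: the family `t^e y_i` is orthonormal over `k`.
-/

set_option autoImplicit false
open ModularCurve HahnSeries

noncomputable section

namespace H28GV

variable {L : Type*} [Field L] (A : ValuationSubring L) {k : Type*} [Field k] (π : A →+* k)

theorem gvEv_mul (t : LaurentSeries A) (P Q : Polynomial A) :
    gvEv A t (P * Q) = gvEv A t P * gvEv A t Q := Polynomial.eval₂_mul _ _

theorem gvEv_one (t : LaurentSeries A) : gvEv A t 1 = 1 := Polynomial.eval₂_one _ _

theorem gvEv_zero (t : LaurentSeries A) : gvEv A t 0 = 0 := Polynomial.eval₂_zero _ _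

theorem gvEv_C (t : LaurentSeries A) (a : A) : gvEv A t (Polynomial.C a) = HahnSeries.C a :=
  Polynomial.eval₂_C _ _

theorem gvEv_prod {ι : Type*} (t : LaurentSeries A) (s : Finset ι) (P : ι → Polynomial A) :
    gvEv A t (∏ i ∈ s, P i) = ∏ i ∈ s, gvEv A t (P i) :=
  Polynomial.eval₂_finsetProd _ _ _ _

theorem gvEv_eq_sum (t : LaurentSeries A) (P : Polynomial A) (d : ℕ) (hd : P.natDegree < d) :
    gvEv A t P = ∑ e : Fin d, HahnSeries.C (P.coeff e) * t ^ (e : ℕ) := by
  rw [gvEv, Polynomial.eval₂_eq_sum_range' _ hd, Finset.sum_range]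

/-- the combination `Σ R_i(t) y_i` -/
def gvPComb {ι : Type*} [Fintype ι] (t : LaurentSeries A) (y : ι → LaurentSeries A)
    (R : ι → Polynomial A) : LaurentSeries A := ∑ i, gvEv A t (R i) * y i

section Den

variable {ι : Type*} [Fintype ι] (t : LaurentSeries A)

/-- **common denominators** for a finite family in `L(ε t)` -/
theorem gv_common_den (ht : Transcendental k (gvRho A π t)) (c : ι → LaurentSeries L)
    (hc : ∀ i, c i ∈ IntermediateField.adjoin L {gvEps A t}) :
    ∃ (Q : Polynomial A) (a : ι → L) (P : ι → Polynomial A),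
      gvRho A π (gvEv A t Q) ≠ 0 ∧
      (∀ i, c i ≠ 0 → a i ≠ 0 ∧ gvRho A π (gvEv A t (P i)) ≠ 0) ∧
      (∀ i, c i = 0 → a i = 0) ∧
      ∀ i, c i * gvEps A (gvEv A t Q) = HahnSeries.C (a i) * gvEps A (gvEv A t (P i)) := by
  classical
  have hex : ∀ i, ∃ (a : L) (P Q : Polynomial A), gvRho A π (gvEv A t Q) ≠ 0 ∧
      (c i ≠ 0 → a ≠ 0 ∧ gvRho A π (gvEv A t P) ≠ 0) ∧ (c i = 0 → a = 0) ∧
      c i * gvEps A (gvEv A t Q) = HahnSeries.C a * gvEps A (gvEv A t P) := by
    intro i
    by_cases h0 : c i = 0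
    · refine ⟨0, 0, 1, ?_, fun h => absurd h0 h, fun _ => rfl, ?_⟩
      · rw [gvEv_one, map_one]; exact one_ne_zero
      · rw [h0, zero_mul, map_zero, zero_mul]
    · obtain ⟨a, P, Q, ha, hP, hQ, h⟩ := gv_rat A π t ht (c i) (hc i) h0
      exact ⟨a, P, Q, hQ, fun _ => ⟨ha, hP⟩, fun h => absurd h h0, h⟩
  choose a P Q hQ hne hz h using hex
  refine ⟨∏ i, Q i, a, fun i => P i * ∏ j ∈ Finset.univ.erase i, Q j, ?_, ?_, hz, ?_⟩
  · rw [gvEv_prod, map_prod]
    exact Finset.prod_ne_zero_iff.mpr (fun i _ => hQ i)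
  · intro i hi
    refine ⟨(hne i hi).1, ?_⟩
    rw [gvEv_mul, gvEv_prod, map_mul, map_prod]
    exact mul_ne_zero (hne i hi).2 (Finset.prod_ne_zero_iff.mpr (fun j _ => hQ j))
  · intro i
    rw [← Finset.mul_prod_erase Finset.univ Q (Finset.mem_univ i), gvEv_mul, gvEv_mul, map_mul,
      map_mul, ← mul_assoc, h i]
    ring

end Den

section Main

variable {ι : Type*} [Fintype ι] (t : LaurentSeries A) (y : ι → LaurentSeries A)

theorem gvRho_pcomb (R : ι → Polynomial A) :
    gvRho A π (gvPComb A t y R) =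
      ∑ i, Polynomial.aeval (gvRho A π t) ((R i).map π) * gvRho A π (y i) := by
  rw [gvPComb, map_sum]
  refine Finset.sum_congr rfl (fun i _ => ?_)
  rw [map_mul, gvRho_ev]

theorem gvEps_pcomb (R : ι → Polynomial A) :
    gvEps A (gvPComb A t y R) =
      ∑ i, Polynomial.aeval (gvEps A t) ((R i).map A.subtype) * gvEps A (y i) := by
  rw [gvPComb, map_sum]
  refine Finset.sum_congr rfl (fun i _ => ?_)
  rw [map_mul, gvEps_ev]

/-- a polynomial combination of a `k(ρ t)`-independent family with one nonzero coefficient has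
nonzero reduction -/
theorem gvRho_pcomb_ne_zero
    (hy : LinearIndependent ↥(IntermediateField.adjoin k {gvRho A π t})
      (fun i => gvRho A π (y i)))
    (R : ι → Polynomial A) (hR : ∃ i, gvRho A π (gvEv A t (R i)) ≠ 0) :
    gvRho A π (gvPComb A t y R) ≠ 0 := by
  obtain ⟨i₀, hi₀⟩ := hR
  rw [gvRho_pcomb]
  intro h0
  have h1 := (Fintype.linearIndependent_iff.mp hy)
    (fun i => ⟨Polynomial.aeval (gvRho A π t) ((R i).map π), gv_aeval_mem_adjoin _ _⟩) h0 i₀
  rw [gvRho_ev] at hi₀
  exact hi₀ (congrArg Subtype.val h1)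

/-- **Main sum lemma**: a `K`-combination of the `ε y_i`, not all coefficients zero, is a
nonzero constant times `ε f / ε g` with `ρ f ≠ 0`, `ρ g ≠ 0`, `g = Q(t)`, `f = Σ R_i(t) y_i`. -/
theorem gv_main_sum (ht : Transcendental k (gvRho A π t))
    (hy : LinearIndependent ↥(IntermediateField.adjoin k {gvRho A π t})
      (fun i => gvRho A π (y i)))
    (c : ι → LaurentSeries L) (hc : ∀ i, c i ∈ IntermediateField.adjoin L {gvEps A t})
    (hc0 : ∃ i, c i ≠ 0) :
    ∃ (a : L) (Q : Polynomial A) (R : ι → Polynomial A), a ≠ 0 ∧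
      gvRho A π (gvEv A t Q) ≠ 0 ∧ gvRho A π (gvPComb A t y R) ≠ 0 ∧
      (∑ i, c i * gvEps A (y i)) * gvEps A (gvEv A t Q) =
        HahnSeries.C a * gvEps A (gvPComb A t y R) := by
  classical
  obtain ⟨Q, a, P, hQ, hne, hz, h⟩ := gv_common_den A π t ht c hc
  have ha0 : a ≠ 0 := by
    obtain ⟨i, hi⟩ := hc0
    intro h0
    exact (hne i hi).1 (by rw [h0]; rfl)
  obtain ⟨a₀, b, ha₀, ⟨i₀, hb1⟩, hab⟩ := gv_scale A a ha0
  have hai₀ : a i₀ ≠ 0 := by
    rw [hab i₀, hb1]
    exact mul_ne_zero ha₀ (by exact one_ne_zero)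
  have hci₀ : c i₀ ≠ 0 := fun h0 => hai₀ (hz i₀ h0)
  refine ⟨a₀, Q, fun i => Polynomial.C (b i) * P i, ha₀, hQ, ?_, ?_⟩
  · apply gvRho_pcomb_ne_zero A π t y hy
    refine ⟨i₀, ?_⟩
    rw [hb1, map_one, one_mul]
    exact (hne i₀ hci₀).2
  · rw [Finset.sum_mul, gvPComb, map_sum, Finset.mul_sum]
    refine Finset.sum_congr rfl (fun i _ => ?_)
    rw [mul_right_comm, h i, map_mul, gvEv_mul, gvEv_C, map_mul, gvEps_C, hab i, map_mul]
    ring

end Main

section Pow

variable {ι : Type*} [Fintype ι] (t : LaurentSeries A) (y : ι → LaurentSeries A)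

/-- the family `t^e y_i`, `e < d` -/
def gvPowFam (d : ℕ) : Fin d × ι → LaurentSeries A := fun p => t ^ (p.1 : ℕ) * y p.2

/-- the family `t^e y_i` is orthonormal over `k` -/
theorem gv_pow_family_li (ht : Transcendental k (gvRho A π t))
    (hy : LinearIndependent ↥(IntermediateField.adjoin k {gvRho A π t})
      (fun i => gvRho A π (y i))) (d : ℕ) :
    LinearIndependent k (fun p => gvRho A π (gvPowFam A t y d p)) := by
  classical
  rw [Fintype.linearIndependent_iff]
  intro lam hlam p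
  -- the polynomial attached to `i`
  set pol : ι → Polynomial k := fun i => ∑ e : Fin d, Polynomial.monomial (e : ℕ) (lam (e, i))
    with hpol
  have hsum : ∑ i, Polynomial.aeval (gvRho A π t) (pol i) * gvRho A π (y i) = 0 := by
    rw [← hlam, Fintype.sum_prod_type, Finset.sum_comm]
    refine Finset.sum_congr rfl (fun i _ => ?_)
    rw [hpol, map_sum, Finset.sum_mul]
    refine Finset.sum_congr rfl (fun e _ => ?_)
    rw [Polynomial.aeval_monomial, gvPowFam, map_mul, map_pow, algebraMap_laurentSeries_eq_single]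
    show _ = lam (e, i) • _
    rw [← HahnSeries.C_mul_eq_smul]
    simp only [HahnSeries.C_apply]
    ring
  have h1 := (Fintype.linearIndependent_iff.mp hy)
    (fun i => ⟨Polynomial.aeval (gvRho A π t) (pol i), gv_aeval_mem_adjoin _ _⟩) hsum p.2
  have h2 : Polynomial.aeval (gvRho A π t) (pol p.2) = 0 := congrArg Subtype.val h1
  have h3 : pol p.2 = 0 := (transcendental_iff.mp ht) _ h2
  have h4 := congrArg (fun q => q.coeff (p.1 : ℕ)) h3
  simp only [hpol, Polynomial.finsetSum_coeff, Polynomial.coeff_monomial,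
    Polynomial.coeff_zero] at h4
  rw [Finset.sum_eq_single p.1] at h4
  · simpa using h4
  · intro e _ he
    rw [if_neg]
    intro h
    exact he (Fin.ext h)
  · intro h
    exact absurd (Finset.mem_univ _) h

end Pow

end H28GV
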