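import Mathlib
import Fermat.Agent.S18.GVFam_helper28
import Fermat.Agent.S28.DegreeBounds
import Fermat.Agent.S28.WP3Induct
import Fermat.Agent.S28.WP3Descent

/-!
# W2-B (S18), foundation slice GV, part 5 (helper28): an orthonormal basis of `F` over `L(j)`

`F_L = L(j(q^d) : d ∣ N)`, `F_k = k(J(q^d) : d ∣ N)`.  For `k` algebraically closed with the
primes dividing `N` invertible in `k` there are `ψ(N)` monomials `y_i` in the `j(q^d)` (series
with integer coefficients) such that the `ρ y_i` are a basis of `F_k` over `k(J)` and the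
`ε y_i` are a basis of `F_L` over `L(j)`.
-/

set_option autoImplicit false
open ModularCurve HahnSeries

noncomputable section

namespace H28GV

section General

variable {L : Type*} [Field L] (A : ValuationSubring L) {k : Type*} [Field k] (π : A →+* k)

theorem gvEps_jq : gvEps A (jqModC A) = jqModC L := coeffMap_jqModC _

theorem gvRho_jq : gvRho A π (jqModC A) = jqModC k := coeffMap_jqModC _

theorem gvEps_jd (d : ℕ) [NeZero d] :
    gvEps A (qExpand _ d (jqModC A)) = qExpand L d (jqModC L) := by
  rw [gvEps, coeffMap_qExpand, coeffMap_jqModC]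

theorem gvRho_jd (d : ℕ) [NeZero d] :
    gvRho A π (qExpand _ d (jqModC A)) = qExpand k d (jqModC k) := by
  rw [gvRho, coeffMap_qExpand, coeffMap_jqModC]

/-- monomials in the `J(q^d)` lift to monomials in the `j(q^d)` with coefficients in `A` -/
theorem gv_lift_monomial (N : ℕ) {z : LaurentSeries k}
    (hz : z ∈ Submonoid.closure (divisorExpansionsC k N)) :
    ∃ f : LaurentSeries A, gvRho A π f = z ∧
      gvEps A f ∈ Submonoid.closure (divisorExpansionsC L N) := by
  induction hz using Submonoid.closure_induction with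
  | mem x hx =>
    obtain ⟨d, hd, hdN, rfl⟩ := hx
    have := hd
    exact ⟨qExpand _ d (jqModC A), gvRho_jd A π d, by
      rw [gvEps_jd]
      exact Submonoid.subset_closure ⟨d, hd, hdN, rfl⟩⟩
  | one => exact ⟨1, map_one _, by rw [map_one]; exact one_mem _⟩
  | mul x y _ _ hx hy =>
    obtain ⟨f, hf, hf'⟩ := hx
    obtain ⟨g, hg, hg'⟩ := hy
    exact ⟨f * g, by rw [map_mul, hf, hg], by rw [map_mul]; exact mul_mem hf' hg'⟩

theorem gv_closure_le_full (K : Type*) [Field K] (N : ℕ) {x : LaurentSeries K}
    (hx : x ∈ Submonoid.closure (divisorExpansionsC K N)) : x ∈ modularFunctionFieldFullC K N := by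
  induction hx using Submonoid.closure_induction with
  | mem x hx => exact IntermediateField.subset_adjoin K _ hx
  | one => exact one_mem _
  | mul x y _ _ hx hy => exact mul_mem hx hy

theorem gv_adjoin_j_le_full (K : Type*) [Field K] (N : ℕ) :
    IntermediateField.adjoin K {jqModC K} ≤ modularFunctionFieldFullC K N := by
  rw [IntermediateField.adjoin_le_iff]
  rintro x rfl
  exact jqModC_mem_full K N

end General

section Span

variable (K : Type) [Field K] (N : ℕ) [NeZero N]

/-- a family of `ψ(N)` elements of `F_K`, linearly independent over `K(j)`, spans `F_K` -/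
theorem gv_span_of_li (v : Fin (dedekindPsi N) → LaurentSeries K)
    (hv : ∀ i, v i ∈ modularFunctionFieldFullC K N)
    (hli : LinearIndependent ↥(IntermediateField.adjoin K {jqModC K}) v)
    (x : LaurentSeries K) (hx : x ∈ modularFunctionFieldFullC K N) :
    ∃ c : Fin (dedekindPsi N) → LaurentSeries K,
      (∀ i, c i ∈ IntermediateField.adjoin K {jqModC K}) ∧ x = ∑ i, c i * v i := by
  classical
  by_cases hmem : x ∈ Submodule.span ↥(IntermediateField.adjoin K {jqModC K}) (Set.range v)
  · rw [← Fintype.range_linearCombination] at hmem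
    obtain ⟨c, rfl⟩ := hmem
    refine ⟨fun i => (c i : LaurentSeries K), fun i => (c i).2, ?_⟩
    rw [Fintype.linearCombination_apply]
    rfl
  · exfalso
    have hli' : LinearIndependent ↥(IntermediateField.adjoin K {jqModC K})
        (Fin.cons x v : Fin (dedekindPsi N + 1) → LaurentSeries K) :=
      linearIndependent_finCons.mpr ⟨hli, hmem⟩
    have h1 := hli'.linearIndepOn_id
    set s : Finset (LaurentSeries K) :=
      Finset.univ.image (Fin.cons x v : Fin (dedekindPsi N + 1) → LaurentSeries K) with hs
    have hcoe : (s : Set (LaurentSeries K)) =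
        Set.range (Fin.cons x v : Fin (dedekindPsi N + 1) → LaurentSeries K) := by
      rw [hs, Finset.coe_image, Finset.coe_univ, Set.image_univ]
    have h2 : LinearIndependent ↥(IntermediateField.adjoin K {jqModC K})
        (fun x : s => (x : LaurentSeries K)) := by
      show LinearIndepOn _ id (s : Set (LaurentSeries K))
      rw [hcoe]
      exact h1
    have h3 := H28S28.h10_degreeUpperBoundC' K N
      (fun p hp _ => H28S28.h10_hasModEq_all p hp) s (by
        intro z hz
        obtain ⟨i, -, rfl⟩ := Finset.mem_image.mp hz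
        refine Fin.cases ?_ (fun i' => ?_) i
        · rw [Fin.cons_zero]; exact hx
        · rw [Fin.cons_succ]; exact hv i') h2
    rw [hs, Finset.card_image_of_injective _ hli'.injective, Finset.card_univ,
      Fintype.card_fin] at h3
    omega

end Span

section Basis

variable {L : Type} [Field L] (A : ValuationSubring L) {k : Type} [Field k] (π : A →+* k)
variable (N : ℕ) [NeZero N]

/-- an orthonormal basis of `F_L` over `L(j)` adapted to `A` -/
structure GVBasis where
  /-- the basis, as `A`-integral series -/
  y : Fin (dedekindPsi N) → LaurentSeries A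
  eps_mem : ∀ i, gvEps A (y i) ∈ modularFunctionFieldFullC L N
  rho_mem : ∀ i, gvRho A π (y i) ∈ modularFunctionFieldFullC k N
  li : LinearIndependent ↥(IntermediateField.adjoin k {jqModC k}) (fun i => gvRho A π (y i))

variable {A π N}

/-- the `ε y_i` are linearly independent over `L(j)` -/
theorem GVBasis.li_eps (B : GVBasis A π N) :
    LinearIndependent ↥(IntermediateField.adjoin L {jqModC L}) (fun i => gvEps A (B.y i)) := by
  rw [Fintype.linearIndependent_iff]
  intro c hc
  by_contra hne
  push Not at hne
  obtain ⟨i₀, hi₀⟩ := hne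
  have ht : Transcendental k (gvRho A π (jqModC A)) := by
    rw [gvRho_jq]
    exact P2MW.S_ModularCurve_coeff_jqModC_neg_one.ModularCurve.CharLRows.transcendental_jqModC k
  have hli : LinearIndependent ↥(IntermediateField.adjoin k {gvRho A π (jqModC A)})
      (fun i => gvRho A π (B.y i)) := by
    rw [gvRho_jq]
    exact B.li
  obtain ⟨a, Q, R, ha, hQ, hR, h⟩ := gv_main_sum A π (jqModC A) B.y ht hli
    (fun i => (c i : LaurentSeries L)) (fun i => by rw [gvEps_jq]; exact (c i).2)
    ⟨i₀, fun h => hi₀ (Subtype.ext h)⟩
  have h0 : (∑ i, (c i : LaurentSeries L) * gvEps A (B.y i)) = 0 := hc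
  rw [h0, zero_mul] at h
  have h1 : gvEps A (gvPComb A (jqModC A) B.y R) ≠ 0 := gvEps_ne_zero_of_rho A π _ hR
  have h2 : (HahnSeries.C a : LaurentSeries L) ≠ 0 := fun h =>
    ha (HahnSeries.C_injective (h.trans (map_zero _).symm))
  exact mul_ne_zero h2 h1 h.symm

/-- the `ε y_i` span `F_L` over `L(j)` -/
theorem GVBasis.span_eps (B : GVBasis A π N) (x : LaurentSeries L)
    (hx : x ∈ modularFunctionFieldFullC L N) :
    ∃ c : Fin (dedekindPsi N) → LaurentSeries L,
      (∀ i, c i ∈ IntermediateField.adjoin L {jqModC L}) ∧ x = ∑ i, c i * gvEps A (B.y i) :=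
  gv_span_of_li L N _ B.eps_mem B.li_eps x hx

/-- the `ρ y_i` span `F_k` over `k(J)` -/
theorem GVBasis.span_rho (B : GVBasis A π N) (z : LaurentSeries k)
    (hz : z ∈ modularFunctionFieldFullC k N) :
    ∃ c : Fin (dedekindPsi N) → LaurentSeries k,
      (∀ i, c i ∈ IntermediateField.adjoin k {jqModC k}) ∧ z = ∑ i, c i * gvRho A π (B.y i) :=
  gv_span_of_li k N _ B.rho_mem B.li z hz

variable (A π N)

/-- **existence of the orthonormal basis** (`k` algebraically closed, `char k ∤ N`) -/
theorem gv_basis_nonempty [IsAlgClosed k]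
    (hchar : ∀ r : ℕ, r.Prime → r ∣ N → (r : k) ≠ 0) : Nonempty (GVBasis A π N) := by
  classical
  have hdeg := H26WP3.h26_induct' k N (fun p hp _ => H28S28.h10_hasModEq_all p hp) hchar
  obtain ⟨t, htM, htli, htcard⟩ := H18WP3.h18_exists_indep_monomials
    (divisorExpansionsC k N) (IntermediateField.adjoin k {jqModC k})
    (gv_adjoin_j_le_full k N) (dedekindPsi N) hdeg
  have hlift := fun x : t => gv_lift_monomial A π N (htM x x.2)
  choose f hf hf' using hlift
  let e : Fin (dedekindPsi N) ≃ t := (Finset.equivFinOfCardEq htcard).symm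
  refine ⟨⟨fun i => f (e i), fun i => gv_closure_le_full L N (hf' (e i)), fun i => ?_, ?_⟩⟩
  · rw [hf]
    exact gv_closure_le_full k N (htM _ (e i).2)
  · have h3 := htli.comp e e.injective
    have h4 : (fun i => gvRho A π (f (e i))) = (fun x : t => (x : LaurentSeries k)) ∘ e := by
      funext i
      exact hf (e i)
    rw [h4]
    exact h3

end Basis

end H28GV
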