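import Mathlib
import Fermat.Agent.S18.GVBasis_helper28

/-!
# W2-B (S18), foundation slice GV, part 6 (helper28): the Gauss valuation on `F_L`

`F_L = modularFunctionFieldFullC L N`, `F_k = modularFunctionFieldFullC k N`, `B : GVBasis A π N`.

* `gv_frac` (GV1/GV5): every nonzero `x ∈ F_L` is `c · ε f / ε g` with `c ∈ Lˣ`, `f g ∈ A((q))`,
  `ε f, ε g ∈ F_L`, `ρ f, ρ g ∈ F_k ∖ {0}`.
* `gv_unit_decomp` (GV1): `x = c · u`, `u ∈ gvO`, `gvRed u ∈ F_k ∖ {0}`.
* `gv_red_mem` (GV2): `gvRed (gvO ∩ F_L) ⊆ F_k`.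
* `gv_red_surj` (GV3): `gvRed : gvO ∩ F_L → F_k` is onto.
-/

set_option autoImplicit false
open ModularCurve HahnSeries

noncomputable section

namespace H28GV

variable {L : Type} [Field L] {A : ValuationSubring L} {k : Type} [Field k] {π : A →+* k}
variable {N : ℕ}

theorem gv_trans_rho_jq (A : ValuationSubring L) (π : A →+* k) :
    Transcendental k (gvRho A π (jqModC A)) := by
  rw [gvRho_jq]
  exact P2MW.S_ModularCurve_coeff_jqModC_neg_one.ModularCurve.CharLRows.transcendental_jqModC k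

theorem gvEps_ev_mem (Q : Polynomial A) :
    gvEps A (gvEv A (jqModC A) Q) ∈ modularFunctionFieldFullC L N := by
  rw [gvEps_ev, gvEps_jq]
  exact gv_adjoin_j_le_full L N (gv_aeval_mem_adjoin _ _)

theorem gvRho_ev_mem (Q : Polynomial A) :
    gvRho A π (gvEv A (jqModC A) Q) ∈ modularFunctionFieldFullC k N := by
  rw [gvRho_ev, gvRho_jq]
  exact gv_adjoin_j_le_full k N (gv_aeval_mem_adjoin _ _)

theorem GVBasis.eps_pcomb_mem (B : GVBasis A π N) (R : Fin (dedekindPsi N) → Polynomial A) :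
    gvEps A (gvPComb A (jqModC A) B.y R) ∈ modularFunctionFieldFullC L N := by
  rw [gvPComb, map_sum]
  refine sum_mem (fun i _ => ?_)
  rw [map_mul]
  exact mul_mem (gvEps_ev_mem _) (B.eps_mem i)

theorem GVBasis.rho_pcomb_mem (B : GVBasis A π N) (R : Fin (dedekindPsi N) → Polynomial A) :
    gvRho A π (gvPComb A (jqModC A) B.y R) ∈ modularFunctionFieldFullC k N := by
  rw [gvPComb, map_sum]
  refine sum_mem (fun i _ => ?_)
  rw [map_mul]
  exact mul_mem (gvRho_ev_mem _) (B.rho_mem i)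

theorem GVBasis.li' (B : GVBasis A π N) :
    LinearIndependent ↥(IntermediateField.adjoin k {gvRho A π (jqModC A)})
      (fun i => gvRho A π (B.y i)) := by
  rw [gvRho_jq]
  exact B.li

variable [NeZero N]

/-- **(GV1/GV5) fraction form**: every nonzero element of `F_L` is a nonzero constant times a
quotient of two `A`-integral series of `F_L` whose reductions are nonzero elements of `F_k`. -/
theorem gv_frac (B : GVBasis A π N) (x : LaurentSeries L)
    (hx : x ∈ modularFunctionFieldFullC L N) (hx0 : x ≠ 0) :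
    ∃ (a : L) (f g : LaurentSeries A), a ≠ 0 ∧
      gvRho A π f ≠ 0 ∧ gvRho A π g ≠ 0 ∧
      gvEps A f ∈ modularFunctionFieldFullC L N ∧ gvEps A g ∈ modularFunctionFieldFullC L N ∧
      gvRho A π f ∈ modularFunctionFieldFullC k N ∧ gvRho A π g ∈ modularFunctionFieldFullC k N ∧
      x * gvEps A g = HahnSeries.C a * gvEps A f := by
  obtain ⟨c, hc, hxc⟩ := B.span_eps x hx
  have hc0 : ∃ i, c i ≠ 0 := by
    by_contra h
    push Not at h
    apply hx0
    rw [hxc]
    exact Finset.sum_eq_zero (fun i _ => by rw [h i, zero_mul])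
  obtain ⟨a, Q, R, ha, hQ, hR, h⟩ := gv_main_sum A π (jqModC A) B.y (gv_trans_rho_jq A π) B.li'
    c (fun i => by rw [gvEps_jq]; exact hc i) hc0
  refine ⟨a, gvPComb A (jqModC A) B.y R, gvEv A (jqModC A) Q, ha, hR, hQ, B.eps_pcomb_mem R,
    gvEps_ev_mem Q, B.rho_pcomb_mem R, gvRho_ev_mem Q, ?_⟩
  rw [hxc]
  exact h

/-- the quotient `ε f / ε g` as an element of the Gauss ring -/
theorem gv_quot_mem (f g : LaurentSeries A) (hg : gvRho A π g ≠ 0) :
    gvEps A f / gvEps A g ∈ gvO A π :=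
  ⟨f, g, hg, div_mul_cancel₀ _ (gvEps_ne_zero_of_rho A π g hg)⟩

theorem gvRed_quot (f g : LaurentSeries A) (hg : gvRho A π g ≠ 0) :
    gvRed A π ⟨_, gv_quot_mem f g hg⟩ = gvRho A π f / gvRho A π g :=
  gvRed_eq A π _ f g hg (div_mul_cancel₀ _ (gvEps_ne_zero_of_rho A π g hg))

/-- **(GV1)**: every nonzero element of `F_L` is a nonzero constant times an element of the
Gauss ring with nonzero reduction in `F_k`. -/
theorem gv_unit_decomp (B : GVBasis A π N) (x : LaurentSeries L)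
    (hx : x ∈ modularFunctionFieldFullC L N) (hx0 : x ≠ 0) :
    ∃ (a : L) (u : gvO A π), a ≠ 0 ∧ x = HahnSeries.C a * (u : LaurentSeries L) ∧
      (u : LaurentSeries L) ∈ modularFunctionFieldFullC L N ∧
      gvRed A π u ≠ 0 ∧ gvRed A π u ∈ modularFunctionFieldFullC k N := by
  obtain ⟨a, f, g, ha, hf, hg, hfL, hgL, hfk, hgk, h⟩ := gv_frac B x hx hx0
  have hg0 := gvEps_ne_zero_of_rho A π g hg
  refine ⟨a, ⟨_, gv_quot_mem f g hg⟩, ha, ?_, div_mem hfL hgL, ?_, ?_⟩
  · show x = HahnSeries.C a * (gvEps A f / gvEps A g)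
    rw [← mul_div_assoc, ← h, mul_div_cancel_right₀ _ hg0]
  · rw [gvRed_quot f g hg]
    exact div_ne_zero hf hg
  · rw [gvRed_quot f g hg]
    exact div_mem hfk hgk

/-! ### Constants of the Gauss ring -/

/-- a constant in the Gauss ring lies in `A` (when the elements of `A` with nonzero reduction
are units) -/
theorem gv_const_mem (hπ : ∀ a : A, π a ≠ 0 → ((a : L))⁻¹ ∈ A) (c : L)
    (hc : (HahnSeries.C c : LaurentSeries L) ∈ gvO A π) : c ∈ A := by
  obtain ⟨f, g, hg, h⟩ := hc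
  obtain ⟨n, hn⟩ : ∃ n, π (g.coeff n) ≠ 0 := by
    by_contra h0
    push Not at h0
    exact hg (HahnSeries.ext (funext fun n => by rw [gvRho_coeff, h0 n]; rfl))
  have h1 := congrArg (fun z => z.coeff n) h
  simp only [HahnSeries.C_mul_eq_smul, HahnSeries.coeff_smul, gvEps_coeff, smul_eq_mul] at h1
  have hgn : ((g.coeff n : A) : L) ≠ 0 := by
    intro h0
    apply hn
    have : g.coeff n = 0 := Subtype.ext h0
    rw [this, map_zero]
  have h2 : c = ((f.coeff n : A) : L) * ((g.coeff n : A) : L)⁻¹ := by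
    rw [← h1, mul_assoc, mul_inv_cancel₀ hgn, mul_one]
  rw [h2]
  exact A.mul_mem _ _ (f.coeff n).2 (hπ _ hn)

/-- **(GV2)**: the reduction of an element of `gvO ∩ F_L` lies in `F_k`. -/
theorem gv_red_mem (B : GVBasis A π N) (hπ : ∀ a : A, π a ≠ 0 → ((a : L))⁻¹ ∈ A)
    (u : gvO A π) (hu : (u : LaurentSeries L) ∈ modularFunctionFieldFullC L N) :
    gvRed A π u ∈ modularFunctionFieldFullC k N := by
  by_cases hu0 : (u : LaurentSeries L) = 0
  · have : u = 0 := Subtype.ext hu0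
    rw [this, map_zero]
    exact zero_mem _
  obtain ⟨a, u', ha, hx, hu'L, hu'0, hu'k⟩ := gv_unit_decomp B (u : LaurentSeries L) hu hu0
  have hCa : (HahnSeries.C a : LaurentSeries L) ∈ gvO A π := by
    have h1 : (HahnSeries.C a : LaurentSeries L) = (u : LaurentSeries L) * (u' : LaurentSeries L)⁻¹ := by
      rw [hx, mul_assoc, mul_inv_cancel₀ (gv_ne_zero_of_red A π u' hu'0), mul_one]
    rw [h1]
    exact (gvO A π).mul_mem u.2 (gv_inv_mem A π u' hu'0)
  have haA : a ∈ A := gv_const_mem hπ a hCa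
  have h2 : u = ⟨HahnSeries.C ((⟨a, haA⟩ : A) : L), gv_C_mem A π ⟨a, haA⟩⟩ * u' :=
    Subtype.ext hx
  rw [h2, map_mul, gvRed_C]
  refine mul_mem ?_ hu'k
  have h3 : (HahnSeries.C (π ⟨a, haA⟩) : LaurentSeries k) =
      algebraMap k (LaurentSeries k) (π ⟨a, haA⟩) := by
    rw [algebraMap_laurentSeries_eq_single]; rfl
  rw [h3]
  exact IntermediateField.algebraMap_mem _ _

/-- a variant of (GV1) with `a ∈ A` information: for `u ∈ gvO ∩ F_L` nonzero, `u = a·u'` with
`a ∈ A`. -/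
theorem gv_unit_decomp_int (B : GVBasis A π N) (hπ : ∀ a : A, π a ≠ 0 → ((a : L))⁻¹ ∈ A)
    (u : gvO A π) (hu : (u : LaurentSeries L) ∈ modularFunctionFieldFullC L N)
    (hu0 : (u : LaurentSeries L) ≠ 0) :
    ∃ (a : A) (u' : gvO A π), (a : L) ≠ 0 ∧ u = ⟨HahnSeries.C (a : L), gv_C_mem A π a⟩ * u' ∧
      (u' : LaurentSeries L) ∈ modularFunctionFieldFullC L N ∧
      gvRed A π u' ≠ 0 ∧ gvRed A π u' ∈ modularFunctionFieldFullC k N := by
  obtain ⟨a, u', ha, hx, hu'L, hu'0, hu'k⟩ := gv_unit_decomp B (u : LaurentSeries L) hu hu0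
  have hCa : (HahnSeries.C a : LaurentSeries L) ∈ gvO A π := by
    have h1 : (HahnSeries.C a : LaurentSeries L) = (u : LaurentSeries L) * (u' : LaurentSeries L)⁻¹ := by
      rw [hx, mul_assoc, mul_inv_cancel₀ (gv_ne_zero_of_red A π u' hu'0), mul_one]
    rw [h1]
    exact (gvO A π).mul_mem u.2 (gv_inv_mem A π u' hu'0)
  have haA : a ∈ A := gv_const_mem hπ a hCa
  exact ⟨⟨a, haA⟩, u', ha, Subtype.ext hx, hu'L, hu'0, hu'k⟩

/-! ### Surjectivity of the reduction -/

/-- elements of `k(J)` lift to `gvO ∩ L(j)` -/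
theorem gv_lift_rat (hπs : Function.Surjective π) (z : LaurentSeries k)
    (hz : z ∈ IntermediateField.adjoin k {jqModC k}) :
    ∃ u : gvO A π, (u : LaurentSeries L) ∈ IntermediateField.adjoin L {jqModC L} ∧
      gvRed A π u = z := by
  by_cases hz0 : z = 0
  · exact ⟨0, zero_mem _, by rw [map_zero, hz0]⟩
  obtain ⟨r, s, hrs⟩ := (IntermediateField.mem_adjoin_simple_iff _ _).mp hz
  have hs0 : Polynomial.aeval (jqModC k) s ≠ 0 := by
    intro h
    rw [h, div_zero] at hrs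
    exact hz0 hrs
  obtain ⟨P, hP⟩ := Polynomial.map_surjective π hπs r
  obtain ⟨Q, hQ⟩ := Polynomial.map_surjective π hπs s
  have hQ0 : gvRho A π (gvEv A (jqModC A) Q) ≠ 0 := by
    rw [gvRho_ev, gvRho_jq, hQ]
    exact hs0
  refine ⟨⟨_, gv_quot_mem (gvEv A (jqModC A) P) (gvEv A (jqModC A) Q) hQ0⟩, ?_, ?_⟩
  · show gvEps A _ / gvEps A _ ∈ _
    rw [gvEps_ev, gvEps_ev, gvEps_jq]
    exact div_mem (gv_aeval_mem_adjoin _ _) (gv_aeval_mem_adjoin _ _)
  · rw [gvRed_quot _ _ hQ0, gvRho_ev, gvRho_ev, gvRho_jq, hP, hQ, hrs]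

/-- **(GV3)**: the reduction `gvO ∩ F_L → F_k` is onto. -/
theorem gv_red_surj (B : GVBasis A π N) (hπs : Function.Surjective π) (z : LaurentSeries k)
    (hz : z ∈ modularFunctionFieldFullC k N) :
    ∃ u : gvO A π, (u : LaurentSeries L) ∈ modularFunctionFieldFullC L N ∧ gvRed A π u = z := by
  obtain ⟨c, hc, hzc⟩ := B.span_rho z hz
  have hlift := fun i => gv_lift_rat (A := A) (π := π) hπs (c i) (hc i)
  choose u hu hured using hlift
  refine ⟨∑ i, u i * ⟨gvEps A (B.y i), gvEps_mem_gvO A π _⟩, ?_, ?_⟩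
  · rw [AddSubmonoidClass.coe_finsetSum]
    refine sum_mem (fun i _ => ?_)
    rw [Subring.coe_mul]
    exact mul_mem (gv_adjoin_j_le_full L N (hu i)) (B.eps_mem i)
  · rw [map_sum, hzc]
    refine Finset.sum_congr rfl (fun i _ => ?_)
    rw [map_mul, hured, gvRed_eps]

end H28GV
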