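import Mathlib
import Fermat.Agent.S18.GVMain_helper28
import Fermat.Prelude.Def_FLTPrelim_Ramification

/-!
# W2-B (S18), foundation slice GV, part 7 (helper28): the case of the statement S18

`L = ℚ̄` (or any algebraically closed field), `A` a valuation subring over `ℓ ∤ N`,
`π = IsLocalRing.residue A`:

* `gv_bar_eq`: `laurentBaseChange L (modularFunctionFieldFull N) = modularFunctionFieldFullC L N`,
* `gv_residue_unit`, `gv_residue_surj`, `gv_residue_isAlgClosed`, `gv_residue_char`,
* `gv_basis_bar`: the orthonormal basis exists.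
-/

set_option autoImplicit false
open ModularCurve HahnSeries

noncomputable section

namespace H28GV

section BarEq

variable (L : Type*) [Field L] [Algebra ℚ L]

theorem gv_coeffEmb_jq : coeffEmb L jq = jqModC L := map_jqModC (algebraMap ℚ L)

theorem gv_coeffEmb_qExpand (d : ℕ) [NeZero d] (x : LaurentSeries ℚ) :
    coeffEmb L (qExpand ℚ d x) = qExpand L d (coeffEmb L x) := coeffMap_qExpand _ d x

theorem gv_coeffEmb_algebraMap (c : ℚ) :
    coeffEmb L (algebraMap ℚ (LaurentSeries ℚ) c)
      = algebraMap L (LaurentSeries L) (algebraMap ℚ L c) := by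
  rw [algebraMap_laurentSeries_eq_single, algebraMap_laurentSeries_eq_single, coeffEmb,
    coeffMap_single]

/-- the base-changed function field is the field generated over `L` by the `j(q^d)`, `d ∣ N` -/
theorem gv_bar_eq (N : ℕ) :
    laurentBaseChange L (modularFunctionFieldFull N) = modularFunctionFieldFullC L N := by
  apply le_antisymm
  · show IntermediateField.adjoin L
        (⇑(coeffEmb L) '' ((modularFunctionFieldFull N : IntermediateField ℚ (LaurentSeries ℚ))
          : Set (LaurentSeries ℚ))) ≤ _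
    rw [IntermediateField.adjoin_le_iff]
    rintro _ ⟨x, hx, rfl⟩
    have hx' : x ∈ IntermediateField.adjoin ℚ (divisorExpansions N) := hx
    induction hx' using IntermediateField.adjoin_induction with
    | mem y hy =>
      obtain ⟨d, hne, hdvd, rfl⟩ := hy
      have := hne
      rw [gv_coeffEmb_qExpand, gv_coeffEmb_jq]
      exact jqModCd_mem_full L N hdvd
    | algebraMap c =>
      rw [gv_coeffEmb_algebraMap]
      exact IntermediateField.algebraMap_mem _ _
    | add y z hy hz ihy ihz =>
      rw [map_add]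
      exact add_mem (ihy hy) (ihz hz)
    | inv y hy ihy =>
      rw [map_inv₀]
      exact inv_mem (ihy hy)
    | mul y z hy hz ihy ihz =>
      rw [map_mul]
      exact mul_mem (ihy hy) (ihz hz)
  · rw [modularFunctionFieldFullC, IntermediateField.adjoin_le_iff]
    rintro _ ⟨d, hne, hdvd, rfl⟩
    have := hne
    rw [← gv_coeffEmb_jq, ← gv_coeffEmb_qExpand]
    exact coeffEmb_mem_laurentBaseChange L (jqd_mem_full N hdvd)

end BarEq

section Residue

variable {L : Type*} [Field L] (A : ValuationSubring L)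

theorem gv_residue_unit (a : A) (ha : IsLocalRing.residue A a ≠ 0) : ((a : L))⁻¹ ∈ A := by
  have h1 : a ∉ IsLocalRing.maximalIdeal A := fun h =>
    ha ((IsLocalRing.residue_eq_zero_iff a).mpr h)
  have h2 : IsUnit a := IsLocalRing.notMem_maximalIdeal.mp h1
  obtain ⟨b, hb⟩ := h2.exists_right_inv
  have h3 : (a : L) * (b : L) = 1 := by
    have := congrArg (fun x : A => (x : L)) hb
    simpa using this
  have h4 : ((a : L))⁻¹ = (b : L) := by
    rw [eq_comm, ← mul_eq_one_iff_eq_inv₀]
    · rw [mul_comm]; exact h3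
    · intro h0
      rw [h0, zero_mul] at h3
      exact zero_ne_one h3
  rw [h4]
  exact b.2

theorem gv_residue_surj : Function.Surjective (IsLocalRing.residue A) :=
  IsLocalRing.residue_surjective

/-- the residue field of a valuation subring of an algebraically closed field is algebraically
closed -/
theorem gv_residue_isAlgClosed [IsAlgClosed L] : IsAlgClosed (IsLocalRing.ResidueField A) := by
  apply IsAlgClosed.of_exists_root
  intro p hpm hpi
  have hlift : p ∈ Polynomial.lifts (IsLocalRing.residue A) :=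
    (Polynomial.mem_lifts p).mpr (Polynomial.map_surjective _ IsLocalRing.residue_surjective p)
  obtain ⟨P, hP, hdeg, hPm⟩ := Polynomial.lifts_and_natDegree_eq_and_monic hlift hpm
  have hdeg0 : (P.map A.subtype).degree ≠ 0 := by
    rw [Polynomial.degree_map_eq_of_injective A.subtype_injective,
      Polynomial.degree_eq_natDegree hPm.ne_zero, hdeg]
    have := hpi.natDegree_pos
    intro h
    have h2 : (p.natDegree : WithBot ℕ) = ((0 : ℕ) : WithBot ℕ) := h
    rw [Nat.cast_inj] at h2
    omega
  obtain ⟨x, hx⟩ := IsAlgClosed.exists_root (P.map A.subtype) hdeg0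
  have hint : IsIntegral A x := by
    refine ⟨P, hPm, ?_⟩
    rw [Polynomial.IsRoot, Polynomial.eval_map] at hx
    exact hx
  obtain ⟨y, hy⟩ := IsIntegrallyClosed.isIntegral_iff.mp hint
  refine ⟨IsLocalRing.residue A y, ?_⟩
  rw [← hP, Polynomial.eval_map, Polynomial.eval₂_hom]
  have h0 : Polynomial.eval y P = 0 := by
    apply Subtype.ext
    have h1 : ((Polynomial.eval y P : A) : L) = Polynomial.eval₂ A.subtype (y : L) P :=
      (Polynomial.eval₂_hom A.subtype y).symm
    rw [h1]
    rw [Polynomial.IsRoot, Polynomial.eval_map] at hx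
    have h2 : (y : L) = x := hy
    rw [h2]
    exact hx
  rw [h0, map_zero]

theorem gv_residue_natCast_eq_zero (ℓ : ℕ) (hA : A.LiesOverPrime ℓ) :
    ((ℓ : ℕ) : IsLocalRing.ResidueField A) = 0 := by
  have h1 : (((ℓ : ℕ) : A) : L) ∈ A.nonunits := by
    have : (((ℓ : ℕ) : A) : L) = (ℓ : L) := by simp
    rw [this]
    exact hA
  have h2 : ((ℓ : ℕ) : A) ∈ IsLocalRing.maximalIdeal A :=
    ValuationSubring.coe_mem_nonunits_iff.mp h1
  have h3 := (IsLocalRing.residue_eq_zero_iff ((ℓ : ℕ) : A)).mpr h2
  rwa [map_natCast] at h3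

theorem gv_residue_char (ℓ : ℕ) [Fact ℓ.Prime] (hA : A.LiesOverPrime ℓ) (N : ℕ)
    (hℓN : ¬ ℓ ∣ N) : ∀ r : ℕ, r.Prime → r ∣ N → ((r : ℕ) : IsLocalRing.ResidueField A) ≠ 0 := by
  intro r hr hrN h0
  have hℓ0 := gv_residue_natCast_eq_zero A ℓ hA
  have hne : r ≠ ℓ := by
    rintro rfl
    exact hℓN hrN
  have hcop : Nat.Coprime r ℓ := (Nat.coprime_primes hr (Fact.out : ℓ.Prime)).mpr hne
  have h1 : ((Nat.gcd r ℓ : ℕ) : ℤ) = r * Nat.gcdA r ℓ + ℓ * Nat.gcdB r ℓ := Nat.gcd_eq_gcd_ab r ℓ
  rw [hcop.gcd_eq_one] at h1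
  have h2 := congrArg (fun z : ℤ => (z : IsLocalRing.ResidueField A)) h1
  simp only [Int.cast_add, Int.cast_mul, Int.cast_natCast, Nat.cast_one, Int.cast_one] at h2
  rw [h0, hℓ0, zero_mul, zero_mul, add_zero] at h2
  exact one_ne_zero h2

end Residue

section Bar

variable {L : Type} [Field L] [IsAlgClosed L] (A : ValuationSubring L)

/-- **the orthonormal basis in the situation of S18** -/
theorem gv_basis_bar (ℓ : ℕ) [Fact ℓ.Prime] (hA : A.LiesOverPrime ℓ) (N : ℕ) [NeZero N]
    (hℓN : ¬ ℓ ∣ N) : Nonempty (GVBasis A (IsLocalRing.residue A) N) := by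
  have := gv_residue_isAlgClosed A
  exact gv_basis_nonempty A (IsLocalRing.residue A) N (gv_residue_char A ℓ hA N hℓN)

end Bar

end H28GV
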