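import Mathlib
import Fermat.Agent.S18.ADefs
import Fermat.Agent.S18.GVBar_helper28

/-!
# W2-B (S18), slice A0 (helper28): the reduction datum from `h` and the Gauss valuation

`F = laurentBaseChange L (modularFunctionFieldFull N)`, `Fb = modularFunctionFieldFullC k N`.

* `gvOF` : the Gauss valuation ring of `F` (a `ValuationSubring F`), `gvRedF : gvOF →+* Fb`;
* `gv_netcount` : `r_*(div u) = div (red u)` for ALL `u ∈ gvOF` with `red u ≠ 0`, from the
  property (2) of `h` (stated there for `A`-integral `q`-series only);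
* `gvRedDatum` : the `H9S18.RedDatum`.
-/

set_option autoImplicit false
open ModularCurve HahnSeries AlgebraicCurve

noncomputable section

namespace H28GV

set_option linter.unusedSectionVars false

variable {L : Type} [Field L] [Algebra ℚ L] (A : ValuationSubring L) {k : Type} [Field k]
  (π : A →+* k) (N : ℕ)

/-- elements of the base-changed function field lie in `L(j(q^d) : d ∣ N)` -/
theorem gv_coe_mem_full (x : ↥(laurentBaseChange L (modularFunctionFieldFull N))) :
    (x : LaurentSeries L) ∈ modularFunctionFieldFullC L N := by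
  rw [← gv_bar_eq]
  exact x.2

theorem gv_mem_base_of_full {x : LaurentSeries L} (hx : x ∈ modularFunctionFieldFullC L N) :
    x ∈ laurentBaseChange L (modularFunctionFieldFull N) := by
  rw [gv_bar_eq]
  exact hx

theorem gv_coe_algebraMap (c : L) :
    ((algebraMap L ↥(laurentBaseChange L (modularFunctionFieldFull N)) c :
      ↥(laurentBaseChange L (modularFunctionFieldFull N))) : LaurentSeries L) =
      HahnSeries.C c := by
  show algebraMap L (LaurentSeries L) c = _
  rw [algebraMap_laurentSeries_eq_single]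
  rfl

theorem gv_C_eq_algebraMap (K : Type*) [Field K] (c : K) :
    (HahnSeries.C c : LaurentSeries K) = algebraMap K (LaurentSeries K) c := by
  rw [algebraMap_laurentSeries_eq_single]
  rfl

variable {A π N} [NeZero N]

/-- **the Gauss valuation ring of `F`** -/
def gvOF (B : GVBasis A π N) :
    ValuationSubring ↥(laurentBaseChange L (modularFunctionFieldFull N)) where
  carrier := {x | (x : LaurentSeries L) ∈ gvO A π}
  mul_mem' := fun {x y} hx hy => (gvO A π).mul_mem hx hy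
  one_mem' := (gvO A π).one_mem
  add_mem' := fun {x y} hx hy => (gvO A π).add_mem hx hy
  zero_mem' := (gvO A π).zero_mem
  neg_mem' := fun {x} hx => (gvO A π).neg_mem hx
  mem_or_inv_mem' := by
    intro x
    by_cases hx0 : x = 0
    · left
      rw [hx0]
      exact (gvO A π).zero_mem
    have hx0' : (x : LaurentSeries L) ≠ 0 := fun h => hx0 (Subtype.ext h)
    obtain ⟨a, u, ha, hxu, -, hu0, -⟩ := gv_unit_decomp B (x : LaurentSeries L)
      (gv_coe_mem_full N x) hx0'
    rcases A.mem_or_inv_mem a with h | h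
    · left
      show (x : LaurentSeries L) ∈ gvO A π
      rw [hxu]
      exact (gvO A π).mul_mem (gv_C_mem A π ⟨a, h⟩) u.2
    · right
      show ((x⁻¹ : ↥(laurentBaseChange L (modularFunctionFieldFull N))) : LaurentSeries L) ∈
        gvO A π
      have h1 : ((x⁻¹ : ↥(laurentBaseChange L (modularFunctionFieldFull N))) : LaurentSeries L) =
          HahnSeries.C (a⁻¹) * ((u : LaurentSeries L))⁻¹ := by
        show ((x : LaurentSeries L))⁻¹ = _
        rw [hxu, mul_inv, map_inv₀]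
      rw [h1]
      exact (gvO A π).mul_mem (gv_C_mem A π ⟨a⁻¹, h⟩) (gv_inv_mem A π u hu0)

theorem mem_gvOF (B : GVBasis A π N) (x : ↥(laurentBaseChange L (modularFunctionFieldFull N))) :
    x ∈ gvOF B ↔ (x : LaurentSeries L) ∈ gvO A π := Iff.rfl

/-- the inclusion `gvOF → gvO` -/
def gvOFincl (B : GVBasis A π N) : ↥(gvOF B) →+* ↥(gvO A π) where
  toFun x := ⟨((x : ↥(laurentBaseChange L (modularFunctionFieldFull N))) : LaurentSeries L), x.2⟩
  map_one' := rfl
  map_mul' _ _ := rfl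
  map_zero' := rfl
  map_add' _ _ := rfl

/-- **the reduction map `gvOF → Fb`** -/
def gvRedF (B : GVBasis A π N) (hπ : ∀ a : A, π a ≠ 0 → ((a : L))⁻¹ ∈ A) :
    ↥(gvOF B) →+* ↥(modularFunctionFieldFullC k N) :=
  RingHom.codRestrict ((gvRed A π).comp (gvOFincl B)) (modularFunctionFieldFullC k N)
    (fun x => gv_red_mem B hπ (gvOFincl B x) (gv_coe_mem_full N x.1))

theorem coe_gvRedF (B : GVBasis A π N) (hπ : ∀ a : A, π a ≠ 0 → ((a : L))⁻¹ ∈ A)
    (x : ↥(gvOF B)) :
    ((gvRedF B hπ x : ↥(modularFunctionFieldFullC k N)) : LaurentSeries k) =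
      gvRed A π (gvOFincl B x) := rfl

theorem gvRedF_ne_zero_iff (B : GVBasis A π N) (hπ : ∀ a : A, π a ≠ 0 → ((a : L))⁻¹ ∈ A)
    (x : ↥(gvOF B)) : gvRedF B hπ x ≠ 0 ↔ gvRed A π (gvOFincl B x) ≠ 0 := by
  rw [← coe_gvRedF B hπ x]
  constructor
  · intro h h0
    exact h (Subtype.ext h0)
  · intro h h0
    apply h
    rw [h0]
    rfl

/-- units: nonzero reduction implies invertible in `gvOF` -/
theorem gvOF_isUnit_of_red (B : GVBasis A π N) (hπ : ∀ a : A, π a ≠ 0 → ((a : L))⁻¹ ∈ A)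
    (x : ↥(gvOF B)) (hx : gvRedF B hπ x ≠ 0) : IsUnit x := by
  have h1 := (gvRedF_ne_zero_iff B hπ x).mp hx
  have h2 : ((x : ↥(laurentBaseChange L (modularFunctionFieldFull N)))⁻¹) ∈ gvOF B :=
    gv_inv_mem A π (gvOFincl B x) h1
  have hx0 : (x : ↥(laurentBaseChange L (modularFunctionFieldFull N))) ≠ 0 := by
    intro h0
    apply hx
    have : x = 0 := Subtype.ext h0
    rw [this, map_zero]
  refine IsUnit.of_mul_eq_one (⟨_, h2⟩ : ↥(gvOF B)) ?_
  exact Subtype.ext (mul_inv_cancel₀ hx0)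

/-- **surjectivity of the reduction** -/
theorem gvRedF_surjective (B : GVBasis A π N) (hπ : ∀ a : A, π a ≠ 0 → ((a : L))⁻¹ ∈ A)
    (hπs : Function.Surjective π) : Function.Surjective (gvRedF B hπ) := by
  rintro ⟨z, hz⟩
  obtain ⟨u, huL, hured⟩ := gv_red_surj B hπs z hz
  refine ⟨⟨⟨(u : LaurentSeries L), gv_mem_base_of_full N huL⟩, u.2⟩, ?_⟩
  apply Subtype.ext
  rw [coe_gvRedF]
  exact hured

theorem gvOF_const_mem (B : GVBasis A π N) (a : L) (ha : a ∈ A) :
    algebraMap L ↥(laurentBaseChange L (modularFunctionFieldFull N)) a ∈ gvOF B := by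
  rw [mem_gvOF, gv_coe_algebraMap]
  exact gv_C_mem A π ⟨a, ha⟩

theorem gvRedF_const (B : GVBasis A π N) (hπ : ∀ a : A, π a ≠ 0 → ((a : L))⁻¹ ∈ A)
    (a : L) (ha : a ∈ A) :
    gvRedF B hπ ⟨algebraMap L ↥(laurentBaseChange L (modularFunctionFieldFull N)) a,
      gvOF_const_mem B a ha⟩ = algebraMap k ↥(modularFunctionFieldFullC k N) (π ⟨a, ha⟩) := by
  apply Subtype.ext
  rw [coe_gvRedF]
  have h1 : gvOFincl B ⟨algebraMap L ↥(laurentBaseChange L (modularFunctionFieldFull N)) a,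
      gvOF_const_mem B a ha⟩ = ⟨HahnSeries.C ((⟨a, ha⟩ : A) : L), gv_C_mem A π ⟨a, ha⟩⟩ :=
    Subtype.ext (gv_coe_algebraMap N a)
  rw [h1, gvRed_C, gv_C_eq_algebraMap]
  rfl

/-- **the value group of the Gauss valuation is that of `A`** -/
theorem gvOF_unit_scale (B : GVBasis A π N) (hπ : ∀ a : A, π a ≠ 0 → ((a : L))⁻¹ ∈ A)
    (f : ↥(laurentBaseChange L (modularFunctionFieldFull N))) (hf : f ≠ 0) :
    ∃ c : L, c ≠ 0 ∧
      ∃ h : algebraMap L ↥(laurentBaseChange L (modularFunctionFieldFull N)) c * f ∈ gvOF B,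
        gvRedF B hπ ⟨algebraMap L ↥(laurentBaseChange L (modularFunctionFieldFull N)) c * f, h⟩
          ≠ 0 := by
  have hf0 : (f : LaurentSeries L) ≠ 0 := fun h => hf (Subtype.ext h)
  obtain ⟨a, u, ha, hxu, -, hu0, -⟩ := gv_unit_decomp B (f : LaurentSeries L)
    (gv_coe_mem_full N f) hf0
  have hCa : (HahnSeries.C a : LaurentSeries L) ≠ 0 := fun h =>
    ha (HahnSeries.C_injective (h.trans (map_zero _).symm))
  have hcoe : ((algebraMap L ↥(laurentBaseChange L (modularFunctionFieldFull N)) a⁻¹ * f :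
      ↥(laurentBaseChange L (modularFunctionFieldFull N))) : LaurentSeries L) =
      (u : LaurentSeries L) := by
    show ((algebraMap L ↥(laurentBaseChange L (modularFunctionFieldFull N)) a⁻¹ :
      ↥(laurentBaseChange L (modularFunctionFieldFull N))) : LaurentSeries L) *
        (f : LaurentSeries L) = _
    rw [gv_coe_algebraMap, hxu, map_inv₀, ← mul_assoc, inv_mul_cancel₀ hCa, one_mul]
  have hmem : algebraMap L ↥(laurentBaseChange L (modularFunctionFieldFull N)) a⁻¹ * f ∈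
      gvOF B := by
    rw [mem_gvOF, hcoe]
    exact u.2
  refine ⟨a⁻¹, inv_ne_zero ha, hmem, ?_⟩
  rw [gvRedF_ne_zero_iff]
  have h1 : gvOFincl B ⟨_, hmem⟩ = u := Subtype.ext hcoe
  rw [h1]
  exact hu0

/-- the two forms of "the kernel of `π` contains the non-units" -/
theorem gv_hpi_of_nonunit (hπ0 : ∀ a : A, ¬ IsUnit a → π a = 0) :
    ∀ a : A, π a ≠ 0 → ((a : L))⁻¹ ∈ A := by
  intro a ha
  have hu : IsUnit a := by
    by_contra h
    exact ha (hπ0 a h)
  obtain ⟨b, hb⟩ := hu.exists_right_inv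
  have h3 : (a : L) * (b : L) = 1 := by
    have := congrArg (fun x : A => (x : L)) hb
    simpa using this
  have h4 : ((a : L))⁻¹ = (b : L) := by
    rw [eq_comm, ← mul_eq_one_iff_eq_inv₀]
    · rw [mul_comm]; exact h3
    · intro h0
      rw [h0, zero_mul] at h3
      exact zero_ne_one h3
  rw [h4]
  exact b.2

/-- a Gauss unit of `F` is a quotient `ε f / ε g` of two `A`-integral series of `F` with
nonzero reductions in `Fb` (no constant needed). -/
theorem gv_unit_frac (B : GVBasis A π N) (hπ : ∀ a : A, π a ≠ 0 → ((a : L))⁻¹ ∈ A)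
    (u : gvO A π) (huL : (u : LaurentSeries L) ∈ modularFunctionFieldFullC L N)
    (hu0 : gvRed A π u ≠ 0) :
    ∃ f g : LaurentSeries A, gvRho A π f ≠ 0 ∧ gvRho A π g ≠ 0 ∧
      gvEps A f ∈ modularFunctionFieldFullC L N ∧ gvEps A g ∈ modularFunctionFieldFullC L N ∧
      gvRho A π f ∈ modularFunctionFieldFullC k N ∧ gvRho A π g ∈ modularFunctionFieldFullC k N ∧
      (u : LaurentSeries L) * gvEps A g = gvEps A f ∧
      gvRho A π f = gvRed A π u * gvRho A π g := by
  have hune : (u : LaurentSeries L) ≠ 0 := gv_ne_zero_of_red A π u hu0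
  obtain ⟨a, f, g, ha, hf, hg, hfL, hgL, hfk, hgk, h⟩ := gv_frac B (u : LaurentSeries L) huL hune
  have hf0 : gvEps A f ≠ 0 := gvEps_ne_zero_of_rho A π f hf
  have hg0 : gvEps A g ≠ 0 := gvEps_ne_zero_of_rho A π g hg
  have hfu : gvRed A π ⟨gvEps A f, gvEps_mem_gvO A π f⟩ ≠ 0 := by rw [gvRed_eps]; exact hf
  have hgu : gvRed A π ⟨gvEps A g, gvEps_mem_gvO A π g⟩ ≠ 0 := by rw [gvRed_eps]; exact hg
  have hCa : (HahnSeries.C a : LaurentSeries L) ∈ gvO A π := by
    have h1 : (HahnSeries.C a : LaurentSeries L) =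
        (u : LaurentSeries L) * gvEps A g * (gvEps A f)⁻¹ := by
      rw [h, mul_assoc, mul_inv_cancel₀ hf0, mul_one]
    rw [h1]
    exact (gvO A π).mul_mem ((gvO A π).mul_mem u.2 (gvEps_mem_gvO A π g))
      (gv_inv_mem A π ⟨_, gvEps_mem_gvO A π f⟩ hfu)
  have hCa' : (HahnSeries.C a⁻¹ : LaurentSeries L) ∈ gvO A π := by
    have hCane : (HahnSeries.C a : LaurentSeries L) ≠ 0 := fun h =>
      ha (HahnSeries.C_injective (h.trans (map_zero _).symm))
    have h1 : (HahnSeries.C a⁻¹ : LaurentSeries L) =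
        gvEps A f * ((gvEps A g)⁻¹ * ((u : LaurentSeries L))⁻¹) := by
      rw [map_inv₀, ← mul_inv, mul_comm (gvEps A g), h, mul_inv, ← mul_assoc,
        mul_comm (gvEps A f), mul_assoc, mul_inv_cancel₀ hf0, mul_one]
    rw [h1]
    exact (gvO A π).mul_mem (gvEps_mem_gvO A π f)
      ((gvO A π).mul_mem (gv_inv_mem A π ⟨_, gvEps_mem_gvO A π g⟩ hgu) (gv_inv_mem A π u hu0))
  have haA : a ∈ A := gv_const_mem hπ a hCa
  have haA' : a⁻¹ ∈ A := gv_const_mem hπ a⁻¹ hCa'
  have hπa : π ⟨a, haA⟩ ≠ 0 := gv_pi_ne_zero_of_inv_mem A π ⟨a, haA⟩ haA' ha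
  have hCπ : (HahnSeries.C (π ⟨a, haA⟩) : LaurentSeries k) ≠ 0 := fun h =>
    hπa (HahnSeries.C_injective (h.trans (map_zero _).symm))
  have heps : gvEps A (HahnSeries.C (⟨a, haA⟩ : A) * f) = HahnSeries.C a * gvEps A f := by
    rw [map_mul, gvEps_C]
  have hrho : gvRho A π (HahnSeries.C (⟨a, haA⟩ : A) * f) =
      HahnSeries.C (π ⟨a, haA⟩) * gvRho A π f := by
    rw [map_mul, gvRho_C]
  have hrel : (u : LaurentSeries L) * gvEps A g = gvEps A (HahnSeries.C (⟨a, haA⟩ : A) * f) := by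
    rw [heps, h]
  refine ⟨HahnSeries.C (⟨a, haA⟩ : A) * f, g, ?_, hg, ?_, hgL, ?_, hgk, hrel, ?_⟩
  · rw [hrho]
    exact mul_ne_zero hCπ hf
  · rw [heps, gv_C_eq_algebraMap]
    exact mul_mem (IntermediateField.algebraMap_mem _ _) hfL
  · rw [hrho, gv_C_eq_algebraMap]
    exact mul_mem (IntermediateField.algebraMap_mem _ _) hfk
  · rw [gvRed_eq A π u _ g hg hrel, div_mul_cancel₀ _ hg]

/-- **NET COUNT for all Gauss units**: `r_*(div u) = div (red u)`. -/
theorem gv_netcount (B : GVBasis A π N) (hπ : ∀ a : A, π a ≠ 0 → ((a : L))⁻¹ ∈ A)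
    [HasPrincipalDivisors L ↥(laurentBaseChange L (modularFunctionFieldFull N))]
    (r : Place L ↥(laurentBaseChange L (modularFunctionFieldFull N)) →
      Place k ↥(modularFunctionFieldFullC k N))
    (hr : IsPlaceReductionAlong A π N r)
    (u : ↥(laurentBaseChange L (modularFunctionFieldFull N))) (hu : u ∈ gvOF B)
    (hred : gvRedF B hπ ⟨u, hu⟩ ≠ 0)
    (D : Divisor L ↥(laurentBaseChange L (modularFunctionFieldFull N)))
    (hD : ∀ P, D P = P.ord u) (Q : Place k ↥(modularFunctionFieldFullC k N)) :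
    Finsupp.mapDomain r D Q = Q.ord (gvRedF B hπ ⟨u, hu⟩) := by
  classical
  have hred' := (gvRedF_ne_zero_iff B hπ ⟨u, hu⟩).mp hred
  obtain ⟨f, g, hf, hg, hfL, hgL, hfk, hgk, hrel, hrho⟩ :=
    gv_unit_frac B hπ (gvOFincl B ⟨u, hu⟩) (gv_coe_mem_full N u) hred'
  have hfB := gv_mem_base_of_full N hfL
  have hgB := gv_mem_base_of_full N hgL
  have hf0 : gvEps A f ≠ 0 := gvEps_ne_zero_of_rho A π f hf
  have hg0 : gvEps A g ≠ 0 := gvEps_ne_zero_of_rho A π g hg
  have hu0 : u ≠ 0 := by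
    intro h0
    apply hred
    have : (⟨u, hu⟩ : ↥(gvOF B)) = 0 := Subtype.ext h0
    rw [this, map_zero]
  set Yf : ↥(laurentBaseChange L (modularFunctionFieldFull N)) := ⟨gvEps A f, hfB⟩ with hYf
  set Yg : ↥(laurentBaseChange L (modularFunctionFieldFull N)) := ⟨gvEps A g, hgB⟩ with hYg
  have hYf0 : Yf ≠ 0 := fun h => hf0 (congrArg Subtype.val h)
  have hYg0 : Yg ≠ 0 := fun h => hg0 (congrArg Subtype.val h)
  have hmul : Yf = u * Yg := Subtype.ext hrel.symm
  obtain ⟨D₁, hD₁, -⟩ := HasPrincipalDivisors.exists_divisor (K := L) Yf hYf0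
  obtain ⟨D₂, hD₂, -⟩ := HasPrincipalDivisors.exists_divisor (K := L) Yg hYg0
  have hD12 : D₁ = D + D₂ := by
    ext P
    rw [Finsupp.add_apply, hD₁ P, hD P, hD₂ P, hmul, P.ord_mul hu0 hYg0]
  have h1 : Finsupp.mapDomain r D₁ Q =
      Q.ord (⟨gvRho A π f, hfk⟩ : ↥(modularFunctionFieldFullC k N)) :=
    hr.2 f hfB hfk hf D₁ hD₁ Q
  have h2 : Finsupp.mapDomain r D₂ Q =
      Q.ord (⟨gvRho A π g, hgk⟩ : ↥(modularFunctionFieldFullC k N)) :=
    hr.2 g hgB hgk hg D₂ hD₂ Q
  have hrg0 : (⟨gvRho A π g, hgk⟩ : ↥(modularFunctionFieldFullC k N)) ≠ 0 :=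
    fun h => hg (congrArg Subtype.val h)
  have hmulk : (⟨gvRho A π f, hfk⟩ : ↥(modularFunctionFieldFullC k N)) =
      gvRedF B hπ ⟨u, hu⟩ * ⟨gvRho A π g, hgk⟩ := Subtype.ext hrho
  rw [hD12, Finsupp.mapDomain_add, Finsupp.add_apply, h2] at h1
  have h3 : Q.ord (⟨gvRho A π f, hfk⟩ : ↥(modularFunctionFieldFullC k N)) =
      Q.ord (gvRedF B hπ ⟨u, hu⟩) + Q.ord (⟨gvRho A π g, hgk⟩ : ↥(modularFunctionFieldFullC k N)) := by
    rw [hmulk, Q.ord_mul hred hrg0]
  rw [h3] at h1
  exact add_right_cancel h1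

/-- **slice A0: the reduction datum** of `H9S18` from the Gauss valuation and a place
reduction `r` as in the hypothesis `h` of S18. -/
def gvRedDatum (B : GVBasis A π N) (hπs : Function.Surjective π)
    (hπ0 : ∀ a : A, ¬ IsUnit a → π a = 0)
    [HasPrincipalDivisors L ↥(laurentBaseChange L (modularFunctionFieldFull N))]
    (r : Place L ↥(laurentBaseChange L (modularFunctionFieldFull N)) →
      Place k ↥(modularFunctionFieldFullC k N))
    (hr : IsPlaceReductionAlong A π N r) :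
    H9S18.RedDatum L ↥(laurentBaseChange L (modularFunctionFieldFull N)) k
      ↥(modularFunctionFieldFullC k N) where
  A := A
  π := π
  O := gvOF B
  red := gvRedF B (gv_hpi_of_nonunit hπ0)
  r := r
  π_surj := hπs
  π_nonunit := hπ0
  red_surj := gvRedF_surjective B (gv_hpi_of_nonunit hπ0) hπs
  red_nonunit := by
    intro y hy
    by_contra h
    exact hy (gvOF_isUnit_of_red B (gv_hpi_of_nonunit hπ0) y h)
  const_mem := fun a ha => gvOF_const_mem B a ha
  red_const := fun a ha => gvRedF_const B (gv_hpi_of_nonunit hπ0) a ha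
  unit_scale := fun f hf => gvOF_unit_scale B (gv_hpi_of_nonunit hπ0) f hf
  deg_r := hr.1
  netcount := fun u hu hred D hD Q =>
    gv_netcount B (gv_hpi_of_nonunit hπ0) r hr u hu hred D hD Q

end H28GV
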