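import Mathlib
import Fermat.Agent.S18.A0_helper28

/-!
# W2-B (S18), slice A0, exports (helper28)

* `gvRedDatumBar` : the `H9S18.RedDatum` in the situation of S18 (`L = ℚ̄`, `A` over `ℓ ∤ N`,
  `r = placeReductionModL h`).
* `gv_kummer_form` : the form needed by route Y': if `m • D = div f` and `r_* D` is principal,
  then `f = C a · ε Y₁ / ε Y₂` with `ρ Y₁ = γ ^ m · ρ Y₂`, `γ ∈ Fb`.
-/

set_option autoImplicit false
set_option linter.unusedSectionVars false
open ModularCurve HahnSeries AlgebraicCurve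

noncomputable section

namespace H28GV

section Kummer

variable {L : Type} [Field L] [Algebra ℚ L] {A : ValuationSubring L} {k : Type} [Field k]
  {π : A →+* k} {N : ℕ} [NeZero N]

/-- **the Kummer form (route Y')**: if `m • D = div f` and `r_* D` is principal then, up to a
constant, `f` is a quotient of two `A`-integral series whose reductions differ by an `m`-th power
in `Fb`. Inputs on `Fb / k`: functions without zeros and poles are constant (`hconst`), and
`m`-th roots exist in `k` (`hroot`). -/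
theorem gv_kummer_form (B : GVBasis A π N) (hπ : ∀ a : A, π a ≠ 0 → ((a : L))⁻¹ ∈ A)
    [HasPrincipalDivisors L ↥(laurentBaseChange L (modularFunctionFieldFull N))]
    (r : Place L ↥(laurentBaseChange L (modularFunctionFieldFull N)) →
      Place k ↥(modularFunctionFieldFullC k N))
    (hr : IsPlaceReductionAlong A π N r)
    (hconst : ∀ φ : ↥(modularFunctionFieldFullC k N), φ ≠ 0 →
      (∀ Q : Place k ↥(modularFunctionFieldFullC k N), Q.ord φ = 0) →
        φ ∈ Set.range (algebraMap k ↥(modularFunctionFieldFullC k N)))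
    (m : ℕ) (hroot : ∀ c : k, c ≠ 0 → ∃ d : k, d ^ m = c)
    (D : Divisor L ↥(laurentBaseChange L (modularFunctionFieldFull N)))
    (f : ↥(laurentBaseChange L (modularFunctionFieldFull N))) (hf : f ≠ 0)
    (hDf : ∀ P, (m • D) P = P.ord f)
    (hprin : Finsupp.mapDomain r D ∈
      Divisor.principal (K := k) (F := ↥(modularFunctionFieldFullC k N))) :
    ∃ (a : L) (Y₁ Y₂ : LaurentSeries A) (γ : ↥(modularFunctionFieldFullC k N)), a ≠ 0 ∧ γ ≠ 0 ∧
      gvRho A π Y₁ ≠ 0 ∧ gvRho A π Y₂ ≠ 0 ∧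
      gvEps A Y₁ ∈ modularFunctionFieldFullC L N ∧ gvEps A Y₂ ∈ modularFunctionFieldFullC L N ∧
      gvRho A π Y₁ ∈ modularFunctionFieldFullC k N ∧ gvRho A π Y₂ ∈ modularFunctionFieldFullC k N ∧
      (f : LaurentSeries L) * gvEps A Y₂ = HahnSeries.C a * gvEps A Y₁ ∧
      gvRho A π Y₁ = (γ : LaurentSeries k) ^ m * gvRho A π Y₂ := by
  classical
  have hf0 : (f : LaurentSeries L) ≠ 0 := fun h => hf (Subtype.ext h)
  obtain ⟨a, u, ha, hfu, huL, hu0, -⟩ := gv_unit_decomp B (f : LaurentSeries L)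
    (gv_coe_mem_full N f) hf0
  -- `u` as an element of `F`
  set uF : ↥(laurentBaseChange L (modularFunctionFieldFull N)) :=
    ⟨(u : LaurentSeries L), gv_mem_base_of_full N huL⟩ with huF
  have huO : uF ∈ gvOF B := u.2
  have hincl : gvOFincl B ⟨uF, huO⟩ = u := Subtype.ext rfl
  have hredF : gvRedF B hπ ⟨uF, huO⟩ ≠ 0 := by
    rw [gvRedF_ne_zero_iff, hincl]
    exact hu0
  have huF0 : uF ≠ 0 := by
    intro h0
    apply hredF
    have : (⟨uF, huO⟩ : ↥(gvOF B)) = 0 := Subtype.ext h0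
    rw [this, map_zero]
  have hfa : f = algebraMap L ↥(laurentBaseChange L (modularFunctionFieldFull N)) a * uF := by
    apply Subtype.ext
    show (f : LaurentSeries L) = ((algebraMap L ↥(laurentBaseChange L (modularFunctionFieldFull N)) a :
      ↥(laurentBaseChange L (modularFunctionFieldFull N))) : LaurentSeries L) * (u : LaurentSeries L)
    rw [gv_coe_algebraMap, hfu]
  have ha' : algebraMap L ↥(laurentBaseChange L (modularFunctionFieldFull N)) a ≠ 0 := by
    rw [Ne, map_eq_zero]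
    exact ha
  have hDu : ∀ P, (m • D) P = P.ord uF := by
    intro P
    rw [hDf P, hfa, P.ord_mul ha' huF0, RH24.h20_ord_algebraMap, zero_add]
  have hnc := gv_netcount B hπ r hr uF huO hredF (m • D) hDu
  obtain ⟨γ₀, hγ₀, hγD⟩ := hprin
  have hordγ : ∀ Q : Place k ↥(modularFunctionFieldFullC k N),
      Q.ord (gvRedF B hπ ⟨uF, huO⟩ * (γ₀ ^ m)⁻¹) = 0 := by
    intro Q
    have h1 := hnc Q
    rw [Finsupp.mapDomain_smul, Finsupp.smul_apply, hγD Q] at h1
    rw [Q.ord_mul hredF (inv_ne_zero (pow_ne_zero m hγ₀)), Q.ord_inv, ← h1]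
    have h2 : Q.ord (γ₀ ^ m) = (m : ℤ) * Q.ord γ₀ := by
      rw [← zpow_natCast, Q.ord_zpow]
    rw [h2]
    simp
  obtain ⟨c, hc⟩ := hconst _ (mul_ne_zero hredF (inv_ne_zero (pow_ne_zero m hγ₀))) hordγ
  have hc0 : c ≠ 0 := by
    rintro rfl
    rw [map_zero] at hc
    exact (mul_ne_zero hredF (inv_ne_zero (pow_ne_zero m hγ₀))) hc.symm
  obtain ⟨d, hd, hd0⟩ : ∃ d : k, d ^ m = c ∧ d ≠ 0 := by
    obtain ⟨d, hd⟩ := hroot c hc0
    by_cases hd0 : d = 0
    · subst hd0
      by_cases hm : m = 0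
      · exact ⟨1, by rw [one_pow, ← hd, hm, pow_zero], one_ne_zero⟩
      · exfalso
        rw [zero_pow hm] at hd
        exact hc0 hd.symm
    · exact ⟨d, hd, hd0⟩
  set γ : ↥(modularFunctionFieldFullC k N) :=
    algebraMap k ↥(modularFunctionFieldFullC k N) d * γ₀ with hγ
  have hγ0 : γ ≠ 0 := mul_ne_zero (by rw [Ne, map_eq_zero]; exact hd0) hγ₀
  have hredγ : gvRedF B hπ ⟨uF, huO⟩ = γ ^ m := by
    rw [hγ, mul_pow, ← map_pow, hd, hc, mul_assoc, inv_mul_cancel₀ (pow_ne_zero m hγ₀), mul_one]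
  obtain ⟨Y₁, Y₂, hY₁, hY₂, hY₁L, hY₂L, hY₁k, hY₂k, hrel, hrho⟩ := gv_unit_frac B hπ u huL hu0
  refine ⟨a, Y₁, Y₂, γ, ha, hγ0, hY₁, hY₂, hY₁L, hY₂L, hY₁k, hY₂k, ?_, ?_⟩
  · rw [hfu, mul_assoc, hrel]
  · rw [hrho]
    congr 1
    have h1 := congrArg (fun x : ↥(modularFunctionFieldFullC k N) => (x : LaurentSeries k)) hredγ
    simp only [coe_gvRedF, hincl] at h1
    rw [h1]
    rfl

end Kummer

section Bar

variable (N : ℕ) [NeZero N] {ℓ : ℕ} [Fact ℓ.Prime] (A : ValuationSubring (AlgebraicClosure ℚ))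

theorem gv_residue_nonunit {L : Type*} [Field L] (A : ValuationSubring L) :
    ∀ a : A, ¬ IsUnit a → IsLocalRing.residue A a = 0 := by
  intro a ha
  rw [IsLocalRing.residue_eq_zero_iff]
  exact (IsLocalRing.mem_maximalIdeal a).mpr ha

set_option synthInstance.maxHeartbeats 400000 in
/-- **slice A0 in the situation of S18** -/
def gvRedDatumBar (hA : A.LiesOverPrime ℓ) (hℓN : ¬ ℓ ∣ N)
    [HasPrincipalDivisors (AlgebraicClosure ℚ) ↥(modularFunctionFieldBar N)]
    (h : ReductionInputsModL A N) :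
    H9S18.RedDatum (AlgebraicClosure ℚ) ↥(modularFunctionFieldBar N)
      (IsLocalRing.ResidueField A)
      ↥(modularFunctionFieldFullC (IsLocalRing.ResidueField A) N) :=
  gvRedDatum (gv_basis_bar A ℓ hA N hℓN).some (gv_residue_surj A) (gv_residue_nonunit A)
    (placeReductionModL h) (isPlaceReductionModL_placeReductionModL h)

set_option synthInstance.maxHeartbeats 400000 in
theorem gvRedDatumBar_r (hA : A.LiesOverPrime ℓ) (hℓN : ¬ ℓ ∣ N)
    [HasPrincipalDivisors (AlgebraicClosure ℚ) ↥(modularFunctionFieldBar N)]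
    (h : ReductionInputsModL A N) :
    (gvRedDatumBar N A hA hℓN h).r = placeReductionModL h := rfl

set_option synthInstance.maxHeartbeats 400000 in
theorem gvRedDatumBar_A (hA : A.LiesOverPrime ℓ) (hℓN : ¬ ℓ ∣ N)
    [HasPrincipalDivisors (AlgebraicClosure ℚ) ↥(modularFunctionFieldBar N)]
    (h : ReductionInputsModL A N) :
    (gvRedDatumBar N A hA hℓN h).A = A := rfl

end Bar

end H28GV
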