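import Mathlib
import Fermat.Prelude.Def_ModularCurve_ReductionModL

/-!
# S18 (item 75), route Y' (helper7): purity + Abhyankar + connectedness

Interface file: exact statements of the slices as `Prop`s (namespace `H7S18`).
Plan and mathematics: `NOTES/W2B-S18-helper7-route.md`, `NOTES/W2B-S18-slices.md`.

Generic setting ("GS"): `R` a DVR with uniformizer `ϖ`, `K = Frac R` of characteristic 0,
`E` a field, finite over `K(t)` for a transcendental `t : E`.  The two charts of the projective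
`t`-line over `R` are `R[t]` and `R[t⁻¹]` (as subalgebras of `E`).
-/

set_option autoImplicit false

open Polynomial IntermediateField AlgebraicCurve

namespace H7S18

section Generic

variable (R : Type) [CommRing R] {E : Type} [Field E] [Algebra R E]

/-- `x` is integral over the chart ring `R[t] ⊆ E`. -/
def IsInt (t x : E) : Prop := IsIntegral (Algebra.adjoin R {t}) x

/-- `s ∈ R[t]` and `s ∉ ϖ R[t]`: `s` is a unit at the Gauss prime. -/
def IsGaussUnit (ϖ : R) (t s : E) : Prop :=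
  s ∈ Algebra.adjoin R {t} ∧ ∀ s' ∈ Algebra.adjoin R {t}, s ≠ algebraMap R E ϖ * s'

/-- `x ∈ O_E`, the integral closure in `E` of the Gauss localization `R[t]_(ϖ)`. -/
def GInt (ϖ : R) (t x : E) : Prop := ∃ s, IsGaussUnit R ϖ t s ∧ IsInt R t (s * x)

/-- `x ≡ y mod ϖ O_E`. -/
def ModPi (ϖ : R) (t x y : E) : Prop := ∃ z, GInt R ϖ t z ∧ x - y = algebraMap R E ϖ * z

/-- `c ∈ K(t)` lies in the Gauss localization `R[t]_(ϖ)` (as elements of `E`). -/
def GBase (ϖ : R) (t c : E) : Prop :=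
  ∃ s a, IsGaussUnit R ϖ t s ∧ a ∈ Algebra.adjoin R {t} ∧ s * c = a

end Generic

section GenericK

variable (R : Type) [CommRing R] (K : Type) [Field K] [Algebra R K]
  {E : Type} [Field E] [Algebra K E] [Algebra R E] [IsScalarTower R K E]

/-- The Gauss prime `(ϖ)` of `R[t]` is unramified in `E` (trace-dual form):
`O_E` is self-dual for the trace form of `E / K(t)` over `R[t]_(ϖ)`. -/
def UnrGauss (ϖ : R) (t : E) : Prop :=
  ∀ y : E, (∀ m : E, IsInt R t m →
      GBase R ϖ t (algebraMap K⟮t⟯ E (Algebra.trace K⟮t⟯ E (y * m)))) → GInt R ϖ t y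

/-- Horizontal data, finite part: outside the branch set `S ⊆ R` every place of `E / K` at
which `t` is finite is unramified over `K(t)` (some polynomial in `t` is a uniformizer). -/
def UnrOutside (S : Finset R) (t : E) : Prop :=
  ∀ V : Place K E, 0 ≤ V.ord t → (∀ c ∈ S, V.ord (t - algebraMap R E c) ≤ 0) →
    ∃ Q : K[X], V.ord (Polynomial.aeval t Q) = 1

/-- Horizontal data at the branch points `c ∈ S` and at `t = ∞`: ramification indices
divide `e₀`. -/
def TameAt (S : Finset R) (e₀ : ℕ) (t : E) : Prop :=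
  (∀ c ∈ S, ∀ V : Place K E, 0 < V.ord (t - algebraMap R E c) →
      V.ord (t - algebraMap R E c) ∣ (e₀ : ℤ)) ∧
  ∀ V : Place K E, V.ord t < 0 → V.ord t ∣ (e₀ : ℤ)

/-- The place `V` of `E / K` passes through the maximal ideal `𝔪` of `R[t]`: `t` is finite at
`V` and the center of `V` on `R[t]` is contained in `𝔪`. -/
def Through (t : E) (𝔪 : Ideal (Algebra.adjoin R {t})) (V : Place K E) : Prop :=
  0 ≤ V.ord t ∧ ∀ s : Algebra.adjoin R {t}, 0 < V.ord (s : E) → s ∈ 𝔪

/-- Conclusion of the local lemmas: the idempotent class of `x` lies in `(M₀ / ϖ)_𝔪`. -/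
def InChartAt (ϖ : R) (t : E) (𝔪 : Ideal (Algebra.adjoin R {t})) (x : E) : Prop :=
  ∃ s : Algebra.adjoin R {t}, s ∉ 𝔪 ∧ ∃ a, IsInt R t a ∧ ModPi R ϖ t ((s : E) * x) a

end GenericK

/-- **C1 (connectedness lemma CL)**: an idempotent of `O_E / ϖ` that lies in the image of both
charts `M₀ / ϖ` and `M_∞ / ϖ` is `0` or `1`, when `K` is algebraically closed in `E`. -/
def CLStatement : Prop :=
  ∀ (R : Type) [CommRing R] [IsDomain R] [IsDiscreteValuationRing R]
    (K : Type) [Field K] [CharZero K] [Algebra R K] [IsFractionRing R K]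
    (E : Type) [Field E] [Algebra K E] [Algebra R E] [IsScalarTower R K E]
    (ϖ : R) (_ : Irreducible ϖ) (t : E) (_ : Transcendental K t)
    (_ : FiniteDimensional K⟮t⟯ E)
    (_ : ∀ x : E, IsAlgebraic K x → x ∈ (algebraMap K E).range)
    (x a b : E) (_ : ModPi R ϖ t (x * x) x)
    (_ : IsInt R t a) (_ : ModPi R ϖ t x a)
    (_ : IsInt R t⁻¹ b) (_ : ModPi R ϖ t x b),
    ModPi R ϖ t x 0 ∨ ModPi R ϖ t x 1

/-- **C2 (Lemma U + A + I: purity at a maximal ideal without branch point)**: if the Gauss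
prime is unramified in `E` and every place of `E / K` through the maximal ideal `𝔪 ∋ ϖ` of
`R[t]` is unramified over `K(t)`, then every idempotent of `O_E / ϖ` lies in `(M₀ / ϖ)_𝔪`. -/
def LocalIdemUnrStatement : Prop :=
  ∀ (R : Type) [CommRing R] [IsDomain R] [IsDiscreteValuationRing R]
    (K : Type) [Field K] [CharZero K] [Algebra R K] [IsFractionRing R K]
    (E : Type) [Field E] [Algebra K E] [Algebra R E] [IsScalarTower R K E]
    (ϖ : R) (_ : Irreducible ϖ) (t : E) (_ : Transcendental K t)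
    (_ : FiniteDimensional K⟮t⟯ E)
    (_ : UnrGauss R K ϖ t)
    (𝔪 : Ideal (Algebra.adjoin R {t})) (_ : 𝔪.IsMaximal)
    (_ : algebraMap R (Algebra.adjoin R {t}) ϖ ∈ 𝔪)
    (_ : ∀ V : Place K E, Through R K t 𝔪 V → ∃ Q : K[X], V.ord (Polynomial.aeval t Q) = 1)
    (x : E) (_ : GInt R ϖ t x) (_ : ModPi R ϖ t (x * x) x),
    InChartAt R ϖ t 𝔪 x

/-- **C3 (Lemma B, Abhyankar)**: the same conclusion at the maximal ideal `𝔪 = (ϖ, t - c)`
through a tame branch point `c ∈ R`: the places over `t = c` have ramification index dividing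
`e₀ ∈ Rˣ`, all other places through `𝔪` are unramified. -/
def LocalIdemTameStatement : Prop :=
  ∀ (R : Type) [CommRing R] [IsDomain R] [IsDiscreteValuationRing R]
    (K : Type) [Field K] [CharZero K] [Algebra R K] [IsFractionRing R K]
    (E : Type) [Field E] [Algebra K E] [Algebra R E] [IsScalarTower R K E]
    (ϖ : R) (_ : Irreducible ϖ) (t : E) (_ : Transcendental K t)
    (_ : FiniteDimensional K⟮t⟯ E)
    (_ : UnrGauss R K ϖ t)
    (𝔪 : Ideal (Algebra.adjoin R {t})) (_ : 𝔪.IsMaximal)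
    (_ : algebraMap R (Algebra.adjoin R {t}) ϖ ∈ 𝔪)
    (c : R) (_ : ∀ s : Algebra.adjoin R {t}, (s : E) = t - algebraMap R E c → s ∈ 𝔪)
    (e₀ : ℕ) (_ : IsUnit (e₀ : R)) (_ : ∃ ζ : R, IsPrimitiveRoot ζ e₀)
    (_ : ∀ V : Place K E, Through R K t 𝔪 V → V.ord (t - algebraMap R E c) ≤ 0 →
      ∃ Q : K[X], V.ord (Polynomial.aeval t Q) = 1)
    (_ : ∀ V : Place K E, 0 < V.ord (t - algebraMap R E c) →
      V.ord (t - algebraMap R E c) ∣ (e₀ : ℤ))
    (x : E) (_ : GInt R ϖ t x) (_ : ModPi R ϖ t (x * x) x),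
    InChartAt R ϖ t 𝔪 x

/-- **C2' (gluing)**: local membership at all maximal ideals `∋ ϖ` gives global membership. -/
def GlueStatement : Prop :=
  ∀ (R : Type) [CommRing R] [IsDomain R] [IsDiscreteValuationRing R]
    (K : Type) [Field K] [CharZero K] [Algebra R K] [IsFractionRing R K]
    (E : Type) [Field E] [Algebra K E] [Algebra R E] [IsScalarTower R K E]
    (ϖ : R) (_ : Irreducible ϖ) (t : E) (_ : Transcendental K t)
    (_ : FiniteDimensional K⟮t⟯ E)
    (x : E) (_ : GInt R ϖ t x)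
    (_ : ∀ 𝔪 : Ideal (Algebra.adjoin R {t}), 𝔪.IsMaximal →
      algebraMap R (Algebra.adjoin R {t}) ϖ ∈ 𝔪 → InChartAt R ϖ t 𝔪 x),
    ∃ a, IsInt R t a ∧ ModPi R ϖ t x a

/-- **C2+C3 glued (one chart; Lemma U + A + I + B glued over all maximal ideals `∋ ϖ` of `R[t]`)**:
if the Gauss prime is unramified in `E` and the horizontal ramification of `E / K(t)` at finite
`t` is tame, concentrated at branch points `c ∈ S ⊆ R` which are pairwise distinct mod `ϖ`,
then every idempotent of `O_E / ϖ` lies in the image of `M₀ / ϖ`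
(`M₀` = integral closure of `R[t]` in `E`). -/
def ChartIdemStatement : Prop :=
  ∀ (R : Type) [CommRing R] [IsDomain R] [IsDiscreteValuationRing R]
    (K : Type) [Field K] [CharZero K] [Algebra R K] [IsFractionRing R K]
    (E : Type) [Field E] [Algebra K E] [Algebra R E] [IsScalarTower R K E]
    (ϖ : R) (_ : Irreducible ϖ) (t : E) (_ : Transcendental K t)
    (_ : FiniteDimensional K⟮t⟯ E)
    (_ : UnrGauss R K ϖ t)
    (S : Finset R) (_ : ∀ c ∈ S, ∀ c' ∈ S, c ≠ c' → IsUnit (c - c'))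
    (e₀ : ℕ) (_ : IsUnit (e₀ : R)) (_ : ∃ ζ : R, IsPrimitiveRoot ζ e₀)
    (_ : UnrOutside R K S t)
    (_ : ∀ c ∈ S, ∀ V : Place K E, 0 < V.ord (t - algebraMap R E c) →
      V.ord (t - algebraMap R E c) ∣ (e₀ : ℤ))
    (x : E) (_ : GInt R ϖ t x) (_ : ModPi R ϖ t (x * x) x),
    ∃ a, IsInt R t a ∧ ModPi R ϖ t x a

/-- **C4 (generic theorem = C1 + chart statement at `t` and at `t⁻¹`)**: a tame cover of the
projective line over `R` with unramified Gauss prime, branch points distinct mod `ϖ` and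
geometrically connected generic fibre has a connected special fibre: `O_E / ϖ` has no
idempotents other than `0`, `1`. -/
def ConnectedStatement : Prop :=
  ∀ (R : Type) [CommRing R] [IsDomain R] [IsDiscreteValuationRing R]
    (K : Type) [Field K] [CharZero K] [Algebra R K] [IsFractionRing R K]
    (E : Type) [Field E] [Algebra K E] [Algebra R E] [IsScalarTower R K E]
    (ϖ : R) (_ : Irreducible ϖ) (t : E) (_ : Transcendental K t)
    (_ : FiniteDimensional K⟮t⟯ E)
    (_ : ∀ x : E, IsAlgebraic K x → x ∈ (algebraMap K E).range)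
    (_ : UnrGauss R K ϖ t)
    (S : Finset R) (_ : ∀ c ∈ S, ∀ c' ∈ S, c ≠ c' → IsUnit (c - c'))
    (_ : ∀ c ∈ S, c ≠ 0 → IsUnit c)
    (e₀ : ℕ) (_ : IsUnit (e₀ : R)) (_ : ∃ ζ : R, IsPrimitiveRoot ζ e₀)
    (_ : UnrOutside R K S t) (_ : TameAt R K S e₀ t)
    (x : E) (_ : GInt R ϖ t x) (_ : ModPi R ϖ t (x * x) x),
    ModPi R ϖ t x 0 ∨ ModPi R ϖ t x 1

end H7S18
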