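import Mathlib
import Fermat.Agent.S18.Defs

/-!
# S18 (item 75), route Y' (helper7): interface, part B

Generic statements about the Kummer cover `E = F(g)`, `g ^ p = u` (slices C5, C5b) and about
descent of places along an algebraic extension of the constant field (slice C6c).
-/

set_option autoImplicit false

open Polynomial IntermediateField AlgebraicCurve

namespace H7S18

/-- The idempotent `(1/p) ∑_{i<p} g^i` of the split Kummer algebra. -/
noncomputable def kummerIdem {E : Type} [Field E] (p : ℕ) (g : E) : E :=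
  (p : E)⁻¹ * ∑ i ∈ Finset.range p, g ^ i

/-- **C5 (Kummer cover at the Gauss prime)**.  `F / K(t)` with unramified Gauss prime,
`u ∈ F`, `u ≡ 1 mod ϖ O_F`, `p` a prime invertible in `R`, `E = F(g)` with `g ^ p = u` and
`[E : F] = p`.  Then the Gauss prime is unramified in `E` (`O_E = O_F[g]` is étale over `O_F`)
and `x = (1/p) ∑ g^i` is an idempotent of `O_E / ϖ` different from `0` and `1`. -/
def KummerGaussStatement : Prop :=
  ∀ (R : Type) [CommRing R] [IsDomain R] [IsDiscreteValuationRing R]
    (K : Type) [Field K] [CharZero K] [Algebra R K] [IsFractionRing R K]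
    (F : Type) [Field F] [Algebra K F] [Algebra R F] [IsScalarTower R K F]
    (E : Type) [Field E] [Algebra K E] [Algebra R E] [IsScalarTower R K E]
    [Algebra F E] [IsScalarTower K F E] [IsScalarTower R F E]
    (ϖ : R) (_ : Irreducible ϖ) (t : F) (_ : Transcendental K t)
    (_ : FiniteDimensional K⟮t⟯ F)
    (_ : UnrGauss R K ϖ t)
    (p : ℕ) (_ : p.Prime) (_ : IsUnit (p : R))
    (u : F) (_ : ModPi R ϖ t u 1)
    (g : E) (_ : g ^ p = algebraMap F E u) (_ : Module.finrank F E = p) (_ : F⟮g⟯ = ⊤),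
    UnrGauss R K ϖ (algebraMap F E t) ∧
      GInt R ϖ (algebraMap F E t) (kummerIdem p g) ∧
      ModPi R ϖ (algebraMap F E t) (kummerIdem p g * kummerIdem p g) (kummerIdem p g) ∧
      ¬ ModPi R ϖ (algebraMap F E t) (kummerIdem p g) 0 ∧
      ¬ ModPi R ϖ (algebraMap F E t) (kummerIdem p g) 1

/-- **C5b (Kummer cover, horizontal)**.  `K` of characteristic 0, `F / K` a function field,
`u ∈ F` with `p ∣ ord_W u` at all places `W`; `E = F(g)`, `g ^ p = u`.  Then `E / F` is
unramified everywhere: every place `V` of `E` restricts to a place `W` of `F` with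
`ord_V = ord_W` on `F`. -/
def KummerPlaceStatement : Prop :=
  ∀ (K : Type) [Field K] [CharZero K]
    (F : Type) [Field F] [Algebra K F]
    (E : Type) [Field E] [Algebra K E] [Algebra F E] [IsScalarTower K F E]
    (t : F) (_ : Transcendental K t) (_ : FiniteDimensional K⟮t⟯ F)
    (p : ℕ) (_ : p.Prime)
    (u : F) (_ : u ≠ 0) (_ : ∀ W : Place K F, (p : ℤ) ∣ W.ord u)
    (g : E) (_ : g ^ p = algebraMap F E u) (_ : F⟮g⟯ = ⊤)
    (V : Place K E),
    ∃ W : Place K F, ∀ f : F, V.ord (algebraMap F E f) = W.ord f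

/-- **C6c (descent of places along an algebraic constant field extension)**.
`K₁ ⊆ L` algebraic, `E₁ / K₁` a function field, `E_L / L` a function field containing `E₁`
compatibly and algebraic over it.  Every place `V` of `E₁ / K₁` is the restriction of a place
`V'` of `E_L / L`, with `ord_V' = ε · ord_V` on `E₁` (`ε ≥ 1`). -/
def PlaceDescentStatement : Prop :=
  ∀ (K₁ : Type) [Field K₁] [CharZero K₁]
    (L : Type) [Field L] [Algebra K₁ L] [Algebra.IsAlgebraic K₁ L]
    (E₁ : Type) [Field E₁] [Algebra K₁ E₁]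
    (E' : Type) [Field E'] [Algebra L E'] [Algebra K₁ E'] [IsScalarTower K₁ L E']
    [Algebra E₁ E'] [IsScalarTower K₁ E₁ E'] [Algebra.IsAlgebraic E₁ E']
    (t : E₁) (_ : Transcendental K₁ t) (_ : FiniteDimensional K₁⟮t⟯ E₁)
    (_ : FiniteDimensional L⟮algebraMap E₁ E' t⟯ E')
    (V : Place K₁ E₁),
    ∃ (V' : Place L E') (ε : ℕ), 0 < ε ∧ ∀ f : E₁, V'.ord (algebraMap E₁ E' f) = ε * V.ord f

end H7S18
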