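import Mathlib
import Fermat.Agent.S18.DefsB
import Fermat.Prelude.Def_EllipticCurve_FrobeniusTrace

/-!
# S18 (item 75), route Y' (helper7): interface, part C

* `KummerStatement` = (K)_m, the Kummer form of S18 at level `N`;
* the reductions S18 ⇐ (K)_m ⇐ (K)_p ⇐ (K)_p at a tame level (slices C10, C11a, C11b);
* Layer 1 of the main theorem: `AbstractKummerStatement` (pure glue over abstract fields) and its
  generic inputs `ConstStatement` (C6d), `PlaceRestrictStatement` (C6r).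
-/

set_option autoImplicit false

open Polynomial IntermediateField AlgebraicCurve ModularCurve

namespace H7S18

/-- **(K)_m at level `N`**: a quotient `u = εY₁/εY₂ ∈ F_L` of `A`-integral series whose
reductions differ by an `m`-th power in `F_k`, and whose divisor is divisible by `m`,
is an `m`-th power in `F_L`. -/
def KummerStatement {L : Type} [Field L] [Algebra ℚ L] (A : ValuationSubring L)
    {k : Type} [Field k] (π : A →+* k) (N : ℕ) [NeZero N] (m : ℕ) : Prop :=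
  ∀ (Y₁ Y₂ : LaurentSeries A) (γ : LaurentSeries k)
    (h₁ : coeffMap A.subtype Y₁ ∈ laurentBaseChange L (modularFunctionFieldFull N))
    (h₂ : coeffMap A.subtype Y₂ ∈ laurentBaseChange L (modularFunctionFieldFull N)),
    coeffMap π Y₁ ∈ modularFunctionFieldFullC k N →
    coeffMap π Y₂ ∈ modularFunctionFieldFullC k N →
    coeffMap π Y₂ ≠ 0 → γ ≠ 0 → γ ∈ modularFunctionFieldFullC k N →
    coeffMap π Y₁ = γ ^ m * coeffMap π Y₂ →
    (∀ P : Place L (laurentBaseChange L (modularFunctionFieldFull N)),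
      (m : ℤ) ∣ P.ord (⟨_, h₁⟩ : laurentBaseChange L (modularFunctionFieldFull N)) -
        P.ord (⟨_, h₂⟩ : laurentBaseChange L (modularFunctionFieldFull N))) →
    ∃ g ∈ laurentBaseChange L (modularFunctionFieldFull N),
      coeffMap A.subtype Y₁ = g ^ m * coeffMap A.subtype Y₂

/-- `N` is a tame level for `ℓ`: `ℓ ∤ N`, and the base Hauptmodul exists
(`j` for `ℓ ≥ 5`, `h₂` for `ℓ = 3`, `h₃` for `ℓ = 2`). -/
def TameLevel (ℓ N : ℕ) : Prop := ¬ ℓ ∣ N ∧ (ℓ = 2 → 3 ∣ N) ∧ (ℓ = 3 → 2 ∣ N)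

/-- **C10 (top reduction)**: S18 at `(N, ℓ, A)` follows from `(K)_m` for all `m` prime to `ℓ`. -/
def TopReductionStatement : Prop :=
  ∀ (N : ℕ) [NeZero N] (ℓ : ℕ) [Fact ℓ.Prime] (_ : ¬ ℓ ∣ N)
    (A : ValuationSubring (AlgebraicClosure ℚ)) (_ : A.LiesOverPrime ℓ),
    (∀ m : ℕ, 0 < m → ¬ ℓ ∣ m → KummerStatement A (IsLocalRing.residue A) N m) →
    ∀ (_ : ModularCurve.ReductionInputsModL A N) (m : ℕ) (_ : ¬ ℓ ∣ m) (z : ModularCurve.JZero N),
      m • z = 0 → ModularCurve.reductionModL A N z = 0 → z = 0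

/-- **C11a (induction on `m`)**: `(K)_p` for all primes `p ≠ ℓ` gives `(K)_m` for all `m`
prime to `ℓ`. -/
def PrimeReductionStatement : Prop :=
  ∀ (N : ℕ) [NeZero N] (ℓ : ℕ) [Fact ℓ.Prime] (_ : ¬ ℓ ∣ N)
    (A : ValuationSubring (AlgebraicClosure ℚ)) (_ : A.LiesOverPrime ℓ),
    (∀ p : ℕ, p.Prime → p ≠ ℓ → KummerStatement A (IsLocalRing.residue A) N p) →
    ∀ m : ℕ, 0 < m → ¬ ℓ ∣ m → KummerStatement A (IsLocalRing.residue A) N m

/-- **C11b (level change by the norm)**: if `N ∣ N'` and `[F_N' : F_N] = ψ(N')/ψ(N)` is prime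
to `p`, then `(K)_p` at level `N'` implies `(K)_p` at level `N`. -/
def LevelChangeStatement : Prop :=
  ∀ (N N' : ℕ) [NeZero N] [NeZero N'] (ℓ : ℕ) [Fact ℓ.Prime] (_ : ¬ ℓ ∣ N') (_ : N ∣ N')
    (A : ValuationSubring (AlgebraicClosure ℚ)) (_ : A.LiesOverPrime ℓ)
    (p : ℕ) (_ : p.Prime) (_ : Nat.Coprime (dedekindPsi N' / dedekindPsi N) p),
    KummerStatement A (IsLocalRing.residue A) N' p →
    KummerStatement A (IsLocalRing.residue A) N p

/-- **Main theorem of route Y'**: `(K)_p` at a tame level, `p ≠ ℓ` prime. -/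
def KummerTameStatement : Prop :=
  ∀ (N : ℕ) [NeZero N] (ℓ : ℕ) [Fact ℓ.Prime] (_ : TameLevel ℓ N)
    (A : ValuationSubring (AlgebraicClosure ℚ)) (_ : A.LiesOverPrime ℓ)
    (p : ℕ) (_ : p.Prime) (_ : p ≠ ℓ),
    KummerStatement A (IsLocalRing.residue A) N p

/-- **C6r (restriction of places)**: `E / F` algebraic extension of function fields over `K`;
every place of `E` restricts to a place of `F`, `ord_V = e · ord_W` on `F`, `e ≥ 1`. -/
def PlaceRestrictStatement : Prop :=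
  ∀ (K : Type) [Field K]
    (F : Type) [Field F] [Algebra K F]
    (E : Type) [Field E] [Algebra K E] [Algebra F E] [IsScalarTower K F E]
    [Algebra.IsAlgebraic F E]
    (V : Place K E),
    ∃ (W : Place K F) (e : ℕ), 0 < e ∧ ∀ f : F, V.ord (algebraMap F E f) = e * W.ord f

/-- **C6d (constants of the Kummer cover)**: `K₁` algebraically closed in `F₁`, `L ⊇ K₁`
algebraically closed, `F₁ ⊆ F_L ⊇ L`; `E₁ / F₁` of prime degree `p` generated by `g`,
`g ^ p = u`; if `u` is not a `p`-th power in `F_L` then `K₁` is algebraically closed in `E₁`. -/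
def ConstStatement : Prop :=
  ∀ (K₁ : Type) [Field K₁] [CharZero K₁]
    (L : Type) [Field L] [Algebra K₁ L] [IsAlgClosed L]
    (F₁ : Type) [Field F₁] [Algebra K₁ F₁]
    (F' : Type) [Field F'] [Algebra L F'] [Algebra K₁ F'] [IsScalarTower K₁ L F']
    [Algebra F₁ F'] [IsScalarTower K₁ F₁ F']
    (E₁ : Type) [Field E₁] [Algebra K₁ E₁] [Algebra F₁ E₁] [IsScalarTower K₁ F₁ E₁]
    (_ : ∀ x : F₁, IsAlgebraic K₁ x → x ∈ (algebraMap K₁ F₁).range)
    (p : ℕ) (_ : p.Prime) (u : F₁) (g : E₁) (_ : g ^ p = algebraMap F₁ E₁ u)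
    (_ : Module.finrank F₁ E₁ = p) (_ : F₁⟮g⟯ = ⊤)
    (_ : ¬ ∃ v : F', v ^ p = algebraMap F₁ F' u)
    (x : E₁), IsAlgebraic K₁ x → x ∈ (algebraMap K₁ E₁).range

/-- **C12a (Layer 1 = pure glue)**: the abstract form of the main theorem.
`R` DVR with fraction field `K₁` (char 0), `L ⊇ K₁` algebraically closed and algebraic over
`K₁`; `F₁ / K₁(t)` finite with unramified Gauss prime, `F' = L · F₁`; the horizontal
ramification of `F' / L(t)` is tame with branch points `S ⊆ ℤ` pairwise distinct mod `ϖ`;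
`u ∈ F₁`, `u ≡ 1 mod ϖ O`, `p ∣ ord_W u` for all places `W` of `F' / L`.
Then `u` is a `p`-th power in `F'`. -/
def AbstractKummerStatement : Prop :=
  ∀ (R : Type) [CommRing R] [IsDomain R] [IsDiscreteValuationRing R]
    (K₁ : Type) [Field K₁] [CharZero K₁] [Algebra R K₁] [IsFractionRing R K₁]
    (L : Type) [Field L] [Algebra K₁ L] [IsAlgClosed L] [Algebra.IsAlgebraic K₁ L]
    (F₁ : Type) [Field F₁] [Algebra K₁ F₁] [Algebra R F₁] [IsScalarTower R K₁ F₁]
    (F' : Type) [Field F'] [Algebra L F'] [Algebra K₁ F'] [IsScalarTower K₁ L F']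
    [Algebra F₁ F'] [IsScalarTower K₁ F₁ F'] [Algebra.IsAlgebraic F₁ F']
    (ϖ : R) (_ : Irreducible ϖ) (t : F₁) (_ : Transcendental K₁ t)
    (_ : FiniteDimensional K₁⟮t⟯ F₁)
    (_ : FiniteDimensional L⟮algebraMap F₁ F' t⟯ F')
    (_ : ∀ x : F₁, IsAlgebraic K₁ x → x ∈ (algebraMap K₁ F₁).range)
    (_ : UnrGauss R K₁ ϖ t)
    (S : Finset ℤ) (_ : ∀ c ∈ S, ∀ c' ∈ S, c ≠ c' → IsUnit ((c - c' : ℤ) : R))
    (_ : ∀ c ∈ S, c ≠ 0 → IsUnit ((c : ℤ) : R))
    (e₀ : ℕ) (_ : IsUnit (e₀ : R)) (_ : ∃ ζ : R, IsPrimitiveRoot ζ e₀)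
    (_ : UnrOutside ℤ L S (algebraMap F₁ F' t)) (_ : TameAt ℤ L S e₀ (algebraMap F₁ F' t))
    (p : ℕ) (_ : p.Prime) (_ : IsUnit (p : R))
    (u : F₁) (_ : u ≠ 0) (_ : ModPi R ϖ t u 1)
    (_ : ∀ W : Place L F', (p : ℤ) ∣ W.ord (algebraMap F₁ F' u)),
    ∃ v : F', v ^ p = algebraMap F₁ F' u

end H7S18
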