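import Mathlib
import Fermat.Agent.S18.DefsC
import Fermat.Agent.S18.A0Export_helper28

/-!
# S18 route Y', slice C11a (helper16): induction on `m`

`H16C11a.h16_primeReduction : H7S18.PrimeReductionStatement`:
`(K)_p` for all primes `p ≠ ℓ` implies `(K)_m` for all `m > 0` prime to `ℓ`.

Step (`h16_kummer_mul`): `(K)_p` and `(K)_m'` give `(K)_{p m'}`.  If `ρY₁ = γ^{p m'} ρY₂` and
`p m' ∣ div(εY₁/εY₂)` then `εY₁ = g₁^p εY₂` by `(K)_p`; write `g₁ = a · εf/εg` (`gv_frac`); `a` is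
a unit of `A` because `a^p` is a unit of the Gauss ring; then `ρ(a f)^p = (γ^{m'} ρ g)^p`, so
`ρ(a f) = ζ γ^{m'} ρ g` with `ζ^p = 1`, `ζ ∈ k` (algebraically closed), `ζ = d^{m'}`; apply
`(K)_{m'}` to `(a f, g, d γ)`.
-/

set_option autoImplicit false
set_option linter.unusedSectionVars false

open ModularCurve HahnSeries AlgebraicCurve H28GV

noncomputable section

namespace H16C11a

section Step

variable {L : Type} [Field L] [Algebra ℚ L] {A : ValuationSubring L} {k : Type} [Field k]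
  {π : A →+* k} {N : ℕ} [NeZero N]

/-- `(K)_1` holds trivially. -/
theorem h16_kummer_one : H7S18.KummerStatement A π N 1 := by
  intro Y₁ Y₂ γ h₁ h₂ _ _ hY₂0 _ _ _ _
  have hεY₂ : coeffMap A.subtype Y₂ ≠ 0 := gvEps_ne_zero_of_rho A π Y₂ hY₂0
  refine ⟨coeffMap A.subtype Y₁ / coeffMap A.subtype Y₂, div_mem h₁ h₂, ?_⟩
  rw [pow_one, div_mul_cancel₀ _ hεY₂]

/-- an element of a valuation subring whose `p`-th power is a unit is a unit -/
theorem h16_mem_of_pow_unit (a : L) (p : ℕ) (hp : 0 < p) (h1 : a ^ p ∈ A)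
    (h2 : (a ^ p)⁻¹ ∈ A) : a ∈ A ∧ a⁻¹ ∈ A := by
  obtain ⟨n, rfl⟩ : ∃ n, p = n + 1 := ⟨p - 1, by omega⟩
  by_cases ha0 : a = 0
  · subst ha0
    exact ⟨A.zero_mem, by rw [inv_zero]; exact A.zero_mem⟩
  rcases A.mem_or_inv_mem a with h | h
  · refine ⟨h, ?_⟩
    have : a⁻¹ = a ^ n * (a ^ (n + 1))⁻¹ := by
      rw [pow_succ, mul_inv, ← mul_assoc, mul_inv_cancel₀ (pow_ne_zero n ha0), one_mul]
    rw [this]
    exact A.mul_mem _ _ (pow_mem h n) h2
  · refine ⟨?_, h⟩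
    have : a = (a⁻¹) ^ n * a ^ (n + 1) := by
      rw [pow_succ, ← mul_assoc, inv_pow, inv_mul_cancel₀ (pow_ne_zero n ha0), one_mul]
    rw [this]
    exact A.mul_mem _ _ (pow_mem h n) h1

/-- roots of unity in `k((q))` are constants when `k` is algebraically closed -/
theorem h16_const_of_pow_eq_one [IsAlgClosed k] (ζ : LaurentSeries k) (p : ℕ) (hp : 0 < p)
    (h : ζ ^ p = 1) : ∃ c : k, c ≠ 0 ∧ ζ = HahnSeries.C c := by
  have hint : IsIntegral k ζ := by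
    refine ⟨Polynomial.X ^ p - 1, Polynomial.monic_X_pow_sub_C (1 : k) hp.ne', ?_⟩
    simp [h]
  have hbot : IntermediateField.adjoin k {ζ} = ⊥ := by
    have halg : Algebra.IsAlgebraic k (IntermediateField.adjoin k {ζ}) :=
      IntermediateField.isAlgebraic_adjoin_simple hint
    exact IntermediateField.eq_bot_of_isAlgClosed_of_isAlgebraic _
  have hmem : ζ ∈ (⊥ : IntermediateField k (LaurentSeries k)) := by
    rw [← hbot]
    exact IntermediateField.mem_adjoin_simple_self k ζ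
  obtain ⟨c, hc⟩ := IntermediateField.mem_bot.1 hmem
  refine ⟨c, ?_, ?_⟩
  · rintro rfl
    rw [map_zero] at hc
    rw [← hc, zero_pow hp.ne'] at h
    exact zero_ne_one h
  · rw [← hc, gv_C_eq_algebraMap]

/-- the inductive step: `(K)_p` and `(K)_m'` give `(K)_{p m'}` -/
theorem h16_kummer_mul (B : GVBasis A π N) (hπ : ∀ a : A, π a ≠ 0 → ((a : L))⁻¹ ∈ A)
    [IsAlgClosed k] (p m' : ℕ) (hp : 0 < p) (hm' : 0 < m')
    (hKp : H7S18.KummerStatement A π N p) (hKm : H7S18.KummerStatement A π N m') :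
    H7S18.KummerStatement A π N (p * m') := by
  intro Y₁ Y₂ γ h₁ h₂ hk₁ hk₂ hY₂0 hγ0 hγ hred hdiv
  -- Step 1: `(K)_p`
  have hdivp : ∀ P : Place L (laurentBaseChange L (modularFunctionFieldFull N)),
      (p : ℤ) ∣ P.ord (⟨_, h₁⟩ : laurentBaseChange L (modularFunctionFieldFull N)) -
        P.ord (⟨_, h₂⟩ : laurentBaseChange L (modularFunctionFieldFull N)) := fun P =>
    dvd_trans (by push_cast; exact dvd_mul_right _ _) (hdiv P)
  obtain ⟨g₁, hg₁, hg₁eq⟩ := hKp Y₁ Y₂ (γ ^ m') h₁ h₂ hk₁ hk₂ hY₂0 (pow_ne_zero _ hγ0)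
    (pow_mem hγ m') (by rw [hred, ← pow_mul, mul_comm m' p]) hdivp
  have hρY₁ : coeffMap π Y₁ ≠ 0 := by
    rw [hred]; exact mul_ne_zero (pow_ne_zero _ hγ0) hY₂0
  have hεY₂ : gvEps A Y₂ ≠ 0 := gvEps_ne_zero_of_rho A π Y₂ hY₂0
  have hεY₁ : gvEps A Y₁ ≠ 0 := gvEps_ne_zero_of_rho A π Y₁ hρY₁
  have hg₁eq' : gvEps A Y₁ = g₁ ^ p * gvEps A Y₂ := hg₁eq
  have hg₁0 : g₁ ≠ 0 := by
    rintro rfl
    rw [zero_pow hp.ne', zero_mul] at hg₁eq'
    exact hεY₁ hg₁eq'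
  -- Step 2: fraction form of `g₁`
  obtain ⟨a, f, g, ha, hf, hg, hfL, hgL, hfk, hgk, hfrac⟩ :=
    gv_frac B g₁ (gv_coe_mem_full N ⟨g₁, hg₁⟩) hg₁0
  have hεf : gvEps A f ≠ 0 := gvEps_ne_zero_of_rho A π f hf
  have hεg : gvEps A g ≠ 0 := gvEps_ne_zero_of_rho A π g hg
  -- Step 3: `a` is a unit of `A`
  have key : HahnSeries.C (a ^ p) * gvEps A (f ^ p * Y₂) = gvEps A (Y₁ * g ^ p) := by
    rw [map_mul, map_mul, map_pow, map_pow, map_pow, hg₁eq']
    have h3 : (g₁ * gvEps A g) ^ p = (HahnSeries.C a * gvEps A f) ^ p := by rw [hfrac]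
    rw [mul_pow, mul_pow] at h3
    calc HahnSeries.C a ^ p * (gvEps A f ^ p * gvEps A Y₂)
        = (HahnSeries.C a ^ p * gvEps A f ^ p) * gvEps A Y₂ := by ring
      _ = (g₁ ^ p * gvEps A g ^ p) * gvEps A Y₂ := by rw [h3]
      _ = g₁ ^ p * gvEps A Y₂ * gvEps A g ^ p := by ring
  have hρ1 : gvRho A π (f ^ p * Y₂) ≠ 0 := by
    rw [map_mul, map_pow]; exact mul_ne_zero (pow_ne_zero _ hf) hY₂0
  have hρ2 : gvRho A π (Y₁ * g ^ p) ≠ 0 := by
    rw [map_mul, map_pow]; exact mul_ne_zero hρY₁ (pow_ne_zero _ hg)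
  have hap0 : a ^ p ≠ 0 := pow_ne_zero _ ha
  have hap : a ^ p ∈ A := gv_const_mem hπ (a ^ p) ⟨Y₁ * g ^ p, f ^ p * Y₂, hρ1, key⟩
  have hap' : (a ^ p)⁻¹ ∈ A := by
    refine gv_const_mem hπ ((a ^ p)⁻¹) ⟨f ^ p * Y₂, Y₁ * g ^ p, hρ2, ?_⟩
    rw [← key, ← mul_assoc, ← map_mul, inv_mul_cancel₀ hap0, map_one, one_mul]
  obtain ⟨haA, haA'⟩ := h16_mem_of_pow_unit a p hp hap hap'
  -- Step 4: `Z₁ = a f`, `Z₂ = g`
  set a' : A := ⟨a, haA⟩ with ha'
  have hπa : π a' ≠ 0 := by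
    intro h0
    have h1 : a' * ⟨a⁻¹, haA'⟩ = 1 := Subtype.ext (mul_inv_cancel₀ ha)
    have h2 := congrArg π h1
    rw [map_mul, h0, zero_mul, map_one] at h2
    exact zero_ne_one h2
  set Z₁ : LaurentSeries A := HahnSeries.C a' * f with hZ₁
  have hεZ₁ : gvEps A Z₁ = g₁ * gvEps A g := by
    rw [hZ₁, map_mul, gvEps_C, hfrac]
  have hρZ₁ : gvRho A π Z₁ = HahnSeries.C (π a') * gvRho A π f := by
    rw [hZ₁, map_mul, gvRho_C]
  have hCk : ∀ c : k, (HahnSeries.C c : LaurentSeries k) ∈ modularFunctionFieldFullC k N := by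
    intro c
    rw [gv_C_eq_algebraMap]
    exact (modularFunctionFieldFullC k N).algebraMap_mem c
  have hZ₁L : coeffMap A.subtype Z₁ ∈ laurentBaseChange L (modularFunctionFieldFull N) := by
    show gvEps A Z₁ ∈ _
    rw [hεZ₁]
    exact mul_mem hg₁ (gv_mem_base_of_full N hgL)
  have hZ₂L : coeffMap A.subtype g ∈ laurentBaseChange L (modularFunctionFieldFull N) :=
    gv_mem_base_of_full N hgL
  have hZ₁k : coeffMap π Z₁ ∈ modularFunctionFieldFullC k N := by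
    show gvRho A π Z₁ ∈ _
    rw [hρZ₁]
    exact mul_mem (hCk _) hfk
  have hρZ₁0 : gvRho A π Z₁ ≠ 0 := by
    rw [hρZ₁]
    refine mul_ne_zero ?_ hf
    intro h0
    apply hπa
    have := congrArg (fun z : LaurentSeries k => z.coeff 0) h0
    simpa using this
  -- Step 5: the reduced relation
  have hrel : Z₁ ^ p * Y₂ = Y₁ * g ^ p := by
    apply gvEps_injective A
    rw [map_mul, map_mul, map_pow, map_pow, hεZ₁, hg₁eq']
    ring
  have hrelρ : gvRho A π Z₁ ^ p = (γ ^ m' * gvRho A π g) ^ p := by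
    have h3 := congrArg (gvRho A π) hrel
    rw [map_mul, map_mul, map_pow, map_pow] at h3
    have hred' : gvRho A π Y₁ = γ ^ (p * m') * gvRho A π Y₂ := hred
    rw [hred'] at h3
    have h4 : gvRho A π Z₁ ^ p * gvRho A π Y₂ =
        (γ ^ m' * gvRho A π g) ^ p * gvRho A π Y₂ := by
      rw [h3, mul_pow, ← pow_mul, mul_comm m' p]
      ring
    exact mul_right_cancel₀ hY₂0 h4
  -- Step 6: the root of unity
  have hden : γ ^ m' * gvRho A π g ≠ 0 := mul_ne_zero (pow_ne_zero _ hγ0) hg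
  obtain ⟨c, hc0, hc⟩ := h16_const_of_pow_eq_one (gvRho A π Z₁ / (γ ^ m' * gvRho A π g)) p hp
    (by rw [div_pow, hrelρ, div_self (pow_ne_zero _ hden)])
  obtain ⟨d, hd⟩ := IsAlgClosed.exists_pow_nat_eq c hm'
  have hd0 : d ≠ 0 := by
    rintro rfl
    rw [zero_pow hm'.ne'] at hd
    exact hc0 hd.symm
  have hCd0 : (HahnSeries.C d : LaurentSeries k) ≠ 0 := by
    intro h0
    apply hd0
    have := congrArg (fun z : LaurentSeries k => z.coeff 0) h0
    simpa using this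
  have hZrel : coeffMap π Z₁ = (HahnSeries.C d * γ) ^ m' * coeffMap π g := by
    show gvRho A π Z₁ = (HahnSeries.C d * γ) ^ m' * gvRho A π g
    rw [mul_pow, ← map_pow, hd, ← hc, mul_assoc, div_mul_cancel₀ _ hden]
  -- Step 8: divisibility
  have hdiv' : ∀ P : Place L (laurentBaseChange L (modularFunctionFieldFull N)),
      (m' : ℤ) ∣ P.ord (⟨_, hZ₁L⟩ : laurentBaseChange L (modularFunctionFieldFull N)) -
        P.ord (⟨_, hZ₂L⟩ : laurentBaseChange L (modularFunctionFieldFull N)) := by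
    intro P
    have hgF0 : (⟨g₁, hg₁⟩ : laurentBaseChange L (modularFunctionFieldFull N)) ≠ 0 :=
      fun h => hg₁0 (congrArg Subtype.val h)
    have hZ₂F0 : (⟨_, hZ₂L⟩ : laurentBaseChange L (modularFunctionFieldFull N)) ≠ 0 :=
      fun h => hεg (congrArg Subtype.val h)
    have hY₂F0 : (⟨_, h₂⟩ : laurentBaseChange L (modularFunctionFieldFull N)) ≠ 0 :=
      fun h => hεY₂ (congrArg Subtype.val h)
    have e1 : (⟨_, hZ₁L⟩ : laurentBaseChange L (modularFunctionFieldFull N)) =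
        ⟨g₁, hg₁⟩ * ⟨_, hZ₂L⟩ := Subtype.ext hεZ₁
    have e2 : (⟨_, h₁⟩ : laurentBaseChange L (modularFunctionFieldFull N)) =
        ⟨g₁, hg₁⟩ ^ (p : ℤ) * ⟨_, h₂⟩ := by
      rw [zpow_natCast]
      exact Subtype.ext hg₁eq
    have h5 := hdiv P
    rw [e2, P.ord_mul (zpow_ne_zero _ hgF0) hY₂F0, P.ord_zpow, add_sub_cancel_right] at h5
    rw [e1, P.ord_mul hgF0 hZ₂F0, add_sub_cancel_right]
    have hp0 : (p : ℤ) ≠ 0 := by exact_mod_cast hp.ne'
    have h6 : (p : ℤ) * (m' : ℤ) ∣ (p : ℤ) * P.ord ⟨g₁, hg₁⟩ := by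
      simpa using h5
    exact (mul_dvd_mul_iff_left hp0).1 h6
  -- Step 9: `(K)_{m'}`
  obtain ⟨g₂, hg₂, hg₂eq⟩ := hKm Z₁ g (HahnSeries.C d * γ) hZ₁L hZ₂L hZ₁k hgk hg
    (mul_ne_zero hCd0 hγ0) (mul_mem (hCk d) hγ) hZrel hdiv'
  refine ⟨g₂, hg₂, ?_⟩
  have hg₂eq' : gvEps A Z₁ = g₂ ^ m' * gvEps A g := hg₂eq
  have h7 : g₁ = g₂ ^ m' := by
    rw [hεZ₁] at hg₂eq'
    exact mul_right_cancel₀ hεg hg₂eq'
  show gvEps A Y₁ = g₂ ^ (p * m') * gvEps A Y₂
  rw [hg₁eq', h7, ← pow_mul, mul_comm m' p]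

end Step

/-- **C11a**: `(K)_p` for all primes `p ≠ ℓ` gives `(K)_m` for all `m > 0` prime to `ℓ`. -/
theorem h16_primeReduction : H7S18.PrimeReductionStatement := by
  intro N _ ℓ _ hℓN A hA hK m
  have hB := gv_basis_bar A ℓ hA N hℓN
  obtain ⟨B⟩ := hB
  have : IsAlgClosed (IsLocalRing.ResidueField A) := gv_residue_isAlgClosed A
  induction m using Nat.strong_induction_on with
  | _ m ih =>
    intro hm hℓm
    by_cases h1 : m = 1
    · subst h1
      exact h16_kummer_one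
    · obtain ⟨p, hp, hpm⟩ := Nat.exists_prime_and_dvd h1
      obtain ⟨m', rfl⟩ := hpm
      have hm'pos : 0 < m' := Nat.pos_of_ne_zero (by rintro rfl; simp at hm)
      have hpℓ : p ≠ ℓ := by
        rintro rfl
        exact hℓm (dvd_mul_right _ _)
      have hℓm' : ¬ ℓ ∣ m' := fun h => hℓm (dvd_mul_of_dvd_right h _)
      have hlt : m' < p * m' := by
        have := hp.two_le
        nlinarith
      exact h16_kummer_mul B (gv_residue_unit A) p m' hp.pos hm'pos (hK p hp hpℓ)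
        (ih m' hlt hm'pos hℓm')

end H16C11a
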