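import Mathlib
import Fermat.Agent.S18.DefsC
import Fermat.Agent.S24.A2
import Fermat.Agent.S24.A5Integral
import Fermat.Agent.S24.BDegreeFinal
import Fermat.Agent.S24.BLocalGen
import Fermat.Agent.S24.C1
import Fermat.Prelude.Def_AlgebraicCurve_DivisorPushPull

/-!
# S18 (item 75), route Y', slice C11b (helper12): level change by the norm

`(K)_p` at level `N'` implies `(K)_p` at level `N ∣ N'` when `ψ(N') / ψ(N)` is prime to `p`:
* `[F_N : ℚ̄(j)] = ψ(N)` exactly (upper bound `RH24.B_degree`, lower bound from the generic local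
  data `RH24.B_local_generic`);
* hence `[F_N' : F_N] = ψ(N') / ψ(N)`;
* if `u ∈ F_N` is a `p`-th power in `F_N'` and `p ∤ [F_N' : F_N]`, then `u` is a `p`-th power in
  `F_N` (norm + Bezout);
* places of `F_N'` restrict to places of `F_N` (`Place.restrict`, `Place.ord_restrict`).
-/

set_option autoImplicit false
set_option linter.style.haveILetI false
set_option linter.unusedSectionVars false

noncomputable section

open Polynomial IntermediateField AlgebraicCurve ModularCurve MatrixGroups CongruenceSubgroup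

namespace H12C11b

open RH24 H7S18

section abstract

variable {K : Type*} [Field K] {Λ : Type*} [Field Λ] [Algebra K Λ]

/-- **norm + Bezout**: if `u ∈ F` is a `p`-th power in `F' ⊇ F` and `[F' : F]` is prime to
`p`, then `u` is a `p`-th power in `F`. -/
theorem exists_pow_eq_of_coprime (F F' : IntermediateField K Λ) (hle : F ≤ F') (p : ℕ)
    (hcop : Nat.Coprime (relfinrank F F') p) {u : Λ} (hu : u ∈ F) {g' : Λ} (hg' : g' ∈ F')
    (h : g' ^ p = u) : ∃ g ∈ F, g ^ p = u := by
  set d := relfinrank F F' with hd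
  rcases Nat.eq_zero_or_pos d with hd0 | hdpos
  · -- then `p = 1`
    rw [hd0, Nat.coprime_zero_left] at hcop
    exact ⟨u, hu, by rw [hcop, pow_one]⟩
  rcases Nat.eq_zero_or_pos p with hp0 | hppos
  · refine ⟨1, one_mem _, ?_⟩
    rw [← h, hp0, pow_zero, pow_zero]
  rcases eq_or_ne u 0 with hu0 | hu0
  · refine ⟨0, zero_mem _, ?_⟩
    rw [zero_pow hppos.ne', hu0]
  have hfr : Module.finrank F (extendScalars hle) = d := (relfinrank_eq_finrank_of_le hle).symm
  haveI : FiniteDimensional F (extendScalars hle) :=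
    Module.finite_of_finrank_pos (by rw [hfr]; exact hdpos)
  haveI : Module.Free F (extendScalars hle) := Module.Free.of_divisionRing _ _
  set G : extendScalars hle := ⟨g', (mem_extendScalars hle).mpr hg'⟩ with hG
  set U : F := ⟨u, hu⟩ with hU
  have hGU : G ^ p = algebraMap F (extendScalars hle) U := by
    apply Subtype.ext
    exact h
  set n : F := Algebra.norm F G with hn
  have hnp : n ^ p = U ^ d := by
    rw [hn, ← map_pow, hGU, Algebra.norm_algebraMap, hfr]
  have hU0 : U ≠ 0 := fun h0 => hu0 (congrArg Subtype.val h0)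
  have hn0 : n ≠ 0 := by
    intro h0
    rw [h0, zero_pow hppos.ne'] at hnp
    exact hU0 (pow_eq_zero_iff hdpos.ne' |>.mp hnp.symm)
  obtain ⟨a, b, hab⟩ : ∃ a b : ℤ, a * d + b * p = 1 := by
    have := (Nat.isCoprime_iff_coprime.mpr hcop)
    obtain ⟨a, b, hab⟩ := this
    exact ⟨a, b, hab⟩
  refine ⟨((n ^ a * U ^ b : F) : Λ), (n ^ a * U ^ b : F).2, ?_⟩
  have key : (n ^ a * U ^ b) ^ p = U := by
    rw [mul_pow, ← zpow_natCast (n ^ a), ← zpow_mul, mul_comm a, zpow_mul, zpow_natCast, hnp,
      ← zpow_natCast (U ^ b), ← zpow_mul, ← zpow_natCast U d, ← zpow_mul, ← zpow_add₀ hU0]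
    rw [show (d : ℤ) * a + b * p = 1 by linarith, zpow_one]
  have := congrArg (Subtype.val) key
  simpa using this

end abstract

section degree

variable (N : ℕ) [NeZero N]

/-- **the exact degree**: `[F_N : ℚ̄(j)] = ψ(N)` -/
theorem finrank_bar :
    Module.finrank Kbar⟮Jbar N⟯ (modularFunctionFieldBar N) = dedekindPsi N := by
  haveI := (B_degree N).1
  rw [← card_cosets N]
  apply le_antisymm (B_degree N).2
  obtain ⟨E, instE, w, σ, hinj, hagK, hleK, hagz, hltz, -, -⟩ :=
    B_local_generic N 1 one_ne_zero (by norm_num)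
  letI := instE
  let D : H2LocalData Kbar (Jbar N - algebraMap Kbar _ 1) (SL(2, ℤ) ⧸ Gamma0 N) E :=
    { w := w, σ := σ, inj := hinj, agreeK := hagK, leK := hleK, agreez := hagz, ltz := hltz }
  haveI hfd : FiniteDimensional Kbar⟮Jbar N - algebraMap Kbar _ 1⟯ (modularFunctionFieldBar N) := by
    rw [h5a_adjoin_sub_const]; infer_instance
  have hn : Module.finrank Kbar⟮Jbar N - algebraMap Kbar _ 1⟯ (modularFunctionFieldBar N) =
      Module.finrank Kbar⟮Jbar N⟯ (modularFunctionFieldBar N) := by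
    rw [h5a_adjoin_sub_const]
  have := D.card_le
  rwa [hn] at this

/-- the field `ℚ̄(j) ⊆ ℚ̄((q))` -/
def jField : IntermediateField Kbar (LaurentSeries Kbar) := Kbar⟮jqModC Kbar⟯

theorem jField_le : jField ≤ modularFunctionFieldBar N := by
  rw [jField, ← h8b_map_adjoin N]
  rintro _ ⟨x, -, rfl⟩
  exact x.2

/-- `[F_N : ℚ̄(j)] = ψ(N)`, inside `ℚ̄((q))` -/
theorem relfinrank_jField :
    relfinrank jField (modularFunctionFieldBar N) = dedekindPsi N := by
  rw [← finrank_bar N, ← relfinrank_top_right, ← relfinrank_map_map _ _ (modularFunctionFieldBar N).val,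
    h8b_map_adjoin N, ← AlgHom.fieldRange_eq_map, IntermediateField.fieldRange_val]
  rfl

theorem dedekindPsi_pos : 0 < dedekindPsi N := by
  rw [← card_cosets N]
  exact Nat.card_pos

end degree

theorem bar_le {N N' : ℕ} [NeZero N] [NeZero N'] (h : N ∣ N') :
    modularFunctionFieldBar N ≤ modularFunctionFieldBar N' := by
  apply IntermediateField.adjoin.mono
  exact Set.image_mono (full_degeneracy_le h)

/-- `[F_N' : F_N] = ψ(N') / ψ(N)` -/
theorem relfinrank_bar {N N' : ℕ} [NeZero N] [NeZero N'] (h : N ∣ N') :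
    relfinrank (modularFunctionFieldBar N) (modularFunctionFieldBar N') =
      dedekindPsi N' / dedekindPsi N := by
  have h1 := relfinrank_mul_relfinrank (jField_le N) (bar_le h)
  rw [relfinrank_jField N, relfinrank_jField N'] at h1
  rw [← h1, Nat.mul_div_cancel_left _ (dedekindPsi_pos N)]

section places

variable {N N' : ℕ} [NeZero N] [NeZero N']

/-- every element of `F_N'` is integral over `F_N` -/
theorem isIntegral_bar (hle : modularFunctionFieldBar N ≤ modularFunctionFieldBar N')
    (x : modularFunctionFieldBar N') :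
    (IntermediateField.inclusion hle).toRingHom.IsIntegralElem x := by
  haveI := (B_degree N').1
  have hx : IsIntegral Kbar⟮Jbar N'⟯ x := IsIntegral.of_finite Kbar⟮Jbar N'⟯ x
  -- the map `ℚ̄(j) → F_N`
  have hmem : ∀ y : Kbar⟮Jbar N'⟯,
      (((y : modularFunctionFieldBar N') : LaurentSeries Kbar)) ∈ modularFunctionFieldBar N := by
    intro y
    apply jField_le N
    rw [jField, ← h8b_map_adjoin N']
    exact ⟨y.1, y.2, rfl⟩
  let φ : Kbar⟮Jbar N'⟯ →+* modularFunctionFieldBar N :=
    RingHom.codRestrict ((modularFunctionFieldBar N').val.toRingHom.comp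
      (Kbar⟮Jbar N'⟯.val.toRingHom)) (modularFunctionFieldBar N) hmem
  have hφ : (IntermediateField.inclusion hle).toRingHom.comp φ =
      algebraMap Kbar⟮Jbar N'⟯ (modularFunctionFieldBar N') := by
    ext y
    rfl
  obtain ⟨q, hq, hqx⟩ := hx
  refine ⟨q.map φ, hq.map φ, ?_⟩
  rw [Polynomial.eval₂_map, hφ]
  exact hqx

/-- the divisibility condition on places lifts from `F_N` to `F_N'` -/
theorem dvd_ord_of_dvd_ord (hle : modularFunctionFieldBar N ≤ modularFunctionFieldBar N')
    (m : ℤ) {x₁ x₂ : LaurentSeries Kbar} (h₁ : x₁ ∈ modularFunctionFieldBar N)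
    (h₂ : x₂ ∈ modularFunctionFieldBar N)
    (h : ∀ P : Place Kbar (modularFunctionFieldBar N),
      m ∣ P.ord (⟨x₁, h₁⟩ : modularFunctionFieldBar N) -
        P.ord (⟨x₂, h₂⟩ : modularFunctionFieldBar N))
    (P' : Place Kbar (modularFunctionFieldBar N')) :
    m ∣ P'.ord (⟨x₁, hle h₁⟩ : modularFunctionFieldBar N') -
        P'.ord (⟨x₂, hle h₂⟩ : modularFunctionFieldBar N') := by
  letI : Algebra (modularFunctionFieldBar N) (modularFunctionFieldBar N') :=
    (IntermediateField.inclusion hle).toRingHom.toAlgebra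
  haveI : IsScalarTower Kbar (modularFunctionFieldBar N) (modularFunctionFieldBar N') :=
    IsScalarTower.of_algebraMap_eq (fun x => rfl)
  haveI : Algebra.IsIntegral (modularFunctionFieldBar N) (modularFunctionFieldBar N') :=
    ⟨fun x => isIntegral_bar hle x⟩
  have e1 := P'.ord_restrict (F := modularFunctionFieldBar N) ⟨x₁, h₁⟩
  have e2 := P'.ord_restrict (F := modularFunctionFieldBar N) ⟨x₂, h₂⟩
  have e1' : P'.ord (⟨x₁, hle h₁⟩ : modularFunctionFieldBar N') =
      P'.ord (algebraMap (modularFunctionFieldBar N) (modularFunctionFieldBar N') ⟨x₁, h₁⟩) := rfl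
  have e2' : P'.ord (⟨x₂, hle h₂⟩ : modularFunctionFieldBar N') =
      P'.ord (algebraMap (modularFunctionFieldBar N) (modularFunctionFieldBar N') ⟨x₂, h₂⟩) := rfl
  rw [e1', e2', e1, e2, ← mul_sub]
  exact Dvd.dvd.mul_left (h (P'.restrict (modularFunctionFieldBar N))) _

end places

/-- **C11b** -/
theorem levelChange : LevelChangeStatement := by
  intro N N' _ _ ℓ _ _hℓ hNN' A _hA p _hp hcop hK' Y₁ Y₂ γ h₁ h₂ hρ₁ hρ₂ hρ₂ne hγne hγmem heq
    hplaces
  have hle : modularFunctionFieldBar N ≤ modularFunctionFieldBar N' := bar_le hNN'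
  have hleC := full_degeneracyC_le (IsLocalRing.ResidueField A) hNN'
  obtain ⟨g', hg', hgeq⟩ := hK' Y₁ Y₂ γ (hle h₁) (hle h₂) (hleC hρ₁) (hleC hρ₂) hρ₂ne hγne
    (hleC hγmem) heq (dvd_ord_of_dvd_ord hle (p : ℤ) h₁ h₂ hplaces)
  have hY₂ne : coeffMap A.subtype Y₂ ≠ 0 := by
    intro h0
    apply hρ₂ne
    have : Y₂ = 0 := by
      ext k
      have h1 : ((Y₂.coeff k : A) : Kbar) = 0 := congrArg (fun y => y.coeff k) h0
      rw [HahnSeries.coeff_zero]
      rw [h1]
      rfl
    rw [this, map_zero]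
  have hu : coeffMap A.subtype Y₁ / coeffMap A.subtype Y₂ ∈ modularFunctionFieldBar N :=
    div_mem h₁ h₂
  have hgu : g' ^ p = coeffMap A.subtype Y₁ / coeffMap A.subtype Y₂ := by
    rw [eq_div_iff hY₂ne]
    exact hgeq.symm
  obtain ⟨g, hg, hgp⟩ := exists_pow_eq_of_coprime _ _ hle p
    (by rw [relfinrank_bar hNN']; exact hcop) hu hg' hgu
  refine ⟨g, hg, ?_⟩
  rw [hgp, div_mul_cancel₀ _ hY₂ne]

end H12C11b
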