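/-
helper19: S18 route Y', slice C12a, valuation-theoretic lemmas at a place `W` of a function field
`F'` over an algebraically closed field `L`:
* `h19_ord_aeval_nonneg`  : `ord_W (P(t)) ≥ 0` if `ord_W t ≥ 0`
* `h19_exists_root_ord`   : `ord_W (Q(t)) = 1`  ⟹  `ord_W (t - a) = 1` for a root `a ∈ L` of `Q`
* `h19_ord_minpoly`       : `ord_W (t - a) = 1`  ⟹  `ord_W (Q₀(t)) = 1` for `Q₀ = minpoly K₁ a`
* `h19_exists_descended_uniformizer` : combination.
-/
import Mathlib
import Fermat.Agent.S24.PlaceBasic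

set_option autoImplicit false
set_option linter.unusedSectionVars false
set_option linter.style.haveILetI false

namespace H19S18

open Polynomial IntermediateField AlgebraicCurve RH24

section Ord

variable {L F : Type*} [Field L] [Field F] [Algebra L F] (W : Place L F)

theorem h19_aeval_mem {t : F} (ht : t ∈ W.toValuationSubring) (P : L[X]) :
    aeval t P ∈ W.toValuationSubring := by
  induction P using Polynomial.induction_on' with
  | add p q hp hq => rw [map_add]; exact W.toValuationSubring.add_mem _ _ hp hq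
  | monomial n a =>
    rw [aeval_monomial]
    exact W.toValuationSubring.mul_mem _ _ (W.algebraMap_mem' a)
      (W.toValuationSubring.pow_mem ht n)

theorem h19_mem_of_ord_nonneg {t : F} (ht : 0 ≤ W.ord t) : t ∈ W.toValuationSubring := by
  rcases eq_or_ne t 0 with rfl | h0
  · exact W.toValuationSubring.zero_mem
  · exact (h20_mem_iff_ord_nonneg W h0).mpr ht

theorem h19_ord_aeval_nonneg {t : F} (ht : 0 ≤ W.ord t) (P : L[X]) : 0 ≤ W.ord (aeval t P) :=
  h20_ord_nonneg_of_mem W (h19_aeval_mem W (h19_mem_of_ord_nonneg W ht) P)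

theorem h19_aeval_ne_zero {t : F} (ht : Transcendental L t) {P : L[X]} (hP : P ≠ 0) :
    aeval t P ≠ 0 := fun h => hP (transcendental_iff.mp ht P h)

theorem h19_sub_const_ne_zero {t : F} (ht : Transcendental L t) (a : L) :
    t - algebraMap L F a ≠ 0 := by
  have := h19_aeval_ne_zero ht (X_sub_C_ne_zero a)
  simpa using this

theorem h19_ord_sub_const_nonneg {t : F} (ht : 0 ≤ W.ord t) (a : L) :
    0 ≤ W.ord (t - algebraMap L F a) := by
  have := h19_ord_aeval_nonneg W ht (X - C a)
  simpa using this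

/-- a product of factors `t - a` of positive order has a factor of positive order. -/
theorem h19_exists_factor_ord_pos {t : F} (htr : Transcendental L t) (ht : 0 ≤ W.ord t)
    (m : Multiset L) (h : 1 ≤ W.ord (m.map (fun a => t - algebraMap L F a)).prod) :
    ∃ a ∈ m, 1 ≤ W.ord (t - algebraMap L F a) := by
  induction m using Multiset.induction_on with
  | empty =>
    rw [Multiset.map_zero, Multiset.prod_zero, Place.ord_one] at h
    omega
  | cons a m ih =>
    rw [Multiset.map_cons, Multiset.prod_cons] at h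
    have hprod : (m.map (fun a => t - algebraMap L F a)).prod ≠ 0 := by
      apply Multiset.prod_ne_zero
      intro h0
      obtain ⟨b, -, hb⟩ := Multiset.mem_map.mp h0
      exact h19_sub_const_ne_zero htr b hb
    rw [Place.ord_mul W (h19_sub_const_ne_zero htr a) hprod] at h
    by_cases ha : 1 ≤ W.ord (t - algebraMap L F a)
    · exact ⟨a, Multiset.mem_cons_self a m, ha⟩
    · have h0 := h19_ord_sub_const_nonneg W ht a
      obtain ⟨b, hb, hb1⟩ := ih (by omega)
      exact ⟨b, Multiset.mem_cons_of_mem hb, hb1⟩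

/-- if `ord_W (Q(t)) = 1` then `ord_W (t - a) = 1` for some `a ∈ L` (`L` algebraically closed). -/
theorem h19_exists_root_ord [IsAlgClosed L] {t : F} (htr : Transcendental L t)
    (ht : 0 ≤ W.ord t) (Q : L[X]) (hQ : W.ord (aeval t Q) = 1) :
    ∃ a : L, W.ord (t - algebraMap L F a) = 1 := by
  have hQ0 : Q ≠ 0 := by
    rintro rfl
    rw [map_zero, Place.ord_zero] at hQ
    omega
  have hsplit := (IsAlgClosed.splits Q).eq_prod_roots
  have hlc : Q.leadingCoeff ≠ 0 := leadingCoeff_ne_zero.mpr hQ0
  have heval : aeval t Q = algebraMap L F Q.leadingCoeff *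
      (Q.roots.map (fun a => t - algebraMap L F a)).prod := by
    conv_lhs => rw [hsplit]
    rw [map_mul, aeval_C, map_multiset_prod, Multiset.map_map]
    congr 2
    apply Multiset.map_congr rfl
    intro a _
    simp
  have hprod : (Q.roots.map (fun a => t - algebraMap L F a)).prod ≠ 0 := by
    apply Multiset.prod_ne_zero
    intro h0
    obtain ⟨b, -, hb⟩ := Multiset.mem_map.mp h0
    exact h19_sub_const_ne_zero htr b hb
  have hlcF : algebraMap L F Q.leadingCoeff ≠ 0 := by simpa using hlc
  have hord : W.ord (Q.roots.map (fun a => t - algebraMap L F a)).prod = 1 := by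
    rw [heval, Place.ord_mul W hlcF hprod, h20_ord_algebraMap] at hQ
    omega
  obtain ⟨a, ha, ha1⟩ := h19_exists_factor_ord_pos W htr ht Q.roots (by omega)
  refine ⟨a, le_antisymm ?_ ha1⟩
  -- `Q = (X - a) Q''`
  have hroot : Q.IsRoot a := (mem_roots hQ0).mp ha
  have hdiv := mul_divByMonic_eq_iff_isRoot.mpr hroot
  have h2 : aeval t Q = (t - algebraMap L F a) * aeval t (Q /ₘ (X - C a)) := by
    conv_lhs => rw [← hdiv]
    rw [map_mul]
    simp
  have hq2 : Q /ₘ (X - C a) ≠ 0 := by
    intro h0
    rw [h0, mul_zero] at hdiv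
    exact hQ0 hdiv.symm
  rw [h2, Place.ord_mul W (h19_sub_const_ne_zero htr a) (h19_aeval_ne_zero htr hq2)] at hQ
  have := h19_ord_aeval_nonneg W ht (Q /ₘ (X - C a))
  omega

/-- if `ord_W (t - a) = 1` and `P` is a separable polynomial over `L` with root `a`, then
`ord_W (P(t)) = 1`. -/
theorem h19_ord_separable {t : F} (htr : Transcendental L t) (ht : 0 ≤ W.ord t)
    (a : L) (ha : W.ord (t - algebraMap L F a) = 1) (P : L[X]) (hsep : P.Separable)
    (hroot : P.IsRoot a) : W.ord (aeval t P) = 1 := by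
  have hP0 : P ≠ 0 := hsep.ne_zero
  set P₂ := P /ₘ (X - C a) with hP₂
  have hdiv : (X - C a) * P₂ = P := mul_divByMonic_eq_iff_isRoot.mpr hroot
  have hP₂0 : P₂ ≠ 0 := by
    intro h0
    rw [h0, mul_zero] at hdiv
    exact hP0 hdiv.symm
  -- `P₂(a) ≠ 0`
  have hne : P₂.eval a ≠ 0 := by
    intro h0
    have h1 : (X - C a) ∣ P₂ := dvd_iff_isRoot.mpr h0
    obtain ⟨P₃, hP₃⟩ := h1
    have h2 : (X - C a) * (X - C a) ∣ P := ⟨P₃, by rw [← hdiv, hP₃]; ring⟩
    have h3 := hsep.squarefree (X - C a) h2
    exact not_isUnit_X_sub_C a h3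
  set P₃ := P₂ /ₘ (X - C a) with hP₃
  have hdecomp : P₂ = C (P₂.eval a) + (X - C a) * P₃ := by
    have := modByMonic_add_div P₂ (X - C a)
    rw [modByMonic_X_sub_C_eq_C_eval] at this
    exact this.symm
  have h2 : aeval t P = (t - algebraMap L F a) *
      (algebraMap L F (P₂.eval a) + (t - algebraMap L F a) * aeval t P₃) := by
    conv_lhs => rw [← hdiv, hdecomp]
    simp
  have hc : algebraMap L F (P₂.eval a) ≠ 0 := by simpa using hne
  have hta := h19_sub_const_ne_zero htr a
  have hsum : W.ord (algebraMap L F (P₂.eval a) + (t - algebraMap L F a) * aeval t P₃) = 0 := by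
    by_cases h3 : aeval t P₃ = 0
    · rw [h3, mul_zero, add_zero, h20_ord_algebraMap]
    · have hlt : W.ord (algebraMap L F (P₂.eval a)) <
          W.ord ((t - algebraMap L F a) * aeval t P₃) := by
        rw [h20_ord_algebraMap, Place.ord_mul W hta h3, ha]
        have := h19_ord_aeval_nonneg W ht P₃
        omega
      rw [h20_ord_add_eq_of_lt W hc (mul_ne_zero hta h3) hlt, h20_ord_algebraMap]
  have hsum0 : algebraMap L F (P₂.eval a) + (t - algebraMap L F a) * aeval t P₃ ≠ 0 := by
    intro h0
    have h4 : aeval t P = 0 := by rw [h2, h0, mul_zero]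
    exact h19_aeval_ne_zero htr hP0 h4
  rw [h2, Place.ord_mul W hta hsum0, ha, hsum, add_zero]

/-- **descended uniformizer**: if some `Q ∈ L[X]` has `ord_W (Q(t)) = 1`, `L` algebraically
closed and algebraic over `K₁` (char 0), then some `Q₀ ∈ K₁[X]` has `ord_W (Q₀(t)) = 1`. -/
theorem h19_exists_descended_uniformizer (K₁ : Type*) [Field K₁] [CharZero K₁] [Algebra K₁ L]
    [Algebra K₁ F] [IsScalarTower K₁ L F]
    [IsAlgClosed L] [Algebra.IsAlgebraic K₁ L] {t : F} (htr : Transcendental L t)
    (ht : 0 ≤ W.ord t) (Q : L[X]) (hQ : W.ord (aeval t Q) = 1) :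
    ∃ Q₀ : K₁[X], W.ord (aeval t Q₀) = 1 := by
  obtain ⟨a, ha⟩ := h19_exists_root_ord W htr ht Q hQ
  have hint : IsIntegral K₁ a := (Algebra.IsAlgebraic.isAlgebraic a).isIntegral
  refine ⟨minpoly K₁ a, ?_⟩
  have hsep : ((minpoly K₁ a).map (algebraMap K₁ L)).Separable :=
    (minpoly.irreducible hint).separable.map
  have hroot : ((minpoly K₁ a).map (algebraMap K₁ L)).IsRoot a := by
    rw [IsRoot, eval_map, ← aeval_def, minpoly.aeval]
  have := h19_ord_separable W htr ht a ha _ hsep hroot
  rwa [aeval_map_algebraMap] at this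

end Ord

end H19S18
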