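/-
helper19: S18 route Y', slice C1 = Lemma CL (connectedness), INTEGRAL-CLOSURE part.

* `h19_cl_two_charts` : an element of a field `E` that is integral over `R[t]` and over `R[t⁻¹]`
                        is integral over `R`  (global sections of the normalisation of `P^1_R`).
* `h19_cl_loc`        : if `s^k * c ∈ A` for every `c ∈ B` (suitable `k`), `s ∈ A`, then every `w`
                        integral over `B` has a multiple `s^k * w` integral over `A`.
* `h19_cl_loc_inv`    : `w` integral over `R[s']`, `s * s' = 1`  ⟹  `s^k * w` integral over `R[s]`.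
-/
import Mathlib

set_option autoImplicit false

namespace H19S18

open Polynomial

section TwoCharts

variable {R E : Type*} [CommRing R] [Field E] [Algebra R E]

/-- An element integral over `R[t]` and over `R[t⁻¹]` is integral over `R`. -/
theorem h19_cl_two_charts (t y : E)
    (h0 : IsIntegral (Algebra.adjoin R {t}) y)
    (hinf : IsIntegral (Algebra.adjoin R {t⁻¹}) y) : IsIntegral R y := by
  -- `y` lies in every valuation subring containing the image of `R`
  have hmem : y ∈ (⨅ V : {V : ValuationSubring E //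
      Set.range (algebraMap R E) ⊆ V.toSubring}, V.1.toSubring) := by
    rw [Subring.mem_iInf]
    rintro ⟨V, hV⟩
    have key : ∀ s : E, s ∈ V → IsIntegral (Algebra.adjoin R {s}) y → y ∈ V := by
      intro s hs hy
      -- `adjoin R {s} ≤ V`
      have hle : ∀ c ∈ Algebra.adjoin R {s}, c ∈ V.toSubring := by
        intro c hc
        induction hc using Algebra.adjoin_induction with
        | mem x hx =>
          rw [Set.mem_singleton_iff] at hx
          rw [hx]; exact hs
        | algebraMap r => exact hV ⟨r, rfl⟩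
        | add x y _ _ hx hy => exact V.toSubring.add_mem hx hy
        | mul x y _ _ hx hy => exact V.toSubring.mul_mem hx hy
      -- integral over `V`
      have hyV : IsIntegral V y := by
        obtain ⟨p, hp, hpy⟩ := hy
        let f : (Algebra.adjoin R {s}) →+* V :=
          { toFun := fun c => ⟨c.1, hle c.1 c.2⟩
            map_one' := rfl
            map_mul' := fun _ _ => rfl
            map_zero' := rfl
            map_add' := fun _ _ => rfl }
        refine ⟨p.map f, hp.map f, ?_⟩
        rw [eval₂_map]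
        exact hpy
      have := (IsIntegrallyClosed.isIntegral_iff (R := V) (K := E)).mp hyV
      obtain ⟨z, hz⟩ := this
      rw [← hz]
      exact z.2
    rcases V.mem_or_inv_mem t with ht | ht
    · exact key t ht h0
    · exact key t⁻¹ ht hinf
  rw [iInf_valuationSubring_superset] at hmem
  have h1 : IsIntegral (Subring.closure (Set.range (algebraMap R E))) y := hmem
  -- transport from the subring `closure (range (algebraMap R E))` to `R`
  obtain ⟨p, hp, hpy⟩ := h1
  have hcl : Subring.closure (Set.range (algebraMap R E)) = (algebraMap R E).range := by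
    rw [← RingHom.coe_range, Subring.closure_eq]
  have hlift : p.map (Subring.subtype _) ∈ Polynomial.lifts (algebraMap R E) := by
    rw [Polynomial.lifts_iff_coeff_lifts]
    intro n
    rw [coeff_map]
    have h2 : ((p.coeff n : Subring.closure (Set.range (algebraMap R E))) : E) ∈
        (algebraMap R E).range := hcl ▸ (p.coeff n).2
    exact h2
  obtain ⟨q, hq, -, hqm⟩ := Polynomial.lifts_and_natDegree_eq_and_monic hlift (hp.map _)
  refine ⟨q, hqm, ?_⟩
  rw [← eval_map, hq, eval_map]
  exact hpy

end TwoCharts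

section Loc

variable {R E : Type*} [CommRing R] [Field E] [Algebra R E]

/-- Clearing denominators in an integral equation. -/
theorem h19_cl_loc (A B : Subalgebra R E) (s : E) (hs : s ∈ A)
    (hAB : ∀ c ∈ B, ∃ k : ℕ, s ^ k * c ∈ A) (w : E) (hw : IsIntegral B w) :
    ∃ k : ℕ, IsIntegral A (s ^ k * w) := by
  classical
  obtain ⟨p, hp, hpw⟩ := hw
  -- uniform exponent for the coefficients
  have hunif : ∃ k : ℕ, ∀ i : ℕ, s ^ k * ((p.coeff i : B) : E) ∈ A := by
    have : ∀ (F : Finset ℕ), ∃ k : ℕ, ∀ i ∈ F, s ^ k * ((p.coeff i : B) : E) ∈ A := by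
      intro F
      induction F using Finset.induction_on with
      | empty => exact ⟨0, fun i hi => absurd hi (Finset.notMem_empty i)⟩
      | insert a F _ ih =>
        obtain ⟨k1, hk1⟩ := ih
        obtain ⟨k2, hk2⟩ := hAB _ (p.coeff a).2
        refine ⟨k1 + k2, fun i hi => ?_⟩
        rcases Finset.mem_insert.mp hi with rfl | hi
        · rw [pow_add, mul_assoc]
          exact A.mul_mem (A.pow_mem hs _) hk2
        · rw [pow_add, mul_comm (s ^ k1), mul_assoc]
          exact A.mul_mem (A.pow_mem hs _) (hk1 i hi)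
    obtain ⟨k, hk⟩ := this p.support
    refine ⟨k, fun i => ?_⟩
    by_cases hi : i ∈ p.support
    · exact hk i hi
    · rw [Polynomial.notMem_support_iff.mp hi]
      simp
  obtain ⟨k, hk⟩ := hunif
  refine ⟨k, ?_⟩
  set pE : E[X] := p.map (algebraMap B E) with hpE
  have hpEm : pE.Monic := hp.map _
  have hpE0 : eval w pE = 0 := by rw [hpE, eval_map]; exact hpw
  set qE : E[X] := scaleRoots pE (s ^ k) with hqE
  have hqEm : qE.Monic := (monic_scaleRoots_iff _).mpr hpEm
  have hqE0 : eval (s ^ k * w) qE = 0 := by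
    rw [hqE, scaleRoots_eval_mul, hpE0, mul_zero]
  have hlift : qE ∈ Polynomial.lifts (algebraMap A E) := by
    rw [Polynomial.lifts_iff_coeff_lifts]
    intro i
    rw [hqE, coeff_scaleRoots]
    rcases lt_trichotomy i pE.natDegree with hi | hi | hi
    · obtain ⟨e, he⟩ : ∃ e, pE.natDegree - i = e + 1 := ⟨pE.natDegree - i - 1, by omega⟩
      rw [he, pow_succ, ← mul_assoc]
      have h1 : pE.coeff i * (s ^ k) ^ e * s ^ k = (s ^ k * pE.coeff i) * (s ^ k) ^ e := by ring
      rw [h1]
      have h2 : s ^ k * pE.coeff i ∈ A := by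
        rw [hpE, coeff_map]; exact hk i
      exact ⟨⟨_, A.mul_mem h2 (A.pow_mem (A.pow_mem hs _) _)⟩, rfl⟩
    · rw [hi, Nat.sub_self, pow_zero, mul_one]
      have : pE.coeff pE.natDegree = 1 := hpEm.coeff_natDegree
      rw [this]
      exact ⟨1, map_one _⟩
    · rw [coeff_eq_zero_of_natDegree_lt hi, zero_mul]
      exact ⟨0, map_zero _⟩
  obtain ⟨q, hq, -, hqm⟩ := Polynomial.lifts_and_natDegree_eq_and_monic hlift hqEm
  refine ⟨q, hqm, ?_⟩
  rw [← eval_map, hq]
  exact hqE0

/-- `s^k * c ∈ R[s]` for `c ∈ R[s']`, `s * s' = 1`, `k` large. -/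
theorem h19_cl_clear (s s' : E) (hss : s * s' = 1) (c : E) (hc : c ∈ Algebra.adjoin R {s'}) :
    ∃ k : ℕ, s ^ k * c ∈ Algebra.adjoin R {s} := by
  have hs : s ∈ Algebra.adjoin R {s} := Algebra.subset_adjoin rfl
  induction hc using Algebra.adjoin_induction with
  | mem x hx =>
    rw [Set.mem_singleton_iff] at hx
    exact ⟨1, by rw [hx, pow_one, hss]; exact Subalgebra.one_mem _⟩
  | algebraMap r => exact ⟨0, by rw [pow_zero, one_mul]; exact Subalgebra.algebraMap_mem _ r⟩
  | add x y _ _ hx hy =>
    obtain ⟨k1, h1⟩ := hx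
    obtain ⟨k2, h2⟩ := hy
    refine ⟨k1 + k2, ?_⟩
    have : s ^ (k1 + k2) * (x + y) = s ^ k2 * (s ^ k1 * x) + s ^ k1 * (s ^ k2 * y) := by ring
    rw [this]
    exact Subalgebra.add_mem _ (Subalgebra.mul_mem _ (Subalgebra.pow_mem _ hs _) h1)
      (Subalgebra.mul_mem _ (Subalgebra.pow_mem _ hs _) h2)
  | mul x y _ _ hx hy =>
    obtain ⟨k1, h1⟩ := hx
    obtain ⟨k2, h2⟩ := hy
    refine ⟨k1 + k2, ?_⟩
    have : s ^ (k1 + k2) * (x * y) = (s ^ k1 * x) * (s ^ k2 * y) := by ring
    rw [this]
    exact Subalgebra.mul_mem _ h1 h2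

/-- `w` integral over `R[s']`, `s * s' = 1`  ⟹  `s^k * w` integral over `R[s]` for some `k`. -/
theorem h19_cl_loc_inv (s s' : E) (hss : s * s' = 1) (w : E)
    (hw : IsIntegral (Algebra.adjoin R {s'}) w) :
    ∃ k : ℕ, IsIntegral (Algebra.adjoin R {s}) (s ^ k * w) :=
  h19_cl_loc (Algebra.adjoin R {s}) (Algebra.adjoin R {s'}) s (Algebra.subset_adjoin rfl)
    (fun c hc => h19_cl_clear s s' hss c hc) w hw

end Loc

end H19S18
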