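/-
helper19: S18 route Y', Lemma U (saturation of the integral closure at a prime element),
generic form.

`T` an integrally closed domain, `E` a field containing `T`, `ϖ ∈ T` a prime element, `s ∈ T` not
divisible by `ϖ`.  If `ϖ y` and `s y` are integral over `T`, then `y` is integral over `T`.
(No fraction field, no finiteness, no UFD hypothesis is needed: only `minpoly.isIntegrallyClosed_dvd`.)
-/
import Mathlib

set_option autoImplicit false

namespace H19S18

open Polynomial

section LemmaU

variable {T E : Type*} [CommRing T] [IsDomain T] [IsIntegrallyClosed T] [Field E] [Algebra T E]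
  [Module.IsTorsionFree T E]

/-- the minimal polynomial of `c • z` is `scaleRoots (minpoly z) c` (for `c ≠ 0`, `z` integral
over the integrally closed domain `T`). -/
theorem h19_minpoly_smul (c : T) (hc : c ≠ 0) (z : E) (hz : IsIntegral T z) :
    minpoly T (algebraMap T E c * z) = scaleRoots (minpoly T z) c := by
  have hinj : Function.Injective (algebraMap T E) := FaithfulSMul.algebraMap_injective T E
  set u : E := algebraMap T E c * z with hu
  have huI : IsIntegral T u := (isIntegral_algebraMap).mul hz
  set P := minpoly T z with hP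
  set U := minpoly T u with hU
  have hPm : P.Monic := minpoly.monic hz
  have hUm : U.Monic := minpoly.monic huI
  have h1 : aeval u (scaleRoots P c) = 0 := scaleRoots_aeval_eq_zero (minpoly.aeval T z)
  have hdvd1 : U ∣ scaleRoots P c := minpoly.isIntegrallyClosed_dvd huI h1
  -- reverse degree inequality
  have hV : aeval z (U.comp (C c * X)) = 0 := by
    rw [aeval_comp]
    have : aeval z (C c * X : T[X]) = u := by
      rw [map_mul, aeval_C, aeval_X]
    rw [this]
    exact minpoly.aeval T u
  have hlin : (C c * X : T[X]).natDegree = 1 := by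
    rw [natDegree_C_mul hc, natDegree_X]
  have hVne : U.comp (C c * X) ≠ 0 := by
    intro h0
    rw [comp_eq_zero_iff] at h0
    rcases h0 with h0 | ⟨-, h0⟩
    · exact hUm.ne_zero h0
    · have := congrArg natDegree h0
      rw [hlin, natDegree_C] at this
      exact one_ne_zero this
  have hdvd2 : P ∣ U.comp (C c * X) := minpoly.isIntegrallyClosed_dvd hz hV
  have hdeg2 : P.natDegree ≤ U.natDegree := by
    have := natDegree_le_of_dvd hdvd2 hVne
    rwa [natDegree_comp, hlin, mul_one] at this
  have hSm : (scaleRoots P c).Monic := (monic_scaleRoots_iff c).mpr hPm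
  exact (eq_of_monic_of_dvd_of_natDegree_le hUm hSm hdvd1
    (by rw [natDegree_scaleRoots]; exact hdeg2)).symm

/-- **Lemma U, generic form.** -/
theorem h19_lemmaU_gen (ϖ s : T) (hϖ : Prime ϖ) (hs : ¬ ϖ ∣ s) (y : E)
    (h1 : IsIntegral T (algebraMap T E ϖ * y)) (h2 : IsIntegral T (algebraMap T E s * y)) :
    IsIntegral T y := by
  classical
  have hinj : Function.Injective (algebraMap T E) := FaithfulSMul.algebraMap_injective T E
  have hϖ0 : ϖ ≠ 0 := hϖ.ne_zero
  have hs0 : s ≠ 0 := fun h => hs (h ▸ dvd_zero ϖ)
  have hϖE : algebraMap T E ϖ ≠ 0 := fun h => hϖ0 (hinj (h.trans (map_zero _).symm))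
  set z1 : E := algebraMap T E ϖ * y with hz1
  set z2 : E := algebraMap T E s * y with hz2
  set P := minpoly T z1 with hP
  set Q := minpoly T z2 with hQ
  have hPm : P.Monic := minpoly.monic h1
  have hQm : Q.Monic := minpoly.monic h2
  -- the two scalings agree
  have hu : algebraMap T E s * z1 = algebraMap T E ϖ * z2 := by
    rw [hz1, hz2]; ring
  have hPQ : scaleRoots P s = scaleRoots Q ϖ := by
    rw [← h19_minpoly_smul s hs0 z1 h1, ← h19_minpoly_smul ϖ hϖ0 z2 h2, hu]
  have hdeg : P.natDegree = Q.natDegree := by
    have := congrArg natDegree hPQ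
    rwa [natDegree_scaleRoots, natDegree_scaleRoots] at this
  set d := P.natDegree with hd
  -- divisibility of the coefficients
  have hcoef : ∀ i, ϖ ^ (d - i) ∣ P.coeff i := by
    intro i
    have := congrArg (fun p => p.coeff i) hPQ
    simp only [coeff_scaleRoots] at this
    rw [← hd, ← hdeg] at this
    apply hϖ.pow_dvd_of_dvd_mul_right (d - i) (fun h => hs (hϖ.dvd_of_dvd_pow h))
    rw [this]
    exact Dvd.intro_left _ rfl
  choose c hc using hcoef
  -- the monic polynomial with coefficients `c i`
  set P' : T[X] := X ^ d + ∑ i ∈ Finset.range d, C (c i) * X ^ i with hP'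
  have hP'm : P'.Monic := by
    apply monic_X_pow_add
    apply lt_of_le_of_lt (degree_sum_le _ _)
    rw [Finset.sup_lt_iff (by exact WithBot.bot_lt_coe d)]
    intro i hi
    exact lt_of_le_of_lt (degree_C_mul_X_pow_le i (c i))
      (by exact_mod_cast Finset.mem_range.mp hi)
  refine ⟨P', hP'm, ?_⟩
  -- `ϖ^d * P'(y) = P(ϖ y) = 0`
  have hPz : aeval z1 P = 0 := minpoly.aeval T z1
  have hsum : aeval z1 P = algebraMap T E ϖ ^ d * aeval y P' := by
    rw [aeval_eq_sum_range, ← hd, Finset.sum_range_succ, hP']
    simp only [map_add, map_pow, aeval_X, map_sum, map_mul, aeval_C, mul_add, Finset.mul_sum]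
    rw [add_comm]
    congr 1
    · rw [hd, hPm.coeff_natDegree, one_smul, hz1, mul_pow]
    · apply Finset.sum_congr rfl
      intro i hi
      have hi' : i ≤ d := (Finset.mem_range.mp hi).le
      rw [Algebra.smul_def, hc i, map_mul, map_pow, hz1, mul_pow]
      have : algebraMap T E ϖ ^ d = algebraMap T E ϖ ^ (d - i) * algebraMap T E ϖ ^ i := by
        rw [← pow_add, Nat.sub_add_cancel hi']
      rw [this]; ring
  rw [← aeval_def]
  have := hPz
  rw [hsum] at this
  exact (mul_eq_zero.mp this).resolve_left (pow_ne_zero _ hϖE)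

end LemmaU

end H19S18
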