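/-
helper19: S18 route Y', BASE facts for the generic setting of `S18/Defs.lean` (ns `H7S18`):
`R` a DVR, `K = Frac R`, `E ⊇ K` a field, `t : E` transcendental over `K`, `T = R[t]`.

* `h19_transc`, `h19_transc_inv`      : `t`, `t⁻¹` transcendental over `R`, `K`
* `h19_T_intClosed`, `h19_T_noeth`    : `R[t]` integrally closed, noetherian
* `h19_T_prime`                       : `ϖ` prime in `R[t]`
* `h19_gaussUnit_aeval_iff`           : `IsGaussUnit (aeval t p) ↔ ¬ C ϖ ∣ p`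
* `h19_gaussUnit_one/_mul/_pow_t`     : Gauss units
* `h19_gint_of_isInt/_add/_mul/_neg`  : `O_E = {x | GInt x}` is a ring containing `M₀`
* `h19_Oe`                            : `O_E` as a `Subring E`
* `h19_lemmaU`                        : Lemma U:  `GInt y`, `IsInt (ϖ y)`  ⟹  `IsInt y`
* `h19_gint_inv`, `h19_gint_inv_iff`  : chart change `GInt t y ↔ GInt t⁻¹ y`
* `h19_modPi_inv_iff`                 : chart change for `ModPi`
-/
import Mathlib
import Fermat.Agent.S18.Defs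
import Fermat.Agent.S18.LemmaU_helper19
import Fermat.Agent.S18.CLInt_helper19

set_option autoImplicit false
set_option linter.unusedSectionVars false
set_option linter.style.haveILetI false

namespace H19S18

open Polynomial IntermediateField H7S18

section Base

variable (R : Type) [CommRing R] [IsDomain R] [IsDiscreteValuationRing R]
  (K : Type) [Field K] [Algebra R K] [IsFractionRing R K]
  {E : Type} [Field E] [Algebra K E] [Algebra R E] [IsScalarTower R K E]

include K in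
theorem h19_algebraMap_injective : Function.Injective (algebraMap R E) := by
  rw [IsScalarTower.algebraMap_eq R K E]
  exact (algebraMap K E).injective.comp (IsFractionRing.injective R K)

theorem h19_transc {t : E} (ht : Transcendental K t) : Transcendental R t :=
  ht.restrictScalars (IsFractionRing.injective R K)

omit [IsDomain R] [IsDiscreteValuationRing R] [IsFractionRing R K] [Algebra R E]
  [IsScalarTower R K E] in
theorem h19_transc_inv {t : E} (ht : Transcendental K t) : Transcendental K t⁻¹ := by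
  intro h
  apply ht
  have := h.inv
  rwa [inv_inv] at this

end Base

section T

variable (R : Type) [CommRing R] [IsDomain R] [IsDiscreteValuationRing R]
  {E : Type} [Field E] [Algebra R E]

theorem h19_T_intClosed {t : E} (ht : Transcendental R t) :
    IsIntegrallyClosed (Algebra.adjoin R {t}) :=
  IsIntegrallyClosed.of_equiv (Polynomial.algEquivOfTranscendental R t ht).toRingEquiv

theorem h19_T_noeth {t : E} (ht : Transcendental R t) :
    IsNoetherianRing (Algebra.adjoin R {t}) :=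
  isNoetherianRing_of_ringEquiv R[X] (Polynomial.algEquivOfTranscendental R t ht).toRingEquiv

theorem h19_T_prime {t : E} (ht : Transcendental R t) {ϖ : R} (hϖ : Irreducible ϖ) :
    Prime (algebraMap R (Algebra.adjoin R {t}) ϖ) := by
  have h1 : Prime (C ϖ : R[X]) := Polynomial.prime_C_iff.mpr hϖ.prime
  have h2 := (MulEquiv.prime_iff (Polynomial.algEquivOfTranscendental R t ht)).mpr h1
  have h3 : (Polynomial.algEquivOfTranscendental R t ht) (C ϖ) =
      algebraMap R (Algebra.adjoin R {t}) ϖ := by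
    rw [← Polynomial.algebraMap_eq, AlgEquiv.commutes]
  rwa [h3] at h2

/-- Gauss units in terms of divisibility in `T = R[t]`. -/
theorem h19_gaussUnit_iff (ϖ : R) (t : E) (s : Algebra.adjoin R {t}) :
    IsGaussUnit R ϖ t (s : E) ↔ ¬ algebraMap R (Algebra.adjoin R {t}) ϖ ∣ s := by
  constructor
  · rintro ⟨-, h⟩ ⟨s', hs'⟩
    apply h s'.1 s'.2
    rw [hs']
    rfl
  · intro h
    refine ⟨s.2, fun s' hs' he => h ⟨⟨s', hs'⟩, ?_⟩⟩
    apply Subtype.ext
    rw [he]
    rfl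

theorem h19_gaussUnit_aeval_iff {t : E} (ht : Transcendental R t) (ϖ : R) (p : R[X]) :
    IsGaussUnit R ϖ t (aeval t p) ↔ ¬ C ϖ ∣ p := by
  constructor
  · rintro ⟨-, h⟩ ⟨q, hq⟩
    apply h (aeval t q) (by
      rw [Algebra.adjoin_singleton_eq_range_aeval]; exact ⟨q, rfl⟩)
    rw [hq, map_mul, aeval_C]
  · intro h
    refine ⟨by rw [Algebra.adjoin_singleton_eq_range_aeval]; exact ⟨p, rfl⟩, ?_⟩
    intro s' hs' he
    obtain ⟨q, rfl⟩ := Algebra.adjoin_mem_exists_aeval R t hs'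
    apply h
    refine ⟨q, ?_⟩
    apply transcendental_iff_injective.mp ht
    rw [he, map_mul, aeval_C]

theorem h19_gaussUnit_one {t : E} (ht : Transcendental R t) {ϖ : R} (hϖ : Irreducible ϖ) :
    IsGaussUnit R ϖ t (1 : E) := by
  have := (h19_gaussUnit_iff R ϖ t 1).mpr (fun h =>
    (h19_T_prime R ht hϖ).not_isUnit (isUnit_of_dvd_one h))
  simpa using this

theorem h19_gaussUnit_mul {t : E} (ht : Transcendental R t) {ϖ : R} (hϖ : Irreducible ϖ)
    {s₁ s₂ : E} (h₁ : IsGaussUnit R ϖ t s₁) (h₂ : IsGaussUnit R ϖ t s₂) :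
    IsGaussUnit R ϖ t (s₁ * s₂) := by
  have e₁ := (h19_gaussUnit_iff R ϖ t ⟨s₁, h₁.1⟩).mp h₁
  have e₂ := (h19_gaussUnit_iff R ϖ t ⟨s₂, h₂.1⟩).mp h₂
  have := (h19_gaussUnit_iff R ϖ t (⟨s₁, h₁.1⟩ * ⟨s₂, h₂.1⟩)).mpr (fun h =>
    ((h19_T_prime R ht hϖ).dvd_or_dvd h).elim e₁ e₂)
  simpa using this

theorem h19_gaussUnit_pow_t {t : E} (ht : Transcendental R t) {ϖ : R} (hϖ : Irreducible ϖ)
    (k : ℕ) : IsGaussUnit R ϖ t (t ^ k) := by
  have h := (h19_gaussUnit_aeval_iff R ht ϖ (X ^ k)).mpr (by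
    rw [Polynomial.C_dvd_iff_dvd_coeff]
    intro h
    have := h k
    rw [coeff_X_pow, if_pos rfl] at this
    exact hϖ.not_isUnit (isUnit_of_dvd_one this))
  simpa using h

theorem h19_mem_T_isInt (t : E) {s : E} (hs : s ∈ Algebra.adjoin R {t}) : IsInt R t s :=
  isIntegral_algebraMap (R := Algebra.adjoin R {t}) (x := ⟨s, hs⟩)

theorem h19_isInt_add (t : E) {x y : E} (hx : IsInt R t x) (hy : IsInt R t y) :
    IsInt R t (x + y) := IsIntegral.add hx hy

theorem h19_isInt_mul (t : E) {x y : E} (hx : IsInt R t x) (hy : IsInt R t y) :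
    IsInt R t (x * y) := IsIntegral.mul hx hy

theorem h19_isInt_neg (t : E) {x : E} (hx : IsInt R t x) : IsInt R t (-x) := IsIntegral.neg hx

theorem h19_isInt_sub (t : E) {x y : E} (hx : IsInt R t x) (hy : IsInt R t y) :
    IsInt R t (x - y) := IsIntegral.sub hx hy

theorem h19_isInt_algebraMap (t : E) (r : R) : IsInt R t (algebraMap R E r) :=
  h19_mem_T_isInt R t (Subalgebra.algebraMap_mem _ r)

theorem h19_isInt_t (t : E) : IsInt R t t :=
  h19_mem_T_isInt R t (Algebra.subset_adjoin rfl)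

theorem h19_gint_of_isInt {t : E} (ht : Transcendental R t) {ϖ : R} (hϖ : Irreducible ϖ)
    {x : E} (hx : IsInt R t x) : GInt R ϖ t x :=
  ⟨1, h19_gaussUnit_one R ht hϖ, by rwa [one_mul]⟩

theorem h19_gint_add {t : E} (ht : Transcendental R t) {ϖ : R} (hϖ : Irreducible ϖ)
    {x y : E} (hx : GInt R ϖ t x) (hy : GInt R ϖ t y) : GInt R ϖ t (x + y) := by
  obtain ⟨s₁, h₁, hx⟩ := hx
  obtain ⟨s₂, h₂, hy⟩ := hy
  refine ⟨s₁ * s₂, h19_gaussUnit_mul R ht hϖ h₁ h₂, ?_⟩
  have : s₁ * s₂ * (x + y) = s₂ * (s₁ * x) + s₁ * (s₂ * y) := by ring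
  rw [this]
  exact h19_isInt_add R t (h19_isInt_mul R t (h19_mem_T_isInt R t h₂.1) hx)
    (h19_isInt_mul R t (h19_mem_T_isInt R t h₁.1) hy)

theorem h19_gint_mul {t : E} (ht : Transcendental R t) {ϖ : R} (hϖ : Irreducible ϖ)
    {x y : E} (hx : GInt R ϖ t x) (hy : GInt R ϖ t y) : GInt R ϖ t (x * y) := by
  obtain ⟨s₁, h₁, hx⟩ := hx
  obtain ⟨s₂, h₂, hy⟩ := hy
  refine ⟨s₁ * s₂, h19_gaussUnit_mul R ht hϖ h₁ h₂, ?_⟩
  have : s₁ * s₂ * (x * y) = (s₁ * x) * (s₂ * y) := by ring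
  rw [this]
  exact h19_isInt_mul R t hx hy

theorem h19_gint_neg {t : E} {ϖ : R} {x : E} (hx : GInt R ϖ t x) : GInt R ϖ t (-x) := by
  obtain ⟨s₁, h₁, hx⟩ := hx
  exact ⟨s₁, h₁, by rw [mul_neg]; exact h19_isInt_neg R t hx⟩

/-- `O_E` as a subring of `E`. -/
def h19_Oe {t : E} (ht : Transcendental R t) {ϖ : R} (hϖ : Irreducible ϖ) : Subring E where
  carrier := {x | GInt R ϖ t x}
  mul_mem' := fun hx hy => h19_gint_mul R ht hϖ hx hy
  one_mem' := h19_gint_of_isInt R ht hϖ (by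
    have := h19_isInt_algebraMap R t 1
    rwa [map_one] at this)
  add_mem' := fun hx hy => h19_gint_add R ht hϖ hx hy
  zero_mem' := h19_gint_of_isInt R ht hϖ (by
    have := h19_isInt_algebraMap R t 0
    rwa [map_zero] at this)
  neg_mem' := fun hx => h19_gint_neg R hx

theorem h19_mem_Oe {t : E} (ht : Transcendental R t) {ϖ : R} (hϖ : Irreducible ϖ) (x : E) :
    x ∈ h19_Oe R ht hϖ ↔ GInt R ϖ t x := Iff.rfl

/-- **Lemma U** (saturation of `M₀` in `O_E`). -/
theorem h19_lemmaU {t : E} (ht : Transcendental R t) {ϖ : R} (hϖ : Irreducible ϖ)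
    {y : E} (hy : GInt R ϖ t y) (h : IsInt R t (algebraMap R E ϖ * y)) : IsInt R t y := by
  obtain ⟨s, hs, hsy⟩ := hy
  haveI := h19_T_intClosed R ht
  exact h19_lemmaU_gen (T := Algebra.adjoin R {t}) (algebraMap R (Algebra.adjoin R {t}) ϖ)
    ⟨s, hs.1⟩ (h19_T_prime R ht hϖ) ((h19_gaussUnit_iff R ϖ t ⟨s, hs.1⟩).mp hs) y h hsy

/-- Chart change for `O_E`, one direction. -/
theorem h19_gint_inv {t : E} (ht : Transcendental R t) (ht' : Transcendental R t⁻¹)
    {ϖ : R} (hϖ : Irreducible ϖ) {y : E} (hy : GInt R ϖ t y) : GInt R ϖ t⁻¹ y := by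
  have ht0 : t ≠ 0 := fun h => ht (h ▸ isAlgebraic_zero)
  obtain ⟨s, hs, hsy⟩ := hy
  obtain ⟨p, rfl⟩ := Algebra.adjoin_mem_exists_aeval R t hs.1
  have hp : ¬ C ϖ ∣ p := (h19_gaussUnit_aeval_iff R ht ϖ p).mp hs
  obtain ⟨k, hk⟩ := h19_cl_loc_inv (R := R) t⁻¹ t (inv_mul_cancel₀ ht0) _ hsy
  set m := max k p.natDegree with hm
  -- the new Gauss unit
  have hrefl : aeval t⁻¹ (reflect m p) = (t⁻¹) ^ m * aeval t p := by
    letI : Invertible t := invertibleOfNonzero ht0
    have := eval₂_reflect_mul_pow (algebraMap R E) t m p (le_max_right _ _)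
    rw [invOf_eq_inv] at this
    rw [aeval_def, aeval_def, ← this]
    rw [mul_comm, mul_assoc, ← mul_pow, mul_inv_cancel₀ ht0, one_pow, mul_one]
  refine ⟨aeval t⁻¹ (reflect m p), (h19_gaussUnit_aeval_iff R ht' ϖ _).mpr ?_, ?_⟩
  · intro h
    apply hp
    rw [Polynomial.C_dvd_iff_dvd_coeff] at h ⊢
    intro i
    have := h (revAt m i)
    rwa [coeff_reflect, revAt_invol] at this
  · rw [hrefl]
    have : (t⁻¹) ^ m * aeval t p * y = (t⁻¹) ^ (m - k) * ((t⁻¹) ^ k * (aeval t p * y)) := by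
      rw [← mul_assoc ((t⁻¹) ^ (m - k)), ← pow_add, Nat.sub_add_cancel (le_max_left _ _)]
      ring
    rw [this]
    have h1 : (t⁻¹) ^ (m - k) ∈ Algebra.adjoin R {t⁻¹} :=
      Subalgebra.pow_mem _ (Algebra.subset_adjoin (Set.mem_singleton _)) _
    have h2 : IsInt R t⁻¹ ((t⁻¹) ^ (m - k)) := h19_mem_T_isInt R t⁻¹ h1
    exact h19_isInt_mul R t⁻¹ h2 hk

theorem h19_gint_inv_iff {t : E} (ht : Transcendental R t) (ht' : Transcendental R t⁻¹)
    {ϖ : R} (hϖ : Irreducible ϖ) (y : E) : GInt R ϖ t⁻¹ y ↔ GInt R ϖ t y := by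
  constructor
  · intro h
    have := h19_gint_inv R ht' (by rwa [inv_inv]) hϖ h
    rwa [inv_inv] at this
  · exact h19_gint_inv R ht ht' hϖ

theorem h19_modPi_inv_iff {t : E} (ht : Transcendental R t) (ht' : Transcendental R t⁻¹)
    {ϖ : R} (hϖ : Irreducible ϖ) (x y : E) : ModPi R ϖ t⁻¹ x y ↔ ModPi R ϖ t x y := by
  constructor
  · rintro ⟨z, hz, h⟩
    exact ⟨z, (h19_gint_inv_iff R ht ht' hϖ z).mp hz, h⟩
  · rintro ⟨z, hz, h⟩
    exact ⟨z, (h19_gint_inv_iff R ht ht' hϖ z).mpr hz, h⟩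

/-- elements integral over the chart `R[t⁻¹]` lie in `O_E` (defined via the chart `R[t]`). -/
theorem h19_gint_of_isInt_inv {t : E} (ht : Transcendental R t) (ht' : Transcendental R t⁻¹)
    {ϖ : R} (hϖ : Irreducible ϖ) {b : E} (hb : IsInt R t⁻¹ b) : GInt R ϖ t b :=
  (h19_gint_inv_iff R ht ht' hϖ b).mp (h19_gint_of_isInt R ht' hϖ hb)

/-- **Lemma U** for the chart at infinity (saturation of `M_∞` in `O_E`). -/
theorem h19_lemmaU_inv {t : E} (ht : Transcendental R t) (ht' : Transcendental R t⁻¹)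
    {ϖ : R} (hϖ : Irreducible ϖ) {y : E} (hy : GInt R ϖ t y)
    (h : IsInt R t⁻¹ (algebraMap R E ϖ * y)) : IsInt R t⁻¹ y :=
  h19_lemmaU R ht' hϖ ((h19_gint_inv_iff R ht ht' hϖ y).mpr hy) h

end T

end H19S18
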