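/-
helper19: S18 route Y', slice C5, part (a): units of `O_E`.
If `z ∈ O_E` then `1 + ϖ z` is a unit of `O_E`  (`ϖ` lies in the Jacobson radical of `O_E`).
Also: `O_E` is closed under division by Gauss units, and `ϖ` does not divide units of `R` in `O_E`.
-/
import Mathlib
import Fermat.Agent.S18.Defs
import Fermat.Agent.S18.TBase_helper19

set_option autoImplicit false
set_option linter.unusedSectionVars false
set_option linter.style.haveILetI false

namespace H19S18

open Polynomial IntermediateField H7S18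

section Units

variable (R : Type) [CommRing R] [IsDomain R] [IsDiscreteValuationRing R]
  {E : Type} [Field E] [Algebra R E]

/-- `O_E` is closed under division by Gauss units. -/
theorem h19_gint_of_mul_gaussUnit {t : E} (ht : Transcendental R t) {ϖ : R} (hϖ : Irreducible ϖ)
    {s x : E} (hs : IsGaussUnit R ϖ t s) (h : GInt R ϖ t (s * x)) : GInt R ϖ t x := by
  obtain ⟨s', hs', h'⟩ := h
  exact ⟨s' * s, h19_gaussUnit_mul R ht hϖ hs' hs, by rwa [mul_assoc]⟩

/-- `1 + ϖ z` is a unit of `O_E` for `z ∈ O_E`. -/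
theorem h19_gint_inv_one_add {t : E} (ht : Transcendental R t) {ϖ : R} (hϖ : Irreducible ϖ)
    {z : E} (hz : GInt R ϖ t z) : GInt R ϖ t (1 + algebraMap R E ϖ * z)⁻¹ := by
  classical
  obtain ⟨s, hs, hw⟩ := hz
  set T := Algebra.adjoin R {t} with hT
  set sT : T := ⟨s, hs.1⟩ with hsT
  set ϖT : T := algebraMap R T ϖ with hϖT
  have hprime : Prime ϖT := h19_T_prime R ht hϖ
  have hsnd : ¬ ϖT ∣ sT := (h19_gaussUnit_iff R ϖ t sT).mp hs
  obtain ⟨P, hPm, hP0⟩ := hw
  set w : E := s * z with hwdef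
  set Q : T[X] := scaleRoots P ϖT with hQ
  have hQm : Q.Monic := (monic_scaleRoots_iff ϖT).mpr hPm
  have hQ0 : aeval (algebraMap T E ϖT * w) Q = 0 := scaleRoots_aeval_eq_zero hP0
  set Pi : T[X] := Q.comp (X - C sT) with hPi
  have hPim : Pi.Monic := hQm.comp (monic_X_sub_C sT) (by rw [natDegree_X_sub_C]; exact one_ne_zero)
  set v : E := s + algebraMap R E ϖ * w with hv
  have hϖTE : algebraMap T E ϖT = algebraMap R E ϖ := rfl
  have hsTE : algebraMap T E sT = s := rfl
  have hPi0 : aeval v Pi = 0 := by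
    rw [hPi, aeval_comp]
    have : aeval v (X - C sT : T[X]) = algebraMap T E ϖT * w := by
      rw [map_sub, aeval_X, aeval_C, hsTE, hϖTE, hv]; ring
    rw [this]
    exact hQ0
  set ε : T := Pi.coeff 0 with hε
  -- `ε ≡ (-s)^d mod ϖ`
  have hεeval : ε = Q.eval (-sT) := by
    rw [hε, coeff_zero_eq_eval_zero, hPi, eval_comp]
    simp
  have hεnd : ¬ ϖT ∣ ε := by
    intro hdvd
    rw [hεeval, eval_eq_sum_range, Finset.sum_range_succ] at hdvd
    have h1 : ϖT ∣ ∑ i ∈ Finset.range Q.natDegree, Q.coeff i * (-sT) ^ i := by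
      apply Finset.dvd_sum
      intro i hi
      have hi' : i < P.natDegree := by
        have := Finset.mem_range.mp hi
        rwa [hQ, natDegree_scaleRoots] at this
      rw [hQ, coeff_scaleRoots]
      obtain ⟨e, he⟩ : ∃ e, P.natDegree - i = e + 1 := ⟨P.natDegree - i - 1, by omega⟩
      rw [he, pow_succ]
      exact ⟨P.coeff i * ϖT ^ e * (-sT) ^ i, by ring⟩
    have h2 : ϖT ∣ Q.coeff Q.natDegree * (-sT) ^ Q.natDegree :=
      (dvd_add_right h1).mp hdvd
    rw [hQm.coeff_natDegree, one_mul] at h2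
    have h3 := hprime.dvd_of_dvd_pow h2
    exact hsnd ((dvd_neg).mp h3)
  have hε0 : ε ≠ 0 := fun h => hεnd (h ▸ dvd_zero _)
  have hinj : Function.Injective (algebraMap T E) := FaithfulSMul.algebraMap_injective T E
  have hεE : algebraMap T E ε ≠ 0 := fun h => hε0 (hinj (h.trans (map_zero _).symm))
  -- `D * v = -ε`
  set D : E := aeval v Pi.divX with hD
  have hDv : D * v + algebraMap T E ε = 0 := by
    have := congrArg (aeval v) (divX_mul_X_add Pi)
    rw [map_add, map_mul, aeval_X, aeval_C, hPi0] at this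
    exact this
  have hvI : IsInt R t v := by
    rw [hv]
    exact h19_isInt_add R t (h19_mem_T_isInt R t hs.1)
      (h19_isInt_mul R t (h19_isInt_algebraMap R t ϖ) ⟨P, hPm, hP0⟩)
  have hDI : IsInt R t D := by
    rw [hD, aeval_eq_sum_range]
    apply IsIntegral.sum
    intro i _
    rw [Algebra.smul_def]
    exact h19_isInt_mul R t (h19_mem_T_isInt R t (Pi.divX.coeff i).2) (IsIntegral.pow hvI i)
  -- `v = s * u`
  set u : E := 1 + algebraMap R E ϖ * z with hu
  have hvu : v = s * u := by rw [hv, hu, hwdef]; ring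
  have hu0 : u ≠ 0 := by
    intro h
    rw [hvu, h, mul_zero, mul_zero, zero_add] at hDv
    exact hεE hDv
  -- `ε * u⁻¹ = - D * s`
  refine ⟨algebraMap T E ε, (h19_gaussUnit_iff R ϖ t ε).mpr hεnd, ?_⟩
  have : algebraMap T E ε * u⁻¹ = -(D * s) := by
    have h1 : algebraMap T E ε = -(D * s * u) := by
      rw [hvu] at hDv
      linear_combination hDv
    rw [h1]
    field_simp
  rw [this]
  exact h19_isInt_neg R t (h19_isInt_mul R t hDI (h19_mem_T_isInt R t hs.1))

/-- an element `y` of `E` integral over the integrally closed domain `T` with `c * y ∈ T`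
(`c ≠ 0`) lies in `T`. -/
theorem h19_mem_of_isIntegral_of_mul_mem {T : Type*} [CommRing T] [IsDomain T]
    [IsIntegrallyClosed T] [Algebra T E] [Module.IsTorsionFree T E]
    (c a : T) (hc : c ≠ 0) (y : E) (hy : IsIntegral T y)
    (h : algebraMap T E c * y = algebraMap T E a) : ∃ b : T, algebraMap T E b = y := by
  have hvan : aeval y (C c * X - C a : T[X]) = 0 := by
    rw [map_sub, map_mul, aeval_C, aeval_X, aeval_C, h, sub_self]
  have hdvd : minpoly T y ∣ (C c * X - C a : T[X]) := minpoly.isIntegrallyClosed_dvd hy hvan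
  have hne : (C c * X - C a : T[X]) ≠ 0 := by
    intro h0
    have := congrArg (fun q : T[X] => q.coeff 1) h0
    simp at this
    exact hc this
  have hdeg : (minpoly T y).natDegree ≤ 1 := by
    refine (natDegree_le_of_dvd hdvd hne).trans ?_
    exact (natDegree_sub_le _ _).trans (by
      rw [natDegree_C, max_eq_left (Nat.zero_le _)]
      exact (natDegree_C_mul_le c X).trans natDegree_X_le)
  have hm : (minpoly T y).Monic := minpoly.monic hy
  have hdeg1 : (minpoly T y).natDegree = 1 := by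
    rcases Nat.le_one_iff_eq_zero_or_eq_one.mp hdeg with h0 | h1
    · exfalso
      have h1 : minpoly T y = 1 := by
        have := eq_C_of_natDegree_eq_zero h0
        rw [this]
        have hlc := hm.leadingCoeff
        rw [leadingCoeff, h0] at hlc
        rw [hlc, map_one]
      exact minpoly.ne_one T y h1
    · exact h1
  have hform := hm.eq_X_add_C hdeg1
  refine ⟨-(minpoly T y).coeff 0, ?_⟩
  have h0 := minpoly.aeval T y
  rw [hform, map_add, aeval_X, aeval_C] at h0
  rw [map_neg]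
  linear_combination -h0

/-- saturation of `R[t]` in `E`: `a ∈ R[t]`, `a / ϖ` integral over `R[t]`  ⟹  `a ∈ ϖ R[t]`. -/
theorem h19_T_sat {t : E} (ht : Transcendental R t) {ϖ : R} (hϖ : Irreducible ϖ)
    (a : E) (ha : a ∈ Algebra.adjoin R {t})
    (h : IsInt R t ((algebraMap R E ϖ)⁻¹ * a)) :
    ∃ a' ∈ Algebra.adjoin R {t}, a = algebraMap R E ϖ * a' := by
  haveI := h19_T_intClosed R ht
  have hinjT : Function.Injective (algebraMap (Algebra.adjoin R {t}) E) :=
    FaithfulSMul.algebraMap_injective _ E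
  have hϖT0 : algebraMap R (Algebra.adjoin R {t}) ϖ ≠ 0 := (h19_T_prime R ht hϖ).ne_zero
  have hϖ0 : algebraMap R E ϖ ≠ 0 := by
    intro h0
    exact hϖT0 (hinjT (by rw [map_zero]; exact h0))
  obtain ⟨b, hb⟩ := h19_mem_of_isIntegral_of_mul_mem (T := Algebra.adjoin R {t})
    (algebraMap R (Algebra.adjoin R {t}) ϖ) ⟨a, ha⟩ hϖT0 ((algebraMap R E ϖ)⁻¹ * a) h (by
      change algebraMap R E ϖ * ((algebraMap R E ϖ)⁻¹ * a) = a
      field_simp)
  refine ⟨b, b.2, ?_⟩
  change (b : E) = (algebraMap R E ϖ)⁻¹ * a at hb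
  rw [hb]; field_simp

/-- a unit of `R` is not divisible by `ϖ` in `O_E`. -/
theorem h19_not_modPi_unit {t : E} (ht : Transcendental R t) {ϖ : R} (hϖ : Irreducible ϖ)
    {c : R} (hc : IsUnit c) : ¬ ModPi R ϖ t (algebraMap R E c) 0 := by
  rintro ⟨z, ⟨s, hs, hsz⟩, h⟩
  rw [sub_zero] at h
  have hinjT : Function.Injective (algebraMap (Algebra.adjoin R {t}) E) :=
    FaithfulSMul.algebraMap_injective _ E
  have hϖ0 : algebraMap R E ϖ ≠ 0 := by
    intro h0
    have h1 : algebraMap R (Algebra.adjoin R {t}) ϖ = 0 := hinjT (by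
      rw [map_zero]; exact h0)
    exact (h19_T_prime R ht hϖ).ne_zero h1
  -- `s * c = ϖ * (s z)` with `s z` integral, so `s z = ϖ⁻¹ (s c)`
  have h1 : IsInt R t ((algebraMap R E ϖ)⁻¹ * (s * algebraMap R E c)) := by
    have : (algebraMap R E ϖ)⁻¹ * (s * algebraMap R E c) = s * z := by
      rw [h]; field_simp
    rw [this]; exact hsz
  obtain ⟨a', ha', hsa⟩ := h19_T_sat R ht hϖ (s * algebraMap R E c)
    (Subalgebra.mul_mem _ hs.1 (Subalgebra.algebraMap_mem _ c)) h1
  -- so `ϖ ∣ s * c` in `R[t]`, hence `ϖ ∣ s`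
  have hdvd : algebraMap R (Algebra.adjoin R {t}) ϖ ∣
      (⟨s, hs.1⟩ : Algebra.adjoin R {t}) * algebraMap R (Algebra.adjoin R {t}) c :=
    ⟨⟨a', ha'⟩, Subtype.ext hsa⟩
  rcases (h19_T_prime R ht hϖ).dvd_or_dvd hdvd with h2 | h2
  · exact (h19_gaussUnit_iff R ϖ t ⟨s, hs.1⟩).mp hs h2
  · exact (h19_T_prime R ht hϖ).not_isUnit
      (isUnit_of_dvd_unit h2 (hc.map (algebraMap R (Algebra.adjoin R {t}))))

end Units

end H19S18
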