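/-
helper19: S18 route Y', slice C5, bridging between a function field `F ⊇ R[t]` and an extension
`E ⊇ F` (with `t_E = algebraMap F E t`): the notions `IsInt`, `IsGaussUnit`, `GInt`, `GBase`,
`ModPi` of `S18/Defs.lean` are compatible with `algebraMap F E`.
-/
import Mathlib
import Fermat.Agent.S18.Defs
import Fermat.Agent.S18.TBase_helper19
import Fermat.Agent.S18.C5Units_helper19

set_option autoImplicit false
set_option linter.unusedSectionVars false
set_option linter.style.haveILetI false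

namespace H19S18

open Polynomial IntermediateField H7S18

section General

/-- integrality over a ring only depends on the image of the ring. -/
theorem h19_isIntegralElem_of_range {A B C : Type*} [CommRing A] [CommRing B] [CommRing C]
    (f : A →+* C) (g : B →+* C) (h : ∀ a, ∃ b, g b = f a) (x : C) (hx : f.IsIntegralElem x) :
    g.IsIntegralElem x := by
  obtain ⟨p, hp, hpx⟩ := hx
  have hlift : p.map f ∈ Polynomial.lifts g := by
    rw [Polynomial.lifts_iff_coeff_lifts]
    intro n
    rw [coeff_map]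
    obtain ⟨b, hb⟩ := h (p.coeff n)
    exact ⟨b, hb⟩
  obtain ⟨q, hq, -, hqm⟩ := Polynomial.lifts_and_natDegree_eq_and_monic hlift (hp.map f)
  refine ⟨q, hqm, ?_⟩
  rw [← eval_map, hq, eval_map]
  exact hpx

end General

section Bridge

variable (R : Type) [CommRing R] [IsDomain R] [IsDiscreteValuationRing R]
  {F : Type} [Field F] [Algebra R F]
  {E : Type} [Field E] [Algebra R E] [Algebra F E] [IsScalarTower R F E]

theorem h19_map_mem_T (t : F) {c : F} (hc : c ∈ Algebra.adjoin R {t}) :
    algebraMap F E c ∈ Algebra.adjoin R {algebraMap F E t} := by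
  obtain ⟨q, rfl⟩ := Algebra.adjoin_mem_exists_aeval R t hc
  rw [← aeval_algebraMap_apply]
  rw [Algebra.adjoin_singleton_eq_range_aeval]
  exact ⟨q, rfl⟩

theorem h19_exists_of_mem_TE (t : F) {c' : E} (hc : c' ∈ Algebra.adjoin R {algebraMap F E t}) :
    ∃ c ∈ Algebra.adjoin R {t}, algebraMap F E c = c' := by
  obtain ⟨q, rfl⟩ := Algebra.adjoin_mem_exists_aeval R (algebraMap F E t) hc
  refine ⟨aeval t q, ?_, (aeval_algebraMap_apply E t q).symm⟩
  rw [Algebra.adjoin_singleton_eq_range_aeval]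
  exact ⟨q, rfl⟩

theorem h19_transc_map {t : F} (ht : Transcendental R t) :
    Transcendental R (algebraMap F E t) :=
  (transcendental_algebraMap_iff (algebraMap F E).injective).mpr ht

theorem h19_gaussUnit_map {t : F} (ht : Transcendental R t) (ϖ : R) {s : F}
    (hs : IsGaussUnit R ϖ t s) : IsGaussUnit R ϖ (algebraMap F E t) (algebraMap F E s) := by
  obtain ⟨q, rfl⟩ := Algebra.adjoin_mem_exists_aeval R t hs.1
  rw [← aeval_algebraMap_apply]
  exact (h19_gaussUnit_aeval_iff R (h19_transc_map R ht) ϖ q).mpr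
    ((h19_gaussUnit_aeval_iff R ht ϖ q).mp hs)

theorem h19_gaussUnit_E_exists {t : F} (ht : Transcendental R t) (ϖ : R) {s' : E}
    (hs : IsGaussUnit R ϖ (algebraMap F E t) s') :
    ∃ s, IsGaussUnit R ϖ t s ∧ algebraMap F E s = s' := by
  obtain ⟨q, rfl⟩ := Algebra.adjoin_mem_exists_aeval R (algebraMap F E t) hs.1
  refine ⟨aeval t q, (h19_gaussUnit_aeval_iff R ht ϖ q).mpr
    ((h19_gaussUnit_aeval_iff R (h19_transc_map R ht) ϖ q).mp hs),
    (aeval_algebraMap_apply E t q).symm⟩

/-- `x ∈ E` is integral over `R[t_E]` iff it is integral over `R[t] ⊆ F`. -/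
theorem h19_isInt_E_iff (t : F) (x : E) :
    IsInt R (algebraMap F E t) x ↔ IsIntegral (Algebra.adjoin R {t}) x := by
  constructor
  · intro h
    refine h19_isIntegralElem_of_range (algebraMap (Algebra.adjoin R {algebraMap F E t}) E)
      (algebraMap (Algebra.adjoin R {t}) E) ?_ x h
    intro a
    obtain ⟨c, hc, hca⟩ := h19_exists_of_mem_TE R t a.2
    exact ⟨⟨c, hc⟩, hca⟩
  · intro h
    refine h19_isIntegralElem_of_range (algebraMap (Algebra.adjoin R {t}) E)
      (algebraMap (Algebra.adjoin R {algebraMap F E t}) E) ?_ x h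
    intro a
    exact ⟨⟨algebraMap F E a, h19_map_mem_T R t a.2⟩, rfl⟩

theorem h19_isInt_map (t : F) {x : F} (hx : IsInt R t x) :
    IsInt R (algebraMap F E t) (algebraMap F E x) := by
  rw [h19_isInt_E_iff]
  exact IsIntegral.map (IsScalarTower.toAlgHom (Algebra.adjoin R {t}) F E) hx

theorem h19_isInt_of_map (t : F) {x : F} (hx : IsInt R (algebraMap F E t) (algebraMap F E x)) :
    IsInt R t x := by
  rw [h19_isInt_E_iff] at hx
  exact (isIntegral_algebraMap_iff (algebraMap F E).injective).mp hx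

theorem h19_gint_map {t : F} (ht : Transcendental R t) (ϖ : R) {x : F}
    (hx : GInt R ϖ t x) : GInt R ϖ (algebraMap F E t) (algebraMap F E x) := by
  obtain ⟨s, hs, h⟩ := hx
  refine ⟨algebraMap F E s, h19_gaussUnit_map R ht ϖ hs, ?_⟩
  rw [← map_mul]
  exact h19_isInt_map R t h

theorem h19_gint_of_map {t : F} (ht : Transcendental R t) (ϖ : R) {x : F}
    (hx : GInt R ϖ (algebraMap F E t) (algebraMap F E x)) : GInt R ϖ t x := by
  obtain ⟨s', hs', h⟩ := hx
  obtain ⟨s, hs, rfl⟩ := h19_gaussUnit_E_exists R ht ϖ hs'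
  refine ⟨s, hs, ?_⟩
  rw [← map_mul] at h
  exact h19_isInt_of_map R t h

theorem h19_gbase_map {t : F} (ht : Transcendental R t) (ϖ : R) {c : F}
    (hc : GBase R ϖ t c) : GBase R ϖ (algebraMap F E t) (algebraMap F E c) := by
  obtain ⟨s, a, hs, ha, h⟩ := hc
  refine ⟨algebraMap F E s, algebraMap F E a, h19_gaussUnit_map R ht ϖ hs,
    h19_map_mem_T R t ha, ?_⟩
  rw [← map_mul, h]

theorem h19_gbase_of_map {t : F} (ht : Transcendental R t) (ϖ : R) {c : F}
    (hc : GBase R ϖ (algebraMap F E t) (algebraMap F E c)) : GBase R ϖ t c := by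
  obtain ⟨s', a', hs', ha', h⟩ := hc
  obtain ⟨s, hs, rfl⟩ := h19_gaussUnit_E_exists R ht ϖ hs'
  obtain ⟨a, ha, rfl⟩ := h19_exists_of_mem_TE R t ha'
  refine ⟨s, a, hs, ha, ?_⟩
  apply (algebraMap F E).injective
  rw [map_mul, h]

theorem h19_modPi_map {t : F} (ht : Transcendental R t) (ϖ : R) {x y : F}
    (h : ModPi R ϖ t x y) : ModPi R ϖ (algebraMap F E t) (algebraMap F E x) (algebraMap F E y) := by
  obtain ⟨z, hz, hxy⟩ := h
  refine ⟨algebraMap F E z, h19_gint_map R ht ϖ hz, ?_⟩
  rw [← map_sub, hxy, map_mul, ← IsScalarTower.algebraMap_apply]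

end Bridge

end H19S18
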