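/-
helper19: S18 route Y', slice C5, the Kummer algebra `E = F(g)`, `g ^ p = u`, `[E : F] = p`:
basis `g^i`, traces `Tr_{E/F}(g^i g^{-j}) = p δ_ij`, reconstruction
`y = Σ_j (p⁻¹ Tr_{E/F}(y g^{-j})) g^j`.  Pure field theory (no `R`).
-/
import Mathlib

set_option autoImplicit false
set_option linter.unusedSectionVars false
set_option linter.style.haveILetI false

namespace H19S18

open Polynomial IntermediateField

section Kummer

variable {F E : Type} [Field F] [Field E] [Algebra F E]

/-- the basis `g^i`, `i < p`, of `E = F(g)` over `F`. -/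
theorem h19_kummer_basis (p : ℕ) (hp : 0 < p) (g : E) (hrank : Module.finrank F E = p)
    (hgen : F⟮g⟯ = ⊤) :
    ∃ b : Module.Basis (Fin p) F E, ∀ i : Fin p, b i = g ^ (i : ℕ) := by
  haveI : Module.Finite F E := Module.finite_of_finrank_pos (by rw [hrank]; exact hp)
  have hint : IsIntegral F g := IsIntegral.of_finite F g
  have hdeg : (minpoly F g).natDegree = p := by
    rw [← IntermediateField.adjoin.finrank hint, hgen, IntermediateField.finrank_top', hrank]
  have hli : LinearIndependent F (fun i : Fin p => g ^ (i : ℕ)) := by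
    have := linearIndependent_pow (K := F) g
    rw [hdeg] at this
    exact this
  haveI : Nonempty (Fin p) := ⟨⟨0, hp⟩⟩
  refine ⟨basisOfLinearIndependentOfCardEqFinrank hli (by rw [Fintype.card_fin, hrank]), ?_⟩
  intro i
  rw [coe_basisOfLinearIndependentOfCardEqFinrank]

/-- `Tr_{E/F}(g^k) = 0` for `0 < k < p`. -/
theorem h19_kummer_trace_pow (p : ℕ) (g : E) (u : F) (hg : g ^ p = algebraMap F E u)
    (hrank : Module.finrank F E = p) (hgen : F⟮g⟯ = ⊤) (k : ℕ) (hk0 : 0 < k) (hkp : k < p) :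
    Algebra.trace F E (g ^ k) = 0 := by
  classical
  have hp : 0 < p := lt_trans hk0 hkp
  obtain ⟨b, hb⟩ := h19_kummer_basis p hp g hrank hgen
  rw [Algebra.trace_eq_matrix_trace b, Matrix.trace]
  apply Finset.sum_eq_zero
  intro j _
  rw [Matrix.diag_apply, Algebra.leftMulMatrix_eq_repr_mul, hb j, ← pow_add]
  rcases lt_or_ge (k + (j : ℕ)) p with h | h
  · have : g ^ (k + (j : ℕ)) = b ⟨k + j, h⟩ := (hb ⟨k + j, h⟩).symm
    rw [this, Module.Basis.repr_self, Finsupp.single_apply, if_neg]
    intro he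
    have := congrArg Fin.val he
    simp at this
    omega
  · have hlt : k + (j : ℕ) - p < p := by have := j.2; omega
    have : g ^ (k + (j : ℕ)) = u • b ⟨k + j - p, hlt⟩ := by
      rw [hb ⟨k + j - p, hlt⟩, Algebra.smul_def, ← hg, ← pow_add]
      congr 1
      simp only
      omega
    rw [this, map_smul, Module.Basis.repr_self, Finsupp.smul_apply, Finsupp.single_apply, if_neg,
      smul_zero]
    intro he
    have := congrArg Fin.val he
    simp at this
    omega

/-- `Tr_{E/F}(1) = p`. -/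
theorem h19_kummer_trace_one (p : ℕ) (hrank : Module.finrank F E = p) :
    Algebra.trace F E (1 : E) = (p : F) := by
  have := Algebra.trace_algebraMap (R := F) (S := E) (1 : F)
  rw [map_one, hrank, nsmul_eq_mul, mul_one] at this
  exact this

/-- `Tr_{E/F}(g^i g^{-j}) = p δ_ij` for `i, j < p`. -/
theorem h19_kummer_trace_mul_inv (p : ℕ) (g : E) (u : F) (hu : u ≠ 0)
    (hg : g ^ p = algebraMap F E u)
    (hrank : Module.finrank F E = p) (hgen : F⟮g⟯ = ⊤) (i j : ℕ) (hi : i < p) (hj : j < p) :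
    Algebra.trace F E (g ^ i * g⁻¹ ^ j) = if i = j then (p : F) else 0 := by
  have hg0 : g ≠ 0 := by
    intro h0
    have hp : p ≠ 0 := by omega
    rw [h0, zero_pow hp] at hg
    exact hu ((algebraMap F E).injective (by rw [← hg, map_zero]))
  rcases lt_trichotomy i j with h | h | h
  · rw [if_neg (by omega)]
    have : g ^ i * g⁻¹ ^ j = u⁻¹ • g ^ (p + i - j) := by
      rw [Algebra.smul_def, map_inv₀, ← hg]
      have h1 : g ^ (p + i - j) * g ^ j = g ^ p * g ^ i := by
        rw [← pow_add, ← pow_add]; congr 1; omega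
      have hinv : g ^ j * g⁻¹ ^ j = 1 := by rw [← mul_pow, mul_inv_cancel₀ hg0, one_pow]
      have hp0 : g ^ p ≠ 0 := pow_ne_zero _ hg0
      calc g ^ i * g⁻¹ ^ j = (g ^ p)⁻¹ * (g ^ p * g ^ i) * g⁻¹ ^ j := by
            rw [← mul_assoc, inv_mul_cancel₀ hp0, one_mul]
        _ = (g ^ p)⁻¹ * g ^ (p + i - j) * (g ^ j * g⁻¹ ^ j) := by rw [← h1]; ring
        _ = (g ^ p)⁻¹ * g ^ (p + i - j) := by rw [hinv, mul_one]
    rw [this, map_smul, h19_kummer_trace_pow p g u hg hrank hgen (p + i - j) (by omega) (by omega),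
      smul_zero]
  · subst h
    rw [if_pos rfl, ← mul_pow, mul_inv_cancel₀ hg0, one_pow]
    exact h19_kummer_trace_one p hrank
  · rw [if_neg (by omega)]
    have : g ^ i * g⁻¹ ^ j = g ^ (i - j) := by
      have h1 : g ^ i = g ^ (i - j) * g ^ j := by rw [← pow_add]; congr 1; omega
      have hinv : g ^ j * g⁻¹ ^ j = 1 := by rw [← mul_pow, mul_inv_cancel₀ hg0, one_pow]
      rw [h1, mul_assoc, hinv, mul_one]
    rw [this]
    exact h19_kummer_trace_pow p g u hg hrank hgen (i - j) (by omega) (by omega)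

/-- reconstruction: `p * y = Σ_{j<p} Tr_{E/F}(y g^{-j}) g^j`. -/
theorem h19_kummer_reconstruct (p : ℕ) (hp : 0 < p) (g : E) (u : F) (hu : u ≠ 0)
    (hg : g ^ p = algebraMap F E u)
    (hrank : Module.finrank F E = p) (hgen : F⟮g⟯ = ⊤) (y : E) :
    (p : E) * y =
      ∑ j ∈ Finset.range p, algebraMap F E (Algebra.trace F E (y * g⁻¹ ^ j)) * g ^ j := by
  classical
  obtain ⟨b, hb⟩ := h19_kummer_basis p hp g hrank hgen
  -- expand `y` in the basis
  have hy : y = ∑ i : Fin p, b.repr y i • g ^ (i : ℕ) := by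
    conv_lhs => rw [← b.sum_repr y]
    exact Finset.sum_congr rfl fun i _ => by rw [hb i]
  have htr : ∀ j : ℕ, j < p → Algebra.trace F E (y * g⁻¹ ^ j) =
      ∑ i : Fin p, b.repr y i * (if (i : ℕ) = j then (p : F) else 0) := by
    intro j hj
    conv_lhs => rw [hy]
    rw [Finset.sum_mul, map_sum]
    apply Finset.sum_congr rfl
    intro i _
    rw [smul_mul_assoc, map_smul, smul_eq_mul,
      h19_kummer_trace_mul_inv p g u hu hg hrank hgen i j i.2 hj]
  have htr' : ∀ j : Fin p, Algebra.trace F E (y * g⁻¹ ^ (j : ℕ)) = b.repr y j * (p : F) := by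
    intro j
    rw [htr j j.2, Finset.sum_eq_single j]
    · rw [if_pos rfl]
    · intro i _ hij
      rw [if_neg (fun h => hij (Fin.ext h)), mul_zero]
    · intro h; exact absurd (Finset.mem_univ j) h
  rw [← Fin.sum_univ_eq_sum_range
    (fun j => algebraMap F E (Algebra.trace F E (y * g⁻¹ ^ j)) * g ^ j) p]
  conv_lhs => rw [hy]
  rw [Finset.mul_sum]
  apply Finset.sum_congr rfl
  intro j _
  rw [htr' j, map_mul, Algebra.smul_def, map_natCast]
  ring

end Kummer

end H19S18
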