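/-
helper19: S18 route Y', slice C5, traces in the tower `K⟮t⟯ ⊆ F ⊆ E`:
* `h19_trace_tower`  : `Tr_{E/K⟮t_E⟯} = Tr_{F/K⟮t⟯} ∘ Tr_{E/F}` (as elements of `E`)
* `h19_trace_isInt`  : `Tr_{E/F}` maps `M₀(E)` to `M₀(F)`
* `h19_trace_gint`   : `Tr_{E/F}` maps `O_E` to `O_F`
-/
import Mathlib
import Fermat.Agent.S18.Defs
import Fermat.Agent.S18.TBase_helper19
import Fermat.Agent.S18.C5Base_helper19

set_option autoImplicit false
set_option linter.unusedSectionVars false
set_option linter.style.haveILetI false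

namespace H19S18

open Polynomial IntermediateField H7S18

section Tower

variable (K : Type) [Field K]
  {F : Type} [Field F] [Algebra K F]
  {E : Type} [Field E] [Algebra K E] [Algebra F E] [IsScalarTower K F E]

/-- the identification `K⟮t⟯ ≃ K⟮t_E⟯` -/
noncomputable def h19_KtEquiv (t : F) : K⟮t⟯ ≃ₐ[K] K⟮algebraMap F E t⟯ :=
  (IntermediateField.equivMap K⟮t⟯ (IsScalarTower.toAlgHom K F E)).trans
    (IntermediateField.equivOfEq (by
      rw [IntermediateField.adjoin_map, Set.image_singleton]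
      rfl))

theorem h19_KtEquiv_coe (t : F) (c : K⟮t⟯) :
    ((h19_KtEquiv K (E := E) t c : K⟮algebraMap F E t⟯) : E) = algebraMap F E (c : F) := rfl

theorem h19_trace_tower (t : F) [FiniteDimensional K⟮t⟯ F] [FiniteDimensional F E] (z : E) :
    algebraMap K⟮algebraMap F E t⟯ E (Algebra.trace K⟮algebraMap F E t⟯ E z) =
      algebraMap F E (algebraMap K⟮t⟯ F (Algebra.trace K⟮t⟯ F (Algebra.trace F E z))) := by
  have he : (algebraMap K⟮algebraMap F E t⟯ E).comp
      ((h19_KtEquiv K (E := E) t).toRingEquiv : K⟮t⟯ →+* K⟮algebraMap F E t⟯) =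
        algebraMap K⟮t⟯ E := by
    ext c
    rfl
  have h1 := Algebra.trace_eq_of_ringEquiv (h19_KtEquiv K (E := E) t).toRingEquiv he z
  rw [← h1, Algebra.trace_trace]
  rfl

end Tower

section Int

variable (R : Type) [CommRing R] [IsDomain R] [IsDiscreteValuationRing R]
  {F : Type} [Field F] [Algebra R F]
  {E : Type} [Field E] [Algebra R E] [Algebra F E] [IsScalarTower R F E]

theorem h19_trace_isInt (t : F) [FiniteDimensional F E] {x : E}
    (hx : IsInt R (algebraMap F E t) x) : IsInt R t (Algebra.trace F E x) :=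
  Algebra.isIntegral_trace ((h19_isInt_E_iff R t x).mp hx)

theorem h19_trace_gint {t : F} (ht : Transcendental R t) (ϖ : R) [FiniteDimensional F E] {x : E}
    (hx : GInt R ϖ (algebraMap F E t) x) : GInt R ϖ t (Algebra.trace F E x) := by
  obtain ⟨s', hs', h⟩ := hx
  obtain ⟨s, hs, rfl⟩ := h19_gaussUnit_E_exists R ht ϖ hs'
  refine ⟨s, hs, ?_⟩
  have := h19_trace_isInt R t h
  rwa [← Algebra.smul_def, map_smul, smul_eq_mul] at this

theorem h19_trace_modPi {t : F} (ht : Transcendental R t) (ϖ : R) [FiniteDimensional F E]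
    {x y : E} (h : ModPi R ϖ (algebraMap F E t) x y) :
    ModPi R ϖ t (Algebra.trace F E x) (Algebra.trace F E y) := by
  obtain ⟨z, hz, hxy⟩ := h
  refine ⟨Algebra.trace F E z, h19_trace_gint R ht ϖ hz, ?_⟩
  rw [← map_sub, hxy, IsScalarTower.algebraMap_apply R F E, ← Algebra.smul_def, map_smul,
    smul_eq_mul]

end Int

end H19S18
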