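/-
helper19: S18 route Y', slice C5: proof of `H7S18.KummerGaussStatement`
(Kummer cover `E = F(g)`, `g ^ p = u ≡ 1 mod ϖ`, at the Gauss prime).
-/
import Mathlib
import Fermat.Agent.S18.Defs
import Fermat.Agent.S18.DefsB
import Fermat.Agent.S18.TBase_helper19
import Fermat.Agent.S18.C5Units_helper19
import Fermat.Agent.S18.C5Base_helper19
import Fermat.Agent.S18.C5Kummer_helper19
import Fermat.Agent.S18.C5Trace_helper19

set_option autoImplicit false
set_option linter.unusedSectionVars false
set_option linter.style.haveILetI false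

namespace H19S18

open Polynomial IntermediateField H7S18

section Aux

variable (R : Type) [CommRing R] [IsDomain R] [IsDiscreteValuationRing R]
  {E : Type} [Field E] [Algebra R E]

/-- `x^n ∈ O_E`, `n > 0`  ⟹  `x ∈ O_E`. -/
theorem h19_gint_of_pow {t : E} {ϖ : R}
    {x : E} (n : ℕ) (hn : 0 < n) (h : GInt R ϖ t (x ^ n)) : GInt R ϖ t x := by
  obtain ⟨s, hs, hsx⟩ := h
  refine ⟨s, hs, ?_⟩
  apply IsIntegral.of_pow hn
  have : (s * x) ^ n = s ^ (n - 1) * (s * x ^ n) := by
    rw [mul_pow, ← mul_assoc, ← pow_succ, Nat.sub_add_cancel hn]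
  rw [this]
  exact h19_isInt_mul R t (h19_mem_T_isInt R t (Subalgebra.pow_mem _ hs.1 _)) hsx

theorem h19_gint_algebraMap {t : E} (ht : Transcendental R t) {ϖ : R} (hϖ : Irreducible ϖ)
    (r : R) : GInt R ϖ t (algebraMap R E r) :=
  h19_gint_of_isInt R ht hϖ (h19_isInt_algebraMap R t r)

theorem h19_gint_pow {t : E} (ht : Transcendental R t) {ϖ : R} (hϖ : Irreducible ϖ)
    {x : E} (hx : GInt R ϖ t x) (n : ℕ) : GInt R ϖ t (x ^ n) :=
  (h19_Oe R ht hϖ).pow_mem hx n

theorem h19_gint_sum {t : E} (ht : Transcendental R t) {ϖ : R} (hϖ : Irreducible ϖ)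
    {ι : Type*} (s : Finset ι) (f : ι → E) (hf : ∀ i ∈ s, GInt R ϖ t (f i)) :
    GInt R ϖ t (∑ i ∈ s, f i) :=
  (h19_Oe R ht hϖ).sum_mem hf

theorem h19_gaussUnit_pow {t : E} (ht : Transcendental R t) {ϖ : R} (hϖ : Irreducible ϖ)
    {s : E} (hs : IsGaussUnit R ϖ t s) (n : ℕ) : IsGaussUnit R ϖ t (s ^ n) := by
  induction n with
  | zero => rw [pow_zero]; exact h19_gaussUnit_one R ht hϖ
  | succ n ih => rw [pow_succ]; exact h19_gaussUnit_mul R ht hϖ ih hs

end Aux

/-- **C5 (Kummer cover at the Gauss prime).** -/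
theorem h19_KummerGaussStatement : H7S18.KummerGaussStatement := by
  intro R _ _ _ K _ _ _ _ F _ _ _ _ E _ _ _ _ _ _ _ ϖ hϖ t ht hfin hunr p hp hpu u hu g hg
    hrank hgen
  classical
  have htR : Transcendental R t := h19_transc R K ht
  have htE : Transcendental R (algebraMap F E t) := h19_transc_map R htR
  have hp0 : 0 < p := hp.pos
  have hp1 : 1 < p := hp.one_lt
  haveI : FiniteDimensional F E := Module.finite_of_finrank_pos (by rw [hrank]; exact hp0)
  -- the inverse of `p` in `R`
  obtain ⟨q, hq⟩ : ∃ q : R, (p : R) * q = 1 := ⟨_, hpu.mul_val_inv⟩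
  have hpE : (p : E) * algebraMap R E q = 1 := by
    rw [← map_natCast (algebraMap R E) p, ← map_mul, hq, map_one]
  have hpE0 : (p : E) ≠ 0 := left_ne_zero_of_mul_eq_one hpE
  have hpinv : (p : E)⁻¹ = algebraMap R E q := inv_eq_of_mul_eq_one_right hpE
  -- `u = 1 + ϖ z`
  obtain ⟨z, hz, huz⟩ := hu
  have hu1 : u = 1 + algebraMap R F ϖ * z := by linear_combination huz
  have hGu : GInt R ϖ t u := by
    rw [hu1]
    exact h19_gint_add R htR hϖ (by
      have := h19_gint_algebraMap R htR hϖ (1 : R)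
      rwa [map_one] at this)
      (h19_gint_mul R htR hϖ (h19_gint_algebraMap R htR hϖ ϖ) hz)
  have hGuinv : GInt R ϖ t u⁻¹ := by
    rw [hu1]; exact h19_gint_inv_one_add R htR hϖ hz
  have hu0 : u ≠ 0 := by
    intro h0
    apply h19_not_modPi_unit R htR hϖ (c := (-1 : R)) (isUnit_one.neg)
    refine ⟨z, hz, ?_⟩
    rw [sub_zero, map_neg, map_one]
    rw [h0] at hu1
    linear_combination hu1
  have hg0 : g ≠ 0 := by
    intro h0
    rw [h0, zero_pow hp0.ne'] at hg
    exact hu0 ((algebraMap F E).injective (by rw [← hg, map_zero]))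
  -- `g, g⁻¹ ∈ O_E`
  have hGg : GInt R ϖ (algebraMap F E t) g :=
    h19_gint_of_pow R p hp0 (by rw [hg]; exact h19_gint_map R htR ϖ hGu)
  have hGginv : GInt R ϖ (algebraMap F E t) g⁻¹ :=
    h19_gint_of_pow R p hp0 (by
      rw [inv_pow, hg, ← map_inv₀]; exact h19_gint_map R htR ϖ hGuinv)
  have hGz : GInt R ϖ (algebraMap F E t) (algebraMap F E z) := h19_gint_map R htR ϖ hz
  have hGq : GInt R ϖ (algebraMap F E t) (algebraMap R E q) := h19_gint_algebraMap R htE hϖ q
  -- geometric sums
  set S : E := ∑ i ∈ Finset.range p, g ^ i with hS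
  have hx : kummerIdem p g = algebraMap R E q * S := by
    rw [kummerIdem, hpinv]
  have hGS : GInt R ϖ (algebraMap F E t) S :=
    h19_gint_sum R htE hϖ _ _ (fun i _ => h19_gint_pow R htE hϖ hGg i)
  have hGx : GInt R ϖ (algebraMap F E t) (kummerIdem p g) := by
    rw [hx]; exact h19_gint_mul R htE hϖ hGq hGS
  have hSg : S * (g - 1) = algebraMap R E ϖ * algebraMap F E z := by
    rw [hS, geom_sum_mul, hg, hu1, map_add, map_one, map_mul,
      ← IsScalarTower.algebraMap_apply R F E]
    ring
  -- traces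
  have hTrS : Algebra.trace F E S = (p : F) := by
    rw [hS, map_sum, Finset.sum_eq_single_of_mem 0 (Finset.mem_range.mpr hp0)]
    · rw [pow_zero]; exact h19_kummer_trace_one p hrank
    · intro i hi hi0
      exact h19_kummer_trace_pow p g u hg hrank hgen i (Nat.pos_of_ne_zero hi0)
        (Finset.mem_range.mp hi)
  have hqF : algebraMap R F q * (p : F) = 1 := by
    rw [← map_natCast (algebraMap R F) p, ← map_mul, mul_comm, hq, map_one]
  have hTrx : Algebra.trace F E (kummerIdem p g) = 1 := by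
    rw [hx, IsScalarTower.algebraMap_apply R F E, ← Algebra.smul_def, map_smul, hTrS, smul_eq_mul,
      hqF]
  have hTrg : Algebra.trace F E g = 0 := by
    have := h19_kummer_trace_pow p g u hg hrank hgen 1 one_pos hp1
    rwa [pow_one] at this
  refine ⟨?_, hGx, ?_, ?_, ?_⟩
  · -- UnrGauss for `E`
    intro y hy
    obtain ⟨s', hs', hsg⟩ := hGginv
    obtain ⟨s₁, hs₁, rfl⟩ := h19_gaussUnit_E_exists R htR ϖ hs'
    -- the coefficients `τ_j`
    have hτ : ∀ j : ℕ, GInt R ϖ t (Algebra.trace F E (y * g⁻¹ ^ j)) := by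
      intro j
      apply h19_gint_of_mul_gaussUnit R htR hϖ (h19_gaussUnit_pow R htR hϖ hs₁ j)
      apply hunr
      intro m hm
      have hmE : IsInt R (algebraMap F E t) (algebraMap F E m * (algebraMap F E s₁ * g⁻¹) ^ j) :=
        h19_isInt_mul R _ (h19_isInt_map R t hm) (IsIntegral.pow hsg j)
      have h1 := hy _ hmE
      rw [h19_trace_tower K t] at h1
      have h2 := h19_gbase_of_map R htR ϖ h1
      have h3 : Algebra.trace F E (y * (algebraMap F E m * (algebraMap F E s₁ * g⁻¹) ^ j)) =
          s₁ ^ j * Algebra.trace F E (y * g⁻¹ ^ j) * m := by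
        have : y * (algebraMap F E m * (algebraMap F E s₁ * g⁻¹) ^ j) =
            (s₁ ^ j * m) • (y * g⁻¹ ^ j) := by
          rw [Algebra.smul_def, map_mul, map_pow, mul_pow]; ring
        rw [this, map_smul, smul_eq_mul]; ring
      rw [h3] at h2
      exact h2
    -- reconstruction
    have hrec := h19_kummer_reconstruct p hp0 g u hu0 hg hrank hgen y
    have hy' : y = algebraMap R E q *
        ∑ j ∈ Finset.range p, algebraMap F E (Algebra.trace F E (y * g⁻¹ ^ j)) * g ^ j := by
      rw [← hrec, ← mul_assoc, mul_comm (algebraMap R E q), hpE, one_mul]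
    rw [hy']
    exact h19_gint_mul R htE hϖ hGq (h19_gint_sum R htE hϖ _ _ (fun j _ =>
      h19_gint_mul R htE hϖ (h19_gint_map R htR ϖ (hτ j)) (h19_gint_pow R htE hϖ hGg j)))
  · -- idempotent mod `ϖ`
    set G : ℕ → E := fun i => ∑ k ∈ Finset.range i, g ^ k with hG
    have hGi : ∀ i, S * g ^ i = S + algebraMap R E ϖ * algebraMap F E z * G i := by
      intro i
      have h1 : G i * (g - 1) = g ^ i - 1 := geom_sum_mul g i
      have : S * g ^ i = S + S * (g - 1) * G i := by
        have : S * (g - 1) * G i = S * (G i * (g - 1)) := by ring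
        rw [this, h1]; ring
      rw [this, hSg]
    have hSS : S * S = (p : E) * S +
        algebraMap R E ϖ * algebraMap F E z * ∑ i ∈ Finset.range p, G i := by
      conv_lhs => rw [hS, Finset.mul_sum, ← hS]
      rw [Finset.sum_congr rfl (fun i _ => hGi i), Finset.sum_add_distrib, Finset.sum_const,
        Finset.card_range, nsmul_eq_mul]
      congr 1
      rw [Finset.mul_sum]
    refine ⟨algebraMap F E z * (algebraMap R E q * algebraMap R E q *
      ∑ i ∈ Finset.range p, G i), ?_, ?_⟩
    · exact h19_gint_mul R htE hϖ hGz (h19_gint_mul R htE hϖ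
        (h19_gint_mul R htE hϖ hGq hGq) (h19_gint_sum R htE hϖ _ _ (fun i _ =>
          h19_gint_sum R htE hϖ _ _ (fun k _ => h19_gint_pow R htE hϖ hGg k))))
    · rw [hx]
      have h1 : algebraMap R E q * S * (algebraMap R E q * S) =
          algebraMap R E q * algebraMap R E q * (S * S) := by ring
      rw [h1, hSS]
      have h2 : algebraMap R E q * algebraMap R E q * ((p : E) * S) = algebraMap R E q * S := by
        have : algebraMap R E q * algebraMap R E q * ((p : E) * S) =
            ((p : E) * algebraMap R E q) * (algebraMap R E q * S) := by ring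
        rw [this, hpE, one_mul]
      rw [mul_add, h2]
      ring
  · -- `x ≢ 0`
    intro h0
    have h1 := h19_trace_modPi R htR ϖ h0
    rw [hTrx, map_zero] at h1
    apply h19_not_modPi_unit R htR hϖ (c := (1 : R)) isUnit_one
    rwa [map_one]
  · -- `x ≢ 1`
    intro h1
    obtain ⟨z₁, hz₁, hxz⟩ := h1
    -- `g ≡ 1`
    have hg1 : ModPi R ϖ (algebraMap F E t) g 1 := by
      refine ⟨algebraMap R E q * algebraMap F E z - z₁ * (g - 1), ?_, ?_⟩
      · exact (h19_Oe R htE hϖ).sub_mem (h19_gint_mul R htE hϖ hGq hGz)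
          (h19_gint_mul R htE hϖ hz₁ ((h19_Oe R htE hϖ).sub_mem hGg
            (by
              have := h19_gint_algebraMap R htE hϖ (1 : R)
              rwa [map_one] at this)))
      · have e1 : kummerIdem p g * (g - 1) =
            algebraMap R E ϖ * (algebraMap R E q * algebraMap F E z) := by
          rw [hx, mul_assoc, hSg]; ring
        linear_combination e1 - (g - 1) * hxz
    have h2 := h19_trace_modPi R htR ϖ hg1
    rw [hTrg, h19_kummer_trace_one p hrank] at h2
    obtain ⟨z₂, hz₂, h3⟩ := h2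
    apply h19_not_modPi_unit R htR hϖ (c := (p : R)) hpu
    refine ⟨-z₂, h19_gint_neg R hz₂, ?_⟩
    rw [sub_zero, map_natCast]
    linear_combination -h3

end H19S18
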