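/-
helper19: S18 route Y', slice C12a (Layer 1 glue), abstract part:
`h19_AK0` : with the Kummer covers `E₁ = F₁(g₁)`, `E' = F'(g')` given abstractly
(`g₁ ^ p = u`, `g' ^ p = u`), the assumption "`u` is not a `p`-th power in `F'`" is contradictory.
Inputs: `ConnectedStatement` (C1..C4), `KummerGauss` (C5), `KummerPlace` (C5b),
`PlaceDescent` (C6c), `Const` (C6d).
-/
import Mathlib
import Fermat.Agent.S18.DefsC
import Fermat.Agent.S18.C5_helper19
import Fermat.Agent.S18.C6d_helper19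
import Fermat.Agent.S18.C12aOrd_helper19

set_option autoImplicit false
set_option linter.unusedSectionVars false
set_option linter.style.haveILetI false

namespace H19S18

open Polynomial IntermediateField AlgebraicCurve H7S18

/-- finiteness in the tower `K⟮t⟯ ⊆ F ⊆ E` transported to `K⟮t_E⟯ ⊆ E`. -/
theorem h19_finite_tower (K : Type) [Field K]
    {F : Type} [Field F] [Algebra K F]
    {E : Type} [Field E] [Algebra K E] [Algebra F E] [IsScalarTower K F E]
    (t : F) [FiniteDimensional K⟮t⟯ F] [FiniteDimensional F E] :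
    FiniteDimensional K⟮algebraMap F E t⟯ E := by
  haveI : Module.Finite K⟮t⟯ E := Module.Finite.trans F E
  exact Module.Finite.of_equiv_equiv (h19_KtEquiv K (E := E) t).toRingEquiv (RingEquiv.refl E)
    (by ext c; rfl)

/-- `ε * n = 1` with `ε : ℕ` forces `n = 1`. -/
theorem h19_eq_one_of_natCast_mul_eq_one {ε : ℕ} {n : ℤ} (h : (ε : ℤ) * n = 1) : n = 1 := by
  rcases Int.mul_eq_one_iff_eq_one_or_neg_one.mp h with ⟨-, h2⟩ | ⟨h1, -⟩
  · exact h2
  · omega

set_option maxHeartbeats 1000000 in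
/-- **C12a, abstract core.** -/
theorem h19_AK0 (hConn : ConnectedStatement) (hKP : KummerPlaceStatement)
    (hPD : PlaceDescentStatement)
    (R : Type) [CommRing R] [IsDomain R] [IsDiscreteValuationRing R]
    (K₁ : Type) [Field K₁] [CharZero K₁] [Algebra R K₁] [IsFractionRing R K₁]
    (L : Type) [Field L] [Algebra K₁ L] [IsAlgClosed L] [Algebra.IsAlgebraic K₁ L]
    (F₁ : Type) [Field F₁] [Algebra K₁ F₁] [Algebra R F₁] [IsScalarTower R K₁ F₁]
    (F' : Type) [Field F'] [Algebra L F'] [Algebra K₁ F'] [IsScalarTower K₁ L F']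
    [Algebra F₁ F'] [IsScalarTower K₁ F₁ F'] [Algebra.IsAlgebraic F₁ F']
    (E₁ : Type) [Field E₁] [Algebra K₁ E₁] [Algebra R E₁] [IsScalarTower R K₁ E₁]
    [Algebra F₁ E₁] [IsScalarTower K₁ F₁ E₁] [IsScalarTower R F₁ E₁]
    (E' : Type) [Field E'] [Algebra L E'] [Algebra K₁ E'] [IsScalarTower K₁ L E']
    [Algebra F' E'] [IsScalarTower L F' E']
    [Algebra E₁ E'] [IsScalarTower K₁ E₁ E'] [Algebra.IsAlgebraic E₁ E']
    (hcompat : ∀ f : F₁, algebraMap E₁ E' (algebraMap F₁ E₁ f) =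
      algebraMap F' E' (algebraMap F₁ F' f))
    (ϖ : R) (hϖ : Irreducible ϖ) (t : F₁) (ht : Transcendental K₁ t)
    (hfin : FiniteDimensional K₁⟮t⟯ F₁)
    (hfin' : FiniteDimensional L⟮algebraMap F₁ F' t⟯ F')
    (halg : ∀ x : F₁, IsAlgebraic K₁ x → x ∈ (algebraMap K₁ F₁).range)
    (hunr : UnrGauss R K₁ ϖ t)
    (S : Finset ℤ) (hS1 : ∀ c ∈ S, ∀ c' ∈ S, c ≠ c' → IsUnit ((c - c' : ℤ) : R))
    (hS2 : ∀ c ∈ S, c ≠ 0 → IsUnit ((c : ℤ) : R))
    (e₀ : ℕ) (he₀ : IsUnit (e₀ : R)) (hζ : ∃ ζ : R, IsPrimitiveRoot ζ e₀)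
    (hUO : UnrOutside ℤ L S (algebraMap F₁ F' t)) (hTA : TameAt ℤ L S e₀ (algebraMap F₁ F' t))
    (p : ℕ) (hp : p.Prime) (hpu : IsUnit (p : R))
    (u : F₁) (hu0 : u ≠ 0) (hu : ModPi R ϖ t u 1)
    (hdiv : ∀ W : Place L F', (p : ℤ) ∣ W.ord (algebraMap F₁ F' u))
    (g₁ : E₁) (hg₁ : g₁ ^ p = algebraMap F₁ E₁ u) (hrank : Module.finrank F₁ E₁ = p)
    (hgen₁ : F₁⟮g₁⟯ = ⊤)
    (g' : E') (hg' : g' ^ p = algebraMap F' E' (algebraMap F₁ F' u)) (hgen' : F'⟮g'⟯ = ⊤)
    (hfd' : FiniteDimensional F' E')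
    (hnot : ¬ ∃ v : F', v ^ p = algebraMap F₁ F' u) : False := by
  classical
  -- C5
  obtain ⟨hunrE, hxG, hxx, hx0, hx1⟩ := h19_KummerGaussStatement R K₁ F₁ E₁ ϖ hϖ t ht hfin hunr
    p hp hpu u hu g₁ hg₁ hrank hgen₁
  -- C6d
  have halgE : ∀ x : E₁, IsAlgebraic K₁ x → x ∈ (algebraMap K₁ E₁).range :=
    h19_ConstStatement K₁ L F₁ F' E₁ halg p hp u g₁ hg₁ hrank hgen₁ hnot
  -- basic facts
  haveI : FiniteDimensional F₁ E₁ :=
    Module.finite_of_finrank_pos (by rw [hrank]; exact hp.pos)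
  have htE : Transcendental K₁ (algebraMap F₁ E₁ t) :=
    (transcendental_algebraMap_iff (algebraMap F₁ E₁).injective).mpr ht
  have hfinE : FiniteDimensional K₁⟮algebraMap F₁ E₁ t⟯ E₁ := h19_finite_tower K₁ t
  have htK' : Transcendental K₁ (algebraMap F₁ F' t) :=
    (transcendental_algebraMap_iff (algebraMap F₁ F').injective).mpr ht
  have htL' : Transcendental L (algebraMap F₁ F' t) := htK'.extendScalars L
  haveI : CharZero L := charZero_of_injective_algebraMap (algebraMap K₁ L).injective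
  have hfinE' : FiniteDimensional L⟮algebraMap E₁ E' (algebraMap F₁ E₁ t)⟯ E' := by
    rw [hcompat]
    exact h19_finite_tower L (algebraMap F₁ F' t)
  have hu0' : algebraMap F₁ F' u ≠ 0 := by
    rwa [Ne, map_eq_zero]
  -- the key comparison of places
  have key : ∀ V : Place K₁ E₁, ∃ (W' : Place L F') (ε : ℕ), 0 < ε ∧
      ∀ f : F₁, W'.ord (algebraMap F₁ F' f) = ε * V.ord (algebraMap F₁ E₁ f) := by
    intro V
    obtain ⟨V', ε, hε, hV'⟩ := hPD K₁ L E₁ E' (algebraMap F₁ E₁ t) htE hfinE hfinE' V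
    obtain ⟨W', hW'⟩ := hKP L F' E' (algebraMap F₁ F' t) htL' hfin' p hp (algebraMap F₁ F' u)
      hu0' hdiv g' hg' hgen' V'
    refine ⟨W', ε, hε, fun f => ?_⟩
    rw [← hW', ← hcompat, hV']
  -- the branch set in `R`
  have hcastE : ∀ c : ℤ, algebraMap R E₁ ((c : ℤ) : R) = algebraMap F₁ E₁ ((c : ℤ) : F₁) := by
    intro c
    rw [map_intCast, map_intCast]
  have hcastF' : ∀ c : ℤ, algebraMap ℤ F' c = algebraMap F₁ F' ((c : ℤ) : F₁) := by
    intro c
    rw [map_intCast, eq_intCast]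
  have hsubE : ∀ c : ℤ, algebraMap F₁ E₁ t - algebraMap R E₁ ((c : ℤ) : R) =
      algebraMap F₁ E₁ (t - ((c : ℤ) : F₁)) := by
    intro c
    rw [hcastE, map_sub]
  have hsubF' : ∀ c : ℤ, algebraMap F₁ F' t - algebraMap ℤ F' c =
      algebraMap F₁ F' (t - ((c : ℤ) : F₁)) := by
    intro c
    rw [hcastF', map_sub]
  have hS1' : ∀ c ∈ S.image (Int.cast : ℤ → R), ∀ c' ∈ S.image (Int.cast : ℤ → R),
      c ≠ c' → IsUnit (c - c') := by
    intro c hc c' hc' hne
    obtain ⟨a, ha, rfl⟩ := Finset.mem_image.mp hc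
    obtain ⟨a', ha', rfl⟩ := Finset.mem_image.mp hc'
    have hne' : a ≠ a' := fun h => hne (by rw [h])
    have := hS1 a ha a' ha' hne'
    rwa [Int.cast_sub] at this
  have hS2' : ∀ c ∈ S.image (Int.cast : ℤ → R), c ≠ 0 → IsUnit c := by
    intro c hc hne
    obtain ⟨a, ha, rfl⟩ := Finset.mem_image.mp hc
    have hne' : a ≠ 0 := fun h => hne (by rw [h, Int.cast_zero])
    exact hS2 a ha hne'
  have hUO' : UnrOutside R K₁ (S.image (Int.cast : ℤ → R)) (algebraMap F₁ E₁ t) := by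
    intro V hVt hVS
    obtain ⟨W', ε, hε, hW'⟩ := key V
    have hεZ : (0 : ℤ) < ε := by exact_mod_cast hε
    have h1 : 0 ≤ W'.ord (algebraMap F₁ F' t) := by
      rw [hW']
      exact mul_nonneg hεZ.le hVt
    have h2 : ∀ c ∈ S, W'.ord (algebraMap F₁ F' t - algebraMap ℤ F' c) ≤ 0 := by
      intro c hc
      rw [hsubF', hW', ← hsubE]
      exact mul_nonpos_of_nonneg_of_nonpos hεZ.le
        (hVS _ (Finset.mem_image_of_mem _ hc))
    obtain ⟨Q', hQ'⟩ := hUO W' h1 h2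
    obtain ⟨Q₀, hQ₀⟩ := h19_exists_descended_uniformizer W' K₁ htL' h1 Q' hQ'
    refine ⟨Q₀, ?_⟩
    rw [aeval_algebraMap_apply, hW'] at hQ₀
    rw [aeval_algebraMap_apply]
    exact h19_eq_one_of_natCast_mul_eq_one hQ₀
  have hTA' : TameAt R K₁ (S.image (Int.cast : ℤ → R)) e₀ (algebraMap F₁ E₁ t) := by
    refine ⟨?_, ?_⟩
    · intro c hc V hV
      obtain ⟨a, ha, rfl⟩ := Finset.mem_image.mp hc
      obtain ⟨W', ε, hε, hW'⟩ := key V
      have hεZ : (0 : ℤ) < ε := by exact_mod_cast hε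
      have h1 : 0 < W'.ord (algebraMap F₁ F' t - algebraMap ℤ F' a) := by
        rw [hsubF', hW', ← hsubE]
        exact mul_pos hεZ hV
      have h2 := hTA.1 a ha W' h1
      rw [hsubF', hW', ← hsubE] at h2
      exact dvd_of_mul_left_dvd h2
    · intro V hV
      obtain ⟨W', ε, hε, hW'⟩ := key V
      have hεZ : (0 : ℤ) < ε := by exact_mod_cast hε
      have h1 : W'.ord (algebraMap F₁ F' t) < 0 := by
        rw [hW']
        exact mul_neg_of_pos_of_neg hεZ hV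
      have h2 := hTA.2 W' h1
      rw [hW'] at h2
      exact dvd_of_mul_left_dvd h2
  -- connectedness
  rcases hConn R K₁ E₁ ϖ hϖ (algebraMap F₁ E₁ t) htE hfinE halgE hunrE
    (S.image (Int.cast : ℤ → R)) hS1' hS2' e₀ he₀ hζ hUO' hTA' (kummerIdem p g₁) hxG hxx with h | h
  · exact hx0 h
  · exact hx1 h

end H19S18
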