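/-
helper19: S18 route Y', slice C12a (Layer 1 glue):
`h19_abstractKummer : ConnectedStatement → KummerPlaceStatement → PlaceDescentStatement →
  AbstractKummerStatement`
(the inputs C5 `KummerGaussStatement` and C6d `ConstStatement` are used directly, from
`C5_helper19.lean`, `C6d_helper19.lean`).
The Kummer covers are `E₁ = F₁[X]/(X^p - u)` and `E' = F'[X]/(X^p - u)`.
-/
import Mathlib
import Fermat.Agent.S18.DefsC
import Fermat.Agent.S18.C12aGlue_helper19

set_option autoImplicit false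
set_option linter.unusedSectionVars false
set_option linter.style.haveILetI false

namespace H19S18

open Polynomial IntermediateField AlgebraicCurve H7S18

section AdjoinRootFacts

variable {F : Type} [Field F] (p : ℕ) (u : F)

theorem h19_natDegree_kummer : (X ^ p - C u : F[X]).natDegree = p :=
  natDegree_X_pow_sub_C

theorem h19_kummer_ne_zero (hp : 0 < p) : (X ^ p - C u : F[X]) ≠ 0 :=
  X_pow_sub_C_ne_zero hp u

theorem h19_root_pow :
    (AdjoinRoot.root (X ^ p - C u : F[X])) ^ p = algebraMap F (AdjoinRoot (X ^ p - C u : F[X])) u := by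
  have h := AdjoinRoot.eval₂_root (X ^ p - C u : F[X])
  rw [eval₂_sub, eval₂_pow, eval₂_X, eval₂_C, sub_eq_zero] at h
  exact h

theorem h19_finrank_kummer (hp : 0 < p) [Fact (Irreducible (X ^ p - C u : F[X]))] :
    Module.finrank F (AdjoinRoot (X ^ p - C u : F[X])) = p := by
  rw [(AdjoinRoot.powerBasis (h19_kummer_ne_zero p u hp)).finrank, AdjoinRoot.powerBasis_dim,
    h19_natDegree_kummer p u]

theorem h19_adjoin_root_top [Fact (Irreducible (X ^ p - C u : F[X]))] :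
    F⟮AdjoinRoot.root (X ^ p - C u : F[X])⟯ = ⊤ :=
  IntermediateField.adjoin_eq_top_of_algebra F _ AdjoinRoot.adjoinRoot_eq_top

end AdjoinRootFacts

set_option maxHeartbeats 1000000 in
/-- **C12a (Layer 1 glue).** -/
theorem h19_abstractKummer (hConn : ConnectedStatement) (hKP : KummerPlaceStatement)
    (hPD : PlaceDescentStatement) : AbstractKummerStatement := by
  intro R _ _ _ K₁ _ _ _ _ L _ _ _ _ F₁ _ _ _ _ F' _ _ _ _ _ _ _ ϖ hϖ t ht hfin hfin' halg hunr
    S hS1 hS2 e₀ he₀ hζ hUO hTA p hp hpu u hu0 hu hdiv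
  by_contra hnot
  have hp0 : 0 < p := hp.pos
  have hirr' : Irreducible (X ^ p - C (algebraMap F₁ F' u) : F'[X]) :=
    X_pow_sub_C_irreducible_of_prime hp (fun b hb => hnot ⟨b, hb⟩)
  have hirr₁ : Irreducible (X ^ p - C u : F₁[X]) :=
    X_pow_sub_C_irreducible_of_prime hp
      (fun b hb => hnot ⟨algebraMap F₁ F' b, by rw [← map_pow, hb]⟩)
  haveI : Fact (Irreducible (X ^ p - C (algebraMap F₁ F' u) : F'[X])) := ⟨hirr'⟩
  haveI : Fact (Irreducible (X ^ p - C u : F₁[X])) := ⟨hirr₁⟩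
  -- the map `E₁ → E'`
  have hroot' := h19_root_pow p (algebraMap F₁ F' u)
  let i : F₁ →+* AdjoinRoot (X ^ p - C (algebraMap F₁ F' u) : F'[X]) :=
    (algebraMap F' (AdjoinRoot (X ^ p - C (algebraMap F₁ F' u) : F'[X]))).comp (algebraMap F₁ F')
  have hi : (X ^ p - C u : F₁[X]).eval₂ i
      (AdjoinRoot.root (X ^ p - C (algebraMap F₁ F' u) : F'[X])) = 0 := by
    rw [eval₂_sub, eval₂_pow, eval₂_X, eval₂_C, sub_eq_zero, hroot']
    rfl
  let φ : AdjoinRoot (X ^ p - C u : F₁[X]) →+*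
      AdjoinRoot (X ^ p - C (algebraMap F₁ F' u) : F'[X]) :=
    AdjoinRoot.lift i _ hi
  letI : Algebra (AdjoinRoot (X ^ p - C u : F₁[X]))
      (AdjoinRoot (X ^ p - C (algebraMap F₁ F' u) : F'[X])) := φ.toAlgebra
  have hφ : ∀ f : F₁, algebraMap (AdjoinRoot (X ^ p - C u : F₁[X]))
      (AdjoinRoot (X ^ p - C (algebraMap F₁ F' u) : F'[X]))
        (algebraMap F₁ (AdjoinRoot (X ^ p - C u : F₁[X])) f) =
      algebraMap F' (AdjoinRoot (X ^ p - C (algebraMap F₁ F' u) : F'[X]))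
        (algebraMap F₁ F' f) := by
    intro f
    change φ (AdjoinRoot.of _ f) = _
    rw [AdjoinRoot.lift_of]
    rfl
  haveI : IsScalarTower K₁ (AdjoinRoot (X ^ p - C u : F₁[X]))
      (AdjoinRoot (X ^ p - C (algebraMap F₁ F' u) : F'[X])) := by
    refine IsScalarTower.of_algebraMap_eq (fun x => ?_)
    rw [IsScalarTower.algebraMap_apply K₁ F₁ (AdjoinRoot (X ^ p - C u : F₁[X])), hφ,
      ← IsScalarTower.algebraMap_apply K₁ F₁ F',
      ← IsScalarTower.algebraMap_apply K₁ F' (AdjoinRoot (X ^ p - C (algebraMap F₁ F' u) : F'[X]))]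
  haveI : IsScalarTower F₁ (AdjoinRoot (X ^ p - C u : F₁[X]))
      (AdjoinRoot (X ^ p - C (algebraMap F₁ F' u) : F'[X])) := by
    refine IsScalarTower.of_algebraMap_eq (fun x => ?_)
    rw [hφ, ← IsScalarTower.algebraMap_apply F₁ F'
      (AdjoinRoot (X ^ p - C (algebraMap F₁ F' u) : F'[X]))]
  haveI hfd' : FiniteDimensional F' (AdjoinRoot (X ^ p - C (algebraMap F₁ F' u) : F'[X])) :=
    (AdjoinRoot.powerBasis (h19_kummer_ne_zero p _ hp0)).finite
  haveI : Algebra.IsAlgebraic F₁ (AdjoinRoot (X ^ p - C (algebraMap F₁ F' u) : F'[X])) :=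
    Algebra.IsAlgebraic.trans F₁ F' _
  haveI : Algebra.IsAlgebraic (AdjoinRoot (X ^ p - C u : F₁[X]))
      (AdjoinRoot (X ^ p - C (algebraMap F₁ F' u) : F'[X])) :=
    Algebra.IsAlgebraic.tower_top (K := F₁) _
  exact h19_AK0 hConn hKP hPD R K₁ L F₁ F' (AdjoinRoot (X ^ p - C u : F₁[X]))
    (AdjoinRoot (X ^ p - C (algebraMap F₁ F' u) : F'[X])) hφ ϖ hϖ t ht hfin hfin' halg hunr
    S hS1 hS2 e₀ he₀ hζ hUO hTA p hp hpu u hu0 hu hdiv
    (AdjoinRoot.root _) (h19_root_pow p u) (h19_finrank_kummer p u hp0)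
    (h19_adjoin_root_top p u)
    (AdjoinRoot.root _) hroot' (h19_adjoin_root_top p _) hfd' hnot

end H19S18
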