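import Mathlib
import Fermat.Agent.S18.DefsB
import Fermat.Agent.FF.Fiber
import Fermat.Agent.RR.L6FreeMain
import Fermat.Agent.RRD.Index

/-!
# S18 (item 75), route Y', slice C5b (helper1): the Kummer cover is unramified

`H1S18.kummerPlace : H7S18.KummerPlaceStatement`.

Local argument at `W = V ∩ F`: `A = 𝒪_W`, `B` = integral closure of `A` in `E`.  After dividing
`g` by a power of a uniformizer, `x = g₀ ∈ B` satisfies `x ^ p = u₁ ∈ Aˣ`; the derivative of its
minimal polynomial at `x` divides the unit `p x ^ (p - 1)`, hence the different of `B / A` is the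
unit ideal and `e(V / W) = 1`.
-/

set_option autoImplicit false
set_option linter.style.longLine false
set_option linter.unusedSectionVars false
set_option linter.style.haveILetI false
set_option linter.unusedVariables false
set_option linter.deprecated false

noncomputable section

open Polynomial IntermediateField AlgebraicCurve IsDedekindDomain UniqueFactorizationMonoid

namespace H1S18

section Generic

variable {A B : Type*} [CommRing A] [CommRing B] [IsDomain A] [IsDomain B] [Algebra A B]
  [IsIntegrallyClosed A] [Module.IsTorsionFree A B]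

/-- If `x ^ p = u` with `u` a unit of `A` and `p` invertible in `B`, the derivative of the minimal
polynomial of `x` over `A`, evaluated at `x`, is a unit of `B`. -/
theorem isUnit_aeval_derivative_minpoly (p : ℕ) (hp : 0 < p) (hpB : IsUnit (p : B))
    (u : A) (hu : IsUnit u) (x : B) (hx : x ^ p = algebraMap A B u) :
    IsUnit (aeval x (derivative (minpoly A x))) := by
  have hmonic : (X ^ p - C u : A[X]).Monic := monic_X_pow_sub_C u hp.ne'
  have hroot : aeval x (X ^ p - C u : A[X]) = 0 := by
    simp [hx]
  have hint : IsIntegral A x := ⟨_, hmonic, by simpa [aeval_def] using hroot⟩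
  obtain ⟨h, hh⟩ := minpoly.isIntegrallyClosed_dvd hint hroot
  have hder : derivative (X ^ p - C u : A[X])
      = derivative (minpoly A x) * h + minpoly A x * derivative h := by
    rw [hh, derivative_mul]
  have hev : aeval x (derivative (X ^ p - C u : A[X]))
      = aeval x (derivative (minpoly A x)) * aeval x h := by
    rw [hder, map_add, map_mul, map_mul, minpoly.aeval, zero_mul, add_zero]
  have hlhs : aeval x (derivative (X ^ p - C u : A[X])) = (p : B) * x ^ (p - 1) := by
    simp [derivative_X_pow]
  have hxu : IsUnit x := by
    have h1 : IsUnit (x ^ p) := by rw [hx]; exact hu.map _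
    exact (isUnit_pow_iff hp.ne').mp h1
  have hunit : IsUnit ((p : B) * x ^ (p - 1)) := hpB.mul (hxu.pow _)
  rw [← hlhs, hev] at hunit
  exact isUnit_of_mul_isUnit_left hunit

end Generic

section Main

variable {K F E : Type*} [Field K] [CharZero K] [Field F] [Field E] [Algebra K F] [Algebra K E]
  [Algebra F E] [IsScalarTower K F E]

attribute [local instance] H27FF.h27ff_tower H27FF.h27ff_isFractionRing
  H27FF.h27ff_isDedekindDomain H27FF.h27ff_finite

/-- The local statement: a Kummer extension by a `p`-th root of an element whose order at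
`W = V ∩ F` is divisible by `p` is unramified at `V`. -/
theorem kummer_ramificationIndex [FiniteDimensional F E] [Algebra.IsSeparable F E]
    (p : ℕ) (hp : p.Prime) (u : F) (hu : u ≠ 0) (g : E) (hg : g ^ p = algebraMap F E u)
    (htop : F⟮g⟯ = ⊤) (V : Place K E) (hdiv : (p : ℤ) ∣ (V.restrict F).ord u) :
    V.ramificationIndex F = 1 := by
  have hp0 : 0 < p := hp.pos
  set W : Place K F := V.restrict F with hW
  obtain ⟨m, hm⟩ := hdiv
  obtain ⟨π, hπ⟩ := IsDiscreteValuationRing.exists_irreducible W.toValuationSubring
  have hπ0 : (π : F) ≠ 0 := by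
    simpa [ne_eq, ZeroMemClass.coe_eq_zero] using hπ.ne_zero
  obtain ⟨u₁, hu₁⟩ := W.exists_unit_mul_zpow hu hπ
  rw [hm] at hu₁
  -- the normalised generator
  set g₀ : E := g * (algebraMap F E (π : F) ^ m)⁻¹ with hg₀
  have hπE : algebraMap F E (π : F) ≠ 0 := by simpa using hπ0
  have hg₀p : g₀ ^ p = algebraMap F E ((u₁ : W.toValuationSubring) : F) := by
    rw [hg₀, mul_pow, hg, hu₁, map_mul, map_zpow₀, inv_pow, ← zpow_natCast (_ ^ m) p,
      ← zpow_mul, mul_comm m (p : ℤ)]
    rw [mul_assoc, mul_inv_cancel₀ (zpow_ne_zero _ hπE), mul_one]
  have hmonic : (X ^ p - C (u₁ : W.toValuationSubring) : (W.toValuationSubring)[X]).Monic :=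
    monic_X_pow_sub_C _ hp0.ne'
  have hg₀int : IsIntegral W.toValuationSubring g₀ := by
    refine ⟨_, hmonic, ?_⟩
    rw [← aeval_def]
    simp only [map_sub, map_pow, aeval_X, aeval_C]
    rw [hg₀p]
    exact sub_self _
  set x : integralClosure W.toValuationSubring E := ⟨g₀, hg₀int⟩ with hx
  have hxp : x ^ p = algebraMap W.toValuationSubring (integralClosure W.toValuationSubring E)
      (u₁ : W.toValuationSubring) := by
    apply Subtype.ext
    exact hg₀p
  -- `p` is a unit
  have hpB : IsUnit ((p : ℕ) : integralClosure W.toValuationSubring E) := by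
    have hpK : IsUnit ((p : ℕ) : K) := by
      rw [isUnit_iff_ne_zero]
      exact_mod_cast hp.ne_zero
    have := hpK.map (algebraMap K (integralClosure W.toValuationSubring E))
    rwa [map_natCast] at this
  have hunit := isUnit_aeval_derivative_minpoly (A := W.toValuationSubring)
    (B := integralClosure W.toValuationSubring E) p hp0 hpB (u₁ : W.toValuationSubring)
    u₁.isUnit x hxp
  -- `F[g₀] = E`
  have hadj : Algebra.adjoin F {algebraMap (integralClosure W.toValuationSubring E) E x} = ⊤ := by
    have hxE : algebraMap (integralClosure W.toValuationSubring E) E x = g₀ := rfl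
    rw [hxE]
    have hg₀F : IsIntegral F g₀ := hg₀int.tower_top
    rw [← IntermediateField.adjoin_simple_toSubalgebra_of_isAlgebraic hg₀F.isAlgebraic]
    have : F⟮g₀⟯ = ⊤ := by
      rw [eq_top_iff, ← htop, IntermediateField.adjoin_simple_le_iff]
      have h1 : g₀ ∈ F⟮g₀⟯ := IntermediateField.mem_adjoin_simple_self F g₀
      have h2 : algebraMap F E (π : F) ^ m ∈ F⟮g₀⟯ :=
        zpow_mem (IntermediateField.algebraMap_mem _ _) m
      have h3 : g = g₀ * algebraMap F E (π : F) ^ m := by
        rw [hg₀, mul_assoc, inv_mul_cancel₀ (zpow_ne_zero _ hπE), mul_one]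
      rw [h3]
      exact mul_mem h1 h2
    rw [this]
    rfl
  have hmem := aeval_derivative_mem_differentIdeal W.toValuationSubring F E x hadj
  have hdiff : differentIdeal W.toValuationSubring (integralClosure W.toValuationSubring E) = ⊤ :=
    Ideal.eq_top_of_isUnit_mem _ hmem hunit
  -- the prime of `V`
  have hv : ∀ b : integralClosure W.toValuationSubring E,
      algebraMap (integralClosure W.toValuationSubring E) E b ∈ V.toValuationSubring :=
    H27FF.h27ff_mem_of_restrict W V rfl
  set Q := H27L6.h27_primeOfPlace V hv with hQ
  have hVQ : H27L6.h27_placeOf K (integralClosure W.toValuationSubring E) Q = V :=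
    H27L6.h27_placeOf_primeOfPlace K _ V hv
  have hcount := H27L6.h27f_le_count_different W.toValuationSubring F E
    (integralClosure W.toValuationSubring E) Q
  rw [hdiff, ← Ideal.one_eq_top, normalizedFactors_one, Multiset.count_zero] at hcount
  -- the ramification index
  have hlies := H27FF.h27ff_liesOver W Q
  have hram := H27FF.h27ff_ramificationIdx W Q
  rw [hVQ] at hram
  have hunder : Q.asIdeal.under W.toValuationSubring
      = IsLocalRing.maximalIdeal W.toValuationSubring := hlies.over.symm
  rw [hunder] at hcount
  have hne : Ideal.map (algebraMap W.toValuationSubring (integralClosure W.toValuationSubring E))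
      (IsLocalRing.maximalIdeal W.toValuationSubring) ≠ ⊥ := by
    have hinj : Function.Injective
        (algebraMap W.toValuationSubring (integralClosure W.toValuationSubring E)) := by
      intro a b hab
      have h1 : algebraMap F E (a : F) = algebraMap F E (b : F) := congrArg Subtype.val hab
      exact Subtype.ext ((algebraMap F E).injective h1)
    rw [Ne, Ideal.map_eq_bot_iff_of_injective hinj]
    exact H27FF.h27ff_maximalIdeal_ne_bot W
  have he : (IsLocalRing.maximalIdeal W.toValuationSubring).ramificationIdx' Q.asIdeal
      = Multiset.count Q.asIdeal (normalizedFactors (Ideal.map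
          (algebraMap W.toValuationSubring (integralClosure W.toValuationSubring E))
          (IsLocalRing.maximalIdeal W.toValuationSubring))) :=
    Ideal.IsDedekindDomain.ramificationIdx'_eq_normalizedFactors_count hne Q.isPrime Q.ne_bot
  have hpos := V.ramificationIndex_pos (F := F)
  omega

/-- **C5b**: the Kummer cover `E = F(g)`, `g ^ p = u`, `p ∣ ord_W u` for all `W`, is unramified
at every place. -/
theorem kummerPlace : H7S18.KummerPlaceStatement := by
  intro K _ _ F _ _ E _ _ _ _ t ht hfd p hp u hu hdiv g hg htop V
  have hp0 : 0 < p := hp.pos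
  have hgint : IsIntegral F g := by
    refine ⟨X ^ p - C u, monic_X_pow_sub_C u hp0.ne', ?_⟩
    rw [← aeval_def]
    simp [hg]
  haveI hfin : FiniteDimensional F E := by
    haveI h1 : FiniteDimensional F F⟮g⟯ := IntermediateField.adjoin.finiteDimensional hgint
    have h2 : FiniteDimensional F (⊤ : IntermediateField F E) := htop ▸ h1
    exact (IntermediateField.topEquiv (F := F) (E := E)).toLinearEquiv.finiteDimensional
  haveI : CharZero F := charZero_of_injective_algebraMap (algebraMap K F).injective
  haveI : Algebra.IsSeparable F E := inferInstance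
  haveI : Algebra.IsIntegral F E := inferInstance
  refine ⟨V.restrict F, fun f => ?_⟩
  rw [V.ord_restrict f, kummer_ramificationIndex p hp u hu g hg htop V (hdiv _)]
  simp

end Main

end H1S18
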