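import Mathlib
import Fermat.Agent.S18.DefsB
import Fermat.Agent.S24.A1Core
import Fermat.Agent.S24.A2
import Fermat.Prelude.Def_AlgebraicCurve_DivisorPushPull

/-!
# S18 (item 75), route Y', slice C6c (helper1): descent of places along an algebraic
constant field extension

`H1S18.placeDescent : H7S18.PlaceDescentStatement`.

Given a place `V` of `E₁ / K₁`, Chevalley's extension theorem
(`IsLocalRing.exists_factor_valuationRing`) gives a valuation ring `𝒪'` of `E'` dominating `𝒪_V`.
It contains `L` (integral over `K₁`) and `z' ∈ {t, t⁻¹}`, hence the Dedekind domain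
`B' = integral closure of L[z']`, and `𝒪' ≠ ⊤`; therefore `𝒪'` is the local ring of `B'` at a
nonzero prime, i.e. a place `V'` of `E' / L`.  Domination gives `𝒪' ∩ E₁ = 𝒪_V`, and
`ord_V' = e · ord_V` on `E₁` is the prelude's `Place.ord_restrict`.
-/

set_option autoImplicit false
set_option linter.style.longLine false
set_option linter.unusedSectionVars false
set_option linter.style.haveILetI false
set_option linter.unusedVariables false
set_option linter.deprecated false

noncomputable section

open Polynomial IntermediateField AlgebraicCurve IsDedekindDomain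

namespace H1S18

section Generic

variable {F : Type*} [Field F] (B : Type*) [CommRing B] [IsDedekindDomain B] [Algebra B F]
  [IsFractionRing B F]

/-- A proper valuation subring of the fraction field of a Dedekind domain `B` that contains `B`
is the valuation ring of a nonzero prime of `B`. -/
theorem exists_prime_of_valuationSubring (O : ValuationSubring F) (hO : O ≠ ⊤)
    (hB : ∀ b : B, algebraMap B F b ∈ O) :
    ∃ P : HeightOneSpectrum B, (P.valuation F).valuationSubring = O := by
  set g : B →+* O := (algebraMap B F).codRestrict O.toSubring hB with hg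
  have hgmem : ∀ b : B, g b ∈ IsLocalRing.maximalIdeal O ↔ O.valuation (algebraMap B F b) < 1 :=
    fun b => O.valuation_lt_one_iff (g b)
  have hle1 : ∀ b : B, O.valuation (algebraMap B F b) ≤ 1 := fun b =>
    (O.valuation_le_one_iff _).mpr (hB b)
  -- a nonzero element of `B` in the maximal ideal
  have hex : ∃ d : B, d ≠ 0 ∧ O.valuation (algebraMap B F d) < 1 := by
    have hne : ∃ x : F, x ∉ O := by
      by_contra hcon
      exact hO (_root_.eq_top_iff.mpr fun x _ => by
        by_contra hx
        exact hcon ⟨x, hx⟩)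
    obtain ⟨x, hx⟩ := hne
    obtain ⟨n, d, hd, hnd⟩ := IsFractionRing.div_surjective (A := B) x
    have hd0 : d ≠ 0 := nonZeroDivisors.ne_zero hd
    refine ⟨d, hd0, ?_⟩
    by_contra hcon
    have hd1 : O.valuation (algebraMap B F d) = 1 := le_antisymm (hle1 d) (not_lt.mp hcon)
    apply hx
    rw [← O.valuation_le_one_iff, ← hnd, map_div₀, hd1, div_one]
    exact hle1 n
  let P : HeightOneSpectrum B :=
    { asIdeal := (IsLocalRing.maximalIdeal O).comap g
      isPrime := Ideal.comap_isPrime _ _
      ne_bot := by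
        intro h
        obtain ⟨d, hd0, hd⟩ := hex
        have hmem : d ∈ (IsLocalRing.maximalIdeal O).comap g := by
          rw [Ideal.mem_comap, hgmem]
          exact hd
        rw [h, Ideal.mem_bot] at hmem
        exact hd0 hmem }
  have hPmem : ∀ b : B, b ∈ P.asIdeal ↔ O.valuation (algebraMap B F b) < 1 := fun b => by
    show b ∈ (IsLocalRing.maximalIdeal O).comap g ↔ _
    rw [Ideal.mem_comap, hgmem]
  refine ⟨P, ?_⟩
  rw [← HeightOneSpectrum.valuationSubringAtPrime_eq_valuationSubring]
  refine ValuationSubring.eq_of_le_of_ne_top _ ?_ hO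
  intro x hx
  rw [HeightOneSpectrum.valuationSubringAtPrime_eq_valuationSubring,
    Valuation.mem_valuationSubring_iff] at hx
  obtain ⟨n, d, hnd⟩ := P.exists_primeCompl_mul_eq_of_integer x hx
  have hd : algebraMap B F (d : B) ≠ 0 := by
    intro h0
    apply d.2
    have : (d : B) = 0 := (map_eq_zero_iff _ (IsFractionRing.injective B F)).mp h0
    rw [this]
    exact Ideal.zero_mem _
  have hd1 : O.valuation (algebraMap B F (d : B)) = 1 := by
    have h1 : ¬ O.valuation (algebraMap B F (d : B)) < 1 := by
      rw [← hPmem]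
      exact d.2
    exact le_antisymm (hle1 d) (not_lt.mp h1)
  rw [← O.valuation_le_one_iff]
  have hx' : x = algebraMap B F n * (algebraMap B F (d : B))⁻¹ := by
    have : x * algebraMap B F (d : B) = algebraMap B F n := hnd
    rw [← this]
    field_simp
  rw [hx', map_mul, map_inv₀, hd1, inv_one, mul_one]
  exact hle1 n

end Generic

section Core

variable {K₁ L E₁ E' : Type*} [Field K₁] [CharZero K₁] [Field L] [Algebra K₁ L]
  [Algebra.IsAlgebraic K₁ L] [Field E₁] [Algebra K₁ E₁] [Field E'] [Algebra L E'] [Algebra K₁ E']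
  [IsScalarTower K₁ L E'] [Algebra E₁ E'] [IsScalarTower K₁ E₁ E'] [Algebra.IsAlgebraic E₁ E']

/-- transcendence is preserved -/
theorem transcendental_algebraMap_of_algebraic (z : E₁) (hz : Transcendental K₁ z) :
    Transcendental L (algebraMap E₁ E' z) := by
  intro h
  have h1 : IsAlgebraic K₁ (algebraMap E₁ E' z) := h.restrictScalars K₁
  exact hz ((isAlgebraic_algebraMap_iff (algebraMap E₁ E').injective).mp h1)

/-- The core of C6c: the case where the transcendental generator is integral at `V`. -/
theorem placeDescent_core (z : E₁) (hz : Transcendental K₁ z)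
    [FiniteDimensional L⟮algebraMap E₁ E' z⟯ E'] (V : Place K₁ E₁)
    (hzV : z ∈ V.toValuationSubring) :
    ∃ (V' : Place L E') (ε : ℕ), 0 < ε ∧
      ∀ f : E₁, V'.ord (algebraMap E₁ E' f) = ε * V.ord f := by
  haveI : CharZero L := charZero_of_injective_algebraMap (algebraMap K₁ L).injective
  set z' : E' := algebraMap E₁ E' z with hz'def
  have hz' : Transcendental L z' := transcendental_algebraMap_of_algebraic z hz
  haveI hDed := RH24.h20_isDedekind (K := L) z' hz'
  haveI hFrac := RH24.h20_isFractionRing (K := L) (F := E') z'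
  -- Chevalley
  set f : V.toValuationSubring →+* E' :=
    (algebraMap E₁ E').comp V.toValuationSubring.subtype with hf
  obtain ⟨O', hO', hloc⟩ := IsLocalRing.exists_factor_valuationRing f
  have hfmem : ∀ a : V.toValuationSubring, algebraMap E₁ E' (a : E₁) ∈ O' := fun a => hO' a
  -- domination
  have hdom : ∀ x : E₁, algebraMap E₁ E' x ∈ O' → x ∈ V.toValuationSubring := by
    intro x hx
    by_contra hxV
    have hx0 : x ≠ 0 := by
      rintro rfl
      exact hxV (zero_mem _)
    have hinv : x⁻¹ ∈ V.toValuationSubring :=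
      (V.toValuationSubring.mem_or_inv_mem x).resolve_left hxV
    have hunit : IsUnit (f.codRestrict O'.toSubring hO' ⟨x⁻¹, hinv⟩) := by
      refine isUnit_iff_exists_inv.mpr ⟨⟨algebraMap E₁ E' x, hx⟩, ?_⟩
      apply Subtype.ext
      show algebraMap E₁ E' x⁻¹ * algebraMap E₁ E' x = 1
      rw [← map_mul, inv_mul_cancel₀ hx0, map_one]
    have hu : IsUnit (⟨x⁻¹, hinv⟩ : V.toValuationSubring) := hloc.map_nonunit _ hunit
    obtain ⟨b, hb⟩ := isUnit_iff_exists_inv.mp hu
    have hb' : x⁻¹ * (b : E₁) = 1 := congrArg Subtype.val hb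
    have hbx : (b : E₁) = x := by
      field_simp at hb'
      exact hb'
    exact hxV (hbx ▸ b.2)
  -- `𝒪' ≠ ⊤`
  have hO'top : O' ≠ ⊤ := by
    intro htop
    obtain ⟨π, hπ⟩ := IsDiscreteValuationRing.exists_irreducible V.toValuationSubring
    have hπ0 : (π : E₁) ≠ 0 := by
      simpa [ne_eq, ZeroMemClass.coe_eq_zero] using hπ.ne_zero
    have hmem : algebraMap E₁ E' (π : E₁)⁻¹ ∈ O' := htop ▸ ValuationSubring.mem_top _
    have := hdom _ hmem
    apply hπ.not_isUnit
    refine isUnit_iff_exists_inv.mpr ⟨⟨(π : E₁)⁻¹, this⟩, ?_⟩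
    apply Subtype.ext
    exact mul_inv_cancel₀ hπ0
  -- constants
  have hK₁ : ∀ c : K₁, algebraMap K₁ E' c ∈ O' := by
    intro c
    rw [IsScalarTower.algebraMap_apply K₁ E₁ E']
    exact hfmem ⟨_, V.algebraMap_mem' c⟩
  have hintO : ∀ b : E', IsIntegral K₁ b → b ∈ O' := by
    intro b hb
    letI : Algebra K₁ O' :=
      ((algebraMap K₁ E').codRestrict O'.toSubring hK₁).toAlgebra
    haveI : IsScalarTower K₁ O' E' := IsScalarTower.of_algebraMap_eq fun _ => rfl
    have hx : IsIntegral O' b := hb.tower_top
    obtain ⟨y, hy⟩ := IsIntegrallyClosed.isIntegral_iff.mp hx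
    exact hy ▸ y.2
  have hL : ∀ c : L, algebraMap L E' c ∈ O' := by
    intro c
    apply hintO
    have hc : IsIntegral K₁ c := (Algebra.IsAlgebraic.isAlgebraic (R := K₁) c).isIntegral
    exact hc.map (IsScalarTower.toAlgHom K₁ L E')
  have hz'O : z' ∈ O' := hfmem ⟨z, hzV⟩
  have hadj : ∀ r : Algebra.adjoin L {z'}, (r : E') ∈ O' := by
    intro r
    have h : Algebra.adjoin L {z'} ≤
        { O'.toSubring with algebraMap_mem' := hL } := by
      apply Algebra.adjoin_le
      intro x hx
      rw [Set.mem_singleton_iff] at hx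
      subst hx
      exact hz'O
    exact h r.2
  have hB : ∀ b : RH24.h20_B (K := L) z', algebraMap (RH24.h20_B (K := L) z') E' b ∈ O' := by
    intro b
    letI : Algebra (Algebra.adjoin L {z'}) O' :=
      ((algebraMap (Algebra.adjoin L {z'}) E').codRestrict O'.toSubring hadj).toAlgebra
    haveI : IsScalarTower (Algebra.adjoin L {z'}) O' E' :=
      IsScalarTower.of_algebraMap_eq fun _ => rfl
    have hx : IsIntegral O' (b : E') := (b.2 : IsIntegral (Algebra.adjoin L {z'}) (b : E')).tower_top
    obtain ⟨y, hy⟩ := IsIntegrallyClosed.isIntegral_iff.mp hx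
    have hbO : (b : E') ∈ O' := hy ▸ y.2
    exact hbO
  obtain ⟨P, hP⟩ := exists_prime_of_valuationSubring (RH24.h20_B (K := L) z') O' hO'top hB
  -- the place
  have hconst : ∀ c : L, P.valuation E' (algebraMap L E' c) ≤ 1 := by
    intro c
    rw [← Valuation.mem_valuationSubring_iff, hP]
    exact hL c
  have hnt : ∃ f : E', P.valuation E' f ≠ 0 ∧ P.valuation E' f ≠ 1 := by
    obtain ⟨π, hπ⟩ := P.valuation_exists_uniformizer E'
    refine ⟨π, ?_, ?_⟩
    · rw [hπ]; exact WithZero.exp_ne_zero
    · rw [hπ, ← WithZero.exp_zero]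
      intro h
      have := WithZero.exp_injective h
      omega
  set V' : Place L E' := RH24.h20_placeOfVal (P.valuation E') hconst hnt with hV'
  have hV'O : V'.toValuationSubring = O' := hP
  let V'' : Place K₁ E' :=
    { toValuationSubring := V'.toValuationSubring
      algebraMap_mem' := fun c => by rw [hV'O]; exact hK₁ c
      ne_top' := V'.ne_top'
      isPrincipalIdealRing' := V'.isPrincipalIdealRing' }
  haveI : Algebra.IsIntegral E₁ E' := inferInstance
  have hrestr : V''.restrict E₁ = V := by
    apply Place.ext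
    show V'.toValuationSubring.comap (algebraMap E₁ E') = V.toValuationSubring
    rw [hV'O]
    ext x
    rw [ValuationSubring.mem_comap]
    exact ⟨hdom x, fun hx => hfmem ⟨x, hx⟩⟩
  refine ⟨V', V''.ramificationIndex E₁, V''.ramificationIndex_pos (F := E₁), fun f => ?_⟩
  have h := V''.ord_restrict (F := E₁) f
  rw [hrestr] at h
  exact h

/-- **C6c**: descent of places along an algebraic constant field extension. -/
theorem placeDescent : H7S18.PlaceDescentStatement := by
  intro K₁ _ _ L _ _ _ E₁ _ _ E' _ _ _ _ _ _ _ t ht hfd hfd' V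
  rcases V.toValuationSubring.mem_or_inv_mem t with h | h
  · haveI := hfd'
    exact placeDescent_core t ht V h
  · have ht' : Transcendental K₁ t⁻¹ := RH24.h5a_transcendental_inv t ht
    have e : L⟮algebraMap E₁ E' t⁻¹⟯ = L⟮algebraMap E₁ E' t⟯ := by
      rw [map_inv₀, RH24.h5a_adjoin_inv]
    haveI : FiniteDimensional L⟮algebraMap E₁ E' t⁻¹⟯ E' := e.symm ▸ hfd'
    exact placeDescent_core t⁻¹ ht' V h

end Core

end H1S18
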