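/-
helper19: S18 route Y', slice C12a, final form:
`h19_abstractKummer_of_connected : ConnectedStatement → AbstractKummerStatement`
(C5, C6d from helper19; C5b `H1S18.kummerPlace`, C6c `H1S18.placeDescent` from helper1).
-/
import Mathlib
import Fermat.Agent.S18.C12a_helper19
import Fermat.Agent.S18.C5b_helper1
import Fermat.Agent.S18.C6c_helper1

set_option autoImplicit false

namespace H19S18

theorem h19_abstractKummer_of_connected (hConn : H7S18.ConnectedStatement) :
    H7S18.AbstractKummerStatement :=
  h19_abstractKummer hConn H1S18.kummerPlace H1S18.placeDescent

end H19S18
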