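import Mathlib
import Fermat.Agent.S18.DefsC
import Fermat.Prelude.Def_ModularCurve_ModularUnit

/-!
# S18 (item 75), route Y' (helper7): interface, part D (modular inputs, Layer 2)

Notation: `L = ℚ̄`, `A ⊆ L` a valuation subring over `ℓ`; `K₁ ⊆ L` a number field,
`A₁ = A ∩ K₁ = descVal A K₁` (a DVR), `F₁ = FK K₁ N = K₁ · F_N ⊆ K₁((q))`,
`F_L = FK L N = modularFunctionFieldBar N`.
-/

set_option autoImplicit false
set_option synthInstance.maxHeartbeats 400000

noncomputable section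

open Polynomial IntermediateField AlgebraicCurve ModularCurve

namespace H7S18

/-- `F_K(N) = K · F_N ⊆ K((q))`, as a type. -/
abbrev FK (K : Type) [Field K] [Algebra ℚ K] (N : ℕ) [NeZero N] : Type :=
  ↥(laurentBaseChange K (modularFunctionFieldFull N))

/-- `A₁ = A ∩ K₁`. -/
abbrev descVal (A : ValuationSubring (AlgebraicClosure ℚ))
    (K₁ : IntermediateField ℚ (AlgebraicClosure ℚ)) : ValuationSubring K₁ :=
  A.comap (algebraMap K₁ (AlgebraicClosure ℚ))

/-- The inclusion `A₁ → A`. -/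
def descIncl (A : ValuationSubring (AlgebraicClosure ℚ))
    (K₁ : IntermediateField ℚ (AlgebraicClosure ℚ)) : ↥(descVal A K₁) →+* ↥A where
  toFun x := ⟨algebraMap K₁ (AlgebraicClosure ℚ) (x : K₁), x.2⟩
  map_one' := by ext; simp
  map_mul' x y := by ext; simp
  map_zero' := by ext; simp
  map_add' x y := by ext; simp

/-- The three base functions (as formal `q`-series over `ℚ`): `t` is a base function of
kind `i` for `i = 1` (`t = j`), `i = 2` (`t = h₂ = Δ(q)/Δ(q²)`), `i = 3`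
(`t = h₃ = (η(q)/η(q³))^12`, characterized by `t² = Δ(q)/Δ(q³)` and leading coefficient `1`). -/
def IsBase (i : ℕ) (t : LaurentSeries ℚ) : Prop :=
  (i = 1 ∧ t = jq) ∨ (i = 2 ∧ t = modularUnitSeries 2) ∨
    (i = 3 ∧ t ^ 2 = modularUnitSeries 3 ∧ t.coeff (-1) = 1)

/-- The kind of base function used for the residue characteristic `ℓ`. -/
def baseKind (ℓ : ℕ) : ℕ := if ℓ = 2 then 3 else if ℓ = 3 then 2 else 1

/-- The finite branch points of `F_N / ℚ(t)` for the base function of kind `i`. -/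
def branchSet (i : ℕ) : Finset ℤ :=
  if i = 1 then {0, 1728} else if i = 2 then {0, -64} else {0, -27}

/-- A common multiple of the ramification indices, prime to `ℓ` when `i = baseKind ℓ` and
`N` is a tame level. -/
def branchIndex (i N : ℕ) : ℕ := if i = 1 then 6 * N else if i = 2 then 2 * N else 3 * N

/-- **C9 (Hauptmodul identities)**. -/
def HauptmodulStatement : Prop :=
  (modularUnitSeries 2 ∈ modularFunctionFieldFull 2 ∧
    jq * modularUnitSeries 2 ^ 2 = (modularUnitSeries 2 + 256) ^ 3 ∧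
    ∃ T₂ : LaurentSeries ℤ, coeffMap (Int.castRingHom ℚ) T₂ = modularUnitSeries 2) ∧
  ∃ t₃ : LaurentSeries ℚ, IsBase 3 t₃ ∧ t₃ ∈ modularFunctionFieldFull 3 ∧
    jq * t₃ ^ 3 = (t₃ + 27) * (t₃ + 243) ^ 3 ∧
    ∃ T₃ : LaurentSeries ℤ, coeffMap (Int.castRingHom ℚ) T₃ = t₃

/-- **C8 (branch data over `ℚ̄`)** for the base function of kind `i` at level `N`
(`2 ∣ N` if `i = 2`, `3 ∣ N` if `i = 3`): outside the branch set the extension
`F_L / L(t)` is unramified, at the branch points and at `∞` the ramification indices divide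
`branchIndex i N`. -/
def BranchStatement : Prop :=
  ∀ (N : ℕ) [NeZero N] (i : ℕ) (_ : i = 1 ∨ (i = 2 ∧ 2 ∣ N) ∨ (i = 3 ∧ 3 ∣ N))
    (t₀ : LaurentSeries ℚ) (_ : IsBase i t₀)
    (t : FK (AlgebraicClosure ℚ) N)
    (_ : (t : LaurentSeries (AlgebraicClosure ℚ)) = coeffEmb (AlgebraicClosure ℚ) t₀),
    UnrOutside ℤ (AlgebraicClosure ℚ) (branchSet i) t ∧
      TameAt ℤ (AlgebraicClosure ℚ) (branchSet i) (branchIndex i N) t

/-- **C6a (choice of the number field)**: finitely many `A`-integral series with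
`εY ∈ F_L(N)` are defined over a number field `K₁ ⊆ ℚ̄`, which can be taken to contain the
`n`-th roots of unity for a given `n`. -/
def NumberFieldStatement : Prop :=
  ∀ (N : ℕ) [NeZero N] (A : ValuationSubring (AlgebraicClosure ℚ)) (n : ℕ) (_ : 0 < n)
    (Y : Fin 2 → LaurentSeries A)
    (_ : ∀ i, coeffMap A.subtype (Y i) ∈
      laurentBaseChange (AlgebraicClosure ℚ) (modularFunctionFieldFull N)),
    ∃ (K₁ : IntermediateField ℚ (AlgebraicClosure ℚ)) (_ : FiniteDimensional ℚ K₁)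
      (Y' : Fin 2 → LaurentSeries (descVal A K₁)),
      (∃ ζ : K₁, IsPrimitiveRoot ζ n) ∧
      (∀ i, coeffMap (descIncl A K₁) (Y' i) = Y i) ∧
      ∀ i, coeffMap (descVal A K₁).subtype (Y' i) ∈
        laurentBaseChange K₁ (modularFunctionFieldFull N)

/-- **C6b**: `A₁ = A ∩ K₁` is a discrete valuation ring (`K₁` a number field, `A` over `ℓ`),
and `ℓ` is not a unit in it. -/
def DvrStatement : Prop :=
  ∀ (ℓ : ℕ) [Fact ℓ.Prime] (A : ValuationSubring (AlgebraicClosure ℚ)) (_ : A.LiesOverPrime ℓ)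
    (K₁ : IntermediateField ℚ (AlgebraicClosure ℚ)) (_ : FiniteDimensional ℚ K₁),
    IsDiscreteValuationRing ↥(descVal A K₁) ∧ ¬ IsUnit ((ℓ : ℕ) : ↥(descVal A K₁)) ∧
      ∀ n : ℕ, ¬ ℓ ∣ n → 0 < n → IsUnit ((n : ℕ) : ↥(descVal A K₁))

/-- **C6e (function field basics over any field `K` of characteristic 0)**: the base
function `t` is transcendental, `F_K(N)` is finite over `K(t)`, `K` is algebraically closed
in `F_K(N)`; `F_L(N)` is algebraic over `F_K(N)` for `K ⊆ L`. -/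
def FieldBasicsStatement : Prop :=
  ∀ (N : ℕ) [NeZero N] (i : ℕ) (_ : i = 1 ∨ (i = 2 ∧ 2 ∣ N) ∨ (i = 3 ∧ 3 ∣ N))
    (t₀ : LaurentSeries ℚ) (_ : IsBase i t₀)
    (K : Type) [Field K] [Algebra ℚ K],
    ∃ t : FK K N, (t : LaurentSeries K) = coeffEmb K t₀ ∧ Transcendental K t ∧
      FiniteDimensional K⟮t⟯ (FK K N) ∧
      ∀ x : FK K N, IsAlgebraic K x → x ∈ (algebraMap K (FK K N)).range

/-- **C6f (base change of the function field)**: for `K₁ ⊆ ℚ̄` the coefficient map
`K₁((q)) → ℚ̄((q))` restricts to a ring homomorphism `F_{K₁}(N) → F_{ℚ̄}(N)`, over which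
`F_{ℚ̄}(N)` is algebraic. -/
def BaseChangeStatement : Prop :=
  ∀ (N : ℕ) [NeZero N] (K₁ : IntermediateField ℚ (AlgebraicClosure ℚ)),
    ∃ φ : FK K₁ N →+* FK (AlgebraicClosure ℚ) N,
      (∀ x : FK K₁ N, ((φ x : FK (AlgebraicClosure ℚ) N) : LaurentSeries (AlgebraicClosure ℚ)) =
        coeffMap (algebraMap K₁ (AlgebraicClosure ℚ)) (x : LaurentSeries K₁)) ∧
      ∀ y : FK (AlgebraicClosure ℚ) N, φ.IsIntegralElem y

/-- **C7 (Gauss valuation over the number field `K₁`)**: for a tame level `N` and the base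
function `t` of kind `baseKind ℓ`: the Gauss prime of `A₁[t]` is unramified in `F₁`, and
quotients `εf/εg ∈ F₁` of `A₁`-integral series with `ρ g ≠ 0` lie in `O_{F₁}`. -/
def GaussStatement : Prop :=
  ∀ (N : ℕ) [NeZero N] (ℓ : ℕ) [Fact ℓ.Prime] (_ : TameLevel ℓ N)
    (A : ValuationSubring (AlgebraicClosure ℚ)) (_ : A.LiesOverPrime ℓ)
    (K₁ : IntermediateField ℚ (AlgebraicClosure ℚ)) (_ : FiniteDimensional ℚ K₁)
    [Algebra ↥(descVal A K₁) (FK K₁ N)] [IsScalarTower ↥(descVal A K₁) K₁ (FK K₁ N)]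
    (ϖ : ↥(descVal A K₁)) (_ : Irreducible ϖ)
    (t₀ : LaurentSeries ℚ) (_ : IsBase (baseKind ℓ) t₀)
    (t : FK K₁ N) (_ : (t : LaurentSeries K₁) = coeffEmb K₁ t₀),
    UnrGauss ↥(descVal A K₁) K₁ ϖ t ∧
      ∀ (f g : LaurentSeries (descVal A K₁)) (x : FK K₁ N),
        coeffMap ((IsLocalRing.residue A).comp (descIncl A K₁)) g ≠ 0 →
        (x : LaurentSeries K₁) * coeffMap (descVal A K₁).subtype g =
          coeffMap (descVal A K₁).subtype f →
        GInt ↥(descVal A K₁) ϖ t x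

end H7S18

end
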