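import Mathlib
import Fermat.Agent.S18.DefsD
import Fermat.Agent.S18.GVBase_helper28

/-!
# S18 route Y', slice C12b (helper7), part 2: auxiliary lemmas for the instantiation
-/

set_option autoImplicit false
set_option synthInstance.maxHeartbeats 400000

open AlgebraicCurve ModularCurve H28GV

namespace H7S18

/-- roots of unity lie in every valuation subring -/
theorem h7_mem_of_pow_eq_one {K : Type} [Field K] (A : ValuationSubring K) (x : K) (n : ℕ)
    (hn : 0 < n) (hx : x ^ n = 1) : x ∈ A := by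
  rcases A.mem_or_inv_mem x with h | h
  · exact h
  · have hx0 : x ≠ 0 := by
      rintro rfl
      rw [zero_pow hn.ne'] at hx
      exact zero_ne_one hx
    have h1 : x = x⁻¹ ^ (n - 1) := by
      obtain ⟨m, rfl⟩ : ∃ m, n = m + 1 := ⟨n - 1, by omega⟩
      rw [Nat.add_sub_cancel, inv_pow]
      have hm : x ^ m ≠ 0 := pow_ne_zero _ hx0
      field_simp
      rw [← pow_succ']
      exact hx
    rw [h1]
    exact pow_mem h _

/-- the base kind is admissible at a tame level -/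
theorem h7_baseKind_ok {ℓ N : ℕ} (hT : TameLevel ℓ N) :
    baseKind ℓ = 1 ∨ (baseKind ℓ = 2 ∧ 2 ∣ N) ∨ (baseKind ℓ = 3 ∧ 3 ∣ N) := by
  unfold baseKind
  by_cases h2 : ℓ = 2
  · right; right
    simp only [h2, if_true, true_and]
    exact hT.2.1 h2
  · by_cases h3 : ℓ = 3
    · right; left
      have h2N := hT.2.2 h3
      simp only [h3]
      refine ⟨by norm_num, h2N⟩
    · left
      simp [h2, h3]

/-- the ramification index bound is prime to `ℓ` at a tame level -/
theorem h7_branchIndex_coprime {ℓ N : ℕ} (hℓ : ℓ.Prime) (hT : TameLevel ℓ N) :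
    ¬ ℓ ∣ branchIndex (baseKind ℓ) N := by
  unfold baseKind branchIndex
  by_cases h2 : ℓ = 2
  · subst h2
    have e : (if (if (2:ℕ) = 2 then 3 else if (2:ℕ) = 3 then 2 else 1) = 1 then 6 * N
        else if (if (2:ℕ) = 2 then 3 else if (2:ℕ) = 3 then 2 else 1) = 2 then 2 * N
        else 3 * N) = 3 * N := by norm_num
    rw [e]
    intro hd
    rcases (Nat.Prime.dvd_mul Nat.prime_two).1 hd with h | h
    · omega
    · exact hT.1 h
  · by_cases h3 : ℓ = 3
    · subst h3
      have e : (if (if (3:ℕ) = 2 then 3 else if (3:ℕ) = 3 then 2 else 1) = 1 then 6 * N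
          else if (if (3:ℕ) = 2 then 3 else if (3:ℕ) = 3 then 2 else 1) = 2 then 2 * N
          else 3 * N) = 2 * N := by norm_num
      rw [e]
      intro hd
      rcases (Nat.Prime.dvd_mul Nat.prime_three).1 hd with h | h
      · omega
      · exact hT.1 h
    · simp only [h2, h3, if_false, if_true]
      intro hd
      rcases (Nat.Prime.dvd_mul hℓ).1 hd with h | h
      · have h6 : ℓ ∣ 2 * 3 := h
        rcases (Nat.Prime.dvd_mul hℓ).1 h6 with h' | h'
        · exact h2 ((Nat.prime_dvd_prime_iff_eq hℓ Nat.prime_two).1 h')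
        · exact h3 ((Nat.prime_dvd_prime_iff_eq hℓ Nat.prime_three).1 h')
      · exact hT.1 h

theorem h7_branchIndex_pos {ℓ N : ℕ} [NeZero N] : 0 < branchIndex (baseKind ℓ) N := by
  have hN : 0 < N := Nat.pos_of_ne_zero (NeZero.ne N)
  unfold branchIndex
  split_ifs <;> positivity

/-- the nonzero branch point: `1728`, `-64`, `-27`, prime to `ℓ` -/
theorem h7_branchSet_eq (ℓ : ℕ) : ∃ a : ℤ, branchSet (baseKind ℓ) = {0, a} ∧
    (a = 1728 ∧ ℓ ≠ 2 ∧ ℓ ≠ 3 ∨ a = -64 ∧ ℓ = 3 ∨ a = -27 ∧ ℓ = 2) := by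
  unfold baseKind branchSet
  by_cases h2 : ℓ = 2
  · exact ⟨-27, by simp [h2], Or.inr (Or.inr ⟨rfl, h2⟩)⟩
  · by_cases h3 : ℓ = 3
    · exact ⟨-64, by simp [h3], Or.inr (Or.inl ⟨rfl, h3⟩)⟩
    · exact ⟨1728, by simp [h2, h3], Or.inl ⟨rfl, h2, h3⟩⟩

/-- the nonzero branch point is `± n` with `n` a positive natural number prime to `ℓ` -/
theorem h7_branchSet_nat {ℓ : ℕ} (hℓ : ℓ.Prime) : ∃ (a : ℤ) (n : ℕ),
    branchSet (baseKind ℓ) = {0, a} ∧ 0 < n ∧ ¬ ℓ ∣ n ∧ (a = n ∨ a = -n) := by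
  obtain ⟨a, ha, h | h | h⟩ := h7_branchSet_eq ℓ
  · refine ⟨a, 1728, ha, by norm_num, ?_, Or.inl (by rw [h.1]; norm_num)⟩
    intro hd
    have h1728 : (1728 : ℕ) = 2 ^ 6 * 3 ^ 3 := by norm_num
    rw [h1728] at hd
    rcases (Nat.Prime.dvd_mul hℓ).1 hd with h' | h'
    · exact h.2.1 ((Nat.prime_dvd_prime_iff_eq hℓ Nat.prime_two).1 (hℓ.dvd_of_dvd_pow h'))
    · exact h.2.2 ((Nat.prime_dvd_prime_iff_eq hℓ Nat.prime_three).1 (hℓ.dvd_of_dvd_pow h'))
  · refine ⟨a, 64, ha, by norm_num, ?_, Or.inr (by rw [h.1]; norm_num)⟩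
    rw [h.2]; norm_num
  · refine ⟨a, 27, ha, by norm_num, ?_, Or.inr (by rw [h.1]; norm_num)⟩
    rw [h.2]; norm_num

/-- units of the branch set in a ring where all naturals prime to `ℓ` are units -/
theorem h7_branch_units {ℓ : ℕ} (hℓ : ℓ.Prime) (R : Type) [CommRing R]
    (hunit : ∀ n : ℕ, ¬ ℓ ∣ n → 0 < n → IsUnit ((n : ℕ) : R)) :
    (∀ c ∈ branchSet (baseKind ℓ), ∀ c' ∈ branchSet (baseKind ℓ), c ≠ c' →
      IsUnit (((c - c' : ℤ) : ℤ) : R)) ∧
    ∀ c ∈ branchSet (baseKind ℓ), c ≠ 0 → IsUnit ((c : ℤ) : R) := by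
  obtain ⟨a, n, hS, hn0, hnℓ, han⟩ := h7_branchSet_nat hℓ
  have hu : IsUnit ((n : ℕ) : R) := hunit n hnℓ hn0
  have hua : IsUnit ((a : ℤ) : R) := by
    rcases han with h | h
    · rw [h]; simpa using hu
    · rw [h]; simpa using hu.neg
  have hua' : IsUnit (((-a : ℤ) : ℤ) : R) := by
    simpa using hua.neg
  rw [hS]
  constructor
  · intro c hc c' hc' hne
    simp only [Finset.mem_insert, Finset.mem_singleton] at hc hc'
    rcases hc with rfl | rfl <;> rcases hc' with rfl | rfl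
    · exact absurd rfl hne
    · simpa using hua'
    · simpa using hua
    · exact absurd rfl hne
  · intro c hc hc0
    simp only [Finset.mem_insert, Finset.mem_singleton] at hc
    rcases hc with rfl | rfl
    · exact absurd rfl hc0
    · exact hua

end H7S18
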