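import Mathlib
import Fermat.Agent.S18.DefsD
import Fermat.Agent.S18.GVBase_helper28

/-!
# S18 route Y', slice C12b (helper7), part 2b: `u ≡ 1 mod ϖ` from equal reductions
-/

set_option autoImplicit false
set_option synthInstance.maxHeartbeats 400000
set_option linter.style.haveILetI false

open AlgebraicCurve ModularCurve H28GV IntermediateField

namespace H7S18

/-- if all coefficients of `Y` are killed by `ρ` (whose kernel consists of non-units), then
`Y = ϖ · W` for an integral series `W` -/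
theorem h7_exists_div_unif {K : Type} [Field K] (A₁ : ValuationSubring K)
    [IsDiscreteValuationRing A₁] (ϖ : A₁) (hϖ : Irreducible ϖ)
    {k : Type} [Field k] (ρ : A₁ →+* k) (hρ : ∀ a : A₁, ρ a = 0 → ¬ IsUnit a)
    (Y : LaurentSeries A₁) (hY : coeffMap ρ Y = 0) :
    ∃ W : LaurentSeries A₁, coeffMap A₁.subtype Y =
      HahnSeries.single 0 (ϖ : K) * coeffMap A₁.subtype W := by
  have hϖ0 : (ϖ : K) ≠ 0 := by
    intro h
    exact hϖ.ne_zero (Subtype.ext h)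
  have hcoef : ∀ n, ∃ w : A₁, Y.coeff n = ϖ * w := by
    intro n
    have h0 : ρ (Y.coeff n) = 0 := by
      have := congrArg (fun Z : LaurentSeries k => Z.coeff n) hY
      simpa using this
    have hnu : ¬ IsUnit (Y.coeff n) := hρ _ h0
    have hmem : Y.coeff n ∈ IsLocalRing.maximalIdeal A₁ := by
      rw [IsLocalRing.mem_maximalIdeal]; exact hnu
    rw [hϖ.maximalIdeal_eq, Ideal.mem_span_singleton'] at hmem
    obtain ⟨w, hw⟩ := hmem
    exact ⟨w, by rw [← hw, mul_comm]⟩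
  obtain ⟨W, hW⟩ := gv_exists_eps_eq (A := A₁)
    (HahnSeries.single 0 ((ϖ : K))⁻¹ * coeffMap A₁.subtype Y) (by
      intro n
      obtain ⟨w, hw⟩ := hcoef n
      have : (HahnSeries.single 0 ((ϖ : K))⁻¹ * coeffMap A₁.subtype Y).coeff n = (w : K) := by
        have h1 : (HahnSeries.single (0 : ℤ) ((ϖ : K))⁻¹ * coeffMap A₁.subtype Y).coeff (n + 0) =
            ((ϖ : K))⁻¹ * (coeffMap A₁.subtype Y).coeff n := HahnSeries.coeff_single_mul_add
        rw [add_zero] at h1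
        rw [h1, coeffMap_coeff, hw]
        simp only [ValuationSubring.subtype_apply, MulMemClass.coe_mul]
        field_simp
      rw [this]
      exact w.2)
  refine ⟨W, ?_⟩
  have hW' : coeffMap A₁.subtype W = HahnSeries.single 0 ((ϖ : K))⁻¹ * coeffMap A₁.subtype Y := hW
  rw [hW', ← mul_assoc, HahnSeries.single_mul_single, add_zero, mul_inv_cancel₀ hϖ0]
  have : (HahnSeries.single (0 : ℤ) (1 : K)) = 1 := rfl
  rw [this, one_mul]

/-- `e₀ / e₁ ≡ 1 mod ϖ O` when `e_i = ε Y_i` with `ρ Y₀ = ρ Y₁ ≠ 0`. -/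
theorem h7_modPi_one {K : Type} [Field K] [Algebra ℚ K] (A₁ : ValuationSubring K)
    [IsDiscreteValuationRing A₁] (ϖ : A₁) (hϖ : Irreducible ϖ)
    {k : Type} [Field k] (ρ : A₁ →+* k) (hρ : ∀ a : A₁, ρ a = 0 → ¬ IsUnit a)
    (N : ℕ) [NeZero N] [Algebra A₁ (FK K N)] [IsScalarTower A₁ K (FK K N)]
    (t : FK K N)
    (hgint : ∀ (f g : LaurentSeries A₁) (x : FK K N), coeffMap ρ g ≠ 0 →
      (x : LaurentSeries K) * coeffMap A₁.subtype g = coeffMap A₁.subtype f → GInt A₁ ϖ t x)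
    (Y₀ Y₁ : LaurentSeries A₁) (e₀ e₁ : FK K N)
    (he₀ : (e₀ : LaurentSeries K) = coeffMap A₁.subtype Y₀)
    (he₁ : (e₁ : LaurentSeries K) = coeffMap A₁.subtype Y₁)
    (hY₁ : coeffMap ρ Y₁ ≠ 0) (hY : coeffMap ρ Y₀ = coeffMap ρ Y₁) :
    ModPi A₁ ϖ t (e₀ / e₁) 1 := by
  have hϖ0 : (ϖ : K) ≠ 0 := fun h => hϖ.ne_zero (Subtype.ext h)
  obtain ⟨W, hW⟩ := h7_exists_div_unif A₁ ϖ hϖ ρ hρ (Y₀ - Y₁) (by rw [map_sub, hY, sub_self])
  have hεY₁ : coeffMap A₁.subtype Y₁ ≠ 0 := gvEps_ne_zero_of_rho A₁ ρ Y₁ hY₁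
  have he₁0 : e₁ ≠ 0 := by
    intro h
    apply hεY₁
    rw [← he₁, h]; rfl
  have hπF : algebraMap A₁ (FK K N) ϖ ≠ 0 := by
    rw [IsScalarTower.algebraMap_apply A₁ K (FK K N)]
    exact (map_ne_zero _).2 hϖ0
  have hπcoe : ((algebraMap A₁ (FK K N) ϖ : FK K N) : LaurentSeries K) =
      HahnSeries.single 0 (ϖ : K) := by
    rw [IsScalarTower.algebraMap_apply A₁ K (FK K N)]
    show algebraMap K (LaurentSeries K) (algebraMap A₁ K ϖ) = _
    rw [algebraMap_laurentSeries_eq_single]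
    rfl
  refine ⟨(e₀ / e₁ - 1) * (algebraMap A₁ (FK K N) ϖ)⁻¹, hgint W Y₁ _ hY₁ ?_, ?_⟩
  · have h1 : (((e₀ / e₁ - 1) * (algebraMap A₁ (FK K N) ϖ)⁻¹ : FK K N) : LaurentSeries K) =
        ((e₀ : LaurentSeries K) / (e₁ : LaurentSeries K) - 1) *
          ((algebraMap A₁ (FK K N) ϖ : FK K N) : LaurentSeries K)⁻¹ := by
      push_cast
      rfl
    rw [h1, hπcoe, he₀, he₁]
    rw [map_sub] at hW
    have hs0 : (HahnSeries.single (0 : ℤ) (ϖ : K)) ≠ 0 := by
      simpa using hϖ0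
    field_simp
    linear_combination hW
  · field_simp

end H7S18
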