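import Mathlib
import Fermat.Agent.S18.DefsD
import Fermat.Agent.S18.A0_helper28
import Fermat.Agent.S18.GVBar_helper28

/-!
# S18 route Y', slice C12b (helper7), part 1: normalization `γ = 1`
-/

set_option autoImplicit false
set_option synthInstance.maxHeartbeats 400000

open AlgebraicCurve ModularCurve H28GV

namespace H7S18

/-- `(K)_p` with `γ = 1`: the normalized Kummer statement. -/
def KummerOne {L : Type} [Field L] [Algebra ℚ L] (A : ValuationSubring L)
    {k : Type} [Field k] (π : A →+* k) (N : ℕ) [NeZero N] (p : ℕ) : Prop :=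
  ∀ (Z₁ Z₂ : LaurentSeries A)
    (h₁ : coeffMap A.subtype Z₁ ∈ laurentBaseChange L (modularFunctionFieldFull N))
    (h₂ : coeffMap A.subtype Z₂ ∈ laurentBaseChange L (modularFunctionFieldFull N)),
    coeffMap π Z₂ ≠ 0 → coeffMap π Z₁ = coeffMap π Z₂ →
    (∀ P : Place L (laurentBaseChange L (modularFunctionFieldFull N)),
      (p : ℤ) ∣ P.ord (⟨_, h₁⟩ : laurentBaseChange L (modularFunctionFieldFull N)) -
        P.ord (⟨_, h₂⟩ : laurentBaseChange L (modularFunctionFieldFull N))) →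
    ∃ g ∈ laurentBaseChange L (modularFunctionFieldFull N),
      coeffMap A.subtype Z₁ = g ^ p * coeffMap A.subtype Z₂

theorem h7_eps_ne_zero {L : Type} [Field L] (A : ValuationSubring L)
    {k : Type} [Field k] (π : A →+* k) (Y : LaurentSeries A) (h : coeffMap π Y ≠ 0) :
    coeffMap A.subtype Y ≠ 0 :=
  gvEps_ne_zero_of_rho A π Y h

/-- Normalization: `(K)_p` follows from its special case `γ = 1`. -/
theorem h7_kummer_of_one (N : ℕ) [NeZero N] (ℓ : ℕ) [Fact ℓ.Prime] (hℓN : ¬ ℓ ∣ N)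
    (A : ValuationSubring (AlgebraicClosure ℚ)) (hA : A.LiesOverPrime ℓ) (p : ℕ)
    (hOne : KummerOne A (IsLocalRing.residue A) N p) :
    KummerStatement A (IsLocalRing.residue A) N p := by
  classical
  intro Y₁ Y₂ γ h₁ h₂ hk₁ hk₂ hY₂ hγ0 hγ hred hdiv
  obtain ⟨B⟩ := gv_basis_bar A ℓ hA N hℓN
  have hπ : ∀ a : A, IsLocalRing.residue A a ≠ 0 → ((a : AlgebraicClosure ℚ))⁻¹ ∈ A :=
    fun a ha => gv_residue_unit A a ha
  -- lift `γ`
  obtain ⟨H, hHL, hHred⟩ := gv_red_surj B (gv_residue_surj A) γ hγ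
  have hH0 : gvRed A (IsLocalRing.residue A) H ≠ 0 := by rw [hHred]; exact hγ0
  obtain ⟨f, g, hf, hg, hfL, hgL, -, -, hHfg, hρfg⟩ := gv_unit_frac B hπ H hHL hH0
  rw [hHred] at hρfg
  have hfL' : coeffMap A.subtype f ∈
      laurentBaseChange (AlgebraicClosure ℚ) (modularFunctionFieldFull N) := by
    rw [gv_bar_eq]; exact hfL
  have hgL' : coeffMap A.subtype g ∈
      laurentBaseChange (AlgebraicClosure ℚ) (modularFunctionFieldFull N) := by
    rw [gv_bar_eq]; exact hgL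
  have hf0 : coeffMap A.subtype f ≠ 0 := h7_eps_ne_zero A _ f hf
  have hg0 : coeffMap A.subtype g ≠ 0 := h7_eps_ne_zero A _ g hg
  have hY₂0 : coeffMap A.subtype Y₂ ≠ 0 := h7_eps_ne_zero A _ Y₂ hY₂
  have hY₁ : coeffMap (IsLocalRing.residue A) Y₁ ≠ 0 := by
    rw [hred]; exact mul_ne_zero (pow_ne_zero _ hγ0) hY₂
  have hY₁0 : coeffMap A.subtype Y₁ ≠ 0 := h7_eps_ne_zero A _ Y₁ hY₁
  -- the normalized pair
  have hZ₁ : coeffMap A.subtype (Y₁ * g ^ p) ∈
      laurentBaseChange (AlgebraicClosure ℚ) (modularFunctionFieldFull N) := by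
    rw [map_mul, map_pow]; exact mul_mem h₁ (pow_mem hgL' p)
  have hZ₂ : coeffMap A.subtype (Y₂ * f ^ p) ∈
      laurentBaseChange (AlgebraicClosure ℚ) (modularFunctionFieldFull N) := by
    rw [map_mul, map_pow]; exact mul_mem h₂ (pow_mem hfL' p)
  have hZ₂ρ : coeffMap (IsLocalRing.residue A) (Y₂ * f ^ p) ≠ 0 := by
    rw [map_mul, map_pow]; exact mul_ne_zero hY₂ (pow_ne_zero _ hf)
  have hZρ : coeffMap (IsLocalRing.residue A) (Y₁ * g ^ p) =
      coeffMap (IsLocalRing.residue A) (Y₂ * f ^ p) := by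
    have hρfg' : coeffMap (IsLocalRing.residue A) f = γ * coeffMap (IsLocalRing.residue A) g :=
      hρfg
    rw [map_mul, map_pow, map_mul, map_pow, hred, hρfg']
    ring
  obtain ⟨v, hv, hveq⟩ := hOne (Y₁ * g ^ p) (Y₂ * f ^ p) hZ₁ hZ₂ hZ₂ρ hZρ (by
    intro P
    have e1 : (⟨coeffMap A.subtype (Y₁ * g ^ p), hZ₁⟩ :
        laurentBaseChange (AlgebraicClosure ℚ) (modularFunctionFieldFull N)) =
        ⟨_, h₁⟩ * ⟨_, hgL'⟩ ^ p := by
      apply Subtype.ext; simp [map_mul, map_pow]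
    have e2 : (⟨coeffMap A.subtype (Y₂ * f ^ p), hZ₂⟩ :
        laurentBaseChange (AlgebraicClosure ℚ) (modularFunctionFieldFull N)) =
        ⟨_, h₂⟩ * ⟨_, hfL'⟩ ^ p := by
      apply Subtype.ext; simp [map_mul, map_pow]
    have n1 : (⟨_, h₁⟩ : laurentBaseChange (AlgebraicClosure ℚ) (modularFunctionFieldFull N)) ≠ 0 :=
      fun h => hY₁0 (congrArg Subtype.val h)
    have n2 : (⟨_, h₂⟩ : laurentBaseChange (AlgebraicClosure ℚ) (modularFunctionFieldFull N)) ≠ 0 :=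
      fun h => hY₂0 (congrArg Subtype.val h)
    have n3 : (⟨_, hgL'⟩ : laurentBaseChange (AlgebraicClosure ℚ) (modularFunctionFieldFull N)) ≠ 0 :=
      fun h => hg0 (congrArg Subtype.val h)
    have n4 : (⟨_, hfL'⟩ : laurentBaseChange (AlgebraicClosure ℚ) (modularFunctionFieldFull N)) ≠ 0 :=
      fun h => hf0 (congrArg Subtype.val h)
    rw [e1, e2, P.ord_mul n1 (pow_ne_zero _ n3), P.ord_mul n2 (pow_ne_zero _ n4),
      ← zpow_natCast, ← zpow_natCast, P.ord_zpow, P.ord_zpow]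
    have := hdiv P
    obtain ⟨c, hc⟩ := this
    exact ⟨c + P.ord ⟨_, hgL'⟩ - P.ord ⟨_, hfL'⟩, by
      have : P.ord ⟨_, h₁⟩ = P.ord ⟨_, h₂⟩ + p * c := by linarith
      rw [this]; ring⟩)
  -- conclude
  refine ⟨v * (coeffMap A.subtype f / coeffMap A.subtype g),
    mul_mem hv (div_mem hfL' hgL'), ?_⟩
  rw [map_mul, map_pow, map_mul, map_pow] at hveq
  have : coeffMap A.subtype Y₁ = v ^ p * coeffMap A.subtype Y₂ * coeffMap A.subtype f ^ p /
      coeffMap A.subtype g ^ p := by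
    rw [eq_div_iff (pow_ne_zero _ hg0), hveq]; ring
  rw [this, mul_pow, div_pow]
  field_simp

end H7S18
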