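import Mathlib
import Fermat.Agent.S18.C12bAux_helper7
import Fermat.Agent.S18.C12bNorm_helper7
import Fermat.Agent.S18.C12bMod_helper7

/-!
# S18 route Y', slice C12b (helper7), part 3: instantiation of the abstract theorem
-/

set_option autoImplicit false
set_option synthInstance.maxHeartbeats 400000
set_option maxHeartbeats 1000000
set_option linter.style.haveILetI false

open AlgebraicCurve ModularCurve H28GV IntermediateField

namespace H7S18

theorem h7_kummerOne (hAbs : AbstractKummerStatement) (hNF : NumberFieldStatement)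
    (hDvr : DvrStatement) (hFB : FieldBasicsStatement) (hBC : BaseChangeStatement)
    (hG : GaussStatement) (hBr : BranchStatement) (hHM : HauptmodulStatement)
    (N : ℕ) [NeZero N] (ℓ : ℕ) [Fact ℓ.Prime] (hT : TameLevel ℓ N)
    (A : ValuationSubring (AlgebraicClosure ℚ)) (hA : A.LiesOverPrime ℓ)
    (p : ℕ) (hp : p.Prime) (hpℓ : p ≠ ℓ) :
    KummerOne A (IsLocalRing.residue A) N p := by
  classical
  have hℓ : ℓ.Prime := Fact.out
  intro Z₁ Z₂ h₁ h₂ hZ₂ hZ hdiv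
  -- the base function
  have hi := h7_baseKind_ok hT
  obtain ⟨t₀, ht₀⟩ : ∃ t₀ : LaurentSeries ℚ, IsBase (baseKind ℓ) t₀ := by
    rcases hi with h | h | h
    · exact ⟨jq, Or.inl ⟨h, rfl⟩⟩
    · exact ⟨modularUnitSeries 2, Or.inr (Or.inl ⟨h.1, rfl⟩)⟩
    · obtain ⟨-, t₃, ht₃, -⟩ := hHM
      rw [← h.1] at ht₃
      exact ⟨t₃, ht₃⟩
  have he₀ℓ := h7_branchIndex_coprime hℓ hT
  have he₀pos : 0 < branchIndex (baseKind ℓ) N := h7_branchIndex_pos
  -- the number field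
  obtain ⟨K₁, hK₁fin, Z', ⟨ζ, hζ⟩, hZ'incl, hZ'mem⟩ :=
    hNF N A (p * branchIndex (baseKind ℓ) N) (Nat.mul_pos hp.pos he₀pos) ![Z₁, Z₂] (by
      intro i; fin_cases i
      · exact h₁
      · exact h₂)
  -- the DVR
  obtain ⟨hdvr, -, hunit⟩ := hDvr ℓ A hA K₁ hK₁fin
  haveI := hdvr
  obtain ⟨ϖ, hϖ⟩ := IsDiscreteValuationRing.exists_irreducible ↥(descVal A K₁)
  -- field basics
  obtain ⟨t₁, ht₁coe, ht₁tr, ht₁fin, ht₁const⟩ := hFB N (baseKind ℓ) hi t₀ ht₀ K₁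
  obtain ⟨tL, htLcoe, -, htLfin, -⟩ := hFB N (baseKind ℓ) hi t₀ ht₀ (AlgebraicClosure ℚ)
  -- base change
  obtain ⟨φ, hφcoe, hφint⟩ := hBC N K₁
  letI algRF : Algebra ↥(descVal A K₁) (FK K₁ N) :=
    ((algebraMap K₁ (FK K₁ N)).comp (algebraMap ↥(descVal A K₁) K₁)).toAlgebra
  haveI towRF : IsScalarTower ↥(descVal A K₁) K₁ (FK K₁ N) :=
    IsScalarTower.of_algebraMap_eq (fun _ => rfl)
  letI algFF : Algebra (FK K₁ N) (FK (AlgebraicClosure ℚ) N) := φ.toAlgebra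
  haveI towKF : IsScalarTower K₁ (FK K₁ N) (FK (AlgebraicClosure ℚ) N) := by
    refine IsScalarTower.of_algebraMap_eq (fun a => ?_)
    apply Subtype.ext
    show ((algebraMap (AlgebraicClosure ℚ) (FK (AlgebraicClosure ℚ) N)
        (algebraMap K₁ (AlgebraicClosure ℚ) a) : FK (AlgebraicClosure ℚ) N) :
          LaurentSeries (AlgebraicClosure ℚ)) = ((φ (algebraMap K₁ (FK K₁ N) a) :
            FK (AlgebraicClosure ℚ) N) : LaurentSeries (AlgebraicClosure ℚ))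
    rw [hφcoe]
    show algebraMap (AlgebraicClosure ℚ) (LaurentSeries (AlgebraicClosure ℚ))
        (algebraMap K₁ (AlgebraicClosure ℚ) a) =
      coeffMap (algebraMap K₁ (AlgebraicClosure ℚ)) (algebraMap K₁ (LaurentSeries K₁) a)
    rw [algebraMap_laurentSeries_eq_single, algebraMap_laurentSeries_eq_single, coeffMap_single]
  haveI algFFalg : Algebra.IsAlgebraic (FK K₁ N) (FK (AlgebraicClosure ℚ) N) :=
    ⟨fun y => (show IsIntegral (FK K₁ N) y from hφint y).isAlgebraic⟩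
  haveI : Algebra.IsAlgebraic ℚ (AlgebraicClosure ℚ) := AlgebraicClosure.isAlgebraic ℚ
  haveI : Algebra.IsAlgebraic K₁ (AlgebraicClosure ℚ) :=
    Algebra.IsAlgebraic.tower_top (K := ℚ) K₁
  -- the Gauss data
  obtain ⟨hunr, hgint⟩ := hG N ℓ hT A hA K₁ hK₁fin ϖ hϖ t₀ ht₀ t₁ ht₁coe
  -- the descended series
  have hZ1incl : coeffMap (descIncl A K₁) (Z' 0) = Z₁ := hZ'incl 0
  have hZ2incl : coeffMap (descIncl A K₁) (Z' 1) = Z₂ := hZ'incl 1
  have hρZ2 : coeffMap ((IsLocalRing.residue A).comp (descIncl A K₁)) (Z' 1) ≠ 0 := by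
    rw [← coeffMap_coeffMap, hZ2incl]; exact hZ₂
  have hρZ12 : coeffMap ((IsLocalRing.residue A).comp (descIncl A K₁)) (Z' 0) =
      coeffMap ((IsLocalRing.residue A).comp (descIncl A K₁)) (Z' 1) := by
    rw [← coeffMap_coeffMap, ← coeffMap_coeffMap, hZ1incl, hZ2incl]; exact hZ
  have hcomp : (algebraMap K₁ (AlgebraicClosure ℚ)).comp (descVal A K₁).subtype =
      A.subtype.comp (descIncl A K₁) := by
    ext x; rfl
  have hεε : ∀ Y : LaurentSeries (descVal A K₁),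
      coeffMap (algebraMap K₁ (AlgebraicClosure ℚ)) (coeffMap (descVal A K₁).subtype Y) =
        coeffMap A.subtype (coeffMap (descIncl A K₁) Y) := by
    intro Y
    rw [coeffMap_coeffMap, coeffMap_coeffMap, hcomp]
  -- the elements `e1 = ε Z'₀`, `e2 = ε Z'₁`, `u₁ = e1 / e2` of `F₁`
  obtain ⟨e1, he1⟩ : ∃ e1 : FK K₁ N, (e1 : LaurentSeries K₁) =
      coeffMap (descVal A K₁).subtype (Z' 0) := ⟨⟨_, hZ'mem 0⟩, rfl⟩
  obtain ⟨e2, he2⟩ : ∃ e2 : FK K₁ N, (e2 : LaurentSeries K₁) =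
      coeffMap (descVal A K₁).subtype (Z' 1) := ⟨⟨_, hZ'mem 1⟩, rfl⟩
  have hφe1 : φ e1 = ⟨_, h₁⟩ := Subtype.ext (by rw [hφcoe, he1, hεε, hZ1incl])
  have hφe2 : φ e2 = ⟨_, h₂⟩ := Subtype.ext (by rw [hφcoe, he2, hεε, hZ2incl])
  have hZ₂0 : coeffMap A.subtype Z₂ ≠ 0 := h7_eps_ne_zero A _ Z₂ hZ₂
  have hZ₁0 : coeffMap A.subtype Z₁ ≠ 0 := h7_eps_ne_zero A _ Z₁ (by rw [hZ]; exact hZ₂)
  have hφe2ne : φ e2 ≠ 0 := by
    rw [hφe2]; exact fun h => hZ₂0 (congrArg Subtype.val h)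
  have hφe1ne : φ e1 ≠ 0 := by
    rw [hφe1]; exact fun h => hZ₁0 (congrArg Subtype.val h)
  have he2ne : e2 ≠ 0 := fun h => hφe2ne (by rw [h, map_zero])
  have he1ne : e1 ≠ 0 := fun h => hφe1ne (by rw [h, map_zero])
  -- `u₁ ≡ 1 mod ϖ`
  have hρker : ∀ a : ↥(descVal A K₁),
      ((IsLocalRing.residue A).comp (descIncl A K₁)) a = 0 → ¬ IsUnit a := by
    intro a ha hu
    have hu' : IsUnit (descIncl A K₁ a) := hu.map (descIncl A K₁)
    have : IsLocalRing.residue A (descIncl A K₁ a) = 0 := ha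
    rw [IsLocalRing.residue_eq_zero_iff, IsLocalRing.mem_maximalIdeal] at this
    exact this hu'
  have hmod : ModPi ↥(descVal A K₁) ϖ t₁ (e1 / e2) 1 :=
    h7_modPi_one (descVal A K₁) ϖ hϖ _ hρker N t₁ hgint (Z' 0) (Z' 1) e1 e2 he1 he2 hρZ2 hρZ12
  -- divisibility of the divisor
  have hdivW : ∀ W : Place (AlgebraicClosure ℚ) (FK (AlgebraicClosure ℚ) N),
      (p : ℤ) ∣ W.ord (algebraMap (FK K₁ N) (FK (AlgebraicClosure ℚ) N) (e1 / e2)) := by
    intro W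
    have h1 : algebraMap (FK K₁ N) (FK (AlgebraicClosure ℚ) N) (e1 / e2) = φ e1 * (φ e2)⁻¹ := by
      show φ (e1 / e2) = _
      rw [map_div₀, div_eq_mul_inv]
    rw [h1, W.ord_mul hφe1ne (inv_ne_zero hφe2ne), W.ord_inv, hφe1, hφe2, ← sub_eq_add_neg]
    exact hdiv W
  -- the base function over `ℚ̄`
  have htL : algebraMap (FK K₁ N) (FK (AlgebraicClosure ℚ) N) t₁ = tL := by
    apply Subtype.ext
    show ((φ t₁ : FK (AlgebraicClosure ℚ) N) : LaurentSeries (AlgebraicClosure ℚ)) = _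
    rw [hφcoe, ht₁coe, htLcoe]
    show coeffMap (algebraMap K₁ (AlgebraicClosure ℚ)) (coeffMap (algebraMap ℚ K₁) t₀) =
      coeffMap (algebraMap ℚ (AlgebraicClosure ℚ)) t₀
    rw [coeffMap_coeffMap]
    exact coeffMap_congr (Subsingleton.elim _ _) t₀
  obtain ⟨hUO, hTA⟩ := hBr N (baseKind ℓ) hi t₀ ht₀ tL htLcoe
  rw [← htL] at hUO hTA htLfin
  -- units and roots of unity
  obtain ⟨hS1, hS2⟩ := h7_branch_units hℓ ↥(descVal A K₁) hunit
  have he₀u : IsUnit ((branchIndex (baseKind ℓ) N : ℕ) : ↥(descVal A K₁)) :=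
    hunit _ he₀ℓ he₀pos
  have hpu : IsUnit ((p : ℕ) : ↥(descVal A K₁)) :=
    hunit p (fun h => hpℓ ((Nat.prime_dvd_prime_iff_eq hℓ hp).1 h).symm) hp.pos
  have hζR : ∃ ζ' : ↥(descVal A K₁), IsPrimitiveRoot ζ' (branchIndex (baseKind ℓ) N) := by
    have hζ' : IsPrimitiveRoot (ζ ^ p) (branchIndex (baseKind ℓ) N) :=
      hζ.pow (Nat.mul_pos hp.pos he₀pos) rfl
    have hmem : ζ ^ p ∈ descVal A K₁ :=
      h7_mem_of_pow_eq_one _ _ _ he₀pos hζ'.pow_eq_one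
    refine ⟨⟨ζ ^ p, hmem⟩, ?_⟩
    exact IsPrimitiveRoot.of_map_of_injective (f := (descVal A K₁).subtype)
      (by exact hζ') Subtype.val_injective
  -- apply the abstract theorem
  obtain ⟨v, hv⟩ := hAbs ↥(descVal A K₁) K₁ (AlgebraicClosure ℚ) (FK K₁ N)
    (FK (AlgebraicClosure ℚ) N) ϖ hϖ t₁ ht₁tr ht₁fin htLfin ht₁const hunr
    (branchSet (baseKind ℓ)) hS1 hS2 (branchIndex (baseKind ℓ) N) he₀u hζR hUO hTA
    p hp hpu (e1 / e2) (div_ne_zero he1ne he2ne) hmod hdivW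
  refine ⟨(v : LaurentSeries (AlgebraicClosure ℚ)), v.2, ?_⟩
  have h2 : v ^ p = φ e1 / φ e2 := by
    rw [hv]
    show φ (e1 / e2) = _
    rw [map_div₀]
  have h3 := congrArg (fun x : FK (AlgebraicClosure ℚ) N =>
    (x : LaurentSeries (AlgebraicClosure ℚ))) h2
  simp only [hφe1, hφe2] at h3
  have h4 : ((v : LaurentSeries (AlgebraicClosure ℚ))) ^ p =
      coeffMap A.subtype Z₁ / coeffMap A.subtype Z₂ := by
    simpa using h3
  rw [h4, div_mul_cancel₀ _ hZ₂0]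

/-- **C12b**: the main theorem `(K)_p` at a tame level, from the abstract theorem (Layer 1)
and the modular inputs. -/
theorem h7_kummerTame (hAbs : AbstractKummerStatement) (hNF : NumberFieldStatement)
    (hDvr : DvrStatement) (hFB : FieldBasicsStatement) (hBC : BaseChangeStatement)
    (hG : GaussStatement) (hBr : BranchStatement) (hHM : HauptmodulStatement) :
    KummerTameStatement :=
  fun N _ ℓ _ hT A hA p hp hpℓ =>
    h7_kummer_of_one N ℓ hT.1 A hA p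
      (h7_kummerOne hAbs hNF hDvr hFB hBC hG hBr hHM N ℓ hT A hA p hp hpℓ)

end H7S18
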