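/-
helper19: S18 route Y', slice C1 = Lemma CL (connectedness), FINITENESS part:
the `π`-power torsion of `H^1 = W/(M0 + Minf)` is bounded, because `H^1` is a finite module over
the noetherian ring `R`.
-/
import Mathlib

set_option autoImplicit false

namespace H19S18

open Polynomial

section Fin

variable {R O : Type*} [CommRing R] [CommRing O] [Algebra R O]

/-- `tinv^e * m` lies in `M0 + Minf + span{tinv^j * m_i : j < K}` when `tinv^K * m ∈ Minf`. -/
theorem h19_clfin_neg_pow (Minf : Subalgebra R O) (tinv : O) (htinf : tinv ∈ Minf)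
    (S G : Submodule R O) (hinfS : Minf.toSubmodule ≤ S)
    (m : O) (K : ℕ) (hK : tinv ^ K * m ∈ Minf)
    (hG : ∀ j, j < K → tinv ^ j * m ∈ G) (e : ℕ) : tinv ^ e * m ∈ S ⊔ G := by
  rcases lt_or_ge e K with h | h
  · exact Submodule.mem_sup_right (hG e h)
  · apply Submodule.mem_sup_left
    apply hinfS
    have : tinv ^ e * m = tinv ^ (e - K) * (tinv ^ K * m) := by
      rw [← mul_assoc, ← pow_add, Nat.sub_add_cancel h]
    rw [this]
    exact Minf.mul_mem (Minf.pow_mem htinf _) hK

/-- Bounded `π`-power torsion of `W/(M0 + Minf)`. -/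
theorem h19_cl_bounded [IsNoetherianRing R] (π : R)
    (M0 Minf W : Subalgebra R O)
    (t tinv : O) (htt : t * tinv = 1)
    (ht0 : t ∈ M0) (htinf : tinv ∈ Minf)
    (n : ℕ) (m : Fin n → O) (hm : ∀ i, m i ∈ M0)
    (hgen : ∀ y ∈ M0, ∃ p : Fin n → R[X], y = ∑ i, aeval t (p i) * m i)
    (hW0 : ∀ w ∈ W, ∃ k : ℕ, t ^ k * w ∈ M0)
    (hK : ∀ i, ∃ K : ℕ, tinv ^ K * m i ∈ Minf) :
    ∃ c : ℕ, ∀ w ∈ W, ∀ k : ℕ,
      (∃ u ∈ M0, ∃ v ∈ Minf, algebraMap R O π ^ k * w = u + v) →
      ∃ u ∈ M0, ∃ v ∈ Minf, algebraMap R O π ^ c * w = u + v := by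
  classical
  -- uniform K
  choose Ki hKi using hK
  set K : ℕ := ∑ i, Ki i with hKdef
  have hKle : ∀ i, Ki i ≤ K := fun i =>
    Finset.single_le_sum (f := Ki) (fun _ _ => Nat.zero_le _) (Finset.mem_univ i)
  have hKu : ∀ i, tinv ^ K * m i ∈ Minf := by
    intro i
    have : tinv ^ K * m i = tinv ^ (K - Ki i) * (tinv ^ Ki i * m i) := by
      rw [← mul_assoc, ← pow_add, Nat.sub_add_cancel (hKle i)]
    rw [this]
    exact Minf.mul_mem (Minf.pow_mem htinf _) (hKi i)
  set S : Submodule R O := M0.toSubmodule ⊔ Minf.toSubmodule with hS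
  set G : Submodule R O :=
    Submodule.span R (Set.range fun ij : Fin n × Fin K => tinv ^ (ij.2 : ℕ) * m ij.1) with hG
  have hGfg : G.FG := Submodule.fg_span (Set.finite_range _)
  have h0S : M0.toSubmodule ≤ S := le_sup_left
  have hinfS : Minf.toSubmodule ≤ S := le_sup_right
  have hGmem : ∀ i, ∀ j, j < K → tinv ^ j * m i ∈ G := fun i j hj =>
    Submodule.subset_span ⟨(i, ⟨j, hj⟩), rfl⟩
  -- monomials
  have hmono : ∀ i, ∀ k j : ℕ, tinv ^ k * (t ^ j * m i) ∈ S ⊔ G := by
    intro i k j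
    rcases le_or_gt k j with h | h
    · apply Submodule.mem_sup_left
      apply h0S
      have : tinv ^ k * (t ^ j * m i) = t ^ (j - k) * m i := by
        have hj : t ^ j = t ^ (j - k) * t ^ k := by rw [← pow_add, Nat.sub_add_cancel h]
        rw [hj]
        have : tinv ^ k * t ^ k = 1 := by rw [← mul_pow, mul_comm, htt, one_pow]
        calc tinv ^ k * (t ^ (j - k) * t ^ k * m i)
            = (tinv ^ k * t ^ k) * (t ^ (j - k) * m i) := by ring
          _ = t ^ (j - k) * m i := by rw [this, one_mul]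
      rw [this]
      exact M0.mul_mem (M0.pow_mem ht0 _) (hm i)
    · have : tinv ^ k * (t ^ j * m i) = tinv ^ (k - j) * m i := by
        have hk : tinv ^ k = tinv ^ (k - j) * tinv ^ j := by
          rw [← pow_add, Nat.sub_add_cancel h.le]
        rw [hk]
        have : tinv ^ j * t ^ j = 1 := by rw [← mul_pow, mul_comm, htt, one_pow]
        calc tinv ^ (k - j) * tinv ^ j * (t ^ j * m i)
            = (tinv ^ j * t ^ j) * (tinv ^ (k - j) * m i) := by ring
          _ = tinv ^ (k - j) * m i := by rw [this, one_mul]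
      rw [this]
      exact h19_clfin_neg_pow Minf tinv htinf S G hinfS (m i) K (hKu i) (hGmem i) _
  -- polynomials
  have hpoly : ∀ i, ∀ k : ℕ, ∀ p : R[X], tinv ^ k * (aeval t p * m i) ∈ S ⊔ G := by
    intro i k p
    induction p using Polynomial.induction_on' with
    | add p q hp hq =>
      rw [map_add, add_mul, mul_add]
      exact Submodule.add_mem _ hp hq
    | monomial j a =>
      rw [aeval_monomial]
      have : tinv ^ k * (algebraMap R O a * t ^ j * m i) = a • (tinv ^ k * (t ^ j * m i)) := by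
        rw [Algebra.smul_def]; ring
      rw [this]
      exact Submodule.smul_mem _ _ (hmono i k j)
  -- W ≤ S ⊔ G
  have hWle : ∀ w ∈ W, w ∈ S ⊔ G := by
    intro w hw
    obtain ⟨k, hk⟩ := hW0 w hw
    obtain ⟨p, hp⟩ := hgen _ hk
    have : w = ∑ i, tinv ^ k * (aeval t (p i) * m i) := by
      rw [← Finset.mul_sum, ← hp, ← mul_assoc]
      have : tinv ^ k * t ^ k = 1 := by rw [← mul_pow, mul_comm, htt, one_pow]
      rw [this, one_mul]
    rw [this]
    exact Submodule.sum_mem _ fun i _ => hpoly i k (p i)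
  -- the finite module H = image of G in O/S
  set H : Submodule R (O ⧸ S) := G.map S.mkQ with hH
  have hHfg : H.FG := Submodule.FG.map _ hGfg
  have hHn : IsNoetherian R H := isNoetherian_of_fg_of_noetherian H hHfg
  have hWH : ∀ w ∈ W, S.mkQ w ∈ H := by
    intro w hw
    obtain ⟨s, hs, g, hg, rfl⟩ := Submodule.mem_sup.mp (hWle w hw)
    have hs0 : S.mkQ s = 0 := by
      rw [Submodule.mkQ_apply]; exact (Submodule.Quotient.mk_eq_zero S).mpr hs
    rw [map_add, hs0, zero_add]
    exact Submodule.mem_map_of_mem hg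
  -- the chain of torsion submodules
  let f : ℕ →o Submodule R H :=
    ⟨fun k => LinearMap.ker ((π ^ k) • (LinearMap.id : H →ₗ[R] H)), by
      intro a b hab x hx
      simp only [LinearMap.mem_ker, LinearMap.smul_apply, LinearMap.id_coe, id_eq] at hx ⊢
      have : π ^ b = π ^ (b - a) * π ^ a := by rw [← pow_add, Nat.sub_add_cancel hab]
      rw [this, mul_smul, hx, smul_zero]⟩
  obtain ⟨c, hc⟩ := monotone_stabilizes_iff_noetherian.mpr hHn f
  refine ⟨c, fun w hw k hk => ?_⟩
  obtain ⟨u, hu, v, hv, huv⟩ := hk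
  have hkS : (π ^ k) • w ∈ S := by
    rw [Algebra.smul_def, map_pow, huv]
    exact Submodule.add_mem _ (h0S hu) (hinfS hv)
  have hmem : (⟨S.mkQ w, hWH w hw⟩ : H) ∈ f (max k c) := by
    have h1 : (⟨S.mkQ w, hWH w hw⟩ : H) ∈ f k := by
      change _ ∈ LinearMap.ker ((π ^ k) • (LinearMap.id : H →ₗ[R] H))
      simp only [LinearMap.mem_ker, LinearMap.smul_apply, LinearMap.id_coe, id_eq]
      apply Subtype.ext
      simp only [Submodule.coe_smul, Submodule.coe_zero]
      rw [← map_smul, Submodule.mkQ_apply]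
      exact (Submodule.Quotient.mk_eq_zero S).mpr hkS
    exact f.monotone (le_max_left k c) h1
  rw [← hc (max k c) (le_max_right k c)] at hmem
  change _ ∈ LinearMap.ker ((π ^ c) • (LinearMap.id : H →ₗ[R] H)) at hmem
  simp only [LinearMap.mem_ker, LinearMap.smul_apply, LinearMap.id_coe, id_eq] at hmem
  have h2 := congrArg Subtype.val hmem
  simp only [Submodule.coe_smul, Submodule.coe_zero] at h2
  rw [← map_smul, Submodule.mkQ_apply] at h2
  have h3 : (π ^ c) • w ∈ S := (Submodule.Quotient.mk_eq_zero S).mp h2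
  obtain ⟨u', hu', v', hv', huv'⟩ := Submodule.mem_sup.mp h3
  refine ⟨u', hu', v', hv', ?_⟩
  rw [← map_pow, ← Algebra.smul_def, huv']

end Fin

end H19S18
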