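/-
helper19: S18 route Y', slice C1 = Lemma CL (connectedness), ABSTRACT part.

Setting (all inside one commutative ring `O`, in the application `O = O_E`, the integral closure of
`R[t]_(π)` in `E`):  subrings `M0` (integral closure of `R[t]`), `Minf` (integral closure of
`R[1/t]`), `W` (integral closure of `R[t, 1/t]`), and `π`.

* `h19_cl_idem_lift`   : lifting of idempotents mod `π` to idempotents mod `π^N` inside a
                         `π`-saturated subring.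
* `h19_cl_idem_unique` : two idempotents mod `π^N` that agree mod `π` agree mod `π^N`.
* `h19_cl_glue`        : an idempotent mod `π` of `O` that lies in `M0 + πO` and in `Minf + πO`
                         lies in `(M0 ∩ Minf) + πO`, provided the `π`-power torsion of
                         `W/(M0 + Minf)` is bounded.
* `h19_cl_glue_trivial`: hence it is `0` or `1` mod `π` if `M0 ∩ Minf` has only trivial
                         idempotents mod `π`.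
-/
import Mathlib

set_option autoImplicit false

namespace H19S18

variable {O : Type*} [CommRing O]

/-- One Newton step for idempotents: if `a^2 - a = π^k * m` then `a' = 3a^2 - 2a^3` satisfies
`a'^2 - a' = π^(2k) * m'` and `a' - a = π^k * m''`, with `m', m''` polynomial in `a, m`. -/
theorem h19_cl_newton (π a m : O) (k : ℕ) (h : a ^ 2 - a = π ^ k * m) :
    (3 * a ^ 2 - 2 * a ^ 3) ^ 2 - (3 * a ^ 2 - 2 * a ^ 3) =
        π ^ (2 * k) * (m ^ 2 * (4 * a ^ 2 - 4 * a - 3)) ∧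
      (3 * a ^ 2 - 2 * a ^ 3) - a = π ^ k * (-(m * (2 * a - 1))) := by
  constructor
  · have : (3 * a ^ 2 - 2 * a ^ 3) ^ 2 - (3 * a ^ 2 - 2 * a ^ 3) =
        (a ^ 2 - a) ^ 2 * (4 * a ^ 2 - 4 * a - 3) := by ring
    rw [this, h]; ring
  · have : (3 * a ^ 2 - 2 * a ^ 3) - a = -((a ^ 2 - a) * (2 * a - 1)) := by ring
    rw [this, h]; ring

/-- Lifting idempotents modulo `π` to idempotents modulo `π^(2^n)` inside a subring `M`. -/
theorem h19_cl_idem_lift_pow (π : O) (M : Subring O) (hπ : π ∈ M)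
    (a : O) (ha : a ∈ M) (m : O) (hm : m ∈ M) (h : a ^ 2 - a = π * m) (n : ℕ) :
    ∃ a' ∈ M, (∃ m' ∈ M, a' ^ 2 - a' = π ^ (2 ^ n) * m') ∧ ∃ m'' ∈ M, a' - a = π * m'' := by
  induction n with
  | zero => exact ⟨a, ha, ⟨m, hm, by simpa using h⟩, 0, M.zero_mem, by simp⟩
  | succ n ih =>
    obtain ⟨a', ha', ⟨m', hm', h1⟩, m'', hm'', h2⟩ := ih
    obtain ⟨e1, e2⟩ := h19_cl_newton π a' m' (2 ^ n) h1
    have h3a : 3 * a' ^ 2 - 2 * a' ^ 3 ∈ M :=
      M.sub_mem (M.mul_mem (by simp) (M.pow_mem ha' 2))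
        (M.mul_mem (by simp) (M.pow_mem ha' 3))
    have hpos : 0 < 2 ^ n := by positivity
    refine ⟨3 * a' ^ 2 - 2 * a' ^ 3, h3a, ⟨m' ^ 2 * (4 * a' ^ 2 - 4 * a' - 3), ?_, ?_⟩,
      π ^ (2 ^ n - 1) * (-(m' * (2 * a' - 1))) + m'', ?_, ?_⟩
    · refine M.mul_mem (M.pow_mem hm' 2) (M.sub_mem (M.sub_mem ?_ ?_) ?_)
      · exact M.mul_mem (by simp) (M.pow_mem ha' 2)
      · exact M.mul_mem (by simp) ha'
      · simp
    · rw [e1, pow_succ 2 n, mul_comm (2 ^ n) 2]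
    · refine M.add_mem (M.mul_mem (M.pow_mem hπ _) (M.neg_mem (M.mul_mem hm' ?_))) hm''
      exact M.sub_mem (M.mul_mem (by simp) ha') M.one_mem
    · have : 3 * a' ^ 2 - 2 * a' ^ 3 - a = (3 * a' ^ 2 - 2 * a' ^ 3 - a') + (a' - a) := by ring
      rw [this, e2, h2]
      have hk : π ^ (2 ^ n) = π * π ^ (2 ^ n - 1) := by
        rw [← pow_succ', Nat.sub_add_cancel hpos]
      rw [hk]; ring

/-- Lifting idempotents modulo `π` to idempotents modulo `π^N` inside a subring `M`. -/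
theorem h19_cl_idem_lift (π : O) (M : Subring O) (hπ : π ∈ M)
    (a : O) (ha : a ∈ M) (m : O) (hm : m ∈ M) (h : a ^ 2 - a = π * m) (N : ℕ) :
    ∃ a' ∈ M, (∃ m' ∈ M, a' ^ 2 - a' = π ^ N * m') ∧ ∃ m'' ∈ M, a' - a = π * m'' := by
  obtain ⟨a', ha', ⟨m', hm', h1⟩, h2⟩ := h19_cl_idem_lift_pow π M hπ a ha m hm h N
  have hN : N ≤ 2 ^ N := Nat.le_of_lt Nat.lt_two_pow_self
  refine ⟨a', ha', ⟨π ^ (2 ^ N - N) * m', M.mul_mem (M.pow_mem hπ _) hm', ?_⟩, h2⟩
  rw [h1, ← mul_assoc, ← pow_add, Nat.add_sub_cancel' hN]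

/-- Two elements that are idempotent modulo `π^N` and congruent modulo `π` are congruent modulo
`π^N`. -/
theorem h19_cl_idem_unique (π a b : O) (N : ℕ)
    (ha : ∃ y, a ^ 2 - a = π ^ N * y) (hb : ∃ y, b ^ 2 - b = π ^ N * y)
    (hab : ∃ y, a - b = π * y) : ∃ y, a - b = π ^ N * y := by
  obtain ⟨ya, ha⟩ := ha
  obtain ⟨yb, hb⟩ := hb
  -- d^3 - d ∈ π^N O
  have hd3 : (a - b) ^ 3 - (a - b) = π ^ N * (ya * (a - 3 * b + 1) - yb * (b - 3 * a + 1)) := by
    have : (a - b) ^ 3 - (a - b) =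
        (a ^ 2 - a) * (a - 3 * b + 1) - (b ^ 2 - b) * (b - 3 * a + 1) := by ring
    rw [this, ha, hb]; ring
  -- induction: d ∈ π^k O for all k ≤ N
  have key : ∀ k : ℕ, k ≤ N → ∃ y, a - b = π ^ k * y := by
    intro k
    induction k with
    | zero => intro _; exact ⟨a - b, by simp⟩
    | succ k ih =>
      intro hk
      rcases Nat.eq_zero_or_pos k with rfl | hkpos
      · simpa using hab
      obtain ⟨y, hy⟩ := ih (Nat.le_of_succ_le hk)
      -- d = d^3 - (d^3 - d)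
      have h3k : k + 1 ≤ 3 * k := by omega
      refine ⟨π ^ (3 * k - (k + 1)) * y ^ 3 -
        π ^ (N - (k + 1)) * (ya * (a - 3 * b + 1) - yb * (b - 3 * a + 1)), ?_⟩
      have e1 : a - b = (a - b) ^ 3 - ((a - b) ^ 3 - (a - b)) := by ring
      have e2 : π ^ (3 * k) = π ^ (k + 1) * π ^ (3 * k - (k + 1)) := by
        rw [← pow_add, Nat.add_sub_cancel' h3k]
      have e3 : π ^ N = π ^ (k + 1) * π ^ (N - (k + 1)) := by
        rw [← pow_add, Nat.add_sub_cancel' hk]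
      have e4 : (a - b) ^ 3 = π ^ (3 * k) * y ^ 3 := by
        rw [hy]; ring
      rw [e1, hd3, e4, e2, e3]; ring
  exact key N le_rfl

/-- Saturation with respect to `π` implies saturation with respect to `π^n`. -/
theorem h19_cl_sat_pow (π : O) (M : Subring O) (hsat : ∀ y : O, π * y ∈ M → y ∈ M)
    (n : ℕ) (y : O) (h : π ^ n * y ∈ M) : y ∈ M := by
  induction n generalizing y with
  | zero => simpa using h
  | succ n ih =>
    apply hsat
    apply ih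
    rw [← mul_assoc, ← pow_succ]; exact h

/-- **Lemma CL, abstract gluing.**  `O` a commutative ring, `π ∈ O`, subrings `M0, Minf ≤ W` of `O`,
all `π`-saturated in `O`; assume the `π`-power torsion of `W/(M0 + Minf)` is killed by `π^c`.
If `x ∈ O` is idempotent mod `π`, and congruent mod `πO` to an element of `M0` and to an element
of `Minf`, then `x` is congruent mod `πO` to an element of `M0 ∩ Minf`. -/
theorem h19_cl_glue (π : O) (M0 Minf W : Subring O)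
    (hπ0 : π ∈ M0) (hπinf : π ∈ Minf) (h0W : M0 ≤ W) (hinfW : Minf ≤ W)
    (hsat0 : ∀ y : O, π * y ∈ M0 → y ∈ M0)
    (hsatinf : ∀ y : O, π * y ∈ Minf → y ∈ Minf)
    (hsatW : ∀ y : O, π * y ∈ W → y ∈ W)
    (c : ℕ)
    (hc : ∀ w ∈ W, ∀ n : ℕ, (∃ u ∈ M0, ∃ v ∈ Minf, π ^ n * w = u + v) →
      ∃ u ∈ M0, ∃ v ∈ Minf, π ^ c * w = u + v)
    (x : O) (hx : ∃ y, x ^ 2 - x = π * y)
    (hx0 : ∃ a ∈ M0, ∃ y, x - a = π * y) (hxinf : ∃ b ∈ Minf, ∃ y, x - b = π * y) :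
    ∃ r, r ∈ M0 ∧ r ∈ Minf ∧ ∃ y, x - r = π * y := by
  obtain ⟨yx, hyx⟩ := hx
  obtain ⟨a1, ha1, ya, hya⟩ := hx0
  obtain ⟨b1, hb1, yb, hyb⟩ := hxinf
  -- a1, b1 are idempotent mod π inside M0, Minf
  have ha1i : a1 ^ 2 - a1 = π * (yx - ya * (x + a1 - 1)) := by
    have : a1 ^ 2 - a1 = (x ^ 2 - x) - (x - a1) * (x + a1 - 1) := by ring
    rw [this, hyx, hya]; ring
  have hb1i : b1 ^ 2 - b1 = π * (yx - yb * (x + b1 - 1)) := by
    have : b1 ^ 2 - b1 = (x ^ 2 - x) - (x - b1) * (x + b1 - 1) := by ring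
    rw [this, hyx, hyb]; ring
  have hma : yx - ya * (x + a1 - 1) ∈ M0 := hsat0 _ (by
    rw [← ha1i]; exact M0.sub_mem (M0.pow_mem ha1 2) ha1)
  have hmb : yx - yb * (x + b1 - 1) ∈ Minf := hsatinf _ (by
    rw [← hb1i]; exact Minf.sub_mem (Minf.pow_mem hb1 2) hb1)
  -- lift to idempotents mod π^(c+1)
  obtain ⟨a, ha, ⟨ma, -, hai⟩, ma', -, haa⟩ :=
    h19_cl_idem_lift π M0 hπ0 a1 ha1 _ hma ha1i (c + 1)
  obtain ⟨b, hb, ⟨mb, -, hbi⟩, mb', -, hbb⟩ :=
    h19_cl_idem_lift π Minf hπinf b1 hb1 _ hmb hb1i (c + 1)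
  -- a ≡ b mod π
  have hab1 : a - b = π * (ma' - mb' - ya + yb) := by
    have : a - b = (a - a1) - (b - b1) - (x - a1) + (x - b1) := by ring
    rw [this, haa, hbb, hya, hyb]; ring
  -- hence a ≡ b mod π^(c+1)
  obtain ⟨w, hw⟩ := h19_cl_idem_unique π a b (c + 1) ⟨ma, hai⟩ ⟨mb, hbi⟩ ⟨_, hab1⟩
  have hwW : w ∈ W := by
    apply h19_cl_sat_pow π W hsatW (c + 1)
    rw [← hw]
    exact W.sub_mem (h0W ha) (hinfW hb)
  -- bounded torsion
  obtain ⟨u, hu, v, hv, huv⟩ := hc w hwW (c + 1) ⟨a, ha, -b, Minf.neg_mem hb, by rw [← hw]; ring⟩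
  have hr : a - π * u = b + π * v := by
    have : a - b = π * (u + v) := by
      rw [hw, pow_succ', mul_assoc, huv]
    linear_combination this
  refine ⟨a - π * u, M0.sub_mem ha (M0.mul_mem hπ0 hu), ?_, ya - ma' + u, ?_⟩
  · rw [hr]; exact Minf.add_mem hb (Minf.mul_mem hπinf hv)
  · have : x - (a - π * u) = (x - a1) - (a - a1) + π * u := by ring
    rw [this, hya, haa]; ring

/-- **Lemma CL, abstract form with conclusion `x̄ ∈ {0, 1}`.** -/
theorem h19_cl_glue_trivial (π : O) (M0 Minf W : Subring O)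
    (hπ0 : π ∈ M0) (hπinf : π ∈ Minf) (h0W : M0 ≤ W) (hinfW : Minf ≤ W)
    (hsat0 : ∀ y : O, π * y ∈ M0 → y ∈ M0)
    (hsatinf : ∀ y : O, π * y ∈ Minf → y ∈ Minf)
    (hsatW : ∀ y : O, π * y ∈ W → y ∈ W)
    (c : ℕ)
    (hc : ∀ w ∈ W, ∀ n : ℕ, (∃ u ∈ M0, ∃ v ∈ Minf, π ^ n * w = u + v) →
      ∃ u ∈ M0, ∃ v ∈ Minf, π ^ c * w = u + v)
    (hconn : ∀ r, r ∈ M0 → r ∈ Minf → (∃ y, r ^ 2 - r = π * y) →
      (∃ y, r = π * y) ∨ ∃ y, r - 1 = π * y)
    (x : O) (hx : ∃ y, x ^ 2 - x = π * y)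
    (hx0 : ∃ a ∈ M0, ∃ y, x - a = π * y) (hxinf : ∃ b ∈ Minf, ∃ y, x - b = π * y) :
    (∃ y, x = π * y) ∨ ∃ y, x - 1 = π * y := by
  obtain ⟨r, hr0, hrinf, y, hy⟩ :=
    h19_cl_glue π M0 Minf W hπ0 hπinf h0W hinfW hsat0 hsatinf hsatW c hc x hx hx0 hxinf
  obtain ⟨yx, hyx⟩ := hx
  have hri : r ^ 2 - r = π * (yx - y * (x + r - 1)) := by
    have : r ^ 2 - r = (x ^ 2 - x) - (x - r) * (x + r - 1) := by ring
    rw [this, hyx, hy]; ring
  rcases hconn r hr0 hrinf ⟨_, hri⟩ with ⟨z, hz⟩ | ⟨z, hz⟩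
  · left
    exact ⟨y + z, by linear_combination hy + hz⟩
  · right
    exact ⟨y + z, by linear_combination hy + hz⟩

end H19S18
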