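/-
helper19: S18 route Y', BASE facts (2): the fraction field of `T = R[t]` is `K⟮t⟯`, the integral
closure `M₀` of `R[t]` in `E` is a finite `R[t]`-module, and `M₀ ∩ M_∞ = R`.

* `h19_TtoKt`, `h19_T_isFractionRing` : `R[t] → K⟮t⟯` is a fraction ring
* `h19_M0_finite`                     : `Module.Finite R[t] (integralClosure R[t] E)`
* `h19_M0_gens`                       : generators in elementary form
* `h19_inter`                         : integral over `R[t]` and `R[t⁻¹]` ⟹ in the image of `R`
-/
import Mathlib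
import Fermat.Agent.S18.Defs
import Fermat.Agent.S18.TBase_helper19

set_option autoImplicit false
set_option linter.unusedSectionVars false
set_option linter.style.haveILetI false

namespace H19S18

open Polynomial IntermediateField H7S18

section Frac

variable (R : Type) [CommRing R] [IsDomain R] [IsDiscreteValuationRing R]
  (K : Type) [Field K] [Algebra R K] [IsFractionRing R K]
  {E : Type} [Field E] [Algebra K E] [Algebra R E] [IsScalarTower R K E]

theorem h19_T_le (t : E) {s : E} (hs : s ∈ Algebra.adjoin R {t}) : s ∈ K⟮t⟯ := by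
  induction hs using Algebra.adjoin_induction with
  | mem x hx =>
    rw [Set.mem_singleton_iff] at hx
    rw [hx]; exact mem_adjoin_simple_self K t
  | algebraMap r =>
    rw [IsScalarTower.algebraMap_apply R K E]
    exact K⟮t⟯.algebraMap_mem _
  | add x y _ _ hx hy => exact K⟮t⟯.add_mem hx hy
  | mul x y _ _ hx hy => exact K⟮t⟯.mul_mem hx hy

/-- the inclusion `R[t] → K⟮t⟯` -/
def h19_TtoKt (t : E) : Algebra.adjoin R {t} →+* K⟮t⟯ where
  toFun s := ⟨s.1, h19_T_le R K t s.2⟩
  map_one' := rfl
  map_mul' _ _ := rfl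
  map_zero' := rfl
  map_add' _ _ := rfl

theorem h19_TtoKt_injective (t : E) : Function.Injective (h19_TtoKt R K t) := by
  intro a b h
  apply Subtype.ext
  exact congrArg (fun z : K⟮t⟯ => (z : E)) h

theorem h19_T_isFractionRing (t : E) :
    @IsFractionRing (Algebra.adjoin R {t}) _ K⟮t⟯ _ (h19_TtoKt R K t).toAlgebra := by
  letI : Algebra (Algebra.adjoin R {t}) K⟮t⟯ := (h19_TtoKt R K t).toAlgebra
  haveI : FaithfulSMul (Algebra.adjoin R {t}) K⟮t⟯ :=
    (faithfulSMul_iff_algebraMap_injective _ _).mpr (h19_TtoKt_injective R K t)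
  apply IsFractionRing.of_field
  intro z
  obtain ⟨r, s, hz⟩ := (mem_adjoin_simple_iff K z.1).mp z.2
  obtain ⟨br, hbrM, hbr⟩ := IsLocalization.integerNormalization_spec (nonZeroDivisors R) r
  obtain ⟨bs, hbsM, hbs⟩ := IsLocalization.integerNormalization_spec (nonZeroDivisors R) s
  set r' := IsLocalization.integerNormalization (nonZeroDivisors R) r with hr'
  set s' := IsLocalization.integerNormalization (nonZeroDivisors R) s with hs'
  have hsm : ∀ (b : R) (q : K[X]), aeval t (b • q) = algebraMap R E b * aeval t q := by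
    intro b q
    rw [← algebraMap_smul K b q, map_smul, Algebra.smul_def,
      ← IsScalarTower.algebraMap_apply]
  have hr1 : aeval t r' = algebraMap R E br * aeval t r := by
    have := congrArg (aeval t) hbr
    rw [aeval_map_algebraMap] at this
    rw [this, hsm]
  have hs1 : aeval t s' = algebraMap R E bs * aeval t s := by
    have := congrArg (aeval t) hbs
    rw [aeval_map_algebraMap] at this
    rw [this, hsm]
  have hinj : Function.Injective (algebraMap R E) := h19_algebraMap_injective R K
  have hbr0 : algebraMap R E br ≠ 0 := fun h =>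
    (nonZeroDivisors.ne_zero hbrM) (hinj (h.trans (map_zero _).symm))
  have hbs0 : algebraMap R E bs ≠ 0 := fun h =>
    (nonZeroDivisors.ne_zero hbsM) (hinj (h.trans (map_zero _).symm))
  have hmemT : ∀ p : R[X], aeval t p ∈ Algebra.adjoin R {t} := fun p => by
    rw [Algebra.adjoin_singleton_eq_range_aeval]; exact ⟨p, rfl⟩
  refine ⟨⟨algebraMap R E bs * aeval t r', Subalgebra.mul_mem _ (Subalgebra.algebraMap_mem _ _)
    (hmemT r')⟩, ⟨algebraMap R E br * aeval t s', Subalgebra.mul_mem _
    (Subalgebra.algebraMap_mem _ _) (hmemT s')⟩, ?_⟩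
  apply Subtype.ext
  change (z : E) = (algebraMap R E bs * aeval t r') / (algebraMap R E br * aeval t s')
  rw [hz, hr1, hs1]
  by_cases h0 : aeval t s = 0
  · rw [h0]; simp
  · field_simp

end Frac

section Finite

variable (R : Type) [CommRing R] [IsDomain R] [IsDiscreteValuationRing R]
  (K : Type) [Field K] [CharZero K] [Algebra R K] [IsFractionRing R K]
  {E : Type} [Field E] [Algebra K E] [Algebra R E] [IsScalarTower R K E]

theorem h19_M0_finite {t : E} (ht : Transcendental K t) [FiniteDimensional K⟮t⟯ E] :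
    Module.Finite (Algebra.adjoin R {t}) (integralClosure (Algebra.adjoin R {t}) E) := by
  letI : Algebra (Algebra.adjoin R {t}) K⟮t⟯ := (h19_TtoKt R K t).toAlgebra
  haveI : IsFractionRing (Algebra.adjoin R {t}) K⟮t⟯ := h19_T_isFractionRing R K t
  haveI : IsScalarTower (Algebra.adjoin R {t}) K⟮t⟯ E :=
    IsScalarTower.of_algebraMap_eq (fun _ => rfl)
  haveI := h19_T_intClosed R (h19_transc R K ht)
  haveI := h19_T_noeth R (h19_transc R K ht)
  haveI : CharZero K⟮t⟯ := charZero_of_injective_algebraMap (algebraMap K K⟮t⟯).injective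
  exact IsIntegralClosure.finite (Algebra.adjoin R {t}) K⟮t⟯ E
    (integralClosure (Algebra.adjoin R {t}) E)

/-- generators of `M₀` over `R[t]`, in elementary form -/
theorem h19_M0_gens {t : E} (ht : Transcendental K t) [FiniteDimensional K⟮t⟯ E] :
    ∃ (n : ℕ) (m : Fin n → E), (∀ i, IsInt R t (m i)) ∧
      ∀ y : E, IsInt R t y → ∃ p : Fin n → R[X], y = ∑ i, aeval t (p i) * m i := by
  haveI := h19_M0_finite R K ht
  obtain ⟨n, s, hs⟩ := Module.Finite.exists_fin (R := Algebra.adjoin R {t})
    (M := integralClosure (Algebra.adjoin R {t}) E)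
  refine ⟨n, fun i => (s i : E), fun i => (s i).2, fun y hy => ?_⟩
  have hmem : (⟨y, hy⟩ : integralClosure (Algebra.adjoin R {t}) E) ∈
      Submodule.span (Algebra.adjoin R {t}) (Set.range s) := by rw [hs]; trivial
  obtain ⟨c, hc⟩ := (Submodule.mem_span_range_iff_exists_fun _).mp hmem
  have hcp : ∀ i, ∃ p : R[X], aeval t p = (c i : E) := fun i =>
    Algebra.adjoin_mem_exists_aeval R t (c i).2
  choose p hp using hcp
  refine ⟨p, ?_⟩
  have := congrArg (fun z : integralClosure (Algebra.adjoin R {t}) E => (z : E)) hc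
  simp only at this
  rw [← this]
  rw [AddSubmonoidClass.coe_finset_sum]
  apply Finset.sum_congr rfl
  intro i _
  rw [hp i]
  rfl

end Finite

section Inter

variable (R : Type) [CommRing R] [IsDomain R] [IsDiscreteValuationRing R]
  (K : Type) [Field K] [Algebra R K] [IsFractionRing R K]
  {E : Type} [Field E] [Algebra K E] [Algebra R E] [IsScalarTower R K E]

/-- `M₀ ∩ M_∞ = R` when `K` is algebraically closed in `E`. -/
theorem h19_inter (hK : ∀ x : E, IsAlgebraic K x → x ∈ (algebraMap K E).range)
    (t y : E) (h0 : IsInt R t y) (hinf : IsInt R t⁻¹ y) : ∃ r : R, algebraMap R E r = y := by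
  have h1 : IsIntegral R y := h19_cl_two_charts t y h0 hinf
  have h2 : IsAlgebraic K y := h1.isAlgebraic.extendScalars (IsFractionRing.injective R K)
  obtain ⟨k, rfl⟩ := hK y h2
  have h3 : IsIntegral R k := (isIntegral_algebraMap_iff (algebraMap K E).injective).mp h1
  obtain ⟨r, hr⟩ := (IsIntegrallyClosed.isIntegral_iff (R := R) (K := K)).mp h3
  exact ⟨r, by rw [IsScalarTower.algebraMap_apply R K E, hr]⟩

end Inter

end H19S18
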