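/-
helper19: S18 route Y', slice C1: proof of `H7S18.CLStatement` (Lemma CL, connectedness).

An idempotent of `O_E / ϖ` that lies in the image of both charts `M₀ / ϖ` and `M_∞ / ϖ` is `0` or
`1`, when `K` is algebraically closed in `E`.
-/
import Mathlib
import Fermat.Agent.S18.Defs
import Fermat.Agent.S18.CL_helper19
import Fermat.Agent.S18.CLFin_helper19
import Fermat.Agent.S18.TBase_helper19
import Fermat.Agent.S18.TFin_helper19

set_option autoImplicit false
set_option linter.unusedSectionVars false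
set_option linter.style.haveILetI false

namespace H19S18

open Polynomial IntermediateField H7S18

section Charts

variable (R : Type) [CommRing R] [IsDomain R] [IsDiscreteValuationRing R]
  {E : Type} [Field E] [Algebra R E]

/-- the chart ring `M₀` (integral closure of `R[t]` in `E`) as an `R`-subalgebra of `E` -/
def h19_M (t : E) : Subalgebra R E :=
  (integralClosure (Algebra.adjoin R {t}) E).restrictScalars R

theorem h19_mem_M (t y : E) : y ∈ h19_M R t ↔ IsInt R t y := Iff.rfl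

/-- `W = M₀[1/t]` as an `R`-subalgebra of `E` -/
def h19_W (t : E) : Subalgebra R E where
  carrier := {w | ∃ k : ℕ, IsInt R t (t ^ k * w)}
  mul_mem' := by
    rintro x y ⟨k₁, h₁⟩ ⟨k₂, h₂⟩
    refine ⟨k₁ + k₂, ?_⟩
    have : t ^ (k₁ + k₂) * (x * y) = (t ^ k₁ * x) * (t ^ k₂ * y) := by ring
    rw [this]
    exact h19_isInt_mul R t h₁ h₂
  add_mem' := by
    rintro x y ⟨k₁, h₁⟩ ⟨k₂, h₂⟩
    refine ⟨k₁ + k₂, ?_⟩
    have : t ^ (k₁ + k₂) * (x + y) = t ^ k₂ * (t ^ k₁ * x) + t ^ k₁ * (t ^ k₂ * y) := by ring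
    rw [this]
    have ht : ∀ k : ℕ, IsInt R t (t ^ k) := fun k =>
      h19_mem_T_isInt R t (Subalgebra.pow_mem _ (Algebra.subset_adjoin (Set.mem_singleton _)) _)
    exact h19_isInt_add R t (h19_isInt_mul R t (ht _) h₁) (h19_isInt_mul R t (ht _) h₂)
  algebraMap_mem' := by
    intro r
    exact ⟨0, by rw [pow_zero, one_mul]; exact h19_isInt_algebraMap R t r⟩

theorem h19_mem_W (t w : E) : w ∈ h19_W R t ↔ ∃ k : ℕ, IsInt R t (t ^ k * w) := Iff.rfl

end Charts

/-- **C1 (Lemma CL, connectedness).** -/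
theorem h19_CLStatement : H7S18.CLStatement := by
  intro R _ _ _ K _ _ _ _ E _ _ _ _ ϖ hϖ t ht hfin hK x a b hxx ha hxa hb hxb
  have htR : Transcendental R t := h19_transc R K ht
  have htR' : Transcendental R t⁻¹ := h19_transc R K (h19_transc_inv K ht)
  have ht0 : t ≠ 0 := fun h => htR (h ▸ isAlgebraic_zero)
  have hinj : Function.Injective (algebraMap R E) := h19_algebraMap_injective R K
  have hϖp : Prime ϖ := hϖ.prime
  -- membership in O_E
  have hG0 : ∀ y : E, IsInt R t y → GInt R ϖ t y := fun y hy => h19_gint_of_isInt R htR hϖ hy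
  have hGinf : ∀ y : E, IsInt R t⁻¹ y → GInt R ϖ t y := fun y hy =>
    h19_gint_of_isInt_inv R htR htR' hϖ hy
  have hGϖ : GInt R ϖ t (algebraMap R E ϖ) := hG0 _ (h19_isInt_algebraMap R t ϖ)
  have hGx : GInt R ϖ t x := by
    obtain ⟨z, hz, h⟩ := hxa
    have : x = a + algebraMap R E ϖ * z := by rw [← h]; ring
    rw [this]
    exact h19_gint_add R htR hϖ (hG0 a ha) (h19_gint_mul R htR hϖ hGϖ hz)
  -- bounded torsion of `H^1`
  obtain ⟨n, m, hm, hgen⟩ := h19_M0_gens R K ht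
  obtain ⟨c, hc⟩ := h19_cl_bounded (R := R) (O := E) ϖ (h19_M R t) (h19_M R t⁻¹) (h19_W R t)
    t t⁻¹ (mul_inv_cancel₀ ht0) (h19_isInt_t R t) (h19_isInt_t R t⁻¹) n m hm
    (fun y hy => hgen y hy) (fun w hw => hw)
    (fun i => h19_cl_loc_inv (R := R) t⁻¹ t (inv_mul_cancel₀ ht0) (m i) (hm i))
  -- the ring `O = O_E` and its subrings
  set Oe : Subring E := h19_Oe R htR hϖ with hOe
  set M0' : Subring Oe := (h19_M R t).toSubring.comap Oe.subtype with hM0'
  set Minf' : Subring Oe := (h19_M R t⁻¹).toSubring.comap Oe.subtype with hMinf'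
  set W' : Subring Oe := (h19_W R t).toSubring.comap Oe.subtype with hW'
  set π' : Oe := ⟨algebraMap R E ϖ, hGϖ⟩ with hπ'
  have hmem0 : ∀ y : Oe, y ∈ M0' ↔ IsInt R t (y : E) := fun y => Iff.rfl
  have hmeminf : ∀ y : Oe, y ∈ Minf' ↔ IsInt R t⁻¹ (y : E) := fun y => Iff.rfl
  have hmemW : ∀ y : Oe, y ∈ W' ↔ ∃ k : ℕ, IsInt R t (t ^ k * (y : E)) := fun y => Iff.rfl
  have key := h19_cl_glue_trivial (O := Oe) π' M0' Minf' W'
    ((hmem0 π').mpr (h19_isInt_algebraMap R t ϖ))
    ((hmeminf π').mpr (h19_isInt_algebraMap R t⁻¹ ϖ))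
    (fun y hy => (hmemW y).mpr ⟨0, by rw [pow_zero, one_mul]; exact (hmem0 y).mp hy⟩)
    (fun y hy => (hmemW y).mpr
      (by
        have := h19_cl_loc_inv (R := R) t t⁻¹ (mul_inv_cancel₀ ht0) (y : E) ((hmeminf y).mp hy)
        exact this))
    (fun y hy => (hmem0 y).mpr (h19_lemmaU R htR hϖ y.2 ((hmem0 _).mp hy)))
    (fun y hy => (hmeminf y).mpr (h19_lemmaU_inv R htR htR' hϖ y.2 ((hmeminf _).mp hy)))
    (fun y hy => by
      obtain ⟨k, hk⟩ := (hmemW _).mp hy
      refine (hmemW y).mpr ⟨k, ?_⟩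
      have hty : GInt R ϖ t (t ^ k * (y : E)) :=
        h19_gint_mul R htR hϖ (hG0 _ (h19_mem_T_isInt R t
          (Subalgebra.pow_mem _ (Algebra.subset_adjoin (Set.mem_singleton _)) _))) y.2
      apply h19_lemmaU R htR hϖ hty
      have : algebraMap R E ϖ * (t ^ k * (y : E)) = t ^ k * (algebraMap R E ϖ * (y : E)) := by
        ring
      rw [this]
      exact hk)
    c
    (fun w hw k hk => by
      obtain ⟨u, hu, v, hv, huv⟩ := hk
      have huv' : algebraMap R E ϖ ^ k * (w : E) = (u : E) + (v : E) := by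
        have := congrArg (fun z : Oe => (z : E)) huv
        simpa using this
      obtain ⟨u', hu', v', hv', huv''⟩ := hc (w : E) ((hmemW w).mp hw) k
        ⟨(u : E), (hmem0 u).mp hu, (v : E), (hmeminf v).mp hv, huv'⟩
      refine ⟨⟨u', hG0 u' hu'⟩, hu', ⟨v', hGinf v' hv'⟩, hv', ?_⟩
      apply Subtype.ext
      simpa using huv'')
    (fun r hr0 hrinf hri => by
      -- `r ∈ M₀ ∩ M_∞ = R`
      obtain ⟨ρ, hρ⟩ := h19_inter R K hK t (r : E) ((hmem0 r).mp hr0) ((hmeminf r).mp hrinf)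
      obtain ⟨y, hy⟩ := hri
      have hy' : (r : E) ^ 2 - (r : E) = algebraMap R E ϖ * (y : E) := by
        have := congrArg (fun z : Oe => (z : E)) hy
        simpa using this
      -- `y ∈ M₀ ∩ M_∞ = R`
      have hyI0 : IsInt R t (y : E) := by
        apply h19_lemmaU R htR hϖ y.2
        rw [← hy']
        exact h19_isInt_sub R t (IsIntegral.pow ((hmem0 r).mp hr0) 2) ((hmem0 r).mp hr0)
      have hyIinf : IsInt R t⁻¹ (y : E) := by
        apply h19_lemmaU_inv R htR htR' hϖ y.2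
        rw [← hy']
        exact h19_isInt_sub R t⁻¹ (IsIntegral.pow ((hmeminf r).mp hrinf) 2) ((hmeminf r).mp hrinf)
      obtain ⟨η, hη⟩ := h19_inter R K hK t (y : E) hyI0 hyIinf
      have hR : ρ * (ρ - 1) = ϖ * η := by
        apply hinj
        rw [map_mul, map_mul, map_sub, map_one, hρ, hη, ← hy']
        ring
      rcases hϖp.dvd_or_dvd ⟨η, hR⟩ with ⟨σ, hσ⟩ | ⟨σ, hσ⟩
      · left
        refine ⟨⟨algebraMap R E σ, hG0 _ (h19_isInt_algebraMap R t σ)⟩, ?_⟩
        apply Subtype.ext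
        change (r : E) = algebraMap R E ϖ * algebraMap R E σ
        rw [← hρ, hσ, map_mul]
      · right
        refine ⟨⟨algebraMap R E σ, hG0 _ (h19_isInt_algebraMap R t σ)⟩, ?_⟩
        apply Subtype.ext
        change (r : E) - 1 = algebraMap R E ϖ * algebraMap R E σ
        rw [← hρ, ← map_one (algebraMap R E), ← map_sub, hσ, map_mul])
    ⟨x, hGx⟩
    (by
      obtain ⟨z, hz, h⟩ := hxx
      refine ⟨⟨z, hz⟩, ?_⟩
      apply Subtype.ext
      change x ^ 2 - x = algebraMap R E ϖ * z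
      rw [← h]; ring)
    (by
      obtain ⟨z, hz, h⟩ := hxa
      exact ⟨⟨a, hG0 a ha⟩, ha, ⟨z, hz⟩, Subtype.ext h⟩)
    (by
      obtain ⟨z, hz, h⟩ := hxb
      exact ⟨⟨b, hGinf b hb⟩, hb, ⟨z, hz⟩, Subtype.ext h⟩)
  rcases key with ⟨y, hy⟩ | ⟨y, hy⟩
  · left
    refine ⟨(y : E), y.2, ?_⟩
    have := congrArg (fun z : Oe => (z : E)) hy
    rw [sub_zero]
    exact this
  · right
    refine ⟨(y : E), y.2, ?_⟩
    have := congrArg (fun z : Oe => (z : E)) hy
    exact this

end H19S18
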