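import Mathlib
import Fermat.Agent.S18.Defs

/-!
# S18 (item 75), route Y', slice C3 (Abhyankar; sub-lead helper12): interface of the sub-slices

`H7S18.LocalIdemTameStatement` is proved by passing to the Kummer tower `E' = E(s)`,
`s ^ e₀ = t - c`, applying `H7S18.LocalIdemUnrStatement` (C2) to `E'` with the chart `s` at the
maximal ideal `𝔪' = (ϖ, s)` of `R[s]`, and descending by the trace `E' → E`.

Sub-slices (each a `Prop`; assembly in `C3Asm_helper12.lean`):
* `T1 TowerBasicStatement`   : `s` transcendental over `K`, `E'` finite over `K(s)` and over `E`,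
                               `[E' : E] ∣ e₀`;
* `T2 TowerUnrGaussStatement`: `UnrGauss` for `(E, t)` ⇒ `UnrGauss` for `(E', s)`;
* `T3 TowerPlacesStatement`  : every place of `E'` through `𝔪'` is unramified over `K(s)`;
* `T4 TowerDescentStatement` : `InChartAt` for `(E', s, 𝔪')` ⇒ `InChartAt` for `(E, t, 𝔪)`;
* `T5 TowerLiftStatement`    : `GInt`, `ModPi` for `(E, t)` ⇒ the same for `(E', s)`.
-/

set_option autoImplicit false

open Polynomial IntermediateField AlgebraicCurve

namespace H12C3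

open H7S18

/-- The Kummer tower of slice C3: `E' = E(s)`, `s ^ e₀ = t - c`. -/
structure Tower (R : Type) [CommRing R] {E E' : Type} [Field E] [Field E'] [Algebra R E]
    [Algebra E E'] (t : E) (c : R) (e₀ : ℕ) (s : E') : Prop where
  pow_eq : s ^ e₀ = algebraMap E E' (t - algebraMap R E c)
  adjoin_eq : IntermediateField.adjoin E {s} = ⊤

/-- **T1**: basic facts on the tower. -/
def TowerBasicStatement : Prop :=
  ∀ (R : Type) [CommRing R] [IsDomain R] [IsDiscreteValuationRing R]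
    (K : Type) [Field K] [CharZero K] [Algebra R K] [IsFractionRing R K]
    (E : Type) [Field E] [Algebra K E] [Algebra R E] [IsScalarTower R K E]
    (E' : Type) [Field E'] [Algebra K E'] [Algebra R E'] [IsScalarTower R K E']
    [Algebra E E'] [IsScalarTower K E E'] [IsScalarTower R E E']
    (t : E) (_ : Transcendental K t) (_ : FiniteDimensional K⟮t⟯ E)
    (c : R) (e₀ : ℕ) (_ : IsUnit (e₀ : R)) (_ : ∃ ζ : R, IsPrimitiveRoot ζ e₀)
    (s : E') (_ : Tower R t c e₀ s),
    Transcendental K s ∧ FiniteDimensional K⟮s⟯ E' ∧ FiniteDimensional E E' ∧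
      Module.finrank E E' ∣ e₀

/-- **T2 (C3b)**: the Gauss prime stays unramified in the tower. -/
def TowerUnrGaussStatement : Prop :=
  ∀ (R : Type) [CommRing R] [IsDomain R] [IsDiscreteValuationRing R]
    (K : Type) [Field K] [CharZero K] [Algebra R K] [IsFractionRing R K]
    (E : Type) [Field E] [Algebra K E] [Algebra R E] [IsScalarTower R K E]
    (E' : Type) [Field E'] [Algebra K E'] [Algebra R E'] [IsScalarTower R K E']
    [Algebra E E'] [IsScalarTower K E E'] [IsScalarTower R E E']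
    (ϖ : R) (_ : Irreducible ϖ)
    (t : E) (_ : Transcendental K t) (_ : FiniteDimensional K⟮t⟯ E)
    (c : R) (e₀ : ℕ) (_ : IsUnit (e₀ : R)) (_ : ∃ ζ : R, IsPrimitiveRoot ζ e₀)
    (s : E') (_ : Tower R t c e₀ s)
    (_ : UnrGauss R K ϖ t),
    UnrGauss R K ϖ s

/-- **T3 (C3c, Abhyankar)**: every place of `E'` through `𝔪' = (ϖ, s)` is unramified over
`K(s)`. -/
def TowerPlacesStatement : Prop :=
  ∀ (R : Type) [CommRing R] [IsDomain R] [IsDiscreteValuationRing R]
    (K : Type) [Field K] [CharZero K] [Algebra R K] [IsFractionRing R K]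
    (E : Type) [Field E] [Algebra K E] [Algebra R E] [IsScalarTower R K E]
    (E' : Type) [Field E'] [Algebra K E'] [Algebra R E'] [IsScalarTower R K E']
    [Algebra E E'] [IsScalarTower K E E'] [IsScalarTower R E E']
    (ϖ : R) (_ : Irreducible ϖ)
    (t : E) (_ : Transcendental K t) (_ : FiniteDimensional K⟮t⟯ E)
    (𝔪 : Ideal (Algebra.adjoin R {t})) (_ : 𝔪.IsMaximal)
    (_ : algebraMap R (Algebra.adjoin R {t}) ϖ ∈ 𝔪)
    (c : R) (_ : ∀ u : Algebra.adjoin R {t}, (u : E) = t - algebraMap R E c → u ∈ 𝔪)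
    (e₀ : ℕ) (_ : IsUnit (e₀ : R)) (_ : ∃ ζ : R, IsPrimitiveRoot ζ e₀)
    (_ : ∀ V : Place K E, Through R K t 𝔪 V → V.ord (t - algebraMap R E c) ≤ 0 →
      ∃ Q : K[X], V.ord (Polynomial.aeval t Q) = 1)
    (_ : ∀ V : Place K E, 0 < V.ord (t - algebraMap R E c) →
      V.ord (t - algebraMap R E c) ∣ (e₀ : ℤ))
    (s : E') (_ : Tower R t c e₀ s)
    (𝔪' : Ideal (Algebra.adjoin R {s})) (_ : 𝔪'.IsMaximal)
    (_ : algebraMap R (Algebra.adjoin R {s}) ϖ ∈ 𝔪')
    (_ : ∀ u : Algebra.adjoin R {s}, (u : E') = s → u ∈ 𝔪')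
    (V' : Place K E'), Through R K s 𝔪' V' →
      ∃ Q : K[X], V'.ord (Polynomial.aeval s Q) = 1

/-- **T4 (C3d, descent by norm and trace)**. -/
def TowerDescentStatement : Prop :=
  ∀ (R : Type) [CommRing R] [IsDomain R] [IsDiscreteValuationRing R]
    (K : Type) [Field K] [CharZero K] [Algebra R K] [IsFractionRing R K]
    (E : Type) [Field E] [Algebra K E] [Algebra R E] [IsScalarTower R K E]
    (E' : Type) [Field E'] [Algebra K E'] [Algebra R E'] [IsScalarTower R K E']
    [Algebra E E'] [IsScalarTower K E E'] [IsScalarTower R E E']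
    (ϖ : R) (_ : Irreducible ϖ)
    (t : E) (_ : Transcendental K t) (_ : FiniteDimensional K⟮t⟯ E)
    (𝔪 : Ideal (Algebra.adjoin R {t})) (_ : 𝔪.IsMaximal)
    (_ : algebraMap R (Algebra.adjoin R {t}) ϖ ∈ 𝔪)
    (c : R) (_ : ∀ u : Algebra.adjoin R {t}, (u : E) = t - algebraMap R E c → u ∈ 𝔪)
    (e₀ : ℕ) (_ : IsUnit (e₀ : R)) (_ : ∃ ζ : R, IsPrimitiveRoot ζ e₀)
    (s : E') (_ : Tower R t c e₀ s)
    (𝔪' : Ideal (Algebra.adjoin R {s})) (_ : 𝔪'.IsMaximal)
    (_ : algebraMap R (Algebra.adjoin R {s}) ϖ ∈ 𝔪')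
    (_ : ∀ u : Algebra.adjoin R {s}, (u : E') = s → u ∈ 𝔪')
    (x : E) (_ : GInt R ϖ t x)
    (_ : InChartAt R ϖ s 𝔪' (algebraMap E E' x)),
    InChartAt R ϖ t 𝔪 x

/-- **T5**: integrality and congruences lift to the tower. -/
def TowerLiftStatement : Prop :=
  ∀ (R : Type) [CommRing R] [IsDomain R] [IsDiscreteValuationRing R]
    (K : Type) [Field K] [CharZero K] [Algebra R K] [IsFractionRing R K]
    (E : Type) [Field E] [Algebra K E] [Algebra R E] [IsScalarTower R K E]
    (E' : Type) [Field E'] [Algebra K E'] [Algebra R E'] [IsScalarTower R K E']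
    [Algebra E E'] [IsScalarTower K E E'] [IsScalarTower R E E']
    (ϖ : R) (_ : Irreducible ϖ)
    (t : E) (_ : Transcendental K t)
    (c : R) (e₀ : ℕ) (_ : 0 < e₀)
    (s : E') (_ : Tower R t c e₀ s),
    (∀ x : E, GInt R ϖ t x → GInt R ϖ s (algebraMap E E' x)) ∧
    (∀ x y : E, ModPi R ϖ t x y → ModPi R ϖ s (algebraMap E E' x) (algebraMap E E' y))

end H12C3
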