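/-
S18 (item 75), route Y', slice C2' (helper21): gluing.
Basic calculus of `IsInt`, `IsGaussUnit`, `GInt`, `ModPi` (namespace `H21S18`) and
`h21s18_glue : H7S18.GlueStatement`.
-/
import Mathlib
import Fermat.Agent.S18.Defs

set_option autoImplicit false

open Polynomial IntermediateField AlgebraicCurve

namespace H21S18

open H7S18

section basic

variable {R : Type} [CommRing R] {E : Type} [Field E] [Algebra R E]

theorem isInt_of_mem {t s : E} (hs : s ∈ Algebra.adjoin R {t}) : IsInt R t s := by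
  have : s = algebraMap (Algebra.adjoin R {t}) E ⟨s, hs⟩ := rfl
  rw [IsInt, this]
  exact isIntegral_algebraMap

theorem isInt_zero (t : E) : IsInt R t 0 := isIntegral_zero

theorem isInt_one (t : E) : IsInt R t 1 := isIntegral_one

theorem isInt_add {t a b : E} (ha : IsInt R t a) (hb : IsInt R t b) : IsInt R t (a + b) :=
  IsIntegral.add ha hb

theorem isInt_mul {t a b : E} (ha : IsInt R t a) (hb : IsInt R t b) : IsInt R t (a * b) :=
  IsIntegral.mul ha hb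

theorem isInt_neg {t a : E} (ha : IsInt R t a) : IsInt R t (-a) :=
  IsIntegral.neg ha

theorem isInt_sub {t a b : E} (ha : IsInt R t a) (hb : IsInt R t b) : IsInt R t (a - b) :=
  IsIntegral.sub ha hb

end basic

section gauss

variable {R : Type} [CommRing R] [IsDomain R] {E : Type} [Field E] [Algebra R E]

/-- the chart ring `R[t]` is a polynomial ring when `t` is transcendental over `R` -/
theorem exists_poly_of_mem {t s : E} (hs : s ∈ Algebra.adjoin R {t}) :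
    ∃ P : R[X], Polynomial.aeval t P = s := by
  rw [Algebra.adjoin_singleton_eq_range_aeval] at hs
  exact hs

theorem aeval_mem (t : E) (P : R[X]) : Polynomial.aeval t P ∈ Algebra.adjoin R {t} := by
  rw [Algebra.adjoin_singleton_eq_range_aeval]
  exact ⟨P, rfl⟩

theorem isGaussUnit_aeval_iff {ϖ : R} {t : E} (ht : Transcendental R t) (P : R[X]) :
    IsGaussUnit R ϖ t (Polynomial.aeval t P) ↔ ¬ (Polynomial.C ϖ ∣ P) := by
  have hinj : Function.Injective (Polynomial.aeval (R := R) t) :=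
    transcendental_iff_injective.mp ht
  constructor
  · rintro ⟨-, h⟩ ⟨Q, rfl⟩
    refine h (Polynomial.aeval t Q) (aeval_mem t Q) ?_
    rw [map_mul, Polynomial.aeval_C]
  · intro h
    refine ⟨aeval_mem t P, fun s' hs' heq => h ?_⟩
    obtain ⟨Q, rfl⟩ := exists_poly_of_mem hs'
    refine ⟨Q, hinj ?_⟩
    rw [heq, map_mul, Polynomial.aeval_C]

theorem isGaussUnit_one {ϖ : R} (hϖ : Prime ϖ) {t : E} (ht : Transcendental R t) :
    IsGaussUnit R ϖ t 1 := by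
  have h := (isGaussUnit_aeval_iff (ϖ := ϖ) ht (1 : R[X])).mpr (fun hdvd =>
    (Polynomial.prime_C_iff.mpr hϖ).not_isUnit (isUnit_of_dvd_one hdvd))
  rwa [map_one] at h

theorem isGaussUnit_mul {ϖ : R} (hϖ : Prime ϖ) {t : E} (ht : Transcendental R t) {s₁ s₂ : E}
    (h₁ : IsGaussUnit R ϖ t s₁) (h₂ : IsGaussUnit R ϖ t s₂) : IsGaussUnit R ϖ t (s₁ * s₂) := by
  obtain ⟨P, rfl⟩ := exists_poly_of_mem h₁.1
  obtain ⟨Q, rfl⟩ := exists_poly_of_mem h₂.1
  rw [← map_mul]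
  rw [isGaussUnit_aeval_iff ht] at h₁ h₂ ⊢
  intro h
  rcases (Polynomial.prime_C_iff.mpr hϖ).dvd_or_dvd h with h | h
  · exact h₁ h
  · exact h₂ h

theorem gInt_of_isInt {ϖ : R} (hϖ : Prime ϖ) {t : E} (ht : Transcendental R t) {a : E}
    (ha : IsInt R t a) : GInt R ϖ t a :=
  ⟨1, isGaussUnit_one hϖ ht, by rwa [one_mul]⟩

theorem gInt_zero {ϖ : R} (hϖ : Prime ϖ) {t : E} (ht : Transcendental R t) :
    GInt R ϖ t 0 := gInt_of_isInt hϖ ht (isInt_zero t)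

theorem gInt_add {ϖ : R} (hϖ : Prime ϖ) {t : E} (ht : Transcendental R t) {x y : E}
    (hx : GInt R ϖ t x) (hy : GInt R ϖ t y) : GInt R ϖ t (x + y) := by
  obtain ⟨s₁, hs₁, h₁⟩ := hx
  obtain ⟨s₂, hs₂, h₂⟩ := hy
  refine ⟨s₁ * s₂, isGaussUnit_mul hϖ ht hs₁ hs₂, ?_⟩
  have e : s₁ * s₂ * (x + y) = s₂ * (s₁ * x) + s₁ * (s₂ * y) := by ring
  rw [e]
  exact isInt_add (isInt_mul (isInt_of_mem hs₂.1) h₁) (isInt_mul (isInt_of_mem hs₁.1) h₂)

theorem gInt_mul {ϖ : R} (hϖ : Prime ϖ) {t : E} (ht : Transcendental R t) {x y : E}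
    (hx : GInt R ϖ t x) (hy : GInt R ϖ t y) : GInt R ϖ t (x * y) := by
  obtain ⟨s₁, hs₁, h₁⟩ := hx
  obtain ⟨s₂, hs₂, h₂⟩ := hy
  refine ⟨s₁ * s₂, isGaussUnit_mul hϖ ht hs₁ hs₂, ?_⟩
  have e : s₁ * s₂ * (x * y) = (s₁ * x) * (s₂ * y) := by ring
  rw [e]
  exact isInt_mul h₁ h₂

theorem gInt_neg {ϖ : R} {t : E} {x : E} (hx : GInt R ϖ t x) : GInt R ϖ t (-x) := by
  obtain ⟨s, hs, h⟩ := hx
  exact ⟨s, hs, by rw [mul_neg]; exact isInt_neg h⟩

theorem gInt_sub {ϖ : R} (hϖ : Prime ϖ) {t : E} (ht : Transcendental R t) {x y : E}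
    (hx : GInt R ϖ t x) (hy : GInt R ϖ t y) : GInt R ϖ t (x - y) := by
  rw [sub_eq_add_neg]
  exact gInt_add hϖ ht hx (gInt_neg hy)

theorem gInt_mul_of_mem {ϖ : R} {t : E} {r x : E} (hr : r ∈ Algebra.adjoin R {t})
    (hx : GInt R ϖ t x) : GInt R ϖ t (r * x) := by
  obtain ⟨s, hs, h⟩ := hx
  refine ⟨s, hs, ?_⟩
  have e : s * (r * x) = r * (s * x) := by ring
  rw [e]
  exact isInt_mul (isInt_of_mem hr) h

/-! ### congruences modulo `ϖ O_E` -/

theorem modPi_refl {ϖ : R} (hϖ : Prime ϖ) {t : E} (ht : Transcendental R t) (x : E) :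
    ModPi R ϖ t x x := ⟨0, gInt_zero hϖ ht, by simp⟩

theorem modPi_symm {ϖ : R} {t : E} {x y : E} (h : ModPi R ϖ t x y) : ModPi R ϖ t y x := by
  obtain ⟨z, hz, e⟩ := h
  exact ⟨-z, gInt_neg hz, by rw [mul_neg, ← e]; ring⟩

theorem modPi_trans {ϖ : R} (hϖ : Prime ϖ) {t : E} (ht : Transcendental R t) {x y z : E}
    (h₁ : ModPi R ϖ t x y) (h₂ : ModPi R ϖ t y z) : ModPi R ϖ t x z := by
  obtain ⟨u, hu, e₁⟩ := h₁
  obtain ⟨w, hw, e₂⟩ := h₂
  exact ⟨u + w, gInt_add hϖ ht hu hw, by rw [mul_add, ← e₁, ← e₂]; ring⟩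

theorem modPi_add {ϖ : R} (hϖ : Prime ϖ) {t : E} (ht : Transcendental R t) {x y x' y' : E}
    (h₁ : ModPi R ϖ t x y) (h₂ : ModPi R ϖ t x' y') : ModPi R ϖ t (x + x') (y + y') := by
  obtain ⟨u, hu, e₁⟩ := h₁
  obtain ⟨w, hw, e₂⟩ := h₂
  exact ⟨u + w, gInt_add hϖ ht hu hw, by rw [mul_add, ← e₁, ← e₂]; ring⟩

theorem modPi_mul_of_mem {ϖ : R} {t : E} {r x y : E} (hr : r ∈ Algebra.adjoin R {t})
    (h : ModPi R ϖ t x y) : ModPi R ϖ t (r * x) (r * y) := by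
  obtain ⟨u, hu, e⟩ := h
  exact ⟨r * u, gInt_mul_of_mem hr hu, by rw [← mul_sub, e]; ring⟩

theorem modPi_pi_mul {ϖ : R} {t : E} {x : E} (hx : GInt R ϖ t x) :
    ModPi R ϖ t (algebraMap R E ϖ * x) 0 := ⟨x, hx, by ring⟩

end gauss

section glue

variable {R : Type} [CommRing R] [IsDomain R] {E : Type} [Field E] [Algebra R E]

/-- the ideal of `s ∈ R[t]` with `s x ∈ M₀ + ϖ O_E` -/
def chartIdeal (ϖ : R) (hϖ : Prime ϖ) (t : E) (ht : Transcendental R t) (x : E) :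
    Ideal (Algebra.adjoin R {t}) where
  carrier := {s | ∃ a, IsInt R t a ∧ ModPi R ϖ t ((s : E) * x) a}
  zero_mem' := ⟨0, isInt_zero t, by
    simp only [ZeroMemClass.coe_zero, zero_mul]
    exact modPi_refl hϖ ht 0⟩
  add_mem' := by
    rintro s₁ s₂ ⟨a₁, ha₁, h₁⟩ ⟨a₂, ha₂, h₂⟩
    refine ⟨a₁ + a₂, isInt_add ha₁ ha₂, ?_⟩
    have e : ((s₁ + s₂ : Algebra.adjoin R {t}) : E) * x = (s₁ : E) * x + (s₂ : E) * x := by
      push_cast
      ring
    rw [e]
    exact modPi_add hϖ ht h₁ h₂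
  smul_mem' := by
    rintro r s ⟨a, ha, h⟩
    refine ⟨(r : E) * a, isInt_mul (isInt_of_mem r.2) ha, ?_⟩
    have e : ((r • s : Algebra.adjoin R {t}) : E) * x = (r : E) * ((s : E) * x) := by
      simp only [smul_eq_mul, MulMemClass.coe_mul]
      ring
    rw [e]
    exact modPi_mul_of_mem r.2 h

theorem mem_chartIdeal {ϖ : R} (hϖ : Prime ϖ) {t : E} (ht : Transcendental R t) {x : E}
    {s : Algebra.adjoin R {t}} :
    s ∈ chartIdeal ϖ hϖ t ht x ↔ ∃ a, IsInt R t a ∧ ModPi R ϖ t ((s : E) * x) a := Iff.rfl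

/-- gluing, in terms of `R`-transcendence -/
theorem glue_aux {ϖ : R} (hϖ : Prime ϖ) {t : E} (ht : Transcendental R t) {x : E}
    (hx : GInt R ϖ t x)
    (hloc : ∀ 𝔪 : Ideal (Algebra.adjoin R {t}), 𝔪.IsMaximal →
      algebraMap R (Algebra.adjoin R {t}) ϖ ∈ 𝔪 → InChartAt R ϖ t 𝔪 x) :
    ∃ a, IsInt R t a ∧ ModPi R ϖ t x a := by
  have hpi : algebraMap R (Algebra.adjoin R {t}) ϖ ∈ chartIdeal ϖ hϖ t ht x :=
    ⟨0, isInt_zero t, modPi_pi_mul hx⟩
  have htop : chartIdeal ϖ hϖ t ht x = ⊤ := by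
    by_contra hne
    obtain ⟨𝔪, h𝔪, hle⟩ := Ideal.exists_le_maximal _ hne
    obtain ⟨s, hs, a, ha, hsa⟩ := hloc 𝔪 h𝔪 (hle hpi)
    exact hs (hle ⟨a, ha, hsa⟩)
  have h1 : (1 : Algebra.adjoin R {t}) ∈ chartIdeal ϖ hϖ t ht x := by
    rw [htop]
    exact Submodule.mem_top
  obtain ⟨a, ha, h⟩ := h1
  refine ⟨a, ha, ?_⟩
  simpa using h

end glue

/-- `ϖ` is prime and `t` is transcendental over `R` in the generic setting -/
theorem prime_of_irreducible {R : Type} [CommRing R] [IsDomain R] [IsDiscreteValuationRing R]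
    {ϖ : R} (hϖ : Irreducible ϖ) : Prime ϖ := hϖ.prime

theorem transcendental_base {R : Type} [CommRing R] [IsDomain R]
    {K : Type} [Field K] [Algebra R K] [IsFractionRing R K]
    {E : Type} [Field E] [Algebra K E] [Algebra R E] [IsScalarTower R K E] {t : E}
    (ht : Transcendental K t) : Transcendental R t :=
  ht.restrictScalars (IsFractionRing.injective R K)

end H21S18

/-- **C2' (gluing)** -/
theorem h21s18_glue : H7S18.GlueStatement := by
  intro R _ _ _ K _ _ _ _ E _ _ _ _ ϖ hϖ t ht _ x hx hloc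
  exact H21S18.glue_aux (H21S18.prime_of_irreducible hϖ) (H21S18.transcendental_base ht) hx hloc
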