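import Mathlib
import Fermat.Agent.S18.C3Defs_helper12
import Fermat.Agent.S18.Glue_helper21

/-!
# S18, slice C3 (helper12): assembly of `LocalIdemTameStatement` from C2 and the tower sub-slices
-/

set_option autoImplicit false
set_option linter.style.haveILetI false
set_option linter.unusedSectionVars false

open Polynomial IntermediateField AlgebraicCurve

noncomputable section

namespace H12C3

open H7S18

section maxideal

variable (R : Type) [CommRing R] [IsDomain R] [IsDiscreteValuationRing R]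
  {E' : Type} [Field E'] [Algebra R E']

/-- evaluation at `s = 0` followed by reduction mod `ϖ` -/
def evZero (ϖ : R) (s : E') (hs : Transcendental R s) :
    Algebra.adjoin R {s} →+* R ⧸ Ideal.span {ϖ} :=
  (Ideal.Quotient.mk (Ideal.span {ϖ})).comp
    ((Polynomial.constantCoeff : R[X] →+* R).comp
      ((Polynomial.algEquivOfTranscendental R s hs).symm : Algebra.adjoin R {s} →+* R[X]))

theorem evZero_surjective (ϖ : R) (s : E') (hs : Transcendental R s) :
    Function.Surjective (evZero R ϖ s hs) := by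
  intro y
  obtain ⟨r, rfl⟩ := Ideal.Quotient.mk_surjective y
  refine ⟨algebraMap R _ r, ?_⟩
  simp [evZero]

theorem evZero_algebraMap (ϖ : R) (s : E') (hs : Transcendental R s) (r : R) :
    evZero R ϖ s hs (algebraMap R _ r) = Ideal.Quotient.mk _ r := by
  simp [evZero]

theorem evZero_gen (ϖ : R) (s : E') (hs : Transcendental R s) (u : Algebra.adjoin R {s})
    (hu : (u : E') = s) : evZero R ϖ s hs u = 0 := by
  have hu' : u = ⟨s, Algebra.self_mem_adjoin_singleton R s⟩ := Subtype.ext hu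
  rw [hu']
  simp [evZero]

/-- the maximal ideal `(ϖ, s)` of `R[s]` -/
def maxIdeal (ϖ : R) (s : E') (hs : Transcendental R s) : Ideal (Algebra.adjoin R {s}) :=
  RingHom.ker (evZero R ϖ s hs)

theorem maxIdeal_isMaximal (ϖ : R) (hϖ : Irreducible ϖ) (s : E') (hs : Transcendental R s) :
    (maxIdeal R ϖ s hs).IsMaximal := by
  haveI : (Ideal.span {ϖ}).IsMaximal := by
    rw [← hϖ.maximalIdeal_eq]
    exact IsLocalRing.maximalIdeal.isMaximal R
  letI := Ideal.Quotient.field (Ideal.span {ϖ})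
  exact RingHom.ker_isMaximal_of_surjective _ (evZero_surjective R ϖ s hs)

theorem pi_mem_maxIdeal (ϖ : R) (s : E') (hs : Transcendental R s) :
    algebraMap R (Algebra.adjoin R {s}) ϖ ∈ maxIdeal R ϖ s hs := by
  rw [maxIdeal, RingHom.mem_ker, evZero_algebraMap, Ideal.Quotient.eq_zero_iff_mem]
  exact Ideal.mem_span_singleton_self ϖ

theorem gen_mem_maxIdeal (ϖ : R) (s : E') (hs : Transcendental R s) (u : Algebra.adjoin R {s})
    (hu : (u : E') = s) : u ∈ maxIdeal R ϖ s hs := by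
  rw [maxIdeal, RingHom.mem_ker]
  exact evZero_gen R ϖ s hs u hu

end maxideal

/-- **C3 from C2 and the tower sub-slices.** -/
theorem localIdemTame_of (hC2 : LocalIdemUnrStatement) (h1 : TowerBasicStatement)
    (h2 : TowerUnrGaussStatement) (h3 : TowerPlacesStatement) (h4 : TowerDescentStatement)
    (h5 : TowerLiftStatement) : LocalIdemTameStatement := by
  intro R _ _ _ K _ _ _ _ E _ _ _ _ ϖ hϖ t ht hfin hunr 𝔪 h𝔪 hϖ𝔪 c hc e₀ he₀ hζ hpl1 hpl2 x hx hxx
  classical
  have he₀pos : 0 < e₀ := by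
    rcases Nat.eq_zero_or_pos e₀ with h0 | h0
    · exfalso
      rw [h0, Nat.cast_zero] at he₀
      exact not_isUnit_zero he₀
    · exact h0
  -- an irreducible factor of `X ^ e₀ - (t - c)`
  set τ : E := t - algebraMap R E c with hτ
  have hne : (X ^ e₀ - C τ : E[X]) ≠ 0 := X_pow_sub_C_ne_zero he₀pos τ
  have hnu : ¬ IsUnit (X ^ e₀ - C τ : E[X]) := by
    intro h
    have := Polynomial.natDegree_eq_zero_of_isUnit h
    rw [Polynomial.natDegree_X_pow_sub_C] at this
    omega
  obtain ⟨f, hf, hfdvd⟩ := WfDvdMonoid.exists_irreducible_factor hnu hne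
  haveI : Fact (Irreducible f) := ⟨hf⟩
  let E' : Type := AdjoinRoot f
  let s : E' := AdjoinRoot.root f
  have hpow : s ^ e₀ = algebraMap E E' τ := by
    obtain ⟨g, hg⟩ := hfdvd
    have h0 : Polynomial.aeval s (X ^ e₀ - C τ : E[X]) = 0 := by
      rw [hg, map_mul, AdjoinRoot.aeval_eq, AdjoinRoot.mk_self, zero_mul]
    rw [map_sub, map_pow, Polynomial.aeval_X, Polynomial.aeval_C] at h0
    exact sub_eq_zero.mp h0
  have hadj : IntermediateField.adjoin E {s} = ⊤ := by
    rw [eq_top_iff]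
    intro y _
    have h1 : y ∈ Algebra.adjoin E {s} := by
      rw [AdjoinRoot.adjoinRoot_eq_top]
      exact Algebra.mem_top
    exact IntermediateField.algebra_adjoin_le_adjoin E {s} h1
  have htower : Tower R t c e₀ s := ⟨hpow, hadj⟩
  obtain ⟨hs_tr, hfin', -, -⟩ := h1 R K E E' t ht hfin c e₀ he₀ hζ s htower
  have hunr' := h2 R K E E' ϖ hϖ t ht hfin c e₀ he₀ hζ s htower hunr
  have hsR : Transcendental R s := H21S18.transcendental_base (K := K) hs_tr
  have h𝔪' := maxIdeal_isMaximal R ϖ hϖ s hsR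
  have hϖ' := pi_mem_maxIdeal R ϖ s hsR
  have hs' := gen_mem_maxIdeal R ϖ s hsR
  obtain ⟨hG, hM⟩ := h5 R K E E' ϖ hϖ t ht c e₀ he₀pos s htower
  have hx' := hG x hx
  have hxx' : ModPi R ϖ s (algebraMap E E' x * algebraMap E E' x) (algebraMap E E' x) := by
    have := hM (x * x) x hxx
    rwa [map_mul] at this
  have hin' := hC2 R K E' ϖ hϖ s hs_tr hfin' hunr' (maxIdeal R ϖ s hsR) h𝔪' hϖ'
    (fun V' hV' => h3 R K E E' ϖ hϖ t ht hfin 𝔪 h𝔪 hϖ𝔪 c hc e₀ he₀ hζ hpl1 hpl2 s htower
      (maxIdeal R ϖ s hsR) h𝔪' hϖ' hs' V' hV')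
    (algebraMap E E' x) hx' hxx'
  exact h4 R K E E' ϖ hϖ t ht hfin 𝔪 h𝔪 hϖ𝔪 c hc e₀ he₀ hζ s htower
    (maxIdeal R ϖ s hsR) h𝔪' hϖ' hs' x hx hin'

end H12C3
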