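import Mathlib
import Fermat.Agent.S18.C3Defs_helper12
import Fermat.Agent.S18.Glue_helper21

/-!
# S18, slice C3 (helper12): the Kummer tower — basic algebra and T5 (lifting)

`E' = E(s)`, `s ^ e₀ = t - c`; `ι = algebraMap E E'`.  `ι` maps `R[t]` into `R[s]`
(`ι (P(t)) = P(s ^ e₀ + c)`), Gauss units to Gauss units and integral elements to integral elements.
-/

set_option autoImplicit false
set_option linter.style.haveILetI false
set_option linter.unusedSectionVars false

open Polynomial IntermediateField AlgebraicCurve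

noncomputable section

namespace H12C3

open H7S18 H21S18

section tower

variable {R : Type} [CommRing R] [IsDomain R]
  {E : Type} [Field E] [Algebra R E]
  {E' : Type} [Field E'] [Algebra R E'] [Algebra E E'] [IsScalarTower R E E']
  {t : E} {c : R} {e₀ : ℕ} {s : E'}

/-- the substitution polynomial `X ^ e₀ + c` -/
def subst (c : R) (e₀ : ℕ) : R[X] := X ^ e₀ + C c

theorem aeval_subst (s : E') : Polynomial.aeval s (subst c e₀) = s ^ e₀ + algebraMap R E' c := by
  simp [subst]

theorem natDegree_subst (_h : 0 < e₀) : (subst c e₀).natDegree = e₀ := by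
  rw [subst, Polynomial.natDegree_X_pow_add_C]

theorem Tower.map_t (h : Tower R t c e₀ s) :
    algebraMap E E' t = s ^ e₀ + algebraMap R E' c := by
  have := h.pow_eq
  rw [map_sub, ← IsScalarTower.algebraMap_apply R E E'] at this
  rw [this]
  ring

theorem Tower.map_aeval (h : Tower R t c e₀ s) (P : R[X]) :
    algebraMap E E' (Polynomial.aeval t P) = Polynomial.aeval s (P.comp (subst c e₀)) := by
  rw [Polynomial.aeval_comp, aeval_subst, ← h.map_t]
  exact (Polynomial.aeval_algebraMap_apply E' t P).symm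

theorem Tower.map_mem (h : Tower R t c e₀ s) {a : E} (ha : a ∈ Algebra.adjoin R {t}) :
    algebraMap E E' a ∈ Algebra.adjoin R {s} := by
  obtain ⟨P, rfl⟩ := exists_poly_of_mem ha
  rw [h.map_aeval]
  exact aeval_mem s _

/-- the inclusion `R[t] → R[s]` -/
def Tower.incl (h : Tower R t c e₀ s) : Algebra.adjoin R {t} →+* Algebra.adjoin R {s} where
  toFun a := ⟨algebraMap E E' (a : E), h.map_mem a.2⟩
  map_one' := by ext; simp
  map_mul' a b := by ext; simp
  map_zero' := by ext; simp
  map_add' a b := by ext; simp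

theorem Tower.incl_coe (h : Tower R t c e₀ s) (a : Algebra.adjoin R {t}) :
    ((h.incl a : Algebra.adjoin R {s}) : E') = algebraMap E E' (a : E) := rfl

theorem Tower.isInt_map (h : Tower R t c e₀ s) {y : E} (hy : IsInt R t y) :
    IsInt R s (algebraMap E E' y) := by
  refine IsIntegral.map_of_comp_eq h.incl (algebraMap E E') ?_ hy
  ext a
  rfl

/-- `s` is transcendental over `R` if it is over `K` -/
theorem transcendental_of_pow_add {K : Type} [Field K] {E' : Type} [Field E'] [Algebra K E']
    (s : E') (e₀ : ℕ) (a : K) (h : Transcendental K (s ^ e₀ + algebraMap K E' a)) :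
    Transcendental K s := by
  have h1 : s ^ e₀ + algebraMap K E' a = Polynomial.aeval s (X ^ e₀ + C a : K[X]) := by simp
  rw [h1] at h
  exact (transcendental_aeval_iff.mp h).1

/-- the substitution `X ↦ X ^ e₀ + c` preserves "not divisible by `ϖ`" -/
theorem not_dvd_comp_subst {ϖ : R} (hϖ : Prime ϖ) (he₀ : 0 < e₀) {P : R[X]}
    (hP : ¬ (C ϖ ∣ P)) : ¬ (C ϖ ∣ P.comp (subst c e₀)) := by
  intro hdvd
  apply hP
  haveI : (Ideal.span {ϖ}).IsPrime := (Ideal.span_singleton_prime hϖ.ne_zero).mpr hϖ
  set q := Ideal.Quotient.mk (Ideal.span {ϖ}) with hq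
  have hker : ∀ r : R, q r = 0 ↔ ϖ ∣ r := fun r => by
    rw [hq, Ideal.Quotient.eq_zero_iff_mem, Ideal.mem_span_singleton]
  have key : ∀ A : R[X], C ϖ ∣ A ↔ A.map q = 0 := by
    intro A
    rw [Polynomial.C_dvd_iff_dvd_coeff]
    constructor
    · intro hA
      ext i
      rw [Polynomial.coeff_map, Polynomial.coeff_zero, hker]
      exact hA i
    · intro hA i
      rw [← hker, ← Polynomial.coeff_map, hA, Polynomial.coeff_zero]
  rw [key] at hdvd ⊢
  rw [Polynomial.map_comp] at hdvd
  rcases Polynomial.comp_eq_zero_iff.mp hdvd with h0 | ⟨-, h1⟩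
  · exact h0
  · exfalso
    have hdeg : ((subst c e₀).map q).natDegree = e₀ := by
      rw [subst, Polynomial.map_add, Polynomial.map_pow, Polynomial.map_X, Polynomial.map_C,
        Polynomial.natDegree_X_pow_add_C]
    rw [h1, Polynomial.natDegree_C] at hdeg
    omega

theorem Tower.isGaussUnit_map (h : Tower R t c e₀ s) {ϖ : R} (hϖ : Prime ϖ) (he₀ : 0 < e₀)
    (ht : Transcendental R t) (hs : Transcendental R s) {u : E} (hu : IsGaussUnit R ϖ t u) :
    IsGaussUnit R ϖ s (algebraMap E E' u) := by
  obtain ⟨P, rfl⟩ := exists_poly_of_mem hu.1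
  rw [h.map_aeval, isGaussUnit_aeval_iff hs]
  exact not_dvd_comp_subst hϖ he₀ ((isGaussUnit_aeval_iff ht P).mp hu)

theorem Tower.gInt_map (h : Tower R t c e₀ s) {ϖ : R} (hϖ : Prime ϖ) (he₀ : 0 < e₀)
    (ht : Transcendental R t) (hs : Transcendental R s) {x : E} (hx : GInt R ϖ t x) :
    GInt R ϖ s (algebraMap E E' x) := by
  obtain ⟨u, hu, hux⟩ := hx
  refine ⟨algebraMap E E' u, h.isGaussUnit_map hϖ he₀ ht hs hu, ?_⟩
  rw [← map_mul]
  exact h.isInt_map hux

theorem Tower.modPi_map (h : Tower R t c e₀ s) {ϖ : R} (hϖ : Prime ϖ) (he₀ : 0 < e₀)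
    (ht : Transcendental R t) (hs : Transcendental R s) {x y : E} (hxy : ModPi R ϖ t x y) :
    ModPi R ϖ s (algebraMap E E' x) (algebraMap E E' y) := by
  obtain ⟨z, hz, hxyz⟩ := hxy
  refine ⟨algebraMap E E' z, h.gInt_map hϖ he₀ ht hs hz, ?_⟩
  rw [← map_sub, hxyz, map_mul, ← IsScalarTower.algebraMap_apply R E E']

end tower

/-- `s` is transcendental over `K` in the tower -/
theorem Tower.transcendentalK {R : Type} [CommRing R] [IsDomain R]
    {K : Type} [Field K] [Algebra R K]
    {E : Type} [Field E] [Algebra K E] [Algebra R E] [IsScalarTower R K E]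
    {E' : Type} [Field E'] [Algebra K E'] [Algebra R E'] [IsScalarTower R K E']
    [Algebra E E'] [IsScalarTower K E E'] [IsScalarTower R E E']
    {t : E} {c : R} {e₀ : ℕ} {s : E'} (h : Tower R t c e₀ s) (ht : Transcendental K t) :
    Transcendental K s := by
  have h1 : Transcendental K (algebraMap E E' t) :=
    (transcendental_algebraMap_iff (algebraMap E E').injective).mpr ht
  rw [h.map_t, IsScalarTower.algebraMap_apply R K E'] at h1
  exact transcendental_of_pow_add s e₀ _ h1

/-- **T5** -/
theorem towerLift : TowerLiftStatement := by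
  intro R _ _ _ K _ _ _ _ E _ _ _ _ E' _ _ _ _ _ _ _ ϖ hϖ t ht c e₀ he₀ s hs
  have hϖ' := prime_of_irreducible hϖ
  have htR : Transcendental R t := transcendental_base (K := K) ht
  have hsR : Transcendental R s := transcendental_base (K := K) (hs.transcendentalK ht)
  exact ⟨fun x hx => hs.gInt_map hϖ' he₀ htR hsR hx,
    fun x y hxy => hs.modPi_map hϖ' he₀ htR hsR hxy⟩

end H12C3
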