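import Mathlib
import Fermat.Agent.S18.C3Lift_helper12

/-!
# S18, slice C3 (helper12): T1 — basic facts on the Kummer tower

`E' = E(s)`, `s ^ e₀ = t - c`: `s` is transcendental over `K`, `E'` is finite over `E` and over
`K(s)`, and `[E' : E] ∣ e₀` (the constant coefficient of the minimal polynomial of `s` shows
`s ^ d ∈ E`, `d = [E' : E]`, hence `s ^ gcd(d, e₀) ∈ E`).
-/

set_option autoImplicit false
set_option linter.style.haveILetI false
set_option linter.unusedSectionVars false

open Polynomial IntermediateField AlgebraicCurve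

noncomputable section

namespace H12C3

open H7S18 H21S18

section kummer

variable {E : Type} [Field E] {E' : Type} [Field E'] [Algebra E E']

/-- Kummer: if `E` contains a primitive `e₀`-th root of unity and `s ^ e₀ ∈ E`, then
`[E(s) : E]` divides `e₀`.  Here in the form: the degree of the minimal polynomial divides `e₀`. -/
theorem natDegree_minpoly_dvd (e₀ : ℕ) (he₀ : 0 < e₀) (ζ : E) (hζ : IsPrimitiveRoot ζ e₀)
    (s : E') (τ : E) (hs : s ^ e₀ = algebraMap E E' τ) (hs0 : s ≠ 0) :
    (minpoly E s).natDegree ∣ e₀ := by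
  classical
  haveI : NeZero e₀ := ⟨he₀.ne'⟩
  set ι := algebraMap E E' with hι
  have hint : IsIntegral E s :=
    ⟨X ^ e₀ - C τ, monic_X_pow_sub_C τ he₀.ne', by
      rw [← Polynomial.aeval_def, map_sub, map_pow, Polynomial.aeval_X, Polynomial.aeval_C, hs,
        sub_self]⟩
  set f := minpoly E s with hf
  have hfmonic : f.Monic := minpoly.monic hint
  set d := f.natDegree with hd
  have hζ' : IsPrimitiveRoot (ι ζ) e₀ := hζ.map_of_injective ι.injective
  -- `f` divides `X ^ e₀ - τ`, which splits over `E'`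
  have hdvd : f ∣ (X ^ e₀ - C τ : E[X]) := by
    apply minpoly.dvd
    rw [map_sub, map_pow, Polynomial.aeval_X, Polynomial.aeval_C, hs, sub_self]
  have hsplit0 : (X ^ e₀ - C (ι τ) : E'[X]).Splits :=
    X_pow_sub_C_splits_of_isPrimitiveRoot hζ' hs
  have hmap : (X ^ e₀ - C τ : E[X]).map ι = X ^ e₀ - C (ι τ) := by
    rw [Polynomial.map_sub, Polynomial.map_pow, Polynomial.map_X, Polynomial.map_C]
  have hne0 : (X ^ e₀ - C (ι τ) : E'[X]) ≠ 0 := X_pow_sub_C_ne_zero he₀ _
  have hsplit : (f.map ι).Splits := by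
    refine hsplit0.of_dvd hne0 ?_
    rw [← hmap]
    exact Polynomial.map_dvd ι hdvd
  have hfm : (f.map ι).Monic := hfmonic.map ι
  -- every root of `f` is `η s` with `η ∈ ι E`
  have hroot : ∀ r ∈ (f.map ι).roots, ∃ a : E, a ≠ 0 ∧ r = ι a * s := by
    intro r hr
    have hr0 : (f.map ι).eval r = 0 := (Polynomial.mem_roots hfm.ne_zero).mp hr
    have hr1 : (X ^ e₀ - C (ι τ) : E'[X]).eval r = 0 := by
      rw [← hmap]
      obtain ⟨g, hg⟩ := hdvd
      rw [hg, Polynomial.map_mul, Polynomial.eval_mul, hr0, zero_mul]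
    rw [Polynomial.eval_sub, Polynomial.eval_pow, Polynomial.eval_X, Polynomial.eval_C,
      sub_eq_zero] at hr1
    have h1 : (r / s) ^ e₀ = 1 := by
      rw [div_pow, hr1, hs, div_self]
      rw [← hs]
      exact pow_ne_zero _ hs0
    obtain ⟨i, -, hi⟩ := hζ'.eq_pow_of_pow_eq_one h1
    refine ⟨ζ ^ i, pow_ne_zero _ (hζ.ne_zero he₀.ne'), ?_⟩
    rw [map_pow, hi, div_mul_cancel₀ _ hs0]
  -- the product of the roots is `ι a * s ^ d`
  have hprod : ∀ M : Multiset E', (∀ r ∈ M, ∃ a : E, a ≠ 0 ∧ r = ι a * s) →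
      ∃ a : E, a ≠ 0 ∧ M.prod = ι a * s ^ (Multiset.card M) := by
    intro M
    induction M using Multiset.induction_on with
    | empty =>
      intro _
      exact ⟨1, one_ne_zero, by simp⟩
    | cons r M ih =>
      intro h
      obtain ⟨a, ha, hra⟩ := h r (Multiset.mem_cons_self r M)
      obtain ⟨b, hb, hMb⟩ := ih (fun r' hr' => h r' (Multiset.mem_cons_of_mem hr'))
      refine ⟨a * b, mul_ne_zero ha hb, ?_⟩
      rw [Multiset.prod_cons, Multiset.card_cons, hra, hMb, map_mul, pow_succ]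
      ring
  obtain ⟨a, ha, hMa⟩ := hprod _ hroot
  have hcard : Multiset.card (f.map ι).roots = d := by
    rw [← hsplit.natDegree_eq_card_roots, Polynomial.natDegree_map]
  rw [hcard] at hMa
  have hcoeff : (f.map ι).coeff 0 = (-1) ^ d * (f.map ι).roots.prod := by
    have h1 := hsplit.eq_prod_roots_of_monic hfm
    have h2 : (f.map ι).coeff 0 = (f.map ι).eval 0 := by
      rw [Polynomial.coeff_zero_eq_eval_zero]
    rw [h2]
    conv_lhs => rw [h1]
    rw [Polynomial.eval_multiset_prod, Multiset.map_map]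
    have h3 : ((f.map ι).roots.map (Polynomial.eval 0 ∘ fun a => X - C a)) =
        (f.map ι).roots.map (fun a => (-1) * a) := by
      apply Multiset.map_congr rfl
      intro x _
      simp
    rw [h3, Multiset.prod_map_mul, Multiset.map_const', Multiset.prod_replicate, hcard,
      Multiset.map_id']
  -- `s ^ d ∈ ι E`
  have hsd : ∃ b : E, s ^ d = ι b := by
    refine ⟨a⁻¹ * ((-1) ^ d * f.coeff 0), ?_⟩
    have h1 : ι (f.coeff 0) = (-1) ^ d * (ι a * s ^ d) := by
      rw [← hMa, ← hcoeff, Polynomial.coeff_map]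
    have ha' : ι a ≠ 0 := (map_ne_zero ι).mpr ha
    rw [map_mul, map_mul, map_inv₀, map_pow, map_neg, map_one, h1, ← mul_assoc ((-1) ^ d),
      ← mul_pow]
    simp only [neg_mul, one_mul, neg_neg, one_pow]
    field_simp
  obtain ⟨b, hb⟩ := hsd
  -- `s ^ gcd(d, e₀) ∈ ι E`
  set g := Nat.gcd d e₀ with hg
  have hgpos : 0 < g := Nat.gcd_pos_of_pos_right d he₀
  have hsg : ∃ b' : E, s ^ g = ι b' := by
    have hbez := Nat.gcd_eq_gcd_ab d e₀
    refine ⟨b ^ (Nat.gcdA d e₀) * τ ^ (Nat.gcdB d e₀), ?_⟩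
    rw [map_mul, map_zpow₀, map_zpow₀, ← hb, ← hs, ← zpow_natCast s d, ← zpow_natCast s e₀,
      ← zpow_mul, ← zpow_mul, ← zpow_add₀ hs0, ← hbez, zpow_natCast]
  obtain ⟨b', hb'⟩ := hsg
  have hle : d ≤ g := by
    have hp : (X ^ g - C b' : E[X]) ≠ 0 := X_pow_sub_C_ne_zero hgpos _
    have h0 : Polynomial.aeval s (X ^ g - C b' : E[X]) = 0 := by
      rw [map_sub, map_pow, Polynomial.aeval_X, Polynomial.aeval_C, hb', sub_self]
    have h1 := minpoly.degree_le_of_ne_zero E s hp h0
    have h2 := Polynomial.natDegree_le_natDegree h1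
    rwa [Polynomial.natDegree_X_pow_sub_C] at h2
  have hgd : g ∣ d := Nat.gcd_dvd_left d e₀
  have hdpos : 0 < d := minpoly.natDegree_pos hint
  have : g = d := le_antisymm (Nat.le_of_dvd hdpos hgd) hle
  rw [← this]
  exact Nat.gcd_dvd_right d e₀

end kummer

section basic

variable {R : Type} [CommRing R] [IsDomain R]
  {K : Type} [Field K] [Algebra R K]
  {E : Type} [Field E] [Algebra K E] [Algebra R E] [IsScalarTower R K E]
  {E' : Type} [Field E'] [Algebra K E'] [Algebra R E'] [IsScalarTower R K E']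
  [Algebra E E'] [IsScalarTower K E E'] [IsScalarTower R E E']
  {t : E} {c : R} {e₀ : ℕ} {s : E'}

theorem Tower.isIntegral (h : Tower R t c e₀ s) (he₀ : 0 < e₀) : IsIntegral E s :=
  ⟨X ^ e₀ - C (t - algebraMap R E c), monic_X_pow_sub_C _ he₀.ne', by
    rw [← Polynomial.aeval_def, map_sub, map_pow, Polynomial.aeval_X, Polynomial.aeval_C,
      h.pow_eq, sub_self]⟩

theorem Tower.finiteDimensional (h : Tower R t c e₀ s) (he₀ : 0 < e₀) :
    FiniteDimensional E E' := by
  have h1 : FiniteDimensional E (IntermediateField.adjoin E {s}) :=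
    IntermediateField.adjoin.finiteDimensional (h.isIntegral he₀)
  rw [h.adjoin_eq] at h1
  exact Module.Finite.equiv (IntermediateField.topEquiv (F := E) (E := E')).toLinearEquiv

theorem Tower.finrank_eq (h : Tower R t c e₀ s) (he₀ : 0 < e₀) :
    Module.finrank E E' = (minpoly E s).natDegree := by
  rw [← IntermediateField.adjoin.finrank (h.isIntegral he₀), h.adjoin_eq,
    IntermediateField.finrank_top']

theorem Tower.ne_zero (h : Tower R t c e₀ s) (he₀ : 0 < e₀) (ht : Transcendental K t) :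
    s ≠ 0 := by
  intro hs0
  have h1 := h.pow_eq
  rw [hs0, zero_pow he₀.ne'] at h1
  have h2 : t - algebraMap R E c = 0 := by
    apply (algebraMap E E').injective
    rw [← h1, map_zero]
  rw [sub_eq_zero] at h2
  apply ht
  rw [h2, IsScalarTower.algebraMap_apply R K E]
  exact isAlgebraic_algebraMap _

theorem Tower.map_mem_adjoin (h : Tower R t c e₀ s) {x : E} (hx : x ∈ K⟮t⟯) :
    algebraMap E E' x ∈ K⟮s⟯ := by
  have hle : K⟮t⟯ ≤ (K⟮s⟯).comap (IsScalarTower.toAlgHom K E E') := by
    rw [IntermediateField.adjoin_le_iff]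
    intro y hy
    rw [Set.mem_singleton_iff] at hy
    subst hy
    change algebraMap E E' y ∈ K⟮s⟯
    rw [h.map_t, IsScalarTower.algebraMap_apply R K E']
    exact add_mem (pow_mem (IntermediateField.mem_adjoin_simple_self K s) _)
      (IntermediateField.algebraMap_mem _ _)
  exact hle hx

/-- the inclusion `K(t) → K(s)` -/
def Tower.inclK (h : Tower R t c e₀ s) : K⟮t⟯ →+* K⟮s⟯ where
  toFun a := ⟨algebraMap E E' (a : E), h.map_mem_adjoin a.2⟩
  map_one' := by ext; simp
  map_mul' a b := by ext; simp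
  map_zero' := by ext; simp
  map_add' a b := by ext; simp

theorem Tower.finiteDimensionalK (h : Tower R t c e₀ s) (he₀ : 0 < e₀)
    [FiniteDimensional K⟮t⟯ E] : FiniteDimensional K⟮s⟯ E' := by
  haveI := h.finiteDimensional he₀
  letI : Algebra K⟮t⟯ K⟮s⟯ := (h.inclK (K := K)).toAlgebra
  haveI : IsScalarTower K⟮t⟯ E E' := inferInstance
  haveI : IsScalarTower K⟮t⟯ K⟮s⟯ E' := IsScalarTower.of_algebraMap_eq (fun x => rfl)
  haveI : Module.Finite K⟮t⟯ E' := Module.Finite.trans E E'
  exact Module.Finite.of_restrictScalars_finite K⟮t⟯ K⟮s⟯ E'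

end basic

/-- **T1** -/
theorem towerBasic : TowerBasicStatement := by
  intro R _ _ _ K _ _ _ _ E _ _ _ _ E' _ _ _ _ _ _ _ t ht hfin c e₀ hu hζ s hs
  have he₀ : 0 < e₀ := by
    rcases Nat.eq_zero_or_pos e₀ with h0 | h0
    · exfalso
      rw [h0, Nat.cast_zero] at hu
      exact not_isUnit_zero hu
    · exact h0
  refine ⟨hs.transcendentalK ht, hs.finiteDimensionalK he₀, hs.finiteDimensional he₀, ?_⟩
  obtain ⟨ζ, hζ⟩ := hζ
  rw [hs.finrank_eq he₀]
  have hinj : Function.Injective (algebraMap R E) := by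
    rw [IsScalarTower.algebraMap_eq R K E]
    exact (algebraMap K E).injective.comp (IsFractionRing.injective R K)
  exact natDegree_minpoly_dvd e₀ he₀ (algebraMap R E ζ) (hζ.map_of_injective hinj) s
    (t - algebraMap R E c) hs.pow_eq (hs.ne_zero he₀ ht)

end H12C3
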