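import Mathlib
import Fermat.Agent.S18.C3Basic_helper12

/-!
# S18, slice C3 (helper12): T4 — descent from the Kummer tower by norm and trace

`E' = E(s)`, `s ^ e₀ = t - c`, `e₀ ∈ Rˣ`, `ζ ∈ R` a primitive `e₀`-th root of unity.
* the norm of a polynomial `P(s) ∈ R[s]`: `∏ₖ P(ζ ^ k s) = Q(s ^ e₀) = Q(t - c)`, `Q ∈ R[X]`;
* integrality over `R[s]` implies integrality over `R[t]`;
* the trace `E' → E` maps `O_{E'}` to `O_E`;
* `towerDescent : TowerDescentStatement`.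
-/

set_option autoImplicit false
set_option linter.style.haveILetI false
set_option linter.unusedSectionVars false

open Polynomial IntermediateField AlgebraicCurve

noncomputable section

namespace H12C3

open H7S18 H21S18

section norm

variable {R : Type} [CommRing R] [IsDomain R]

/-- the twisted polynomial `P(ζ ^ k X)` -/
def twist (ζ : R) (k : ℕ) (P : R[X]) : R[X] := P.comp (C (ζ ^ k) * X)

/-- the norm polynomial `∏_{k < e₀} P(ζ ^ k X)` -/
def normPoly (ζ : R) (e₀ : ℕ) (P : R[X]) : R[X] := ∏ k ∈ Finset.range e₀, twist ζ k P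

/-- the co-norm polynomial `∏_{0 < k < e₀} P(ζ ^ k X)` -/
def coNorm (ζ : R) (e₀ : ℕ) (P : R[X]) : R[X] := ∏ k ∈ Finset.range (e₀ - 1), twist ζ (k + 1) P

/-- the norm as a polynomial in `X ^ e₀` -/
def normQ (ζ : R) (e₀ : ℕ) (P : R[X]) : R[X] := contract e₀ (normPoly ζ e₀ P)

theorem twist_zero (ζ : R) (P : R[X]) : twist ζ 0 P = P := by
  simp [twist]

theorem coeff_twist (ζ : R) (k : ℕ) (P : R[X]) (n : ℕ) :
    (twist ζ k P).coeff n = P.coeff n * (ζ ^ k) ^ n := by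
  rw [twist, Polynomial.comp_C_mul_X_coeff]

theorem twist_comp (ζ : R) (k : ℕ) (P : R[X]) :
    (twist ζ k P).comp (C ζ * X) = twist ζ (k + 1) P := by
  rw [twist, twist, Polynomial.comp_assoc]
  congr 1
  rw [Polynomial.mul_comp, Polynomial.C_comp, Polynomial.X_comp, ← mul_assoc, ← C_mul, ← pow_succ]

theorem normPoly_eq (ζ : R) {e₀ : ℕ} (he₀ : 0 < e₀) (P : R[X]) :
    normPoly ζ e₀ P = P * coNorm ζ e₀ P := by
  obtain ⟨m, rfl⟩ : ∃ m, e₀ = m + 1 := ⟨e₀ - 1, by omega⟩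
  rw [normPoly, coNorm, Finset.prod_range_succ', twist_zero, mul_comm]
  rfl

theorem normPoly_comp {ζ : R} {e₀ : ℕ} (he₀ : 0 < e₀) (hζ : ζ ^ e₀ = 1) (P : R[X]) :
    (normPoly ζ e₀ P).comp (C ζ * X) = normPoly ζ e₀ P := by
  obtain ⟨m, rfl⟩ : ∃ m, e₀ = m + 1 := ⟨e₀ - 1, by omega⟩
  rw [normPoly, Polynomial.prod_comp]
  simp only [twist_comp]
  rw [Finset.prod_range_succ, Finset.prod_range_succ']
  congr 1
  rw [twist, twist, hζ, pow_zero]

theorem coeff_normPoly_of_not_dvd {ζ : R} {e₀ : ℕ} (he₀ : 0 < e₀) (hζ : IsPrimitiveRoot ζ e₀)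
    (P : R[X]) {n : ℕ} (hn : ¬ e₀ ∣ n) : (normPoly ζ e₀ P).coeff n = 0 := by
  have h1 := congrArg (fun F => F.coeff n) (normPoly_comp he₀ hζ.pow_eq_one P)
  simp only [Polynomial.comp_C_mul_X_coeff] at h1
  have h2 : (normPoly ζ e₀ P).coeff n * (ζ ^ n - 1) = 0 := by
    rw [mul_sub, h1, mul_one, sub_self]
  rcases mul_eq_zero.mp h2 with h3 | h3
  · exact h3
  · exfalso
    apply hn
    rw [← hζ.pow_eq_one_iff_dvd]
    exact sub_eq_zero.mp h3

theorem expand_normQ {ζ : R} {e₀ : ℕ} (he₀ : 0 < e₀) (hζ : IsPrimitiveRoot ζ e₀) (P : R[X]) :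
    expand R e₀ (normQ ζ e₀ P) = normPoly ζ e₀ P := by
  ext n
  rw [Polynomial.coeff_expand he₀, normQ]
  split_ifs with h
  · rw [Polynomial.coeff_contract he₀.ne', Nat.div_mul_cancel h]
  · rw [coeff_normPoly_of_not_dvd he₀ hζ P h]

theorem coeff_zero_normPoly (ζ : R) (e₀ : ℕ) (P : R[X]) :
    (normPoly ζ e₀ P).coeff 0 = P.coeff 0 ^ e₀ := by
  rw [normPoly, Polynomial.coeff_zero_eq_eval_zero, Polynomial.eval_prod]
  simp only [twist, Polynomial.eval_comp, Polynomial.eval_mul, Polynomial.eval_X, mul_zero]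
  rw [Finset.prod_const, Finset.card_range, Polynomial.coeff_zero_eq_eval_zero]

theorem coeff_zero_normQ (ζ : R) {e₀ : ℕ} (he₀ : 0 < e₀) (P : R[X]) :
    (normQ ζ e₀ P).coeff 0 = P.coeff 0 ^ e₀ := by
  rw [normQ, Polynomial.coeff_contract he₀.ne', zero_mul, coeff_zero_normPoly]

theorem not_dvd_twist {ϖ ζ : R} {e₀ : ℕ} (hζ : ζ ^ e₀ = 1) (he₀ : 0 < e₀) (k : ℕ) {P : R[X]}
    (hP : ¬ (C ϖ ∣ P)) : ¬ (C ϖ ∣ twist ζ k P) := by
  intro h
  apply hP
  rw [Polynomial.C_dvd_iff_dvd_coeff] at h ⊢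
  intro i
  have h1 := h i
  rw [coeff_twist] at h1
  have hu : IsUnit ((ζ ^ k) ^ i) := by
    have hζu : IsUnit ζ := IsUnit.of_pow_eq_one hζ he₀.ne'
    exact (hζu.pow k).pow i
  exact (IsUnit.dvd_mul_right hu).mp h1

theorem not_dvd_normPoly {ϖ ζ : R} {e₀ : ℕ} (hϖ : Prime ϖ) (hζ : ζ ^ e₀ = 1) (he₀ : 0 < e₀)
    {P : R[X]} (hP : ¬ (C ϖ ∣ P)) : ¬ (C ϖ ∣ normPoly ζ e₀ P) := by
  intro h
  rw [normPoly, (Polynomial.prime_C_iff.mpr hϖ).dvd_finsetProd_iff] at h
  obtain ⟨k, -, hk⟩ := h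
  exact not_dvd_twist hζ he₀ k hP hk

theorem not_dvd_normQ {ϖ ζ : R} {e₀ : ℕ} (hϖ : Prime ϖ) (hζ : IsPrimitiveRoot ζ e₀)
    (he₀ : 0 < e₀) {P : R[X]} (hP : ¬ (C ϖ ∣ P)) : ¬ (C ϖ ∣ normQ ζ e₀ P) := by
  intro h
  apply not_dvd_normPoly hϖ hζ.pow_eq_one he₀ hP
  rw [← expand_normQ he₀ hζ]
  obtain ⟨A, hA⟩ := h
  refine ⟨expand R e₀ A, ?_⟩
  rw [hA, map_mul, Polynomial.expand_C]

/-- translation `X ↦ X - c` preserves "not divisible by `ϖ`" -/
theorem not_dvd_comp_sub {ϖ : R} (c : R) {P : R[X]} (hP : ¬ (C ϖ ∣ P)) :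
    ¬ (C ϖ ∣ P.comp (X - C c)) := by
  intro h
  apply hP
  obtain ⟨A, hA⟩ := h
  refine ⟨A.comp (X + C c), ?_⟩
  have h1 : P = (P.comp (X - C c)).comp (X + C c) := by
    rw [Polynomial.comp_assoc, Polynomial.sub_comp, Polynomial.X_comp, Polynomial.C_comp,
      add_sub_cancel_right, Polynomial.comp_X]
  rw [h1, hA, Polynomial.mul_comp, Polynomial.C_comp]

end norm

section towerNorm

variable {R : Type} [CommRing R] [IsDomain R]
  {E : Type} [Field E] [Algebra R E]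
  {E' : Type} [Field E'] [Algebra R E'] [Algebra E E'] [IsScalarTower R E E']
  {t : E} {c : R} {e₀ : ℕ} {s : E'}

/-- the norm of `P(s)`, as an element of `R[t] ⊆ E` -/
def normE (t : E) (c : R) (ζ : R) (e₀ : ℕ) (P : R[X]) : E :=
  Polynomial.aeval t ((normQ ζ e₀ P).comp (X - C c))

theorem normE_mem (t : E) (c : R) (ζ : R) (e₀ : ℕ) (P : R[X]) :
    normE t c ζ e₀ P ∈ Algebra.adjoin R {t} := aeval_mem t _

theorem normE_eq (t : E) (c : R) (ζ : R) (e₀ : ℕ) (P : R[X]) :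
    normE t c ζ e₀ P = Polynomial.aeval (t - algebraMap R E c) (normQ ζ e₀ P) := by
  rw [normE, Polynomial.aeval_comp, map_sub, Polynomial.aeval_X, Polynomial.aeval_C]

theorem Tower.map_normE (h : Tower R t c e₀ s) (he₀ : 0 < e₀) {ζ : R}
    (hζ : IsPrimitiveRoot ζ e₀) (P : R[X]) :
    algebraMap E E' (normE t c ζ e₀ P) =
      Polynomial.aeval s P * Polynomial.aeval s (coNorm ζ e₀ P) := by
  rw [normE_eq, ← map_mul, ← normPoly_eq ζ he₀, ← expand_normQ he₀ hζ, Polynomial.expand_aeval,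
    h.pow_eq]
  exact (Polynomial.aeval_algebraMap_apply E' (t - algebraMap R E c) (normQ ζ e₀ P)).symm

theorem isGaussUnit_normE {ϖ : R} (hϖ : Prime ϖ) (ht : Transcendental R t) (c : R) {ζ : R}
    (he₀ : 0 < e₀) (hζ : IsPrimitiveRoot ζ e₀) {P : R[X]} (hP : ¬ (C ϖ ∣ P)) :
    IsGaussUnit R ϖ t (normE t c ζ e₀ P) := by
  rw [normE, isGaussUnit_aeval_iff ht]
  exact not_dvd_comp_sub c (not_dvd_normQ hϖ hζ he₀ hP)

/-- `s` is integral over `R[t]` -/
theorem Tower.isIntegral_base (h : Tower R t c e₀ s) (he₀ : 0 < e₀) :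
    IsIntegral (Algebra.adjoin R {t}) s := by
  have hmem : t - algebraMap R E c ∈ Algebra.adjoin R {t} :=
    sub_mem (Algebra.self_mem_adjoin_singleton R t) (Subalgebra.algebraMap_mem _ _)
  refine ⟨X ^ e₀ - C ⟨t - algebraMap R E c, hmem⟩, monic_X_pow_sub_C _ he₀.ne', ?_⟩
  rw [← Polynomial.aeval_def, map_sub, map_pow, Polynomial.aeval_X, Polynomial.aeval_C, h.pow_eq]
  exact sub_self _

/-- integrality over `R[s]` implies integrality over `R[t]` -/
theorem Tower.isIntegral_of_isInt (h : Tower R t c e₀ s) (he₀ : 0 < e₀) {y : E'}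
    (hy : IsInt R s y) : IsIntegral (Algebra.adjoin R {t}) y := by
  letI : Algebra (Algebra.adjoin R {t}) (Algebra.adjoin R {s}) := h.incl.toAlgebra
  haveI : IsScalarTower (Algebra.adjoin R {t}) (Algebra.adjoin R {s}) E' :=
    IsScalarTower.of_algebraMap_eq (fun x => rfl)
  have hle : Algebra.adjoin R {s} ≤
      (integralClosure (Algebra.adjoin R {t}) E').restrictScalars R := by
    apply Algebra.adjoin_le
    intro y hy
    rw [Set.mem_singleton_iff] at hy
    subst hy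
    exact h.isIntegral_base he₀
  haveI : Algebra.IsIntegral (Algebra.adjoin R {t}) (Algebra.adjoin R {s}) := by
    constructor
    intro x
    have hx : IsIntegral (Algebra.adjoin R {t}) (x : E') := hle x.2
    exact (isIntegral_algHom_iff
      (IsScalarTower.toAlgHom (Algebra.adjoin R {t}) (Algebra.adjoin R {s}) E')
      Subtype.val_injective).mp hx
  exact isIntegral_trans (R := Algebra.adjoin R {t}) (A := Algebra.adjoin R {s}) y hy

/-- the trace `E' → E` maps elements integral over `R[s]` to elements integral over `R[t]` -/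
theorem Tower.isInt_trace (h : Tower R t c e₀ s) (he₀ : 0 < e₀) [FiniteDimensional E E']
    {y : E'} (hy : IsInt R s y) : IsInt R t (Algebra.trace E E' y) :=
  Algebra.isIntegral_trace (h.isIntegral_of_isInt he₀ hy)

/-- the trace `E' → E` maps `O_{E'}` to `O_E` -/
theorem Tower.gInt_trace (h : Tower R t c e₀ s) (he₀ : 0 < e₀) [FiniteDimensional E E']
    {ϖ : R} (hϖ : Prime ϖ) (ht : Transcendental R t) (hs : Transcendental R s)
    {ζ : R} (hζ : IsPrimitiveRoot ζ e₀) {w : E'} (hw : GInt R ϖ s w) :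
    GInt R ϖ t (Algebra.trace E E' w) := by
  obtain ⟨u, hu, huw⟩ := hw
  obtain ⟨U, rfl⟩ := exists_poly_of_mem hu.1
  have hU : ¬ (C ϖ ∣ U) := (isGaussUnit_aeval_iff hs U).mp hu
  refine ⟨normE t c ζ e₀ U, isGaussUnit_normE hϖ ht c he₀ hζ hU, ?_⟩
  have h1 : normE t c ζ e₀ U * Algebra.trace E E' w =
      Algebra.trace E E' (Polynomial.aeval s (coNorm ζ e₀ U) * (Polynomial.aeval s U * w)) := by
    rw [← smul_eq_mul, ← map_smul, Algebra.smul_def, h.map_normE he₀ hζ]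
    congr 1
    ring
  rw [h1]
  exact h.isInt_trace he₀ (isInt_mul (isInt_of_mem (aeval_mem s _)) huw)

end towerNorm

section descent

variable {R : Type} [CommRing R] [IsDomain R] [IsDiscreteValuationRing R]
  {E : Type} [Field E] [Algebra R E]
  {E' : Type} [Field E'] [Algebra R E'] [Algebra E E'] [IsScalarTower R E E']
  {t : E} {c : R} {e₀ : ℕ} {s : E'}

/-- the norm of an element outside `𝔪' = (ϖ, s)` is outside `𝔪 = (ϖ, t - c)` -/
theorem Tower.normE_not_mem (_h : Tower R t c e₀ s) (he₀ : 0 < e₀)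
    {ϖ : R} (hϖ : Irreducible ϖ) (ζ : R)
    (𝔪 : Ideal (Algebra.adjoin R {t})) (h𝔪 : 𝔪.IsMaximal)
    (hc : ∀ u : Algebra.adjoin R {t}, (u : E) = t - algebraMap R E c → u ∈ 𝔪)
    (𝔪' : Ideal (Algebra.adjoin R {s}))
    (hϖ' : algebraMap R (Algebra.adjoin R {s}) ϖ ∈ 𝔪')
    (hs' : ∀ u : Algebra.adjoin R {s}, (u : E') = s → u ∈ 𝔪')
    (P : R[X]) (hP : (⟨Polynomial.aeval s P, aeval_mem s P⟩ : Algebra.adjoin R {s}) ∉ 𝔪') :
    (⟨normE t c ζ e₀ P, normE_mem t c ζ e₀ P⟩ : Algebra.adjoin R {t}) ∉ 𝔪 := by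
  intro hmem
  apply hP
  -- the element `t - c` of `R[t]`
  have hτmem : t - algebraMap R E c ∈ Algebra.adjoin R {t} :=
    sub_mem (Algebra.self_mem_adjoin_singleton R t) (Subalgebra.algebraMap_mem _ _)
  set τ : Algebra.adjoin R {t} := ⟨t - algebraMap R E c, hτmem⟩ with hτ
  have hτ𝔪 : τ ∈ 𝔪 := hc τ rfl
  set Q := normQ ζ e₀ P with hQ
  have h1 : (⟨normE t c ζ e₀ P, normE_mem t c ζ e₀ P⟩ : Algebra.adjoin R {t}) =
      Polynomial.aeval τ Q := by
    apply Subtype.ext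
    rw [Polynomial.aeval_subalgebra_coe]
    exact normE_eq t c ζ e₀ P
  rw [h1] at hmem
  have h2 : Polynomial.aeval τ Q =
      Polynomial.aeval τ Q.divX * τ + algebraMap R (Algebra.adjoin R {t}) (Q.coeff 0) := by
    conv_lhs => rw [← Polynomial.divX_mul_X_add Q]
    rw [map_add, map_mul, Polynomial.aeval_X, Polynomial.aeval_C]
  have h3 : algebraMap R (Algebra.adjoin R {t}) (Q.coeff 0) ∈ 𝔪 := by
    have : algebraMap R (Algebra.adjoin R {t}) (Q.coeff 0) =
        Polynomial.aeval τ Q - Polynomial.aeval τ Q.divX * τ := by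
      rw [h2]; ring
    rw [this]
    exact 𝔪.sub_mem hmem (𝔪.mul_mem_left _ hτ𝔪)
  have h4 : ¬ IsUnit (Q.coeff 0) := by
    intro hu
    exact h𝔪.ne_top (Ideal.eq_top_of_isUnit_mem _ h3 (hu.map _))
  have h5 : ϖ ∣ Q.coeff 0 := by
    have : Q.coeff 0 ∈ IsLocalRing.maximalIdeal R := (IsLocalRing.mem_maximalIdeal _).mpr h4
    rw [hϖ.maximalIdeal_eq, Ideal.mem_span_singleton] at this
    exact this
  rw [hQ, coeff_zero_normQ ζ he₀] at h5
  have h6 : ϖ ∣ P.coeff 0 := (prime_of_irreducible hϖ).dvd_of_dvd_pow h5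
  obtain ⟨r, hr⟩ := h6
  set σ : Algebra.adjoin R {s} := ⟨s, Algebra.self_mem_adjoin_singleton R s⟩ with hσ
  have hσ𝔪 : σ ∈ 𝔪' := hs' σ rfl
  have h7 : (⟨Polynomial.aeval s P, aeval_mem s P⟩ : Algebra.adjoin R {s}) =
      Polynomial.aeval σ P := by
    apply Subtype.ext
    rw [Polynomial.aeval_subalgebra_coe]
  rw [h7]
  have h8 : Polynomial.aeval σ P =
      Polynomial.aeval σ P.divX * σ + algebraMap R (Algebra.adjoin R {s}) ϖ *
        algebraMap R (Algebra.adjoin R {s}) r := by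
    conv_lhs => rw [← Polynomial.divX_mul_X_add P]
    rw [map_add, map_mul, Polynomial.aeval_X, Polynomial.aeval_C, hr, map_mul]
  rw [h8]
  exact 𝔪'.add_mem (𝔪'.mul_mem_left _ hσ𝔪) (𝔪'.mul_mem_right _ hϖ')

end descent

/-- **T4** -/
theorem towerDescent_of (hT1 : TowerBasicStatement) : TowerDescentStatement := by
  intro R _ _ _ K _ _ _ _ E _ _ _ _ E' _ _ _ _ _ _ _ ϖ hϖ t ht hfin 𝔪 h𝔪 _hϖ𝔪 c hc e₀ hu hζ s hs
    𝔪' _h𝔪' hϖ𝔪' hs𝔪' x _hx hchart
  obtain ⟨_hsK, _, hfinE, hdvd⟩ := hT1 R K E E' t ht hfin c e₀ hu hζ s hs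
  haveI := hfinE
  have he₀ : 0 < e₀ := by
    rcases Nat.eq_zero_or_pos e₀ with h0 | h0
    · exfalso
      rw [h0, Nat.cast_zero] at hu
      exact not_isUnit_zero hu
    · exact h0
  obtain ⟨ζ, hζ⟩ := hζ
  have hϖ' := prime_of_irreducible hϖ
  have htR : Transcendental R t := transcendental_base (K := K) ht
  have hsR : Transcendental R s := transcendental_base (K := K) (hs.transcendentalK ht)
  -- the degree `d = [E' : E]` is a unit of `R`
  set d := Module.finrank E E' with hd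
  have hdu : IsUnit (d : R) := by
    obtain ⟨m, hm⟩ := hdvd
    rw [hm, Nat.cast_mul] at hu
    exact isUnit_of_mul_isUnit_left hu
  obtain ⟨δ, hδ⟩ := hdu.exists_right_inv
  have hδE : (d : E) * algebraMap R E δ = 1 := by
    have := congrArg (algebraMap R E) hδ
    rwa [map_mul, map_natCast, map_one] at this
  -- unpack the chart datum upstairs
  obtain ⟨s₁, hs₁, a', ha', z', hz', hmod⟩ := hchart
  obtain ⟨P, hP⟩ := exists_poly_of_mem s₁.2
  have hs₁' : (⟨Polynomial.aeval s P, aeval_mem s P⟩ : Algebra.adjoin R {s}) ∉ 𝔪' := by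
    have : (⟨Polynomial.aeval s P, aeval_mem s P⟩ : Algebra.adjoin R {s}) = s₁ :=
      Subtype.ext hP
    rw [this]
    exact hs₁
  set coP := Polynomial.aeval s (coNorm ζ e₀ P) with hcoP
  have hcoPmem : coP ∈ Algebra.adjoin R {s} := aeval_mem s _
  refine ⟨⟨normE t c ζ e₀ P, normE_mem t c ζ e₀ P⟩,
    hs.normE_not_mem he₀ hϖ ζ 𝔪 h𝔪 hc 𝔪' hϖ𝔪' hs𝔪' P hs₁',
    algebraMap R E δ * Algebra.trace E E' (coP * a'), ?_,
    algebraMap R E δ * Algebra.trace E E' (coP * z'), ?_, ?_⟩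
  · exact isInt_mul (isInt_of_mem (Subalgebra.algebraMap_mem _ _))
      (hs.isInt_trace he₀ (isInt_mul (isInt_of_mem hcoPmem) ha'))
  · exact gInt_mul_of_mem (Subalgebra.algebraMap_mem _ _)
      (hs.gInt_trace he₀ hϖ' htR hsR hζ (gInt_mul_of_mem hcoPmem hz'))
  · -- the congruence
    change normE t c ζ e₀ P * x - algebraMap R E δ * Algebra.trace E E' (coP * a') =
      algebraMap R E ϖ * (algebraMap R E δ * Algebra.trace E E' (coP * z'))
    have h1 : algebraMap E E' (normE t c ζ e₀ P * x) =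
        coP * a' + algebraMap E E' (algebraMap R E ϖ) * (coP * z') := by
      rw [map_mul, hs.map_normE he₀ hζ, hP, ← IsScalarTower.algebraMap_apply R E E']
      have : (s₁ : E') * algebraMap E E' x = a' + algebraMap R E' ϖ * z' := by
        rw [← hmod]; ring
      calc (s₁ : E') * coP * algebraMap E E' x = coP * ((s₁ : E') * algebraMap E E' x) := by ring
        _ = coP * a' + algebraMap R E' ϖ * (coP * z') := by rw [this]; ring
    have h2 := congrArg (Algebra.trace E E') h1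
    rw [Algebra.trace_algebraMap, map_add, ← Algebra.smul_def, map_smul, smul_eq_mul,
      nsmul_eq_mul] at h2
    have h3 : normE t c ζ e₀ P * x =
        algebraMap R E δ * ((d : E) * (normE t c ζ e₀ P * x)) := by
      rw [← mul_assoc, mul_comm (algebraMap R E δ), hδE, one_mul]
    rw [h3, h2]
    ring

/-- **T4**, unconditional -/
theorem towerDescent : TowerDescentStatement := towerDescent_of towerBasic

end H12C3
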