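import Mathlib
import Fermat.Agent.S18.C3Asm_helper12
import Fermat.Agent.S18.C3Descent_helper12

/-!
# S18, slice C3 (helper12): C3 from C2, T2 and T3

`T1`, `T4`, `T5` are proved (`towerBasic`, `towerDescent`, `towerLift`); what remains of
`H7S18.LocalIdemTameStatement` is C2 (`LocalIdemUnrStatement`), T2 (`TowerUnrGaussStatement`)
and T3 (`TowerPlacesStatement`).
-/

set_option autoImplicit false

namespace H12C3

open H7S18

/-- **C3 from C2, T2, T3.** -/
theorem localIdemTame_of' (hC2 : LocalIdemUnrStatement) (h2 : TowerUnrGaussStatement)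
    (h3 : TowerPlacesStatement) : LocalIdemTameStatement :=
  localIdemTame_of hC2 towerBasic h2 h3 towerDescent towerLift

end H12C3
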