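import Mathlib

/-!
# S18, slice C3/T2 (helper21): the norm trick for Gauss units

`R` a domain containing a primitive `e₀`-th root of unity `ζ`, `ϖ` a prime of `R`.
For `P ∈ R[X]` not divisible by `ϖ`, the norm `G = ∏_{k < e₀} P(ζ ^ k X)` is a multiple of `P`,
is not divisible by `ϖ`, and is a polynomial in `X ^ e₀`.
-/

set_option autoImplicit false
set_option linter.style.haveILetI false
set_option linter.unusedSectionVars false

open Polynomial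

noncomputable section

namespace H21T2

section norm

variable {R : Type} [CommRing R] [IsDomain R]

theorem comp_C_mul_X_comp (P : R[X]) (a b : R) :
    (P.comp (C a * X)).comp (C b * X) = P.comp (C (a * b) * X) := by
  rw [Polynomial.comp_assoc]
  congr 1
  rw [Polynomial.mul_comp, Polynomial.C_comp, Polynomial.X_comp, ← mul_assoc, ← C_mul]

theorem comp_C_one_mul_X (P : R[X]) : P.comp (C 1 * X) = P := by
  rw [C_1, one_mul, Polynomial.comp_X]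

/-- the norm of `P` for the substitutions `X ↦ ζ ^ k X` -/
def normPoly (e₀ : ℕ) (ζ : R) (P : R[X]) : R[X] :=
  ∏ k ∈ Finset.range e₀, P.comp (C (ζ ^ k) * X)

theorem normPoly_comp (e₀ : ℕ) (he₀ : 0 < e₀) (ζ : R) (hζ : ζ ^ e₀ = 1) (P : R[X]) :
    (normPoly e₀ ζ P).comp (C ζ * X) = normPoly e₀ ζ P := by
  obtain ⟨m, rfl⟩ : ∃ m, e₀ = m + 1 := ⟨e₀ - 1, by omega⟩
  unfold normPoly
  rw [Polynomial.prod_comp]
  have h1 : ∀ k ∈ Finset.range (m + 1), (P.comp (C (ζ ^ k) * X)).comp (C ζ * X) =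
      P.comp (C (ζ ^ (k + 1)) * X) := by
    intro k _
    rw [comp_C_mul_X_comp, pow_succ]
  rw [Finset.prod_congr rfl h1, Finset.prod_range_succ,
    Finset.prod_range_succ' (fun k => P.comp (C (ζ ^ k) * X)) m, hζ, pow_zero]

theorem coeff_normPoly_eq_zero (e₀ : ℕ) (he₀ : 0 < e₀) (ζ : R) (hζ : IsPrimitiveRoot ζ e₀)
    (P : R[X]) (j : ℕ) (hj : ¬ e₀ ∣ j) : (normPoly e₀ ζ P).coeff j = 0 := by
  have h1 := congrArg (fun q : R[X] => q.coeff j) (normPoly_comp e₀ he₀ ζ hζ.pow_eq_one P)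
  simp only [Polynomial.comp_C_mul_X_coeff] at h1
  have h2 : (normPoly e₀ ζ P).coeff j * (ζ ^ j - 1) = 0 := by
    rw [mul_sub, h1, mul_one, sub_self]
  rcases mul_eq_zero.mp h2 with h3 | h3
  · exact h3
  · exact absurd ((hζ.pow_eq_one_iff_dvd j).mp (sub_eq_zero.mp h3)) hj

theorem normPoly_eq_expand (e₀ : ℕ) (he₀ : 0 < e₀) (ζ : R) (hζ : IsPrimitiveRoot ζ e₀)
    (P : R[X]) :
    normPoly e₀ ζ P = Polynomial.expand R e₀ (Polynomial.contract e₀ (normPoly e₀ ζ P)) := by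
  ext j
  rw [Polynomial.coeff_expand he₀]
  split_ifs with h
  · obtain ⟨k, rfl⟩ := h
    rw [Polynomial.coeff_contract he₀.ne', Nat.mul_div_cancel_left k he₀, mul_comm]
  · exact coeff_normPoly_eq_zero e₀ he₀ ζ hζ P j h

theorem C_dvd_comp_C_mul_X {ϖ : R} {A : R[X]} (h : C ϖ ∣ A) (u : R) :
    C ϖ ∣ A.comp (C u * X) := by
  obtain ⟨B, rfl⟩ := h
  exact ⟨B.comp (C u * X), by rw [Polynomial.mul_comp, Polynomial.C_comp]⟩

theorem not_dvd_normPoly {ϖ : R} (hϖ : Prime ϖ) (e₀ : ℕ) (he₀ : 0 < e₀) (ζ : R)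
    (hζ : ζ ^ e₀ = 1) {P : R[X]} (hP : ¬ C ϖ ∣ P) : ¬ C ϖ ∣ normPoly e₀ ζ P := by
  intro h
  have hp : Prime (C ϖ : R[X]) := Polynomial.prime_C_iff.mpr hϖ
  obtain ⟨k, -, hk⟩ := (Prime.dvd_finsetProd_iff hp _).mp h
  apply hP
  have h1 := C_dvd_comp_C_mul_X hk (ζ ^ (k * (e₀ - 1)))
  rw [comp_C_mul_X_comp, ← pow_add] at h1
  have h2 : k + k * (e₀ - 1) = e₀ * k := by
    obtain ⟨m, rfl⟩ : ∃ m, e₀ = m + 1 := ⟨e₀ - 1, by omega⟩
    simp only [Nat.add_sub_cancel]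
    ring
  rw [h2, pow_mul, hζ, one_pow, comp_C_one_mul_X] at h1
  exact h1

theorem normPoly_eq_mul (e₀ : ℕ) (he₀ : 0 < e₀) (ζ : R) (P : R[X]) :
    ∃ P' : R[X], P' * P = normPoly e₀ ζ P := by
  obtain ⟨m, rfl⟩ : ∃ m, e₀ = m + 1 := ⟨e₀ - 1, by omega⟩
  refine ⟨∏ k ∈ Finset.range m, P.comp (C (ζ ^ (k + 1)) * X), ?_⟩
  unfold normPoly
  rw [Finset.prod_range_succ' (fun k => P.comp (C (ζ ^ k) * X)) m, pow_zero, comp_C_one_mul_X]

/-- **norm trick**: a polynomial not divisible by `ϖ` divides a polynomial in `X ^ e₀` not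
divisible by `ϖ`. -/
theorem norm_trick {ϖ : R} (hϖ : Prime ϖ) (e₀ : ℕ) (he₀ : 0 < e₀) (ζ : R)
    (hζ : IsPrimitiveRoot ζ e₀) (P : R[X]) (hP : ¬ C ϖ ∣ P) :
    ∃ P' Q : R[X], ¬ C ϖ ∣ Q ∧ P' * P = Polynomial.expand R e₀ Q := by
  obtain ⟨P', hP'⟩ := normPoly_eq_mul e₀ he₀ ζ P
  refine ⟨P', Polynomial.contract e₀ (normPoly e₀ ζ P), ?_, ?_⟩
  · intro h
    apply not_dvd_normPoly hϖ e₀ he₀ ζ hζ.pow_eq_one hP
    rw [normPoly_eq_expand e₀ he₀ ζ hζ P]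
    obtain ⟨B, hB⟩ := h
    exact ⟨Polynomial.expand R e₀ B, by rw [hB, map_mul, Polynomial.expand_C]⟩
  · rw [hP', ← normPoly_eq_expand e₀ he₀ ζ hζ P]

end norm

end H21T2
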