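import Mathlib
import Fermat.Agent.S18.C3Basic_helper12
import Fermat.Agent.S18.C5Trace_helper19
import Fermat.Agent.S18.TFin_helper19
import Fermat.Agent.S18.T2Norm_helper21

/-!
# S18, slice C3/T2 (helper21): the two charts `s` and `τ = s ^ e₀ + c` of `E'`

* `gInt_of_gBase` : `R[s]_(ϖ)` is integral over `R[τ]_(ϖ)` (norm trick);
* `trace_gBase`   : the trace `L₂ → K(τ)` of an intermediate field `K(τ) ≤ L₂ ≤ E'` maps
                    elements integral over `R[τ]_(ϖ)` into `R[τ]_(ϖ)`.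
-/

set_option autoImplicit false
set_option linter.style.haveILetI false
set_option linter.unusedSectionVars false

open Polynomial IntermediateField AlgebraicCurve

noncomputable section

namespace H21T2

open H7S18 H21S18 H12C3 H19S18

section chart

variable {R : Type} [CommRing R] [IsDomain R] {E' : Type} [Field E'] [Algebra R E']

/-- `s` is integral over `R[s ^ e₀ + c]` -/
theorem isInt_gen (s : E') (c : R) (e₀ : ℕ) (he₀ : 0 < e₀) :
    IsInt R (s ^ e₀ + algebraMap R E' c) s := by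
  have hmem : s ^ e₀ ∈ Algebra.adjoin R {s ^ e₀ + algebraMap R E' c} := by
    have h1 := Subalgebra.sub_mem _
      (Algebra.self_mem_adjoin_singleton R (s ^ e₀ + algebraMap R E' c))
      (Subalgebra.algebraMap_mem (Algebra.adjoin R {s ^ e₀ + algebraMap R E' c}) c)
    rwa [add_sub_cancel_right] at h1
  refine ⟨X ^ e₀ - C ⟨s ^ e₀, hmem⟩, monic_X_pow_sub_C _ he₀.ne', ?_⟩
  rw [← Polynomial.aeval_def, map_sub, map_pow, Polynomial.aeval_X, Polynomial.aeval_C]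
  exact sub_self _

/-- `R[s]` is integral over `R[s ^ e₀ + c]` -/
theorem isInt_of_mem_adjoin (s : E') (c : R) (e₀ : ℕ) (he₀ : 0 < e₀) {a : E'}
    (ha : a ∈ Algebra.adjoin R {s}) : IsInt R (s ^ e₀ + algebraMap R E' c) a := by
  induction ha using Algebra.adjoin_induction with
  | mem x hx =>
    rw [Set.mem_singleton_iff] at hx
    subst hx
    exact isInt_gen x c e₀ he₀
  | algebraMap r => exact isInt_of_mem (Subalgebra.algebraMap_mem _ r)
  | add x y _ _ hx hy => exact isInt_add hx hy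
  | mul x y _ _ hx hy => exact isInt_mul hx hy

theorem not_dvd_comp_X_sub_C {ϖ : R} (hϖ : Prime ϖ) (c : R) {Q : R[X]} (hQ : ¬ C ϖ ∣ Q) :
    ¬ C ϖ ∣ Q.comp (X - C c) := by
  have h := not_dvd_comp_subst (c := -c) (e₀ := 1) hϖ one_pos hQ
  have e : subst (-c) 1 = X - C c := by
    simp [subst, sub_eq_add_neg]
  rwa [e] at h

/-- **chart change**: `R[s]_(ϖ) ⊆ O_{E'}(τ)`, `τ = s ^ e₀ + c`. -/
theorem gInt_of_gBase {ϖ : R} (hϖ : Prime ϖ) (e₀ : ℕ) (he₀ : 0 < e₀) (ζ : R)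
    (hζ : IsPrimitiveRoot ζ e₀) (s : E') (hs : Transcendental R s) (c : R)
    (hτ : Transcendental R (s ^ e₀ + algebraMap R E' c)) {x : E'} (hx : GBase R ϖ s x) :
    GInt R ϖ (s ^ e₀ + algebraMap R E' c) x := by
  obtain ⟨σ, a, hσ, ha, hσx⟩ := hx
  obtain ⟨P, rfl⟩ := exists_poly_of_mem hσ.1
  have hP : ¬ C ϖ ∣ P := (isGaussUnit_aeval_iff hs P).mp hσ
  obtain ⟨P', Q, hQ, hPQ⟩ := norm_trick hϖ e₀ he₀ ζ hζ P hP
  have hn_eq : Polynomial.aeval (s ^ e₀ + algebraMap R E' c) (Q.comp (X - C c)) =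
      Polynomial.aeval s P' * Polynomial.aeval s P := by
    rw [← map_mul, hPQ, Polynomial.expand_aeval, Polynomial.aeval_comp]
    congr 1
    simp
  refine ⟨Polynomial.aeval (s ^ e₀ + algebraMap R E' c) (Q.comp (X - C c)),
    (isGaussUnit_aeval_iff hτ _).mpr (not_dvd_comp_X_sub_C hϖ c hQ), ?_⟩
  rw [hn_eq, mul_assoc, hσx]
  exact isInt_of_mem_adjoin s c e₀ he₀ (Subalgebra.mul_mem _ (aeval_mem s P') ha)

end chart

section traceX

variable (R : Type) [CommRing R] [IsDomain R] [IsDiscreteValuationRing R]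
  (K : Type) [Field K] [Algebra R K] [IsFractionRing R K]
  {E' : Type} [Field E'] [Algebra K E'] [Algebra R E'] [IsScalarTower R K E']

/-- the trace of an intermediate field `K(τ) ≤ L₂ ≤ E'` maps `O(τ) ∩ L₂` into `R[τ]_(ϖ)`. -/
theorem trace_gBase {ϖ : R} {τ : E'} (hτ : Transcendental K τ) (L₂ : IntermediateField K E')
    [Algebra K⟮τ⟯ L₂] [IsScalarTower K⟮τ⟯ L₂ E'] [FiniteDimensional K⟮τ⟯ L₂]
    (β : L₂) (hβ : GInt R ϖ τ (algebraMap L₂ E' β)) :
    GBase R ϖ τ (algebraMap K⟮τ⟯ E' (Algebra.trace K⟮τ⟯ L₂ β)) := by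
  letI : Algebra (Algebra.adjoin R {τ}) K⟮τ⟯ := (h19_TtoKt R K τ).toAlgebra
  haveI : IsFractionRing (Algebra.adjoin R {τ}) K⟮τ⟯ := h19_T_isFractionRing R K τ
  haveI : IsIntegrallyClosed (Algebra.adjoin R {τ}) := h19_T_intClosed R (h19_transc R K hτ)
  letI : Algebra (Algebra.adjoin R {τ}) L₂ :=
    ((algebraMap K⟮τ⟯ L₂).comp (algebraMap (Algebra.adjoin R {τ}) K⟮τ⟯)).toAlgebra
  haveI : IsScalarTower (Algebra.adjoin R {τ}) K⟮τ⟯ L₂ :=
    IsScalarTower.of_algebraMap_eq (fun _ => rfl)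
  have hcomp : ∀ z : K⟮τ⟯, algebraMap L₂ E' (algebraMap K⟮τ⟯ L₂ z) = (z : E') := fun z =>
    (IsScalarTower.algebraMap_apply K⟮τ⟯ L₂ E' z).symm
  haveI : IsScalarTower (Algebra.adjoin R {τ}) L₂ E' :=
    IsScalarTower.of_algebraMap_eq (fun a => (hcomp (algebraMap (Algebra.adjoin R {τ}) K⟮τ⟯ a)).symm)
  obtain ⟨n, hn, hnβ⟩ := hβ
  set n₁ : K⟮τ⟯ := algebraMap (Algebra.adjoin R {τ}) K⟮τ⟯ ⟨n, hn.1⟩ with hn₁
  have hn₁E : (n₁ : E') = n := rfl
  have h1 : IsIntegral (Algebra.adjoin R {τ}) (algebraMap K⟮τ⟯ L₂ n₁ * β) := by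
    apply (isIntegral_algebraMap_iff (algebraMap L₂ E').injective).mp
    rw [map_mul, hcomp, hn₁E]
    exact hnβ
  have h2 : IsIntegral (Algebra.adjoin R {τ})
      (Algebra.trace K⟮τ⟯ L₂ (algebraMap K⟮τ⟯ L₂ n₁ * β)) := Algebra.isIntegral_trace h1
  obtain ⟨a, ha⟩ := IsIntegrallyClosed.isIntegral_iff.mp h2
  refine ⟨n, a, hn, a.2, ?_⟩
  have h3 : Algebra.trace K⟮τ⟯ L₂ (algebraMap K⟮τ⟯ L₂ n₁ * β) = n₁ * Algebra.trace K⟮τ⟯ L₂ β := by
    rw [← Algebra.smul_def, map_smul, smul_eq_mul]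
  rw [h3] at ha
  have h4 := congrArg (algebraMap K⟮τ⟯ E') ha
  rw [map_mul] at h4
  exact h4.symm

end traceX

end H21T2
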