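import Mathlib

/-!
# S18, slice C3/T2 (helper21): the Kummer tower `E' = E(s)`, `s ^ e₀ = a ∈ E` — Galois part

Pure field theory: `E'/E` is Galois (characteristic zero, `E` contains a primitive `e₀`-th root of
unity), and every `y ∈ E'` is reconstructed from the traces of `y * s ^ i`:
`e₀ * y = ∑_{i < e₀} s⁻¹ ^ i * Tr_{E'/E}(y * s ^ i)`.
No hypothesis on the degree `[E' : E]` (it is a divisor of `e₀`).
-/

set_option autoImplicit false
set_option linter.style.haveILetI false
set_option linter.unusedSectionVars false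

open Polynomial IntermediateField

noncomputable section

namespace H21T2

section galois

variable {E E' : Type} [Field E] [Field E'] [Algebra E E']

theorem kummer_isIntegral (e₀ : ℕ) (he₀ : 0 < e₀) (s : E') (a : E)
    (hs : s ^ e₀ = algebraMap E E' a) : IsIntegral E s :=
  ⟨X ^ e₀ - C a, monic_X_pow_sub_C a he₀.ne', by
    rw [← Polynomial.aeval_def, map_sub, map_pow, Polynomial.aeval_X, Polynomial.aeval_C, hs,
      sub_self]⟩

theorem kummer_isSplittingField (e₀ : ℕ) (he₀ : 0 < e₀) (ζ : E) (hζ : IsPrimitiveRoot ζ e₀)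
    (s : E') (a : E) (hs : s ^ e₀ = algebraMap E E' a) (hgen : E⟮s⟯ = ⊤) :
    IsSplittingField E E' (X ^ e₀ - C a) := by
  have hint : IsIntegral E s := kummer_isIntegral e₀ he₀ s a hs
  constructor
  · rw [Polynomial.map_sub, Polynomial.map_pow, Polynomial.map_C, Polynomial.map_X]
    exact X_pow_sub_C_splits_of_isPrimitiveRoot
      (hζ.map_of_injective (algebraMap E E').injective) hs
  · rw [eq_top_iff, ← IntermediateField.top_toSubalgebra, ← hgen,
      IntermediateField.adjoin_simple_toSubalgebra_of_isAlgebraic hint.isAlgebraic]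
    apply Algebra.adjoin_mono
    rw [Set.singleton_subset_iff, mem_rootSet_of_ne (X_pow_sub_C_ne_zero he₀ a),
      Polynomial.aeval_def, eval₂_sub, eval₂_X_pow, eval₂_C, hs, sub_self]

theorem kummer_isGalois [CharZero E] (e₀ : ℕ) (he₀ : 0 < e₀) (ζ : E) (hζ : IsPrimitiveRoot ζ e₀)
    (s : E') (a : E) (ha : a ≠ 0) (hs : s ^ e₀ = algebraMap E E' a) (hgen : E⟮s⟯ = ⊤) :
    IsGalois E E' := by
  haveI := kummer_isSplittingField e₀ he₀ ζ hζ s a hs hgen
  exact IsGalois.of_separable_splitting_field (p := X ^ e₀ - C a)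
    (separable_X_pow_sub_C a (Nat.cast_ne_zero.mpr he₀.ne') ha)

theorem kummer_aut_eq_one (s : E') (hint : IsIntegral E s) (hgen : E⟮s⟯ = ⊤)
    (σ : E' ≃ₐ[E] E') (h : σ s = s) : σ = 1 := by
  have hadj : Algebra.adjoin E {s} = ⊤ := by
    rw [← IntermediateField.adjoin_simple_toSubalgebra_of_isAlgebraic hint.isAlgebraic, hgen,
      IntermediateField.top_toSubalgebra]
  have h1 : (σ : E' →ₐ[E] E') = AlgHom.id E E' := by
    apply AlgHom.ext_of_adjoin_eq_top hadj
    intro x hx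
    rw [Set.mem_singleton_iff] at hx
    subst hx
    simpa using h
  ext x
  exact DFunLike.congr_fun h1 x

theorem kummer_geom_sum (e₀ : ℕ) (he₀ : 0 < e₀) (s : E') (a : E) (ha : a ≠ 0)
    (hs : s ^ e₀ = algebraMap E E' a) (hint : IsIntegral E s) (hgen : E⟮s⟯ = ⊤)
    (σ : E' ≃ₐ[E] E') [Decidable (σ = 1)] :
    ∑ i ∈ Finset.range e₀, (s⁻¹ * σ s) ^ i = if σ = 1 then (e₀ : E') else 0 := by
  have ha' : algebraMap E E' a ≠ 0 := (map_ne_zero (algebraMap E E')).mpr ha
  have hs0 : s ≠ 0 := by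
    intro h0
    rw [h0, zero_pow he₀.ne'] at hs
    exact ha' hs.symm
  split_ifs with h1
  · subst h1
    simp [inv_mul_cancel₀ hs0]
  · have hχ : s⁻¹ * σ s ≠ 1 := by
      intro h
      apply h1
      apply kummer_aut_eq_one s hint hgen σ
      have := congrArg (fun z => s * z) h
      simpa [← mul_assoc, mul_inv_cancel₀ hs0] using this
    have hpow : (s⁻¹ * σ s) ^ e₀ = 1 := by
      rw [mul_pow, inv_pow, ← map_pow, hs, AlgEquiv.commutes, inv_mul_cancel₀ ha']
    have h2 := geom_sum_mul (s⁻¹ * σ s) e₀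
    rw [hpow, sub_self] at h2
    rcases mul_eq_zero.mp h2 with h3 | h3
    · exact h3
    · exact absurd (sub_eq_zero.mp h3) hχ

/-- reconstruction from the traces: `e₀ * y = ∑_{i < e₀} s⁻¹ ^ i * Tr_{E'/E}(y * s ^ i)`. -/
theorem kummer_sum [CharZero E] (e₀ : ℕ) (he₀ : 0 < e₀) (ζ : E) (hζ : IsPrimitiveRoot ζ e₀)
    (s : E') (a : E) (ha : a ≠ 0) (hs : s ^ e₀ = algebraMap E E' a) (hgen : E⟮s⟯ = ⊤)
    [FiniteDimensional E E'] (y : E') :
    (e₀ : E') * y =
      ∑ i ∈ Finset.range e₀, s⁻¹ ^ i * algebraMap E E' (Algebra.trace E E' (y * s ^ i)) := by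
  classical
  haveI : IsGalois E E' := kummer_isGalois e₀ he₀ ζ hζ s a ha hs hgen
  have hint : IsIntegral E s := kummer_isIntegral e₀ he₀ s a hs
  have h1 : ∀ i : ℕ, s⁻¹ ^ i * algebraMap E E' (Algebra.trace E E' (y * s ^ i)) =
      ∑ σ : E' ≃ₐ[E] E', σ y * (s⁻¹ * σ s) ^ i := by
    intro i
    rw [trace_eq_sum_automorphisms, Finset.mul_sum]
    apply Finset.sum_congr rfl
    intro σ _
    rw [map_mul, map_pow, mul_pow]
    ring
  rw [Finset.sum_congr rfl (fun i _ => h1 i), Finset.sum_comm]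
  have h2 : ∀ σ : E' ≃ₐ[E] E', ∑ i ∈ Finset.range e₀, σ y * (s⁻¹ * σ s) ^ i =
      if σ = 1 then (e₀ : E') * y else 0 := by
    intro σ
    rw [← Finset.mul_sum, kummer_geom_sum e₀ he₀ s a ha hs hint hgen σ]
    split_ifs with h
    · subst h
      simp [mul_comm]
    · rw [mul_zero]
  rw [Finset.sum_congr rfl (fun σ _ => h2 σ), Finset.sum_ite_eq' Finset.univ (1 : E' ≃ₐ[E] E')]
  simp

end galois

end H21T2
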