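import Mathlib
import Fermat.Agent.S18.T2Chart_helper21
import Fermat.Agent.S18.T2Galois_helper21
import Fermat.Agent.S18.C5_helper19

/-!
# S18, slice C3/T2 (helper21): `H12C3.TowerUnrGaussStatement`

The Gauss prime stays unramified (trace-dual form) in the Kummer tower `E' = E(s)`,
`s ^ e₀ = t - c`.

For `y ∈ E'` in the trace dual of `M₀(E', s)` put `z_i = Tr_{E'/E}(y s ^ i)`.
* `z_i ∈ O_E`: for `m ∈ M₀(E, t)`,
  `Tr_{E/K(t)}(z_i m) = Tr_{K(s)/K(τ)} (Tr_{E'/K(s)}(y s ^ i m))` (`τ = s ^ e₀ + c` the image of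
  `t`), the inner trace is in `R[s]_(ϖ)`, and `Tr_{K(s)/K(τ)}` maps `R[s]_(ϖ)` into `R[τ]_(ϖ)`
  (norm trick + `R[τ]` integrally closed); now use `UnrGauss` for `(E, t)`.
* `e₀ y = ∑_{i < e₀} s⁻¹ ^ i z_i` (Galois sum), and `s`, `e₀` are units of `O_{E'}`.
-/

set_option autoImplicit false
set_option linter.style.haveILetI false
set_option linter.unusedSectionVars false

open Polynomial IntermediateField AlgebraicCurve

noncomputable section

namespace H21T2

open H7S18 H21S18 H12C3 H19S18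

section descent

variable (R : Type) [CommRing R] [IsDomain R] [IsDiscreteValuationRing R]
  (K : Type) [Field K] [Algebra R K] [IsFractionRing R K]
  {E' : Type} [Field E'] [Algebra K E'] [Algebra R E'] [IsScalarTower R K E']

/-- descent of the trace dual condition from the chart `s` to the chart `τ = s ^ e₀ + c`. -/
theorem trace_descent {ϖ : R} (hϖ : Prime ϖ) (e₀ : ℕ) (he₀ : 0 < e₀) (ζ : R)
    (hζ : IsPrimitiveRoot ζ e₀) (s : E') (hs : Transcendental K s) (c : R)
    (τ : E') (hτs : τ = s ^ e₀ + algebraMap R E' c) (hτ : Transcendental K τ)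
    [FiniteDimensional K⟮τ⟯ E'] [FiniteDimensional K⟮s⟯ E'] (w : E')
    (hw : GBase R ϖ s (algebraMap K⟮s⟯ E' (Algebra.trace K⟮s⟯ E' w))) :
    GBase R ϖ τ (algebraMap K⟮τ⟯ E' (Algebra.trace K⟮τ⟯ E' w)) := by
  have hle : K⟮τ⟯ ≤ K⟮s⟯ := by
    rw [IntermediateField.adjoin_simple_le_iff, hτs]
    refine add_mem (pow_mem (IntermediateField.mem_adjoin_simple_self K s) _) ?_
    rw [IsScalarTower.algebraMap_apply R K E']
    exact IntermediateField.algebraMap_mem _ _
  letI : Algebra K⟮τ⟯ K⟮s⟯ := (IntermediateField.inclusion hle).toRingHom.toAlgebra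
  haveI : IsScalarTower K⟮τ⟯ K⟮s⟯ E' := IsScalarTower.of_algebraMap_eq (fun _ => rfl)
  haveI : FiniteDimensional K⟮τ⟯ K⟮s⟯ := FiniteDimensional.left K⟮τ⟯ K⟮s⟯ E'
  haveI : Module.Free K⟮τ⟯ K⟮s⟯ := Module.Free.of_divisionRing K⟮τ⟯ K⟮s⟯
  haveI : Module.Free K⟮s⟯ E' := Module.Free.of_divisionRing K⟮s⟯ E'
  have htr : Algebra.trace K⟮τ⟯ K⟮s⟯ (Algebra.trace K⟮s⟯ E' w) = Algebra.trace K⟮τ⟯ E' w :=
    Algebra.trace_trace w
  rw [← htr]
  apply trace_gBase R K hτ K⟮s⟯
  have hτR : Transcendental R τ := h19_transc R K hτ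
  have hsR : Transcendental R s := h19_transc R K hs
  subst hτs
  exact gInt_of_gBase hϖ e₀ he₀ ζ hζ s hsR c hτR hw

end descent

section fin

variable (K : Type) [Field K]
  {E : Type} [Field E] [Algebra K E]
  {E' : Type} [Field E'] [Algebra K E'] [Algebra E E'] [IsScalarTower K E E']

theorem finiteDimensional_map (t : E) [FiniteDimensional K⟮t⟯ E] [FiniteDimensional E E'] :
    FiniteDimensional K⟮algebraMap E E' t⟯ E' := by
  haveI : Module.Finite K⟮t⟯ E' := Module.Finite.trans E E'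
  refine Module.Finite.of_equiv_equiv (A₁ := K⟮t⟯) (B₁ := E')
    (h19_KtEquiv K (E := E') t).toRingEquiv (RingEquiv.refl E') ?_
  ext x
  rfl

end fin

/-- **T2 (C3b)** -/
theorem towerUnrGauss : H12C3.TowerUnrGaussStatement := by
  intro R _ _ _ K _ _ _ _ E _ _ _ _ E' _ _ _ _ _ _ _ ϖ hϖ t ht hfin c e₀ hu hζ s hs hU
  have he₀ : 0 < e₀ := by
    rcases Nat.eq_zero_or_pos e₀ with h0 | h0
    · exfalso
      rw [h0, Nat.cast_zero] at hu
      exact not_isUnit_zero hu
    · exact h0
  obtain ⟨ζ, hζ⟩ := hζ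
  have hϖ' : Prime ϖ := prime_of_irreducible hϖ
  have htR : Transcendental R t := transcendental_base (K := K) ht
  have hsK : Transcendental K s := hs.transcendentalK ht
  have hsR : Transcendental R s := transcendental_base (K := K) hsK
  have hs0 : s ≠ 0 := hs.ne_zero he₀ ht
  haveI : FiniteDimensional E E' := hs.finiteDimensional he₀
  haveI : FiniteDimensional K⟮s⟯ E' := hs.finiteDimensionalK he₀
  haveI : FiniteDimensional K⟮algebraMap E E' t⟯ E' := finiteDimensional_map K t
  haveI : CharZero E := charZero_of_injective_algebraMap (algebraMap K E).injective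
  have hinj : Function.Injective (algebraMap R E) := by
    rw [IsScalarTower.algebraMap_eq R K E]
    exact (algebraMap K E).injective.comp (IsFractionRing.injective R K)
  have hτK : Transcendental K (algebraMap E E' t) :=
    (transcendental_algebraMap_iff (algebraMap E E').injective).mpr ht
  intro y hy
  -- the traces `z_i` are Gauss-integral
  have hz : ∀ i : ℕ, GInt R ϖ t (Algebra.trace E E' (y * s ^ i)) := by
    intro i
    apply hU
    intro m hm
    have h1 : Algebra.trace E E' (y * s ^ i) * m =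
        Algebra.trace E E' (y * (s ^ i * algebraMap E E' m)) := by
      rw [mul_comm _ m, ← smul_eq_mul, ← map_smul, Algebra.smul_def]
      congr 1
      ring
    rw [h1]
    apply h19_gbase_of_map R (F := E) (E := E') htR ϖ
    rw [← h19_trace_tower K t]
    apply trace_descent R K hϖ' e₀ he₀ ζ hζ s hsK c (algebraMap E E' t) hs.map_t hτK
    exact hy _ (isInt_mul (isInt_of_mem (pow_mem (Algebra.self_mem_adjoin_singleton R s) i))
      (hs.isInt_map hm))
  -- reconstruction
  have ha : t - algebraMap R E c ≠ 0 := by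
    intro h
    apply htR
    rw [sub_eq_zero.mp h]
    exact isAlgebraic_algebraMap c
  have hsum := kummer_sum e₀ he₀ (algebraMap R E ζ) (hζ.map_of_injective hinj) s
    (t - algebraMap R E c) ha hs.pow_eq hs.adjoin_eq y
  obtain ⟨v, hv⟩ := hu.exists_right_inv
  have hv' : (e₀ : E') * algebraMap R E' v = 1 := by
    rw [← map_natCast (algebraMap R E'), ← map_mul, hv, map_one]
  have hy_eq : y = algebraMap R E' v *
      ∑ i ∈ Finset.range e₀, s⁻¹ ^ i * algebraMap E E' (Algebra.trace E E' (y * s ^ i)) := by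
    rw [← hsum, ← mul_assoc, mul_comm (algebraMap R E' v), hv', one_mul]
  rw [hy_eq]
  apply gInt_mul hϖ' hsR (h19_gint_algebraMap R hsR hϖ v)
  apply h19_gint_sum R hsR hϖ
  intro i _
  apply gInt_mul hϖ' hsR
  · refine ⟨s ^ i, h19_gaussUnit_pow_t R hsR hϖ i, ?_⟩
    rw [← mul_pow, mul_inv_cancel₀ hs0, one_pow]
    exact isInt_one s
  · exact hs.gInt_map hϖ' he₀ htR hsR (hz i)

end H21T2
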