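import Mathlib
import Fermat.Prelude.Def_AlgebraicCurve_DivisorPushPull
import Fermat.Agent.S24.PlaceBasic

/-!
# S18 (item 75), route Y', slice C3-T3 (helper9): valuation lemmas, part 1

* `H9T3.ord_sum_of_distinct` : a finite sum of nonzero terms with pairwise distinct orders is
  nonzero and its order is the order of one of the terms;
* `H9T3.lemmaE` (Eisenstein): if `s ^ m = a ∈ L` and the value group of `L` is generated by
  `ord a = m * ord s`, then the orders of all elements of `L[s]` are multiples of `ord s`.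
-/

set_option autoImplicit false

open Polynomial AlgebraicCurve

namespace H9T3

section Sum

variable {K E' : Type*} [Field K] [Field E'] [Algebra K E'] (w : Place K E')

theorem ord_neg' (x : E') : w.ord (-x) = w.ord x := by
  rw [Place.ord, Place.ord, Valuation.map_neg]

theorem add_ne_zero_of_ord_ne {f g : E'} (h : w.ord f ≠ w.ord g) : f + g ≠ 0 := by
  intro h0
  have : g = -f := by linear_combination h0
  rw [this, ord_neg'] at h
  exact h rfl

theorem ord_sum_of_distinct {ι : Type*} [DecidableEq ι] (I : Finset ι) (T : ι → E')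
    (hT : ∀ i ∈ I, T i ≠ 0)
    (hd : ∀ i ∈ I, ∀ j ∈ I, i ≠ j → w.ord (T i) ≠ w.ord (T j)) (hI : I.Nonempty) :
    (∑ i ∈ I, T i) ≠ 0 ∧ ∃ i₀ ∈ I, w.ord (∑ i ∈ I, T i) = w.ord (T i₀) ∧
      ∀ j ∈ I, w.ord (T i₀) ≤ w.ord (T j) := by
  induction I using Finset.induction_on with
  | empty => exact absurd hI (by simp)
  | insert j I' hj ih =>
    rcases Finset.eq_empty_or_nonempty I' with hE | hne
    · subst hE
      simp only [Finset.insert_empty, Finset.sum_singleton, Finset.mem_singleton]
      refine ⟨hT j (by simp), j, rfl, rfl, ?_⟩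
      rintro k rfl
      exact le_rfl
    · have hT' : ∀ i ∈ I', T i ≠ 0 := fun i hi => hT i (Finset.mem_insert_of_mem hi)
      have hd' : ∀ i ∈ I', ∀ k ∈ I', i ≠ k → w.ord (T i) ≠ w.ord (T k) := fun i hi k hk hik =>
        hd i (Finset.mem_insert_of_mem hi) k (Finset.mem_insert_of_mem hk) hik
      obtain ⟨hS, i₀, hi₀, hord, hmin⟩ := ih hT' hd' hne
      rw [Finset.sum_insert hj]
      have hTj : T j ≠ 0 := hT j (Finset.mem_insert_self _ _)
      have hne' : w.ord (T j) ≠ w.ord (T i₀) :=
        hd j (Finset.mem_insert_self _ _) i₀ (Finset.mem_insert_of_mem hi₀)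
          (by rintro rfl; exact hj hi₀)
      rcases lt_or_gt_of_ne hne' with hlt | hgt
      · -- T j has the smallest order
        have h1 : w.ord (T j + ∑ i ∈ I', T i) = w.ord (T j) :=
          RH24.h20_ord_add_eq_of_lt w hTj hS (by rw [hord]; exact hlt)
        refine ⟨add_ne_zero_of_ord_ne w (by rw [hord]; exact hne'), j,
          Finset.mem_insert_self _ _, h1, ?_⟩
        intro k hk
        rcases Finset.mem_insert.mp hk with rfl | hk'
        · exact le_rfl
        · exact hlt.le.trans (hmin k hk')
      · have h1 : w.ord (T j + ∑ i ∈ I', T i) = w.ord (T i₀) := by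
          rw [add_comm, RH24.h20_ord_add_eq_of_lt w hS hTj (by rw [hord]; exact hgt), hord]
        refine ⟨add_ne_zero_of_ord_ne w (by rw [hord]; exact hne'), i₀,
          Finset.mem_insert_of_mem hi₀, h1, ?_⟩
        intro k hk
        rcases Finset.mem_insert.mp hk with rfl | hk'
        · exact hgt.le
        · exact hmin k hk'

theorem ord_pow' (x : E') (n : ℕ) : w.ord (x ^ n) = n * w.ord x := by
  have := w.ord_zpow x (n : ℤ)
  rwa [zpow_natCast] at this

end Sum

section Eisenstein

variable {K L E' : Type*} [Field K] [Field L] [Field E'] [Algebra K E'] [Algebra L E']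
  (w : Place K E')

/-- **Lemma E (Eisenstein)**: if `s ^ m = a ∈ L`, `ord s > 0` and the orders of all elements of
`L` are multiples of `m * ord s`, then the orders of all elements of `L[s]` are multiples of
`ord s`. -/
theorem lemmaE (s : E') (m : ℕ) (hm : 0 < m) (a : L) (hs : s ^ m = algebraMap L E' a)
    (hs0 : 0 < w.ord s)
    (hL : ∀ x : L, x ≠ 0 → ((m : ℤ) * w.ord s) ∣ w.ord (algebraMap L E' x))
    (P : L[X]) (hP : aeval s P ≠ 0) : w.ord s ∣ w.ord (aeval s P) := by
  classical
  have hsne : s ≠ 0 := by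
    rintro rfl
    simp at hs0
  set q : L[X] := X ^ m - C a with hq
  have hqm : q.Monic := monic_X_pow_sub_C a hm.ne'
  have hroot : aeval s q = 0 := by
    simp [hq, hs]
  set r : L[X] := P %ₘ q with hr
  have hPr : aeval s r = aeval s P := aeval_modByMonic_eq_self_of_root hroot
  have hdeg : r.natDegree < m := by
    have h1 : q.natDegree = m := natDegree_X_pow_sub_C
    have h2 := natDegree_modByMonic_lt P hqm (by
      intro h; rw [h] at h1; simp at h1; omega)
    rw [h1] at h2
    exact h2
  have hsum : aeval s r = ∑ i ∈ Finset.range m, algebraMap L E' (r.coeff i) * s ^ i := by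
    rw [aeval_eq_sum_range' hdeg]
    refine Finset.sum_congr rfl fun i _ => ?_
    rw [Algebra.smul_def]
  set I : Finset ℕ := (Finset.range m).filter (fun i => r.coeff i ≠ 0) with hI
  set T : ℕ → E' := fun i => algebraMap L E' (r.coeff i) * s ^ i with hTdef
  have hsum' : aeval s r = ∑ i ∈ I, T i := by
    rw [hsum, hI, Finset.sum_filter]
    refine Finset.sum_congr rfl fun i _ => ?_
    by_cases h : r.coeff i = 0
    · simp [h, hTdef]
    · simp [h, hTdef]
  have hTne : ∀ i ∈ I, T i ≠ 0 := by
    intro i hi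
    have := (Finset.mem_filter.mp hi).2
    exact mul_ne_zero (by simpa using this) (pow_ne_zero _ hsne)
  have hTord : ∀ i ∈ I, ∃ k : ℤ, w.ord (T i) = w.ord s * (m * k + i) := by
    intro i hi
    have hc := (Finset.mem_filter.mp hi).2
    obtain ⟨k, hk⟩ := hL (r.coeff i) hc
    refine ⟨k, ?_⟩
    have hc' : algebraMap L E' (r.coeff i) ≠ 0 := by simpa using hc
    rw [hTdef]
    simp only
    rw [w.ord_mul hc' (pow_ne_zero _ hsne), hk, ord_pow']
    ring
  have hdist : ∀ i ∈ I, ∀ j ∈ I, i ≠ j → w.ord (T i) ≠ w.ord (T j) := by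
    intro i hi j hj hij heq
    obtain ⟨k, hk⟩ := hTord i hi
    obtain ⟨l, hl⟩ := hTord j hj
    rw [hk, hl] at heq
    have h1 : (m : ℤ) * k + i = m * l + j := by
      have := mul_left_cancel₀ hs0.ne' heq
      exact this
    have hi' : i < m := Finset.mem_range.mp (Finset.mem_filter.mp hi).1
    have hj' : j < m := Finset.mem_range.mp (Finset.mem_filter.mp hj).1
    have h2 : ((m : ℤ) * k + i) % m = (m * l + j) % m := by rw [h1]
    rw [Int.mul_add_emod_self_left, Int.mul_add_emod_self_left] at h2
    have h3 : ((i : ℤ)) % m = i := Int.emod_eq_of_lt (by omega) (by omega)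
    have h4 : ((j : ℤ)) % m = j := Int.emod_eq_of_lt (by omega) (by omega)
    rw [h3, h4] at h2
    exact hij (by exact_mod_cast h2)
  have hne : I.Nonempty := by
    rw [Finset.nonempty_iff_ne_empty]
    intro h
    rw [← hPr, hsum', h] at hP
    simp at hP
  obtain ⟨-, i₀, hi₀, hord, -⟩ := ord_sum_of_distinct w I T hTne hdist hne
  obtain ⟨k, hk⟩ := hTord i₀ hi₀
  rw [← hPr, hsum', hord, hk]
  exact Dvd.intro _ rfl

end Eisenstein

end H9T3
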