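import Mathlib
import Fermat.Prelude.Def_AlgebraicCurve_DivisorPushPull
import Fermat.Agent.S24.PlaceBasic
import Fermat.Agent.S18.T3Sum_helper9

/-!
# S18 (item 75), route Y', slice C3-T3 (helper9): valuation lemmas, part 2

`H9T3.lemmaU` (unramified Kummer step): if `y ^ n = a ∈ F` with `ord y = 0` (residue
characteristic `0`), then the orders of all elements of `F[y]` are multiples of the ramification
index `e(w | F)`.
-/

set_option autoImplicit false
set_option linter.unusedSectionVars false

open Polynomial AlgebraicCurve

namespace H9T3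

section U

variable {K F F' : Type*} [Field K] [CharZero K] [Field F] [Field F']
  [Algebra K F] [Algebra K F'] [Algebra F F'] [IsScalarTower K F F']
  [Algebra.IsIntegral F F'] (w : Place K F')

/-- evaluation of an integral polynomial at an integral element -/
noncomputable def ev (y' : w.toValuationSubring) :
    (w.restrict F).toValuationSubring[X] →+* w.toValuationSubring :=
  eval₂RingHom (Place.restrictInclusion F w) y'

theorem ev_apply (y' : w.toValuationSubring) (P : (w.restrict F).toValuationSubring[X]) :
    ev w y' P = P.eval₂ (Place.restrictInclusion F w) y' := rfl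

theorem residue_ev (y' : w.toValuationSubring) (P : (w.restrict F).toValuationSubring[X]) :
    aeval (IsLocalRing.residue w.toValuationSubring y')
      (P.map (IsLocalRing.residue (w.restrict F).toValuationSubring)) =
    IsLocalRing.residue w.toValuationSubring (ev w y' P) := by
  rw [ev_apply, aeval_def, eval₂_map, hom_eval₂]
  congr 1

theorem coe_ev (y' : w.toValuationSubring) (P : (w.restrict F).toValuationSubring[X]) :
    ((ev w y' P : w.toValuationSubring) : F') =
      aeval (y' : F') (P.map (algebraMap (w.restrict F).toValuationSubring F)) := by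
  rw [ev_apply, aeval_def, eval₂_map]
  have := hom_eval₂ P (Place.restrictInclusion F w) (w.toValuationSubring.subtype) y'
  exact this

theorem charZero_residue : CharZero w.ResidueField :=
  charZero_of_injective_algebraMap (algebraMap K w.ResidueField).injective

theorem claim1 (y' : w.toValuationSubring) (hy : IsUnit y') (n : ℕ) (hn : 0 < n)
    (a' : (w.restrict F).toValuationSubring)
    (hya : y' ^ n = Place.restrictInclusion F w a')
    (π : (w.restrict F).toValuationSubring) (hπ : Irreducible π)
    (P : (w.restrict F).toValuationSubring[X])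
    (hP : ev w y' P ∈ IsLocalRing.maximalIdeal w.toValuationSubring) :
    ∃ H S : (w.restrict F).toValuationSubring[X], IsUnit (ev w y' H) ∧
      ev w y' P * ev w y' H = Place.restrictInclusion F w π * ev w y' S := by
  classical
  have hchar := charZero_residue w
  set res := IsLocalRing.residue (w.restrict F).toValuationSubring with hres
  set res' := IsLocalRing.residue w.toValuationSubring with hres'
  set yb := res' y' with hyb
  have hyb0 : yb ≠ 0 := (IsLocalRing.residue_ne_zero_iff_isUnit _).mpr hy
  set f : (w.restrict F).toValuationSubring[X] := X ^ n - C a' with hf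
  have hf0 : ev w y' f = 0 := by
    rw [ev_apply, hf, eval₂_sub, eval₂_pow, eval₂_X, eval₂_C, hya, sub_self]
  set fb : (w.restrict F).ResidueField[X] := X ^ n - C (res a') with hfb
  have hfmap : f.map res = fb := by
    rw [hf, hfb, Polynomial.map_sub, Polynomial.map_pow, Polynomial.map_X, Polynomial.map_C]
  have hroot : aeval yb fb = 0 := by
    rw [← hfmap, hyb, residue_ev, hf0, map_zero]
  obtain ⟨hb, hfg⟩ := minpoly.dvd (w.restrict F).ResidueField yb hroot
  have hPb : aeval yb (P.map res) = 0 := by
    rw [hyb, residue_ev]
    exact (IsLocalRing.residue_eq_zero_iff _).mpr hP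
  obtain ⟨qb, hPq⟩ := minpoly.dvd (w.restrict F).ResidueField yb hPb
  have hder : derivative fb =
      derivative (minpoly (w.restrict F).ResidueField yb) * hb +
        minpoly (w.restrict F).ResidueField yb * derivative hb := by
    rw [hfg, derivative_mul]
  have hder' : aeval yb (derivative fb) = (n : w.ResidueField) * yb ^ (n - 1) := by
    rw [hfb, derivative_sub, derivative_X_pow, derivative_C, sub_zero]
    simp
  have hhb : aeval yb hb ≠ 0 := by
    intro h0
    have := congrArg (aeval yb) hder
    rw [hder', map_add, map_mul, map_mul, h0, minpoly.aeval, mul_zero, zero_mul,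
      add_zero] at this
    exact (mul_ne_zero (Nat.cast_ne_zero.mpr hn.ne') (pow_ne_zero _ hyb0)) this
  obtain ⟨H, hH⟩ := Polynomial.map_surjective res IsLocalRing.residue_surjective hb
  obtain ⟨Q, hQ⟩ := Polynomial.map_surjective res IsLocalRing.residue_surjective qb
  have hD : (P * H - Q * f).map res = 0 := by
    rw [Polynomial.map_sub, Polynomial.map_mul, Polynomial.map_mul, hH, hQ, hfmap, hPq, hfg]
    ring
  have hdiv : C π ∣ (P * H - Q * f) := by
    rw [Polynomial.C_dvd_iff_dvd_coeff]
    intro i
    have h1 : res ((P * H - Q * f).coeff i) = 0 := by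
      rw [← coeff_map, hD, coeff_zero]
    rw [IsLocalRing.residue_eq_zero_iff, hπ.maximalIdeal_eq, Ideal.mem_span_singleton] at h1
    exact h1
  obtain ⟨S, hS⟩ := hdiv
  refine ⟨H, S, ?_, ?_⟩
  · rw [← IsLocalRing.residue_ne_zero_iff_isUnit, ← residue_ev, hH]
    exact hhb
  · have h1 := congrArg (ev w y') hS
    rw [map_sub, map_mul, map_mul, map_mul, hf0, mul_zero, sub_zero] at h1
    rw [h1]
    congr 1
    rw [ev_apply, eval₂_C]

theorem isUnit_iff_ord_eq_zero (z : w.toValuationSubring) (hz : z ≠ 0) :
    IsUnit z ↔ w.ord (z : F') = 0 := by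
  have hz' : (z : F') ≠ 0 := fun h => hz (Subtype.ext h)
  rw [← w.adicValuation_coe_eq_one_iff, RH24.h20_ord_eq_iff w hz' 0, neg_zero, WithZero.exp_zero]

theorem step2 (y' : w.toValuationSubring) (hy : IsUnit y') (n : ℕ) (hn : 0 < n)
    (a' : (w.restrict F).toValuationSubring)
    (hya : y' ^ n = Place.restrictInclusion F w a') :
    ∀ (N : ℕ) (P : (w.restrict F).toValuationSubring[X]), ev w y' P ≠ 0 →
      w.ord ((ev w y' P : w.toValuationSubring) : F') = N →
      (w.ramificationIndex F : ℤ) ∣ N := by
  obtain ⟨π, hπ⟩ := IsDiscreteValuationRing.exists_irreducible (w.restrict F).toValuationSubring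
  have hπord : w.ord (algebraMap F F' (π : F)) = w.ramificationIndex F := by
    rw [w.ord_restrict, (w.restrict F).ord_coe_irreducible hπ, mul_one]
  have hepos : 0 < w.ramificationIndex F := w.ramificationIndex_pos
  intro N
  induction N using Nat.strong_induction_on with
  | _ N ih =>
    intro P hP hN
    rcases Nat.eq_zero_or_pos N with h0 | hpos
    · subst h0
      exact dvd_zero _
    · have hmem : ev w y' P ∈ IsLocalRing.maximalIdeal w.toValuationSubring := by
        rw [IsLocalRing.mem_maximalIdeal, mem_nonunits_iff, isUnit_iff_ord_eq_zero w _ hP, hN]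
        exact_mod_cast hpos.ne'
      obtain ⟨H, S, hH, hPH⟩ := claim1 w y' hy n hn a' hya π hπ P hmem
      have hH0 : ev w y' H ≠ 0 := hH.ne_zero
      have hS0 : ev w y' S ≠ 0 := by
        intro h0
        rw [h0, mul_zero] at hPH
        rcases mul_eq_zero.mp hPH with h | h
        · exact hP h
        · exact hH0 h
      have hπ0 : Place.restrictInclusion F w π ≠ 0 := by
        intro h0
        rw [h0, zero_mul] at hPH
        rcases mul_eq_zero.mp hPH with h | h
        · exact hP h
        · exact hH0 h
      have hcoe : ∀ z : w.toValuationSubring, z ≠ 0 → (z : F') ≠ 0 := fun z hz h =>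
        hz (Subtype.ext h)
      have h1 := congrArg (fun z : w.toValuationSubring => w.ord (z : F')) hPH
      simp only [MulMemClass.coe_mul] at h1
      rw [w.ord_mul (hcoe _ hP) (hcoe _ hH0), w.ord_mul (hcoe _ hπ0) (hcoe _ hS0),
        (isUnit_iff_ord_eq_zero w _ hH0).mp hH, hN, Place.coe_restrictInclusion, hπord] at h1
      have hSnn : 0 ≤ w.ord ((ev w y' S : w.toValuationSubring) : F') :=
        RH24.h20_ord_nonneg_of_mem w (ev w y' S).2
      have h2 := ih (w.ord ((ev w y' S : w.toValuationSubring) : F')).toNat (by omega) S hS0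
        (by omega)
      rw [Int.toNat_of_nonneg hSnn] at h2
      have h3 : (N : ℤ) = (w.ramificationIndex F : ℤ) +
          w.ord ((ev w y' S : w.toValuationSubring) : F') := by omega
      rw [h3]
      exact dvd_add (dvd_refl _) h2

/-- **Lemma U (unramified Kummer step)**. -/
theorem lemmaU (y : F') (hy0 : y ≠ 0) (hyo : w.ord y = 0) (n : ℕ) (hn : 0 < n) (a : F)
    (hya : y ^ n = algebraMap F F' a) (P : F[X]) (hP : aeval y P ≠ 0) :
    (w.ramificationIndex F : ℤ) ∣ w.ord (aeval y P) := by
  have hymem : y ∈ w.toValuationSubring := (RH24.h20_mem_iff_ord_nonneg w hy0).mpr hyo.ge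
  set y' : w.toValuationSubring := ⟨y, hymem⟩ with hy'
  have hy'0 : y' ≠ 0 := by
    intro h
    exact hy0 (congrArg Subtype.val h)
  have hy'u : IsUnit y' := (isUnit_iff_ord_eq_zero w y' hy'0).mpr hyo
  have hamem : a ∈ (w.restrict F).toValuationSubring := by
    rw [Place.mem_restrict_iff, ← hya]
    exact pow_mem hymem n
  have hya' : y' ^ n = Place.restrictInclusion F w ⟨a, hamem⟩ := by
    apply Subtype.ext
    rw [hy']
    simp only [SubmonoidClass.mk_pow, hya]
    rfl
  obtain ⟨b, hbM, hb⟩ := IsLocalization.integerNormalization_spec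
    (nonZeroDivisors (w.restrict F).toValuationSubring) P
  set P₀ := IsLocalization.integerNormalization
    (nonZeroDivisors (w.restrict F).toValuationSubring) P with hP₀
  have hb0 : ((b : (w.restrict F).toValuationSubring) : F) ≠ 0 := by
    have := nonZeroDivisors.ne_zero hbM
    exact fun h => this (Subtype.ext h)
  have hb0' : algebraMap F F' ((b : (w.restrict F).toValuationSubring) : F) ≠ 0 := by
    simpa using hb0
  have hval : ((ev w y' P₀ : w.toValuationSubring) : F') =
      algebraMap F F' ((b : (w.restrict F).toValuationSubring) : F) * aeval y P := by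
    rw [coe_ev, hb, Algebra.smul_def, map_mul]
    congr 1
    rw [IsScalarTower.algebraMap_apply (w.restrict F).toValuationSubring F F[X],
      Polynomial.algebraMap_apply, Algebra.algebraMap_self, RingHom.id_apply, aeval_C]
    rfl
  have hev0 : ev w y' P₀ ≠ 0 := by
    intro h
    have h1 := hval
    rw [h] at h1
    simp only [ZeroMemClass.coe_zero] at h1
    exact (mul_ne_zero hb0' hP) h1.symm
  have hnn : 0 ≤ w.ord ((ev w y' P₀ : w.toValuationSubring) : F') :=
    RH24.h20_ord_nonneg_of_mem w (ev w y' P₀).2
  have h1 := step2 w y' hy'u n hn ⟨a, hamem⟩ hya'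
    (w.ord ((ev w y' P₀ : w.toValuationSubring) : F')).toNat P₀ hev0
    (Int.toNat_of_nonneg hnn).symm
  rw [Int.toNat_of_nonneg hnn, hval, w.ord_mul hb0' hP] at h1
  have h2 := w.ramificationIndex_dvd_ord (F := F) hb0
  exact (dvd_add_right h2).mp h1

end U

end H9T3
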