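import Mathlib
import Fermat.Agent.S18.C3Basic_helper12
import Fermat.Agent.S18.T3U_helper9

/-!
# S18 (item 75), route Y', slice C3-T3 (helper9): `H12C3.TowerPlacesStatement` (Abhyankar)

Every place `V'` of the Kummer tower `E' = E(s)`, `s ^ e₀ = t - c`, through `𝔪' = (ϖ, s)` is
unramified over `K(s)`.

* `ord s > 0`: the place `V = V' ∩ E` has `ord_V (t - c) = e_V ∣ e₀`, `e₀ = m e_V`;
  `y = s ^ m / π` satisfies `y ^ e_V = (t - c) / π ^ e_V`, a unit, so `E(y) / E` is unramified at
  `V'` (Lemma U) and `s ^ m = π y` is a uniformizer of `E(y)`; by Lemma E, `ord s = 1`.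
* `ord s = 0`: `V` passes through `𝔪`, so it is unramified over `K(t)` by hypothesis, and
  `E' / E` is unramified at `V'` by Lemma U.
-/

set_option autoImplicit false
set_option linter.unusedSectionVars false
set_option linter.style.haveILetI false

open Polynomial IntermediateField AlgebraicCurve

namespace H9T3

open H7S18 H12C3 H21S18

section asm

variable {R : Type} [CommRing R] [IsDomain R] [IsDiscreteValuationRing R]
  {K : Type} [Field K] [CharZero K] [Algebra R K] [IsFractionRing R K]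
  {E : Type} [Field E] [Algebra K E] [Algebra R E] [IsScalarTower R K E]
  {E' : Type} [Field E'] [Algebra K E'] [Algebra R E'] [IsScalarTower R K E']
  [Algebra E E'] [IsScalarTower K E E'] [IsScalarTower R E E']
  {t : E} {c : R} {e₀ : ℕ} {s : E'}

/-- every element of `E'` is a polynomial in `s` over `E` -/
theorem tower_exists_aeval (h : Tower R t c e₀ s) (he₀ : 0 < e₀) (x : E') :
    ∃ P : E[X], aeval s P = x := by
  have h1 : x ∈ (IntermediateField.adjoin E {s}).toSubalgebra := by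
    rw [h.adjoin_eq]
    trivial
  rw [IntermediateField.adjoin_simple_toSubalgebra_of_isAlgebraic (h.isIntegral he₀).isAlgebraic,
    Algebra.adjoin_singleton_eq_range_aeval] at h1
  exact h1

theorem mem_of_ord_nonneg' (V' : Place K E') {x : E'} (hx : 0 ≤ V'.ord x) :
    x ∈ V'.toValuationSubring := by
  rcases eq_or_ne x 0 with rfl | h0
  · exact zero_mem _
  · exact (RH24.h20_mem_iff_ord_nonneg V' h0).mpr hx

theorem algebraMapR_mem (V' : Place K E') (r : R) :
    algebraMap R E' r ∈ V'.toValuationSubring := by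
  rw [IsScalarTower.algebraMap_apply R K E']
  exact V'.algebraMap_mem' _

theorem through_restrict (h : Tower R t c e₀ s) (he₀ : 0 < e₀) [Algebra.IsIntegral E E']
    (ϖ : R) (hϖ : Irreducible ϖ)
    (𝔪 : Ideal (Algebra.adjoin R {t}))
    (hϖ𝔪 : algebraMap R (Algebra.adjoin R {t}) ϖ ∈ 𝔪)
    (hc : ∀ u : Algebra.adjoin R {t}, (u : E) = t - algebraMap R E c → u ∈ 𝔪)
    (𝔪' : Ideal (Algebra.adjoin R {s})) (h𝔪' : 𝔪'.IsMaximal)
    (hs𝔪' : ∀ u : Algebra.adjoin R {s}, (u : E') = s → u ∈ 𝔪')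
    (V' : Place K E') (hV' : Through R K s 𝔪' V') :
    Through R K t 𝔪 (V'.restrict E) := by
  have hsmem : s ∈ V'.toValuationSubring := mem_of_ord_nonneg' V' hV'.1
  refine ⟨?_, ?_⟩
  · apply RH24.h20_ord_nonneg_of_mem
    rw [Place.mem_restrict_iff, h.map_t]
    exact add_mem (pow_mem hsmem _) (algebraMapR_mem V' c)
  · intro f hf
    have hf' : 0 < V'.ord (algebraMap E E' (f : E)) := by
      rw [V'.ord_restrict]
      have := V'.ramificationIndex_pos (F := E)
      positivity
    have hmem' : h.incl f ∈ 𝔪' := hV'.2 (h.incl f) (by rw [h.incl_coe]; exact hf')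
    obtain ⟨p, hp⟩ := exists_poly_of_mem f.2
    obtain ⟨q, hq⟩ := Polynomial.X_sub_C_dvd_sub_C_eval (a := c) (p := p)
    have hpe : p = C (p.eval c) + (X - C c) * q := by
      rw [← hq]; ring
    have hfE : (f : E) = algebraMap R E (p.eval c) + (t - algebraMap R E c) * aeval t q := by
      rw [← hp]
      conv_lhs => rw [hpe]
      simp only [map_add, map_mul, map_sub, aeval_C, aeval_X]
    set ut : Algebra.adjoin R {t} := ⟨t - algebraMap R E c,
      sub_mem (Algebra.self_mem_adjoin_singleton R t) (Subalgebra.algebraMap_mem _ _)⟩ with hut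
    set qt : Algebra.adjoin R {t} := ⟨aeval t q, aeval_mem t q⟩ with hqt
    have hfR : f = algebraMap R (Algebra.adjoin R {t}) (p.eval c) + ut * qt := by
      apply Subtype.ext
      rw [hfE]
      rfl
    by_cases hr : p.eval c ∈ IsLocalRing.maximalIdeal R
    · rw [hϖ.maximalIdeal_eq, Ideal.mem_span_singleton] at hr
      obtain ⟨r₁, hr₁⟩ := hr
      rw [hfR]
      refine add_mem ?_ (Ideal.mul_mem_right _ _ (hc ut rfl))
      rw [hr₁, map_mul]
      exact Ideal.mul_mem_right _ _ hϖ𝔪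
    · exfalso
      have hunit : IsUnit (p.eval c) := by
        by_contra hnu
        exact hr ((IsLocalRing.mem_maximalIdeal _).mpr hnu)
      set S : Algebra.adjoin R {s} := ⟨s, Algebra.self_mem_adjoin_singleton R s⟩ with hS
      have hSmem : S ∈ 𝔪' := hs𝔪' S rfl
      have hkey : algebraMap R (Algebra.adjoin R {s}) (p.eval c) =
          h.incl f - S ^ e₀ * h.incl qt := by
        apply Subtype.ext
        simp only [Subalgebra.coe_sub, Subalgebra.coe_mul, Subalgebra.coe_pow, h.incl_coe]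
        rw [hfE, map_add, map_mul, ← h.pow_eq, ← IsScalarTower.algebraMap_apply R E E']
        simp only [hS, hqt]
        have : ((algebraMap R (Algebra.adjoin R {s}) (p.eval c) : Algebra.adjoin R {s}) : E') =
            algebraMap R E' (p.eval c) := rfl
        rw [this]
        ring
      have hmem : algebraMap R (Algebra.adjoin R {s}) (p.eval c) ∈ 𝔪' := by
        rw [hkey]
        exact sub_mem hmem' (Ideal.mul_mem_right _ _ (Ideal.pow_mem_of_mem _ hSmem _
          he₀))
      exact h𝔪'.ne_top (Ideal.eq_top_of_isUnit_mem _ hmem (hunit.map _))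

/-- the case `ord s = 0` -/
theorem towerPlaces_unit (h : Tower R t c e₀ s) (he₀ : 0 < e₀) (ht : Transcendental K t)
    [Algebra.IsIntegral E E']
    (V' : Place K E') (hs : V'.ord s = 0)
    (hQ : ∃ Q : K[X], (V'.restrict E).ord (Polynomial.aeval t Q) = 1) :
    ∃ Q : K[X], V'.ord (Polynomial.aeval s Q) = 1 := by
  have hs0 : s ≠ 0 := h.ne_zero he₀ ht
  obtain ⟨ϖ', hϖ'⟩ := IsDiscreteValuationRing.exists_irreducible V'.toValuationSubring
  have hunif : V'.ord (ϖ' : E') = 1 := V'.ord_coe_irreducible hϖ'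
  have hunif0 : (ϖ' : E') ≠ 0 := fun h0 => hϖ'.ne_zero (Subtype.ext h0)
  obtain ⟨P, hP⟩ := tower_exists_aeval h he₀ (ϖ' : E')
  have hdvd := lemmaU V' s hs0 hs e₀ he₀ (t - algebraMap R E c) h.pow_eq P
    (by rw [hP]; exact hunif0)
  rw [hP, hunif] at hdvd
  have hepos : 0 < V'.ramificationIndex E := V'.ramificationIndex_pos
  have he1 : (V'.ramificationIndex E : ℤ) = 1 :=
    Int.eq_one_of_dvd_one (by positivity) hdvd
  obtain ⟨Q₀, hQ₀⟩ := hQ
  refine ⟨Q₀.comp (X ^ e₀ + C (algebraMap R K c)), ?_⟩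
  have h1 : Polynomial.aeval s (Q₀.comp (X ^ e₀ + C (algebraMap R K c))) =
      algebraMap E E' (Polynomial.aeval t Q₀) := by
    rw [Polynomial.aeval_comp]
    simp only [map_add, map_pow, aeval_X, aeval_C]
    rw [← IsScalarTower.algebraMap_apply R K E', ← h.map_t]
    exact (Polynomial.aeval_algebraMap_apply E' t Q₀)
  rw [h1, V'.ord_restrict, hQ₀, he1]
  norm_num

/-- the case `ord s > 0` (Abhyankar) -/
theorem towerPlaces_ram (h : Tower R t c e₀ s) (he₀ : 0 < e₀)
    [Algebra.IsIntegral E E']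
    (V' : Place K E') (hs : 0 < V'.ord s)
    (hdvd : (V'.restrict E).ord (t - algebraMap R E c) ∣ (e₀ : ℤ)) :
    V'.ord s = 1 := by
  have hs0 : s ≠ 0 := by
    rintro rfl
    simp at hs
  set u : E := t - algebraMap R E c with hu
  have hpow : s ^ e₀ = algebraMap E E' u := h.pow_eq
  set e : ℕ := V'.ramificationIndex E with he
  have hepos : 0 < e := V'.ramificationIndex_pos
  set eV : ℤ := (V'.restrict E).ord u with heV
  have hordu : (e : ℤ) * eV = e₀ * V'.ord s := by
    rw [heV, ← V'.ord_restrict, ← hpow, ord_pow']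
  have heVpos : 0 < eV := by
    by_contra hneg
    have h1 : (e : ℤ) * eV ≤ 0 := mul_nonpos_of_nonneg_of_nonpos (by positivity) (by omega)
    have h2 : 0 < (e₀ : ℤ) * V'.ord s := by positivity
    omega
  obtain ⟨m, hm⟩ := hdvd
  have hmpos : 0 < m := by
    by_contra hneg
    have h1 : eV * m ≤ 0 := mul_nonpos_of_nonneg_of_nonpos heVpos.le (by omega)
    have h2 : 0 < (e₀ : ℤ) := by exact_mod_cast he₀
    omega
  have hem : (e : ℤ) = m * V'.ord s := by
    have h1 : eV * (e : ℤ) = eV * (m * V'.ord s) := by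
      rw [mul_comm eV (e : ℤ), hordu, hm]; ring
    exact mul_left_cancel₀ heVpos.ne' h1
  -- natural number versions
  obtain ⟨mn, rfl⟩ : ∃ mn : ℕ, m = mn := ⟨m.toNat, (Int.toNat_of_nonneg hmpos.le).symm⟩
  obtain ⟨n, hn⟩ : ∃ n : ℕ, eV = n := ⟨eV.toNat, (Int.toNat_of_nonneg heVpos.le).symm⟩
  have hmn : 0 < mn := by exact_mod_cast hmpos
  have hnpos : 0 < n := by
    have : (0 : ℤ) < n := hn ▸ heVpos
    exact_mod_cast this
  have he₀mn : e₀ = n * mn := by
    have : (e₀ : ℤ) = n * mn := by rw [hm, hn]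
    exact_mod_cast this
  -- the uniformizer of `V`
  obtain ⟨π, hπ0, hπ⟩ := V'.exists_ord_eq_ramificationIndex (F := E)
  have hπ0' : algebraMap E E' π ≠ 0 := by simpa using hπ0
  -- the unit `y`
  set y : E' := s ^ mn * (algebraMap E E' π)⁻¹ with hy
  have hy0 : y ≠ 0 := mul_ne_zero (pow_ne_zero _ hs0) (inv_ne_zero hπ0')
  have hyord : V'.ord y = 0 := by
    rw [hy, V'.ord_mul (pow_ne_zero _ hs0) (inv_ne_zero hπ0'), ord_pow', V'.ord_inv, hπ,
      ← he, hem]
    ring
  have hyn : y ^ n = algebraMap E E' (u * (π ^ n)⁻¹) := by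
    rw [hy, mul_pow, ← pow_mul, mul_comm mn n, ← he₀mn, hpow, map_mul, map_inv₀, map_pow,
      inv_pow]
  have hU : ∀ P : E[X], aeval y P ≠ 0 → (e : ℤ) ∣ V'.ord (aeval y P) := fun P hP =>
    lemmaU V' y hy0 hyord n hnpos _ hyn P hP
  -- the intermediate field `E(y)`
  have hyint : IsIntegral E y := Algebra.IsIntegral.isIntegral y
  have hL : ∀ x : E⟮y⟯, x ≠ 0 →
      ((mn : ℤ) * V'.ord s) ∣ V'.ord (algebraMap E⟮y⟯ E' x) := by
    intro x hx
    have h1 : (x : E') ∈ E⟮y⟯.toSubalgebra := x.2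
    rw [IntermediateField.adjoin_simple_toSubalgebra_of_isAlgebraic hyint.isAlgebraic,
      Algebra.adjoin_singleton_eq_range_aeval] at h1
    obtain ⟨P, hP⟩ := h1
    have hx' : (x : E') ≠ 0 := fun h0 => hx (Subtype.ext h0)
    have h2 := hU P (by rw [show aeval y P = (x : E') from hP]; exact hx')
    rw [show aeval y P = (x : E') from hP, hem] at h2
    exact h2
  set a : E⟮y⟯ := algebraMap E E⟮y⟯ π * ⟨y, IntermediateField.mem_adjoin_simple_self E y⟩ with ha
  have hsa : s ^ mn = algebraMap E⟮y⟯ E' a := by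
    have h1 : algebraMap E⟮y⟯ E' a = algebraMap E E' π * y := by
      rw [ha, map_mul]
      rfl
    rw [h1, hy]
    field_simp
  obtain ⟨ϖ', hϖ'⟩ := IsDiscreteValuationRing.exists_irreducible V'.toValuationSubring
  have hunif : V'.ord (ϖ' : E') = 1 := V'.ord_coe_irreducible hϖ'
  have hunif0 : (ϖ' : E') ≠ 0 := fun h0 => hϖ'.ne_zero (Subtype.ext h0)
  obtain ⟨P, hP⟩ := tower_exists_aeval h he₀ (ϖ' : E')
  have hP' : aeval s (P.map (algebraMap E E⟮y⟯)) = (ϖ' : E') := by
    rw [Polynomial.aeval_map_algebraMap, hP]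
  have hfin := lemmaE V' s mn hmn a hsa hs hL (P.map (algebraMap E E⟮y⟯))
    (by rw [hP']; exact hunif0)
  rw [hP', hunif] at hfin
  exact Int.eq_one_of_dvd_one hs.le hfin

/-- **T3 (C3c, Abhyankar)** -/
theorem towerPlaces : TowerPlacesStatement := by
  intro R _ _ _ K _ _ _ _ E _ _ _ _ E' _ _ _ _ _ _ _ ϖ hϖ t ht hfin 𝔪 h𝔪 hϖ𝔪 c hc e₀ he₀u hζ
    hH1 hH2 s hT 𝔪' h𝔪' hϖ𝔪' hs𝔪' V' hV'
  have he₀ : 0 < e₀ := by
    rcases Nat.eq_zero_or_pos e₀ with h | h
    · subst h
      simp at he₀u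
    · exact h
  haveI : FiniteDimensional E E' := hT.finiteDimensional he₀
  haveI : Algebra.IsIntegral E E' := Algebra.IsIntegral.of_finite E E'
  have hordu : (V'.ramificationIndex E : ℤ) * (V'.restrict E).ord (t - algebraMap R E c) =
      e₀ * V'.ord s := by
    rw [← V'.ord_restrict, ← hT.pow_eq, ord_pow']
  have hepos : 0 < V'.ramificationIndex E := V'.ramificationIndex_pos
  rcases (hV'.1).eq_or_lt with h0 | hpos
  · -- `ord s = 0`
    have hthr := through_restrict hT he₀ ϖ hϖ 𝔪 hϖ𝔪 hc 𝔪' h𝔪' hs𝔪' V' hV'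
    have hu0 : (V'.restrict E).ord (t - algebraMap R E c) ≤ 0 := by
      rw [← h0, mul_zero] at hordu
      rcases mul_eq_zero.mp hordu with h1 | h1
      · have : (0 : ℤ) < V'.ramificationIndex E := by exact_mod_cast hepos
        omega
      · exact h1.le
    exact towerPlaces_unit hT he₀ ht V' h0.symm (hH1 (V'.restrict E) hthr hu0)
  · -- `ord s > 0`
    have hupos : 0 < (V'.restrict E).ord (t - algebraMap R E c) := by
      by_contra hneg
      have h1 : (V'.ramificationIndex E : ℤ) * (V'.restrict E).ord (t - algebraMap R E c) ≤ 0 :=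
        mul_nonpos_of_nonneg_of_nonpos (by positivity) (by omega)
      have h2 : 0 < (e₀ : ℤ) * V'.ord s := by positivity
      omega
    refine ⟨X, ?_⟩
    rw [aeval_X]
    exact towerPlaces_ram hT he₀ V' hpos (hH2 (V'.restrict E) hupos)

end asm

end H9T3
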