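import Mathlib
import Fermat.Agent.S18.C3Final_helper12
import Fermat.Agent.S18.T2_helper21
import Fermat.Agent.S18.T3_helper9

/-!
# S18, slice C3 (sub-lead helper12): C3 from C2

All tower sub-slices are proved (`T1`, `T4`, `T5` helper12, `T2` helper21, `T3` helper9), so
`H7S18.LocalIdemTameStatement` (C3, Abhyankar) follows from `H7S18.LocalIdemUnrStatement` (C2).
-/

set_option autoImplicit false

namespace H12C3

open H7S18

/-- **C3 from C2.** -/
theorem localIdemTame_of_unr (hC2 : LocalIdemUnrStatement) : LocalIdemTameStatement :=
  localIdemTame_of' hC2 H21T2.towerUnrGauss H9T3.towerPlaces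

end H12C3
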