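import Mathlib
import Fermat.Agent.S18.DefsD

/-!
# S18 (item 75), route Y', slice C6f (helper1): base change of the function field

`H1S18.baseChange : H7S18.BaseChangeStatement`, from

* `H1S18.coeffMap_mem_lbc` : functoriality of `laurentBaseChange K F₀` in `K`;
* `H1S18.lbcMap ψ F₀` : the induced ring homomorphism `K·F₀ → L·F₀`;
* `H1S18.lbcMap_isIntegralElem` : `L·F₀` is integral over `K·F₀` when `L / ℚ` is algebraic.
-/

set_option autoImplicit false
set_option linter.style.longLine false
set_option linter.unusedSectionVars false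
set_option linter.style.haveILetI false
set_option linter.unusedVariables false
set_option linter.deprecated false

noncomputable section

open Polynomial IntermediateField ModularCurve

namespace H1S18

section Functoriality

variable {K L : Type*} [Field K] [Field L] [Algebra ℚ K] [Algebra ℚ L]

theorem coeffMap_coeffEmb_hom (ψ : K →+* L) (z : LaurentSeries ℚ) :
    coeffMap ψ (coeffEmb K z) = coeffEmb L z := by
  rw [coeffEmb, coeffMap_coeffMap]
  exact coeffMap_congr (RingHom.ext fun c => by simp) z

theorem coeffMap_algebraMap_hom (ψ : K →+* L) (a : K) :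
    coeffMap ψ (algebraMap K (LaurentSeries K) a) = algebraMap L (LaurentSeries L) (ψ a) := by
  rw [algebraMap_laurentSeries_eq_single, coeffMap_single, ← algebraMap_laurentSeries_eq_single]

/-- functoriality of `laurentBaseChange` in the field of constants -/
theorem coeffMap_mem_lbc (ψ : K →+* L) (F₀ : IntermediateField ℚ (LaurentSeries ℚ))
    {x : LaurentSeries K} (hx : x ∈ laurentBaseChange K F₀) :
    coeffMap ψ x ∈ laurentBaseChange L F₀ := by
  rw [mem_laurentBaseChange_iff] at hx
  induction hx using Subfield.closure_induction with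
  | mem y hy =>
      rcases hy with ⟨a, rfl⟩ | ⟨z, hz, rfl⟩
      · rw [coeffMap_algebraMap_hom]
        exact (laurentBaseChange L F₀).algebraMap_mem _
      · rw [coeffMap_coeffEmb_hom]
        exact coeffEmb_mem_laurentBaseChange L hz
  | one => simp
  | add x y _ _ hx hy => simpa using add_mem hx hy
  | neg x _ hx => simpa using neg_mem hx
  | inv x _ hx => simpa using inv_mem hx
  | mul x y _ _ hx hy => simpa using mul_mem hx hy

/-- the induced homomorphism `K·F₀ → L·F₀` -/
def lbcMap (ψ : K →+* L) (F₀ : IntermediateField ℚ (LaurentSeries ℚ)) :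
    ↥(laurentBaseChange K F₀) →+* ↥(laurentBaseChange L F₀) :=
  ((coeffMap ψ).comp (laurentBaseChange K F₀).toSubfield.subtype).codRestrict
    (laurentBaseChange L F₀) (fun x => coeffMap_mem_lbc ψ F₀ x.2)

@[simp]
theorem lbcMap_coe (ψ : K →+* L) (F₀ : IntermediateField ℚ (LaurentSeries ℚ))
    (x : ↥(laurentBaseChange K F₀)) :
    ((lbcMap ψ F₀ x : ↥(laurentBaseChange L F₀)) : LaurentSeries L)
      = coeffMap ψ (x : LaurentSeries K) := rfl

end Functoriality

section Integral

variable {K L : Type*} [Field K] [Field L] [Algebra ℚ K] [Algebra ℚ L]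

/-- `L·F₀` is integral over `K·F₀` if `L` is algebraic over `ℚ`. -/
theorem lbcMap_isIntegralElem (hL : ∀ a : L, ∃ p : ℚ[X], p.Monic ∧ eval₂ (algebraMap ℚ L) a p = 0)
    (ψ : K →+* L)
    (F₀ : IntermediateField ℚ (LaurentSeries ℚ)) (y : ↥(laurentBaseChange L F₀)) :
    (lbcMap ψ F₀).IsIntegralElem y := by
  -- the composite `K·F₀ → L((q))`
  set χ : ↥(laurentBaseChange K F₀) →+* LaurentSeries L :=
    (laurentBaseChange L F₀).toSubfield.subtype.comp (lbcMap ψ F₀) with hχ
  -- the elements of `L((q))` integral over `K·F₀` form a subfield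
  have key : ∀ x : LaurentSeries L, x ∈ laurentBaseChange L F₀ → χ.IsIntegralElem x := by
    intro x hx
    rw [mem_laurentBaseChange_iff] at hx
    letI : Algebra ↥(laurentBaseChange K F₀) (LaurentSeries L) := χ.toAlgebra
    have hI : ∀ x : LaurentSeries L, χ.IsIntegralElem x ↔ IsIntegral ↥(laurentBaseChange K F₀) x :=
      fun x => Iff.rfl
    rw [hI]
    induction hx using Subfield.closure_induction with
    | mem y hy =>
        rcases hy with ⟨a, rfl⟩ | ⟨z, hz, rfl⟩
        · -- constants are algebraic over `ℚ`
          obtain ⟨p, hp, hpa⟩ := hL a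
          refine ⟨p.map ((algebraMap K ↥(laurentBaseChange K F₀)).comp (algebraMap ℚ K)),
            hp.map _, ?_⟩
          rw [Polynomial.eval₂_map]
          have hcomp : (algebraMap ↥(laurentBaseChange K F₀) (LaurentSeries L)).comp
              ((algebraMap K ↥(laurentBaseChange K F₀)).comp (algebraMap ℚ K))
              = (algebraMap L (LaurentSeries L)).comp (algebraMap ℚ L) :=
            Subsingleton.elim _ _
          rw [hcomp, ← Polynomial.hom_eval₂, hpa, map_zero]
        · have hmem : coeffEmb K z ∈ laurentBaseChange K F₀ := coeffEmb_mem_laurentBaseChange K hz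
          have : coeffEmb L z = algebraMap ↥(laurentBaseChange K F₀) (LaurentSeries L)
              ⟨coeffEmb K z, hmem⟩ := (coeffMap_coeffEmb_hom ψ z).symm
          rw [this]
          exact isIntegral_algebraMap
    | one => exact isIntegral_one
    | add x y _ _ hx hy => exact hx.add hy
    | neg x _ hx => exact hx.neg
    | inv x _ hx => exact hx.inv
    | mul x y _ _ hx hy => exact hx.mul hy
  obtain ⟨P, hP, hPy⟩ := key (y : LaurentSeries L) y.2
  refine ⟨P, hP, ?_⟩
  apply Subtype.ext
  have h := Polynomial.hom_eval₂ P (lbcMap ψ F₀) (laurentBaseChange L F₀).toSubfield.subtype y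
  rw [← hχ] at h
  exact h.trans hPy

end Integral

/-- **C6f**: base change of the function field. -/
theorem baseChange : H7S18.BaseChangeStatement := by
  intro N _ K₁
  refine ⟨lbcMap (algebraMap K₁ (AlgebraicClosure ℚ)) (modularFunctionFieldFull N),
    fun x => rfl, fun y => ?_⟩
  refine lbcMap_isIntegralElem (fun a => ?_) _ _ y
  obtain ⟨p, hp, hpa⟩ := (AlgebraicClosure.isAlgebraic ℚ).isAlgebraic a |>.isIntegral
  refine ⟨p, hp, ?_⟩
  rw [← hpa]
  congr 1

end H1S18
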