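import Mathlib
import Fermat.Agent.S18.DefsD
import Fermat.Agent.S18.C6f_helper1

/-!
# S18 (item 75), route Y', slice C6a (helper1): choice of the number field

`H1S18.numberField : H7S18.NumberFieldStatement`.

`ℚ̄ · F₀` is the directed union of the images of `K₁ · F₀`, `K₁ ⊆ ℚ̄` a number field
(`H1S18.desc_of_mem`); the coefficients of the descended series lie in `A ∩ K₁` because their
images are the coefficients of the given `A`-integral series.
-/

set_option autoImplicit false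
set_option linter.style.longLine false
set_option linter.unusedSectionVars false
set_option linter.style.haveILetI false
set_option linter.unusedVariables false
set_option linter.deprecated false

noncomputable section

open Polynomial IntermediateField ModularCurve

namespace H1S18

/-- integrality over `ℚ` for the default `ℚ`-algebra structure on `ℚ̄` -/
theorem isIntegral_qbar (a : AlgebraicClosure ℚ) : IsIntegral ℚ a := by
  obtain ⟨p, hp, hpa⟩ := ((AlgebraicClosure.isAlgebraic ℚ).isAlgebraic a).isIntegral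
  refine ⟨p, hp, ?_⟩
  rw [← hpa]
  congr 1

section Desc

variable (F₀ : IntermediateField ℚ (LaurentSeries ℚ))

/-- `x ∈ ℚ̄((q))` comes from `K₁ · F₀` for a number field `K₁`. -/
def Desc (x : LaurentSeries (AlgebraicClosure ℚ)) : Prop :=
  ∃ K₁ : IntermediateField ℚ (AlgebraicClosure ℚ), FiniteDimensional ℚ K₁ ∧
    ∃ x₁ : LaurentSeries K₁, x₁ ∈ laurentBaseChange K₁ F₀ ∧
      coeffMap (algebraMap K₁ (AlgebraicClosure ℚ)) x₁ = x

variable {F₀}

theorem desc_mono {K₁ K₂ : IntermediateField ℚ (AlgebraicClosure ℚ)} (h : K₁ ≤ K₂)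
    {x₁ : LaurentSeries K₁} (hx : x₁ ∈ laurentBaseChange K₁ F₀) :
    coeffMap (IntermediateField.inclusion h : K₁ →+* K₂) x₁ ∈ laurentBaseChange K₂ F₀ ∧
      coeffMap (algebraMap K₂ (AlgebraicClosure ℚ))
        (coeffMap (IntermediateField.inclusion h : K₁ →+* K₂) x₁)
        = coeffMap (algebraMap K₁ (AlgebraicClosure ℚ)) x₁ := by
  refine ⟨coeffMap_mem_lbc _ F₀ hx, ?_⟩
  rw [coeffMap_coeffMap]
  exact coeffMap_congr (RingHom.ext fun c => rfl) x₁

/-- enlarge the number field -/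
theorem desc_enlarge {x : LaurentSeries (AlgebraicClosure ℚ)}
    {K₁ K₂ : IntermediateField ℚ (AlgebraicClosure ℚ)} (h : K₁ ≤ K₂)
    (hx : ∃ x₁ : LaurentSeries K₁, x₁ ∈ laurentBaseChange K₁ F₀ ∧
      coeffMap (algebraMap K₁ (AlgebraicClosure ℚ)) x₁ = x) :
    ∃ x₂ : LaurentSeries K₂, x₂ ∈ laurentBaseChange K₂ F₀ ∧
      coeffMap (algebraMap K₂ (AlgebraicClosure ℚ)) x₂ = x := by
  obtain ⟨x₁, hx₁, rfl⟩ := hx
  exact ⟨_, (desc_mono h hx₁).1, (desc_mono h hx₁).2⟩

theorem desc_binary {x y : LaurentSeries (AlgebraicClosure ℚ)} (hx : Desc F₀ x) (hy : Desc F₀ y) :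
    ∃ K₁ : IntermediateField ℚ (AlgebraicClosure ℚ), FiniteDimensional ℚ K₁ ∧
      (∃ x₁ : LaurentSeries K₁, x₁ ∈ laurentBaseChange K₁ F₀ ∧
        coeffMap (algebraMap K₁ (AlgebraicClosure ℚ)) x₁ = x) ∧
      (∃ y₁ : LaurentSeries K₁, y₁ ∈ laurentBaseChange K₁ F₀ ∧
        coeffMap (algebraMap K₁ (AlgebraicClosure ℚ)) y₁ = y) := by
  obtain ⟨K₁, hK₁, hx₁⟩ := hx
  obtain ⟨K₂, hK₂, hy₂⟩ := hy
  haveI := hK₁
  haveI := hK₂
  exact ⟨K₁ ⊔ K₂, inferInstance, desc_enlarge le_sup_left hx₁, desc_enlarge le_sup_right hy₂⟩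

theorem desc_of_mem {x : LaurentSeries (AlgebraicClosure ℚ)}
    (hx : x ∈ laurentBaseChange (AlgebraicClosure ℚ) F₀) : Desc F₀ x := by
  rw [mem_laurentBaseChange_iff] at hx
  induction hx using Subfield.closure_induction with
  | mem y hy =>
      rcases hy with ⟨a, rfl⟩ | ⟨z, hz, rfl⟩
      · refine ⟨ℚ⟮a⟯, IntermediateField.adjoin.finiteDimensional (isIntegral_qbar a),
          algebraMap _ _ (⟨a, IntermediateField.mem_adjoin_simple_self ℚ a⟩ : ℚ⟮a⟯),
          (laurentBaseChange _ F₀).algebraMap_mem _, ?_⟩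
        rw [coeffMap_algebraMap_hom]
        rfl
      · refine ⟨⊥, inferInstance, coeffEmb _ z, coeffEmb_mem_laurentBaseChange _ hz, ?_⟩
        rw [coeffMap_coeffEmb_hom]
  | one =>
      exact ⟨⊥, inferInstance, 1, one_mem _, map_one _⟩
  | add x y _ _ hx hy =>
      obtain ⟨K₁, hK₁, ⟨x₁, hx₁, rfl⟩, ⟨y₁, hy₁, rfl⟩⟩ := desc_binary hx hy
      exact ⟨K₁, hK₁, x₁ + y₁, add_mem hx₁ hy₁, map_add _ _ _⟩
  | neg x _ hx =>
      obtain ⟨K₁, hK₁, x₁, hx₁, rfl⟩ := hx
      exact ⟨K₁, hK₁, -x₁, neg_mem hx₁, map_neg _ _⟩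
  | inv x _ hx =>
      obtain ⟨K₁, hK₁, x₁, hx₁, rfl⟩ := hx
      exact ⟨K₁, hK₁, x₁⁻¹, inv_mem hx₁, map_inv₀ _ _⟩
  | mul x y _ _ hx hy =>
      obtain ⟨K₁, hK₁, ⟨x₁, hx₁, rfl⟩, ⟨y₁, hy₁, rfl⟩⟩ := desc_binary hx hy
      exact ⟨K₁, hK₁, x₁ * y₁, mul_mem hx₁ hy₁, map_mul _ _ _⟩

end Desc

section Lift

variable {R : Type*} [Field R]

/-- a Laurent series all of whose coefficients lie in a valuation subring -/
def liftSeries (S : ValuationSubring R) (x : LaurentSeries R) (h : ∀ k, x.coeff k ∈ S) :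
    LaurentSeries S where
  coeff k := ⟨x.coeff k, h k⟩
  isPWO_support' := by
    have hs : Function.support (fun k => (⟨x.coeff k, h k⟩ : S)) = x.support := by
      ext k
      simp [Subtype.ext_iff]
    rw [hs]
    exact x.isPWO_support

@[simp]
theorem liftSeries_coeff (S : ValuationSubring R) (x : LaurentSeries R) (h : ∀ k, x.coeff k ∈ S)
    (k : ℤ) : ((liftSeries S x h).coeff k : R) = x.coeff k := rfl

theorem coeffMap_subtype_liftSeries (S : ValuationSubring R) (x : LaurentSeries R)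
    (h : ∀ k, x.coeff k ∈ S) : coeffMap S.subtype (liftSeries S x h) = x := by
  ext k
  rfl

end Lift

/-- **C6a**: choice of the number field. -/
theorem numberField : H7S18.NumberFieldStatement := by
  intro N _ A n hn Y hY
  haveI : NeZero ((n : ℕ) : ℚ) := ⟨by exact_mod_cast hn.ne'⟩
  obtain ⟨ζ, hζ⟩ := HasEnoughRootsOfUnity.exists_primitiveRoot (AlgebraicClosure ℚ) n
  obtain ⟨K₀, hK₀, h0, h1⟩ := desc_binary (desc_of_mem (hY 0)) (desc_of_mem (hY 1))
  haveI := hK₀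
  haveI : FiniteDimensional ℚ ℚ⟮ζ⟯ := IntermediateField.adjoin.finiteDimensional (isIntegral_qbar ζ)
  set K₁ : IntermediateField ℚ (AlgebraicClosure ℚ) := K₀ ⊔ ℚ⟮ζ⟯ with hK₁
  have hζmem : ζ ∈ K₁ :=
    (le_sup_right : ℚ⟮ζ⟯ ≤ K₁) (IntermediateField.mem_adjoin_simple_self ℚ ζ)
  have hall : ∀ i : Fin 2, ∃ x₁ : LaurentSeries K₁,
      x₁ ∈ laurentBaseChange K₁ (modularFunctionFieldFull N) ∧
      coeffMap (algebraMap K₁ (AlgebraicClosure ℚ)) x₁ = coeffMap A.subtype (Y i) := by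
    intro i
    fin_cases i
    · exact desc_enlarge le_sup_left h0
    · exact desc_enlarge le_sup_left h1
  choose x hxmem hxeq using hall
  have hcoeff : ∀ i k, algebraMap K₁ (AlgebraicClosure ℚ) ((x i).coeff k)
      = (((Y i).coeff k : A) : AlgebraicClosure ℚ) := by
    intro i k
    have := congrArg (fun s => HahnSeries.coeff s k) (hxeq i)
    exact this
  have hmem : ∀ i k, (x i).coeff k ∈ H7S18.descVal A K₁ := by
    intro i k
    show algebraMap K₁ (AlgebraicClosure ℚ) ((x i).coeff k) ∈ A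
    rw [hcoeff]
    exact ((Y i).coeff k).2
  refine ⟨K₁, inferInstance, fun i => liftSeries (H7S18.descVal A K₁) (x i) (hmem i), ?_, ?_, ?_⟩
  · refine ⟨⟨ζ, hζmem⟩, ?_⟩
    exact IsPrimitiveRoot.of_map_of_injective (f := algebraMap K₁ (AlgebraicClosure ℚ))
      (ζ := (⟨ζ, hζmem⟩ : K₁)) hζ (algebraMap K₁ (AlgebraicClosure ℚ)).injective
  · intro i
    ext k
    exact hcoeff i k
  · intro i
    rw [coeffMap_subtype_liftSeries]
    exact hxmem i

end H1S18
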