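import Mathlib
import Fermat.Agent.S18.DefsD

/-!
# Item 75 (S18), slice C6b (helper4): `H7S18.DvrStatement`

A valuation subring `B` of a number field `K` with a rational prime `ℓ` in its maximal ideal
is the localization of `𝓞 K` at the prime `𝔪_B ∩ 𝓞 K`, hence a discrete valuation ring.
Applied to `B = A ∩ K₁` for a valuation subring `A` of `ℚ̄` over `ℓ`.
-/

set_option autoImplicit false
set_option linter.style.haveILetI false

noncomputable section

namespace H4DVR

open IsDedekindDomain NumberField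

section Local

variable {R : Type*} [CommRing R] [IsLocalRing R]

/-- in a local ring in which the prime `ℓ` is not a unit, every `n` prime to `ℓ` is a unit -/
theorem isUnit_natCast_of_not_dvd {ℓ : ℕ} (hℓ : ℓ.Prime) (h : ¬ IsUnit ((ℓ : ℕ) : R)) {n : ℕ}
    (hn : ¬ ℓ ∣ n) : IsUnit ((n : ℕ) : R) := by
  by_contra hu
  have hc : Nat.Coprime ℓ n := (Nat.Prime.coprime_iff_not_dvd hℓ).mpr hn
  have hb := Int.gcd_eq_gcd_ab (ℓ : ℤ) (n : ℤ)
  rw [Int.gcd_natCast_natCast, hc] at hb
  have h1 : ((ℓ : ℕ) : R) ∈ IsLocalRing.maximalIdeal R := (IsLocalRing.mem_maximalIdeal _).2 h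
  have h2 : ((n : ℕ) : R) ∈ IsLocalRing.maximalIdeal R := (IsLocalRing.mem_maximalIdeal _).2 hu
  have h3 : (1 : R) ∈ IsLocalRing.maximalIdeal R := by
    have e : (1 : R) = ((ℓ : ℕ) : R) * ((Int.gcdA ℓ n : ℤ) : R)
        + ((n : ℕ) : R) * ((Int.gcdB ℓ n : ℤ) : R) := by
      have := congrArg (Int.cast : ℤ → R) hb
      push_cast at this
      exact this
    rw [e]
    exact Ideal.add_mem _ (Ideal.mul_mem_right _ _ h1) (Ideal.mul_mem_right _ _ h2)
  exact (IsLocalRing.maximalIdeal.isMaximal R).ne_top ((Ideal.eq_top_iff_one _).2 h3)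

end Local

section NF

variable {K : Type*} [Field K] [NumberField K] (B : ValuationSubring K)

omit [NumberField K] in
/-- the ring of integers lies in every valuation subring -/
theorem integer_mem (x : 𝓞 K) : (x : K) ∈ B := by
  have hx : IsIntegral ℤ (x : K) := x.2
  have hx' : IsIntegral B (x : K) := hx.tower_top
  obtain ⟨y, hy⟩ := IsIntegrallyClosed.isIntegral_iff.mp hx'
  rw [← hy]
  exact y.2

/-- the inclusion `𝓞 K → B` -/
def incl : 𝓞 K →+* B where
  toFun x := ⟨(x : K), integer_mem B x⟩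
  map_one' := by ext; simp
  map_mul' x y := by ext; simp
  map_zero' := by ext; simp
  map_add' x y := by ext; simp

@[simp]
theorem coe_incl (x : 𝓞 K) : ((incl B x : B) : K) = (x : K) := rfl

variable {B} in
/-- the center of `B` on `𝓞 K` -/
def center {ℓ : ℕ} (hℓ : ℓ.Prime) (h : (ℓ : K) ∈ B.nonunits) : HeightOneSpectrum (𝓞 K) where
  asIdeal := (IsLocalRing.maximalIdeal B).comap (incl B)
  isPrime := Ideal.comap_isPrime _ _
  ne_bot := by
    intro hbot
    have hmem : ((ℓ : ℕ) : 𝓞 K) ∈ (IsLocalRing.maximalIdeal B).comap (incl B) := by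
      rw [Ideal.mem_comap, B.valuation_lt_one_iff]
      have := B.mem_nonunits_iff.mp h
      simpa using this
    rw [hbot, Ideal.mem_bot] at hmem
    have : (ℓ : ℕ) = 0 := by exact_mod_cast hmem
    exact hℓ.ne_zero this

variable {B} in
theorem atPrime_le {ℓ : ℕ} (hℓ : ℓ.Prime) (h : (ℓ : K) ∈ B.nonunits) :
    HeightOneSpectrum.valuationSubringAtPrime K (center hℓ h) ≤ B := by
  rintro x ⟨a, s, hs, rfl⟩
  have ha : (algebraMap (𝓞 K) K a) ∈ B := integer_mem B a
  have hs' : incl B s ∉ IsLocalRing.maximalIdeal B := fun hmem => hs hmem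
  have hu : IsUnit (incl B s) := by
    by_contra hn
    exact hs' ((IsLocalRing.mem_maximalIdeal _).2 hn)
  obtain ⟨u, hu⟩ := hu
  have e : (algebraMap (𝓞 K) K s)⁻¹ = (((u⁻¹ : Bˣ) : B) : K) := by
    have h1 : ((u : B) : K) * (((u⁻¹ : Bˣ) : B) : K) = 1 := by
      rw [← B.coe_mul, u.mul_inv]
      rfl
    rw [hu] at h1
    exact inv_eq_of_mul_eq_one_right h1
  rw [e]
  exact B.mul_mem _ _ ha (Subtype.mem _)

variable {B} in
theorem atPrime_eq {ℓ : ℕ} (hℓ : ℓ.Prime) (h : (ℓ : K) ∈ B.nonunits) :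
    HeightOneSpectrum.valuationSubringAtPrime K (center hℓ h) = B := by
  refine ValuationSubring.eq_of_le_of_ne_top _ (atPrime_le hℓ h) ?_
  intro htop
  rcases (B.mem_nonunits_iff_or).mp h with h0 | h1
  · have hne : ((ℓ : ℕ) : K) ≠ 0 := by exact_mod_cast hℓ.ne_zero
    exact hne h0
  · exact h1 (by rw [htop]; trivial)

variable {B} in
/-- a valuation subring of a number field over a rational prime is a DVR -/
theorem isDVR {ℓ : ℕ} (hℓ : ℓ.Prime) (h : (ℓ : K) ∈ B.nonunits) :
    IsDiscreteValuationRing B := by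
  have e := atPrime_eq hℓ h
  have hd : IsDiscreteValuationRing
      (HeightOneSpectrum.valuationSubringAtPrime K (center hℓ h)) :=
    IsLocalization.AtPrime.isDiscreteValuationRing_of_dedekind_domain (𝓞 K)
      (center hℓ h).ne_bot _
  exact e ▸ hd

end NF

/-- **C6b**: `A ∩ K₁` is a discrete valuation ring in which exactly the integers prime to `ℓ`
are units. -/
theorem dvrStatement : H7S18.DvrStatement := by
  intro ℓ _ A hA K₁ hfd
  haveI : NumberField K₁ := { to_charZero := inferInstance, to_finiteDimensional := hfd }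
  have hℓ : ℓ.Prime := Fact.out
  have h : ((ℓ : ℕ) : K₁) ∈ (H7S18.descVal A K₁).nonunits := by
    rw [ValuationSubring.mem_nonunits_iff_or]
    right
    intro hmem
    rw [H7S18.descVal, ValuationSubring.mem_comap, map_inv₀, map_natCast] at hmem
    rcases (A.mem_nonunits_iff_or).mp hA with h0 | h1
    · exact (by exact_mod_cast hℓ.ne_zero : ((ℓ : ℕ) : AlgebraicClosure ℚ) ≠ 0) h0
    · exact h1 hmem
  have hdvr := isDVR (B := H7S18.descVal A K₁) hℓ h
  have hnu : ¬ IsUnit ((ℓ : ℕ) : ↥(H7S18.descVal A K₁)) := by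
    have hm : ((ℓ : ℕ) : ↥(H7S18.descVal A K₁)) ∈
        IsLocalRing.maximalIdeal ↥(H7S18.descVal A K₁) := by
      rw [ValuationSubring.valuation_lt_one_iff]
      have := (H7S18.descVal A K₁).mem_nonunits_iff.mp h
      simpa using this
    exact (IsLocalRing.mem_maximalIdeal _).1 hm
  exact ⟨hdvr, hnu, fun n hn _ => isUnit_natCast_of_not_dvd hℓ hnu hn⟩

end H4DVR

end
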