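import Mathlib
import Fermat.Prelude.Def_ModularCurve_LaurentCoeff

/-!
# S18 (item 75), route Y', slice C6e (helper9), part 1: constants of `K((q))`

`H9C6e.laurent_const`: a Laurent series over a field `K` which is algebraic over `K` is a
constant.
-/

set_option autoImplicit false

open Polynomial

namespace H9C6e

section Const

variable (K : Type*) [Field K]

/-- the `q`-adic valuation of `K((q))` -/
noncomputable def qVal : Valuation (LaurentSeries K) (Multiplicative (WithTop ℤ)ᵒᵈ) :=
  AddValuation.toValuation (HahnSeries.addVal ℤ K)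

theorem qVal_le_one_iff (x : LaurentSeries K) : qVal K x ≤ 1 ↔ (0 : WithTop ℤ) ≤ x.orderTop := by
  rw [qVal, AddValuation.toValuation_apply, HahnSeries.addVal_apply]
  exact Iff.rfl

theorem orderTop_algebraMap_nonneg (c : K) :
    (0 : WithTop ℤ) ≤ (algebraMap K (LaurentSeries K) c).orderTop := by
  rcases eq_or_ne c 0 with rfl | hc
  · simp
  · rw [ModularCurve.algebraMap_laurentSeries_eq_single, HahnSeries.orderTop_single hc]
    rfl

variable {K}

theorem orderTop_nonneg_of_isAlgebraic {x : LaurentSeries K} (hx : IsAlgebraic K x) :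
    (0 : WithTop ℤ) ≤ x.orderTop := by
  rw [← qVal_le_one_iff]
  obtain ⟨p, hpm, hp⟩ := hx.isIntegral
  set φ : K →+* (qVal K).integer :=
    RingHom.codRestrict (algebraMap K (LaurentSeries K)) (qVal K).integer
      (fun c => (qVal_le_one_iff K _).mpr (orderTop_algebraMap_nonneg K c)) with hφ
  have hcomp : (algebraMap (qVal K).integer (LaurentSeries K)).comp φ =
      algebraMap K (LaurentSeries K) := RingHom.ext fun c => rfl
  have h1 : IsIntegral (qVal K).integer x :=
    ⟨p.map φ, hpm.map φ, by rw [eval₂_map, hcomp]; exact hp⟩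
  exact (Valuation.integer.integers (qVal K)).isIntegral_iff_v_le_one.mp h1

theorem order_eq_zero_of_isAlgebraic {x : LaurentSeries K} (hx : IsAlgebraic K x) (h0 : x ≠ 0) :
    x.order = 0 := by
  have h1 := orderTop_nonneg_of_isAlgebraic hx
  have h2 := orderTop_nonneg_of_isAlgebraic hx.inv
  rw [← HahnSeries.order_eq_orderTop_of_ne_zero h0] at h1
  rw [← HahnSeries.order_eq_orderTop_of_ne_zero (inv_ne_zero h0)] at h2
  have h1' : (0 : ℤ) ≤ x.order := by exact_mod_cast h1
  have h2' : (0 : ℤ) ≤ (x⁻¹).order := by exact_mod_cast h2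
  have h3 : (x * x⁻¹).order = x.order + (x⁻¹).order :=
    HahnSeries.order_mul h0 (inv_ne_zero h0)
  rw [mul_inv_cancel₀ h0, HahnSeries.order_one] at h3
  omega

/-- **constants of `K((q))`** -/
theorem laurent_const {x : LaurentSeries K} (hx : IsAlgebraic K x) :
    ∃ c : K, algebraMap K (LaurentSeries K) c = x := by
  refine ⟨x.coeff 0, ?_⟩
  by_contra hne
  have hy : IsAlgebraic K (x - algebraMap K (LaurentSeries K) (x.coeff 0)) :=
    hx.sub (isAlgebraic_algebraMap _)
  have hy0 : x - algebraMap K (LaurentSeries K) (x.coeff 0) ≠ 0 := by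
    intro h
    exact hne (sub_eq_zero.mp h).symm
  have h1 := order_eq_zero_of_isAlgebraic hy hy0
  have h2 : (x - algebraMap K (LaurentSeries K) (x.coeff 0)).coeff
      (x - algebraMap K (LaurentSeries K) (x.coeff 0)).order ≠ 0 :=
    fun h => hy0 (HahnSeries.coeff_order_eq_zero.mp h)
  rw [h1] at h2
  apply h2
  rw [HahnSeries.coeff_sub, ModularCurve.algebraMap_laurentSeries_eq_single,
    HahnSeries.coeff_single_same, sub_self]

end Const

end H9C6e
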