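import Fermat.Agent.S18.C9HM_helper4
import Fermat.Agent.S16.BridgeU_helper11
import Fermat.Prelude.Def_ModularCurve_X0ModL

/-!
# Item 75 (S18), slice C9 (helper4): the Hauptmoduln `t₂`, `t₃` as Laurent series

For every commutative ring `A` (in particular `ℚ`, `ℚ̄`, and the residue fields of
characteristic `ℓ`):

* `H4HM.t2 A = q⁻¹ T₂ = Δ(q)/Δ(q²)`, `H4HM.hm2 : j t₂² = (t₂ + 256)³`,
  `H4HM.hm2' : (j - 1728) t₂² = (t₂ - 512)² (t₂ + 64)`, `H4HM.t2_mul_deltaq2`;
* `H4HM.t3 A = q⁻¹ T₃ = (η(q)/η(q³))^12`, `H4HM.hm3 : j t₃³ = (t₃ + 27) (t₃ + 243)³`,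
  `H4HM.hm3' : (j - 1728) t₃³ = (t₃² - 486 t₃ - 19683)²`, `H4HM.t3_sq_mul_deltaq3`;
* base change `H4HM.coeffMap_t2`, `H4HM.coeffMap_t3`;
* `H4HM.t2_mem : t2 ℚ ∈ modularFunctionFieldFull 2`, `H4HM.t3_mem : t3 ℚ ∈ modularFunctionFieldFull 3`.
-/

set_option autoImplicit false

noncomputable section

namespace H4HM

open ModularCurve PowerSeries H28S28

variable (A : Type) [CommRing A]

/-- base change `ℤ[[q]] → A((q))` -/
def iota : PowerSeries ℤ →+* LaurentSeries A :=
  (HahnSeries.ofPowerSeries ℤ A).comp (PowerSeries.map (Int.castRingHom A))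

theorem iota_apply (P : PowerSeries ℤ) :
    iota A P = HahnSeries.ofPowerSeries ℤ A (P.map (Int.castRingHom A)) := rfl

theorem iota_X : iota A X = HahnSeries.single (1 : ℤ) (1 : A) := by
  rw [iota_apply, PowerSeries.map_X, HahnSeries.ofPowerSeries_X]

theorem single_neg_one_mul_single_one :
    (HahnSeries.single (-1 : ℤ) (1 : A)) * HahnSeries.single (1 : ℤ) (1 : A) = 1 := by
  rw [HahnSeries.single_mul_single]
  simp

theorem iota_coeff_nat (P : PowerSeries ℤ) (n : ℕ) :
    (iota A P).coeff (n : ℤ) = ((PowerSeries.coeff n P : ℤ) : A) := by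
  rw [iota_apply, HahnSeries.ofPowerSeries_apply_coeff, PowerSeries.coeff_map]
  rfl

theorem iota_coeff_neg (P : PowerSeries ℤ) {k : ℤ} (hk : k < 0) : (iota A P).coeff k = 0 :=
  ofPowerSeries_coeff_of_neg _ hk

theorem iota_dil (N : ℕ) [NeZero N] (P : PowerSeries ℤ) :
    iota A (dil N P) = qExpand A N (iota A P) := by
  have hN : 0 < N := Nat.pos_of_ne_zero (NeZero.ne N)
  ext k
  by_cases hd : (N : ℤ) ∣ k
  · obtain ⟨m, rfl⟩ := hd
    rw [qExpand_coeff_mul]
    rcases le_or_gt 0 m with hm | hm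
    · lift m to ℕ using hm
      rw [show (N : ℤ) * (m : ℤ) = ((N * m : ℕ) : ℤ) by push_cast; ring, iota_coeff_nat,
        iota_coeff_nat, dil, PowerSeries.coeff_mk, if_pos (dvd_mul_right N m),
        Nat.mul_div_cancel_left m hN]
    · rw [iota_coeff_neg A _ hm, iota_coeff_neg A _ (by
        have : (0 : ℤ) < N := by exact_mod_cast hN
        nlinarith)]
  · rw [qExpand_coeff_of_not_dvd N _ hd]
    rcases le_or_gt 0 k with hk | hk
    · lift k to ℕ using hk
      rw [iota_coeff_nat, dil, PowerSeries.coeff_mk, if_neg (by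
        intro h
        exact hd (by exact_mod_cast h))]
      simp
    · exact iota_coeff_neg A _ hk

theorem deltaq_eq : deltaq A = HahnSeries.single (1 : ℤ) (1 : A) * iota A dedekindEtaUnit := rfl

theorem deltaqInv_eq :
    deltaqInv A = HahnSeries.single (-1 : ℤ) (1 : A) * iota A dedekindEtaUnitInv := rfl

theorem jqModC_eq :
    jqModC A = HahnSeries.single (-1 : ℤ) (1 : A)
      * iota A (eisenstein4 ^ 3 * dedekindEtaUnitInv) := rfl

/-- the Hauptmodul `t₂ = Δ(q)/Δ(q²)` of level 2 -/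
def t2 : LaurentSeries A := HahnSeries.single (-1 : ℤ) (1 : A) * iota A T2

/-- the Hauptmodul `t₃ = (η(q)/η(q³))^12` of level 3 -/
def t3 : LaurentSeries A := HahnSeries.single (-1 : ℤ) (1 : A) * iota A T3

/-- **level 2**: `j t₂² = (t₂ + 256)³` -/
theorem hm2 : jqModC A * t2 A ^ 2 = (t2 A + 256) ^ 3 := by
  have hsx := single_neg_one_mul_single_one A
  have hZ := congrArg (iota A) hm2Z
  simp only [map_mul, map_pow, map_add, map_ofNat, iota_X] at hZ
  rw [jqModC_eq, t2, map_mul, map_pow]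
  set s := HahnSeries.single (-1 : ℤ) (1 : A)
  set x := HahnSeries.single (1 : ℤ) (1 : A)
  set E := iota A eisenstein4
  set W := iota A dedekindEtaUnitInv
  set T := iota A T2
  calc s * (E ^ 3 * W) * (s * T) ^ 2 = s ^ 3 * (E ^ 3 * W * T ^ 2) := by ring
    _ = s ^ 3 * (T + 256 * x) ^ 3 := by rw [hZ]
    _ = (s * T + 256 * (s * x)) ^ 3 := by ring
    _ = (s * T + 256) ^ 3 := by rw [hsx, mul_one]

/-- **level 2**: `(j - 1728) t₂² = (t₂ - 512)² (t₂ + 64)` -/
theorem hm2' : (jqModC A - 1728) * t2 A ^ 2 = (t2 A - 512) ^ 2 * (t2 A + 64) := by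
  linear_combination hm2 A

/-- `t₂ Δ(q²) = Δ(q)` -/
theorem t2_mul_deltaq2 : t2 A * qExpand A 2 (deltaq A) = deltaq A := by
  have hsx := single_neg_one_mul_single_one A
  have h := congrArg (iota A) T2_mul_U2
  rw [map_mul, U2, iota_dil] at h
  rw [deltaq_eq, map_mul, qExpand_single, t2]
  have e : HahnSeries.single ((2 : ℕ) * (1 : ℤ)) (1 : A)
      = HahnSeries.single (1 : ℤ) (1 : A) * HahnSeries.single (1 : ℤ) (1 : A) := by
    rw [HahnSeries.single_mul_single]
    norm_num
  rw [e]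
  set s := HahnSeries.single (-1 : ℤ) (1 : A)
  set x := HahnSeries.single (1 : ℤ) (1 : A)
  calc s * iota A T2 * (x * x * qExpand A 2 (iota A dedekindEtaUnit))
      = (s * x) * (x * (iota A T2 * qExpand A 2 (iota A dedekindEtaUnit))) := by ring
    _ = x * iota A dedekindEtaUnit := by rw [hsx, one_mul, h]

/-- **level 3**: `j t₃³ = (t₃ + 27) (t₃ + 243)³` -/
theorem hm3 : jqModC A * t3 A ^ 3 = (t3 A + 27) * (t3 A + 243) ^ 3 := by
  have hsx := single_neg_one_mul_single_one A
  have hZ := congrArg (iota A) hm3Z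
  simp only [map_mul, map_pow, map_add, map_ofNat, iota_X] at hZ
  rw [jqModC_eq, t3, map_mul, map_pow]
  set s := HahnSeries.single (-1 : ℤ) (1 : A)
  set x := HahnSeries.single (1 : ℤ) (1 : A)
  set E := iota A eisenstein4
  set W := iota A dedekindEtaUnitInv
  set T := iota A T3
  calc s * (E ^ 3 * W) * (s * T) ^ 3 = s ^ 4 * (E ^ 3 * W * T ^ 3) := by ring
    _ = s ^ 4 * ((T + 27 * x) * (T + 243 * x) ^ 3) := by rw [hZ]
    _ = (s * T + 27 * (s * x)) * (s * T + 243 * (s * x)) ^ 3 := by ring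
    _ = (s * T + 27) * (s * T + 243) ^ 3 := by rw [hsx, mul_one, mul_one]

/-- **level 3**: `(j - 1728) t₃³ = (t₃² - 486 t₃ - 19683)²` -/
theorem hm3' : (jqModC A - 1728) * t3 A ^ 3 = (t3 A ^ 2 - 486 * t3 A - 19683) ^ 2 := by
  linear_combination hm3 A

/-- `t₃² Δ(q³) = Δ(q)` -/
theorem t3_sq_mul_deltaq3 : t3 A ^ 2 * qExpand A 3 (deltaq A) = deltaq A := by
  have hsx := single_neg_one_mul_single_one A
  have h := congrArg (iota A) T3_sq
  rw [map_mul, map_pow, U3, iota_dil] at h
  rw [deltaq_eq, map_mul, qExpand_single, t3]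
  have e : HahnSeries.single ((3 : ℕ) * (1 : ℤ)) (1 : A)
      = HahnSeries.single (1 : ℤ) (1 : A) * HahnSeries.single (1 : ℤ) (1 : A)
        * HahnSeries.single (1 : ℤ) (1 : A) := by
    rw [HahnSeries.single_mul_single, HahnSeries.single_mul_single]
    norm_num
  rw [e]
  set s := HahnSeries.single (-1 : ℤ) (1 : A)
  set x := HahnSeries.single (1 : ℤ) (1 : A)
  calc (s * iota A T3) ^ 2 * (x * x * x * qExpand A 3 (iota A dedekindEtaUnit))
      = (s * x) ^ 2 * (x * (iota A T3 ^ 2 * qExpand A 3 (iota A dedekindEtaUnit))) := by ring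
    _ = x * iota A dedekindEtaUnit := by
        rw [hsx, one_pow, one_mul, h]

/-! ### base change -/

variable {A} in
theorem coeffMap_iota {B : Type} [CommRing B] (f : A →+* B) (P : PowerSeries ℤ) :
    coeffMap f (iota A P) = iota B P := by
  rw [iota_apply, coeffMap_ofPowerSeries, iota_apply]
  congr 1
  rw [← RingHom.comp_apply (PowerSeries.map f) (PowerSeries.map (Int.castRingHom A)),
    ← PowerSeries.map_comp, RingHom.ext_int (f.comp (Int.castRingHom A)) (Int.castRingHom B)]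

variable {A} in
theorem coeffMap_t2 {B : Type} [CommRing B] (f : A →+* B) : coeffMap f (t2 A) = t2 B := by
  rw [t2, map_mul, coeffMap_single, map_one, coeffMap_iota, t2]

variable {A} in
theorem coeffMap_t3 {B : Type} [CommRing B] (f : A →+* B) : coeffMap f (t3 A) = t3 B := by
  rw [t3, map_mul, coeffMap_single, map_one, coeffMap_iota, t3]

/-! ### leading coefficients -/

theorem t2_coeff_neg_one : (t2 A).coeff (-1) = 1 := by
  rw [t2, HahnSeries.coeff_single_mul, one_mul, sub_self,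
    show (0 : ℤ) = ((0 : ℕ) : ℤ) from rfl, iota_coeff_nat,
    PowerSeries.coeff_zero_eq_constantCoeff_apply, constantCoeff_T2]
  simp

theorem t3_coeff_neg_one : (t3 A).coeff (-1) = 1 := by
  rw [t3, HahnSeries.coeff_single_mul, one_mul, sub_self,
    show (0 : ℤ) = ((0 : ℕ) : ℤ) from rfl, iota_coeff_nat,
    PowerSeries.coeff_zero_eq_constantCoeff_apply, constantCoeff_T3]
  simp

theorem t2_coeff_of_lt {k : ℤ} (hk : k < -1) : (t2 A).coeff k = 0 := by
  rw [t2, HahnSeries.coeff_single_mul, one_mul]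
  exact iota_coeff_neg A _ (by omega)

theorem t3_coeff_of_lt {k : ℤ} (hk : k < -1) : (t3 A).coeff k = 0 := by
  rw [t3, HahnSeries.coeff_single_mul, one_mul]
  exact iota_coeff_neg A _ (by omega)

/-! ### membership in the function fields of level 2 and 3 -/

/-- `t₂ ∈ F₂` -/
theorem t2_mem : t2 ℚ ∈ modularFunctionFieldFull 2 := by
  have hu := H11BR.h11br_uN_mem 2
  have h1 : t2 ℚ * (qExpand ℚ 2 (deltaq ℚ) * deltaqInv ℚ) = 1 := by
    rw [← mul_assoc, t2_mul_deltaq2, H23M.deltaq_mul_deltaqInv]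
  have h2 : t2 ℚ = (qExpand ℚ 2 (deltaq ℚ) * deltaqInv ℚ)⁻¹ := eq_inv_of_mul_eq_one_left h1
  rw [h2]
  exact (modularFunctionFieldFull 2).inv_mem hu

/-- the relation defining `t₃` in terms of `j` and `u₃ = Δ(q³)/Δ(q)` -/
theorem t3_rel :
    t3 A * (qExpand A 3 (deltaq A) * deltaqInv A)
        * (jqModC A - 756 - 19131876 * (qExpand A 3 (deltaq A) * deltaqInv A))
      = 1 + 196830 * (qExpand A 3 (deltaq A) * deltaqInv A)
        + 387420489 * (qExpand A 3 (deltaq A) * deltaqInv A) ^ 2 := by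
  have hsx := single_neg_one_mul_single_one A
  have hUW := congrArg (iota A) dedekindEtaUnit_mul_inv
  rw [map_mul, map_one] at hUW
  have hT := congrArg (iota A) T3_mul
  rw [X3_eq, Y3'] at hT
  simp only [map_mul, map_pow, map_add, map_sub, map_ofNat, iota_X] at hT
  rw [U3, iota_dil] at hT
  have e : HahnSeries.single ((3 : ℕ) * (1 : ℤ)) (1 : A)
      = HahnSeries.single (1 : ℤ) (1 : A) * HahnSeries.single (1 : ℤ) (1 : A)
        * HahnSeries.single (1 : ℤ) (1 : A) := by
    rw [HahnSeries.single_mul_single, HahnSeries.single_mul_single]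
    norm_num
  rw [deltaq_eq, deltaqInv_eq, jqModC_eq, t3, map_mul (qExpand A 3), qExpand_single, e,
    map_mul (iota A), map_pow (iota A)]
  set s := HahnSeries.single (-1 : ℤ) (1 : A)
  set x := HahnSeries.single (1 : ℤ) (1 : A)
  set T := iota A T3
  set V := qExpand A 3 (iota A dedekindEtaUnit)
  set W := iota A dedekindEtaUnitInv
  set U := iota A dedekindEtaUnit
  set E := iota A eisenstein4
  -- `hT : T * V * (E ^ 3 - 756 * x * U - 19131876 * x ^ 3 * V) = U ^ 2 + ...`
  have hxs : x * s = 1 := by rw [mul_comm]; exact hsx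
  have hL : s * T * (x * x * x * V * (s * W)) * (s * (E ^ 3 * W) - 756
        - 19131876 * (x * x * x * V * (s * W)))
      = (s * x) ^ 3 * (T * V * W ^ 2 * E ^ 3) - 756 * (s * x) ^ 2 * (T * x * V * W)
        - 19131876 * (s * x) ^ 3 * (T * x ^ 3 * V ^ 2 * W ^ 2) := by ring
  have hR : 1 + 196830 * (x * x * x * V * (s * W)) + 387420489 * (x * x * x * V * (s * W)) ^ 2
      = 1 + 196830 * ((s * x) * (x ^ 2 * V * W))
        + 387420489 * ((s * x) * (x ^ 2 * V * W)) ^ 2 := by ring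
  rw [hL, hR, hsx]
  linear_combination W ^ 2 * hT
    + (756 * T * x * V * W + (U * W + 1) + 196830 * x ^ 2 * V * W) * hUW

/-- `u₃ = Δ(q³)/Δ(q)` is not zero -/
theorem u3_ne_zero [Nontrivial A] : qExpand A 3 (deltaq A) * deltaqInv A ≠ 0 := by
  intro h
  have h1 := t3_rel A
  rw [h] at h1
  simp only [mul_zero, zero_mul, add_zero, ne_eq, OfNat.ofNat_ne_zero, not_false_eq_true,
    zero_pow] at h1
  exact zero_ne_one h1

/-- `t₃ ∈ F₃` -/
theorem t3_mem : t3 ℚ ∈ modularFunctionFieldFull 3 := by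
  have hu := H11BR.h11br_uN_mem 3
  have hj : jqModC ℚ ∈ modularFunctionFieldFull 3 := by
    have := jqd_mem_full 3 (one_dvd 3)
    rwa [qExpand_one_apply] at this
  set u := qExpand ℚ 3 (deltaq ℚ) * deltaqInv ℚ with hu_def
  have hrel := t3_rel ℚ
  rw [← hu_def] at hrel
  set F := modularFunctionFieldFull 3
  have hnum : (1 + 196830 * u + 387420489 * u ^ 2 : LaurentSeries ℚ) ∈ F :=
    F.add_mem (F.add_mem F.one_mem (F.mul_mem (by exact_mod_cast F.natCast_mem 196830) hu))
      (F.mul_mem (by exact_mod_cast F.natCast_mem 387420489) (F.pow_mem hu 2))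
  have hden : (u * (jqModC ℚ - 756 - 19131876 * u) : LaurentSeries ℚ) ∈ F :=
    F.mul_mem hu (F.sub_mem (F.sub_mem hj (by exact_mod_cast F.natCast_mem 756))
      (F.mul_mem (by exact_mod_cast F.natCast_mem 19131876) hu))
  -- the numerator is not zero: its coefficient of `q⁰` is `1`
  have hnum0 : (1 + 196830 * u + 387420489 * u ^ 2 : LaurentSeries ℚ) ≠ 0 := by
    intro h0
    have hc : (1 + 196830 * u + 387420489 * u ^ 2 : LaurentSeries ℚ).coeff 0
        = (0 : LaurentSeries ℚ).coeff 0 := by rw [h0]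
    have hu2 : u = HahnSeries.single (2 : ℤ) (1 : ℚ) * iota ℚ (U3 * dedekindEtaUnitInv) := by
      rw [hu_def, deltaq_eq, deltaqInv_eq, map_mul, qExpand_single, map_mul, U3, iota_dil]
      have e : HahnSeries.single ((3 : ℕ) * (1 : ℤ)) (1 : ℚ)
          = HahnSeries.single (2 : ℤ) (1 : ℚ) * HahnSeries.single (1 : ℤ) (1 : ℚ) := by
        rw [HahnSeries.single_mul_single]
        norm_num
      rw [e]
      have hsx := single_neg_one_mul_single_one ℚ
      linear_combination (HahnSeries.single (2 : ℤ) (1 : ℚ)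
        * qExpand ℚ 3 (iota ℚ dedekindEtaUnit) * iota ℚ dedekindEtaUnitInv)
        * (by rw [mul_comm] at hsx; exact hsx :
            HahnSeries.single (1 : ℤ) (1 : ℚ) * HahnSeries.single (-1 : ℤ) (1 : ℚ) = 1)
    have e1 : (1 + 196830 * u + 387420489 * u ^ 2 : LaurentSeries ℚ)
        = 1 + HahnSeries.single (2 : ℤ) (1 : ℚ)
          * (196830 * iota ℚ (U3 * dedekindEtaUnitInv)
            + 387420489 * (HahnSeries.single (2 : ℤ) (1 : ℚ)
              * iota ℚ (U3 * dedekindEtaUnitInv) ^ 2)) := by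
      rw [hu2]; ring
    rw [e1, HahnSeries.coeff_add, HahnSeries.coeff_single_mul, HahnSeries.coeff_one] at hc
    have e2 : (196830 * iota ℚ (U3 * dedekindEtaUnitInv)
            + 387420489 * (HahnSeries.single (2 : ℤ) (1 : ℚ)
              * iota ℚ (U3 * dedekindEtaUnitInv) ^ 2))
        = iota ℚ (196830 * (U3 * dedekindEtaUnitInv)
            + 387420489 * (X ^ 2 * (U3 * dedekindEtaUnitInv) ^ 2)) := by
      simp only [map_add, map_mul, map_pow, map_ofNat, iota_X]
      rw [HahnSeries.single_pow]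
      norm_num
    rw [e2, iota_coeff_neg ℚ _ (by norm_num)] at hc
    simp at hc
  have hden0 : (u * (jqModC ℚ - 756 - 19131876 * u) : LaurentSeries ℚ) ≠ 0 := by
    intro h0
    apply hnum0
    rw [← hrel, mul_assoc, h0, mul_zero]
  have ht : t3 ℚ = (1 + 196830 * u + 387420489 * u ^ 2)
      * (u * (jqModC ℚ - 756 - 19131876 * u))⁻¹ := by
    rw [eq_mul_inv_iff_mul_eq₀ hden0, ← hrel]
    ring
  rw [ht]
  exact F.mul_mem hnum (F.inv_mem hden)

end H4HM
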