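import Mathlib
import Fermat.Agent.S18.C9Laurent_helper4
import Fermat.Agent.S18.DefsD

/-!
# Item 75 (S18), slice C9 (helper4): `H7S18.HauptmodulStatement`

The Hauptmoduln `t₂ = Δ(q)/Δ(q²) = modularUnitSeries 2` and `t₃ = (η(q)/η(q³))^12`
(`t₃² = modularUnitSeries 3`) lie in `F₂`, `F₃`, are defined over `ℤ`, and satisfy
`j t₂² = (t₂ + 256)³`, `j t₃³ = (t₃ + 27)(t₃ + 243)³`.
-/

set_option autoImplicit false

noncomputable section

namespace H4HM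

open ModularCurve PowerSeries H28S28

theorem deltaq_rat_eq : deltaq ℚ = deltaSeries := rfl

theorem modularUnitSeries_two : modularUnitSeries 2 = t2 ℚ := by
  have h := t2_mul_deltaq2 ℚ
  rw [deltaq_rat_eq] at h
  rw [modularUnitSeries, ← h]
  change t2 ℚ * deltaSeriesN 2 * (deltaSeriesN 2)⁻¹ = t2 ℚ
  rw [mul_assoc, mul_inv_cancel₀ (deltaSeriesN_ne_zero 2), mul_one]

theorem t3_sq_eq : t3 ℚ ^ 2 = modularUnitSeries 3 := by
  have h := t3_sq_mul_deltaq3 ℚ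
  rw [deltaq_rat_eq] at h
  rw [modularUnitSeries, ← h]
  change t3 ℚ ^ 2 = t3 ℚ ^ 2 * deltaSeriesN 3 * (deltaSeriesN 3)⁻¹
  rw [mul_assoc, mul_inv_cancel₀ (deltaSeriesN_ne_zero 3), mul_one]

/-- `t₃` is a base function of kind 3 -/
theorem isBase_t3 : H7S18.IsBase 3 (t3 ℚ) :=
  Or.inr (Or.inr ⟨rfl, t3_sq_eq, t3_coeff_neg_one ℚ⟩)

/-- `t₂ = modularUnitSeries 2` is a base function of kind 2 -/
theorem isBase_t2 : H7S18.IsBase 2 (t2 ℚ) :=
  Or.inr (Or.inl ⟨rfl, modularUnitSeries_two.symm⟩)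

/-- **C9**: the Hauptmodul statement of route Y'. -/
theorem hauptmodulStatement : H7S18.HauptmodulStatement := by
  refine ⟨⟨?_, ?_, ⟨t2 ℤ, ?_⟩⟩, t3 ℚ, isBase_t3, t3_mem, ?_, ⟨t3 ℤ, ?_⟩⟩
  · rw [modularUnitSeries_two]; exact t2_mem
  · rw [modularUnitSeries_two]; exact hm2 ℚ
  · rw [modularUnitSeries_two]; exact coeffMap_t2 _
  · exact hm3 ℚ
  · exact coeffMap_t3 _

end H4HM

end
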