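import Mathlib
import Fermat.Agent.S18.DefsD
import Fermat.Agent.S18.GVBar_helper28
import Fermat.Agent.S18.C9Final_helper4
import Fermat.Agent.S28.DegreeBounds
import Fermat.Agent.S18.C6eConst_helper9

/-!
# S18 (item 75), route Y', slice C6e (helper9): `H7S18.FieldBasicsStatement`

For any field `K` of characteristic `0` and the base function `t` of kind `i`:
`t` is transcendental over `K`, `F_K(N)` is finite over `K(t)`, and `K` is algebraically closed
in `F_K(N)`.
-/

set_option autoImplicit false
set_option linter.unusedSectionVars false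
set_option linter.style.haveILetI false
set_option synthInstance.maxHeartbeats 400000

noncomputable section

open Polynomial IntermediateField AlgebraicCurve ModularCurve

namespace H9C6e

open H7S18

/-- membership and the relation with `j` for the base functions -/
theorem base_data (N : ℕ) [NeZero N] (i : ℕ)
    (hi : i = 1 ∨ (i = 2 ∧ 2 ∣ N) ∨ (i = 3 ∧ 3 ∣ N))
    (t₀ : LaurentSeries ℚ) (ht : IsBase i t₀) :
    t₀ ∈ modularFunctionFieldFull N ∧
      ∃ P Q : ℚ[X], aeval t₀ Q ≠ 0 ∧ jq * aeval t₀ Q = aeval t₀ P := by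
  have hH := H4HM.hauptmodulStatement
  have hjmem : jq ∈ modularFunctionFieldFull N := by
    have := jqd_mem_full N (one_dvd N)
    rwa [qExpand_one_apply] at this
  have h256 : ((256 : LaurentSeries ℚ)) ^ 3 ≠ 0 := by
    have h1 : (256 : LaurentSeries ℚ) = algebraMap ℚ (LaurentSeries ℚ) 256 :=
      (map_ofNat (algebraMap ℚ (LaurentSeries ℚ)) 256).symm
    rw [h1]
    exact pow_ne_zero _ ((map_ne_zero (algebraMap ℚ (LaurentSeries ℚ))).mpr (by norm_num))
  rcases ht with ⟨h1, rfl⟩ | ⟨h2, rfl⟩ | ⟨h3, hsq, hco⟩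
  · refine ⟨hjmem, X, 1, ?_, ?_⟩
    · simp
    · simp
  · have hN : 2 ∣ N := by
      rcases hi with h | ⟨-, h⟩ | ⟨h, -⟩
      · omega
      · exact h
      · omega
    obtain ⟨⟨hmem, hrel, -⟩, -⟩ := hH
    have hne : modularUnitSeries 2 ≠ 0 := by
      intro h0
      rw [h0] at hrel
      simp only [ne_eq, OfNat.ofNat_ne_zero, not_false_eq_true, zero_pow, mul_zero,
        zero_add] at hrel
      exact h256 hrel.symm
    refine ⟨full_degeneracy_le hN hmem, (X + C 256) ^ 3, X ^ 2, ?_, ?_⟩
    · simpa using hne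
    · simp only [map_pow, aeval_X, map_add, aeval_C]
      rw [hrel]
      simp
  · have hN : 3 ∣ N := by
      rcases hi with h | ⟨h, -⟩ | ⟨-, h⟩
      · omega
      · omega
      · exact h
    obtain ⟨-, t₃, hb3, hmem, hrel, -⟩ := hH
    have hb3' : t₃ ^ 2 = modularUnitSeries 3 ∧ t₃.coeff (-1) = 1 := by
      rcases hb3 with ⟨h, -⟩ | ⟨h, -⟩ | ⟨-, h⟩
      · omega
      · omega
      · exact h
    have heq : t₀ = t₃ := by
      have h1 : (t₀ - t₃) * (t₀ + t₃) = 0 := by
        have : t₀ ^ 2 = t₃ ^ 2 := by rw [hsq, hb3'.1]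
        linear_combination this
      rcases mul_eq_zero.mp h1 with h | h
      · exact sub_eq_zero.mp h
      · exfalso
        have h2 := congrArg (fun x : LaurentSeries ℚ => x.coeff (-1)) h
        simp only [HahnSeries.coeff_add, hco, hb3'.2, HahnSeries.coeff_zero] at h2
        norm_num at h2
    subst heq
    have hne : t₀ ≠ 0 := by
      intro h0
      rw [h0] at hco
      simp at hco
    refine ⟨full_degeneracy_le hN hmem, (X + C 27) * (X + C 243) ^ 3, X ^ 3, ?_, ?_⟩
    · simpa using hne
    · simp only [map_pow, aeval_X, map_add, aeval_C, map_mul]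
      rw [hrel]
      simp

section General

variable (K : Type) [Field K] [Algebra ℚ K]

theorem coeffEmb_aeval (t₀ : LaurentSeries ℚ) (P : ℚ[X]) :
    coeffEmb K (aeval t₀ P) = aeval (coeffEmb K t₀) (P.map (algebraMap ℚ K)) := by
  rw [aeval_def, aeval_def, eval₂_map, hom_eval₂]
  congr 1
  exact Subsingleton.elim _ _

variable (N : ℕ) [NeZero N]

theorem jq_mem_full : jq ∈ modularFunctionFieldFull N := by
  have := jqd_mem_full N (one_dvd N)
  rwa [qExpand_one_apply] at this

/-- `j ∈ F_K(N)` -/
def JK : FK K N := ⟨coeffEmb K jq, coeffEmb_mem_laurentBaseChange K (jq_mem_full N)⟩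

theorem coe_JK : ((JK K N : FK K N) : LaurentSeries K) = jqModC K :=
  H28GV.gv_coeffEmb_jq K

theorem coe_aeval (t : FK K N) (P : K[X]) :
    ((aeval t P : FK K N) : LaurentSeries K) = aeval (t : LaurentSeries K) P :=
  (Polynomial.aeval_algebraMap_apply (LaurentSeries K) t P).symm

theorem map_adjoin_JK :
    (K⟮JK K N⟯).map (laurentBaseChange K (modularFunctionFieldFull N)).val = K⟮jqModC K⟯ := by
  rw [IntermediateField.adjoin_map, Set.image_singleton]
  congr 2
  exact coe_JK K N

/-- `[F_K(N) : K(j)] < ∞` -/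
theorem finiteDimensional_JK : FiniteDimensional K⟮JK K N⟯ (FK K N) := by
  classical
  have hrank : Module.rank K⟮JK K N⟯ (FK K N) ≤ ((dedekindPsi N : ℕ) : Cardinal) := by
    apply rank_le
    intro t ht
    have hg : Function.Injective (Subtype.val : FK K N → LaurentSeries K) :=
      Subtype.val_injective
    have hcard : (t.image (Subtype.val : FK K N → LaurentSeries K)).card = t.card :=
      Finset.card_image_of_injective t hg
    rw [← hcard]
    apply H28S28.h10_degreeUpperBoundC' K N (fun p hp _ => H28S28.h10_hasModEq_all p hp)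
    · intro x hx
      obtain ⟨y, _, rfl⟩ := Finset.mem_image.mp hx
      rw [← H28GV.gv_bar_eq]
      exact y.2
    · have hmem : ∀ x : K⟮JK K N⟯, (((x : FK K N) : LaurentSeries K)) ∈ K⟮jqModC K⟯ := by
        intro x
        rw [← map_adjoin_JK K N]
        exact ⟨x.1, x.2, rfl⟩
      let i : K⟮JK K N⟯ → K⟮jqModC K⟯ := fun x => ⟨_, hmem x⟩
      have hsurj : Function.Surjective i := by
        rintro ⟨c, hc⟩
        rw [← map_adjoin_JK K N] at hc
        obtain ⟨x, hx, hxc⟩ := hc
        exact ⟨⟨x, hx⟩, Subtype.ext hxc⟩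
      let j : FK K N →+ LaurentSeries K :=
        (laurentBaseChange K (modularFunctionFieldFull N)).val.toRingHom.toAddMonoidHom
      have hinj : ∀ m : FK K N, j m = 0 → m = 0 := by
        intro m hm
        exact Subtype.ext hm
      have hc : ∀ (r : K⟮JK K N⟯) (m : FK K N), j (r • m) = i r • j m := by
        intro r m
        rfl
      have h1 : LinearIndependent ↥K⟮jqModC K⟯ (⇑j ∘ fun x : ↥t => (x : FK K N)) :=
        ht.map_of_surjective_injective i j hsurj hinj hc
      have h2 : LinearIndependent ↥K⟮jqModC K⟯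
          (fun x : ↥(Set.range (⇑j ∘ fun x : ↥t => (x : FK K N))) =>
            (x : LaurentSeries K)) := h1.linearIndepOn_id
      let f : ↥(t.image (Subtype.val : FK K N → LaurentSeries K)) →
          ↥(Set.range (⇑j ∘ fun x : ↥t => (x : FK K N))) := fun x => ⟨x.1, by
            obtain ⟨y, hy, hxy⟩ := Finset.mem_image.mp x.2
            exact ⟨⟨y, hy⟩, hxy⟩⟩
      have hf : Function.Injective f := by
        intro a b hab
        have h3 : (f a).1 = (f b).1 := congrArg Subtype.val hab
        exact Subtype.ext h3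
      exact h2.comp f hf
  exact IsNoetherian.iff_fg.mp
    (IsNoetherian.iff_rank_lt_aleph0.mpr (lt_of_le_of_lt hrank Cardinal.natCast_lt_aleph0))

/-- `K` is algebraically closed in `F_K(N)` -/
theorem const_FK (x : FK K N) (hx : IsAlgebraic K x) : x ∈ (algebraMap K (FK K N)).range := by
  have hx' : IsAlgebraic K ((x : FK K N) : LaurentSeries K) :=
    hx.algebraMap (A := LaurentSeries K)
  obtain ⟨c, hc⟩ := laurent_const hx'
  exact ⟨c, Subtype.ext hc⟩

/-- **C6e** -/
theorem fieldBasics : FieldBasicsStatement := by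
  intro N _ i hi t₀ ht K _ _
  obtain ⟨hmem, P, Q, hQ, hrel⟩ := base_data N i hi t₀ ht
  set t : FK K N := ⟨coeffEmb K t₀, coeffEmb_mem_laurentBaseChange K hmem⟩ with htdef
  set P' : K[X] := P.map (algebraMap ℚ K) with hP'
  set Q' : K[X] := Q.map (algebraMap ℚ K) with hQ'
  have hQ0 : aeval t Q' ≠ 0 := by
    intro h0
    have h1 := congrArg (fun x : FK K N => (x : LaurentSeries K)) h0
    simp only [coe_aeval] at h1
    rw [htdef, hQ', ← coeffEmb_aeval] at h1
    exact hQ ((coeffEmb K).injective (by rw [h1]; simp))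
  have hrelK : JK K N * aeval t Q' = aeval t P' := by
    apply Subtype.ext
    show ((JK K N : FK K N) : LaurentSeries K) * ((aeval t Q' : FK K N) : LaurentSeries K) =
      ((aeval t P' : FK K N) : LaurentSeries K)
    rw [coe_aeval, coe_aeval, htdef, hP', hQ', ← coeffEmb_aeval, ← coeffEmb_aeval]
    show coeffEmb K jq * _ = _
    rw [← map_mul, hrel]
  have hJ : JK K N = aeval t P' * (aeval t Q')⁻¹ := by
    rw [← hrelK]
    field_simp
  have hJmem : JK K N ∈ K⟮t⟯ := by
    rw [hJ]
    have h1 : ∀ R : K[X], aeval t R ∈ K⟮t⟯ := fun R =>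
      IntermediateField.algebra_adjoin_le_adjoin K _ (Polynomial.aeval_mem_adjoin_singleton K t)
    exact mul_mem (h1 P') (inv_mem (h1 Q'))
  refine ⟨t, rfl, ?_, ?_, const_FK K N⟩
  · -- transcendence
    intro halg
    have hJalg : IsAlgebraic K (JK K N) := by
      have h1 : t ∈ algebraicClosure K (FK K N) := mem_algebraicClosure_iff.mpr halg
      have h2 : ∀ R : K[X], aeval t R ∈ algebraicClosure K (FK K N) := fun R => by
        have h3 : K⟮t⟯ ≤ algebraicClosure K (FK K N) := by
          rw [IntermediateField.adjoin_simple_le_iff]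
          exact h1
        exact h3 (IntermediateField.algebra_adjoin_le_adjoin K _
          (Polynomial.aeval_mem_adjoin_singleton K t))
      have h4 : JK K N ∈ algebraicClosure K (FK K N) := by
        rw [hJ]
        exact mul_mem (h2 P') (inv_mem (h2 Q'))
      exact mem_algebraicClosure_iff.mp h4
    have h5 : IsAlgebraic K ((JK K N : FK K N) : LaurentSeries K) :=
      hJalg.algebraMap (A := LaurentSeries K)
    rw [coe_JK] at h5
    exact P2MW.S_ModularCurve_coeff_jqModC_neg_one.ModularCurve.CharLRows.transcendental_jqModC K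
      h5
  · -- finiteness
    haveI := finiteDimensional_JK K N
    have hle : K⟮JK K N⟯ ≤ K⟮t⟯ := by
      rw [IntermediateField.adjoin_simple_le_iff]
      exact hJmem
    letI : Algebra K⟮JK K N⟯ K⟮t⟯ := (IntermediateField.inclusion hle).toRingHom.toAlgebra
    haveI : IsScalarTower K⟮JK K N⟯ K⟮t⟯ (FK K N) :=
      IsScalarTower.of_algebraMap_eq (fun x => rfl)
    exact Module.Finite.of_restrictScalars_finite K⟮JK K N⟯ K⟮t⟯ (FK K N)

end General

end H9C6e
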