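import Mathlib
import Fermat.Agent.S24.PlaceBasic

/-!
# Item 75 (S18), slice C8' (helper4): branch data of a Hauptmodul cover, abstract part

`F / K` a function field, `j ∈ F` with the branch data of the `j`-line
(`e ∣ 3` over `0`, `e ∣ 2` over `1728`, `e ∣ N` over `∞`, unramified elsewhere), and
`t ∈ F` with `j t² = (t + 256)³` (level 2) resp. `j t³ = (t + 27)(t + 243)³` (level 3).
Then `F / K(t)` is unramified outside `t ∈ {0, -64, ∞}` resp. `{0, -27, ∞}` and the
ramification indices over these points divide `2`, `N` resp. `3`, `N`.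
-/

set_option autoImplicit false

noncomputable section

namespace H4BR

open AlgebraicCurve Polynomial

section Ord

variable {K F : Type*} [Field K] [Field F] [Algebra K F] (V : Place K F)

theorem ord_ofNat (n : ℕ) [n.AtLeastTwo] : V.ord (OfNat.ofNat n : F) = 0 := by
  rw [← map_ofNat (algebraMap K F) n]
  exact RH24.h20_ord_algebraMap V _

theorem ord_neg' (x : F) : V.ord (-x) = V.ord x := by
  rw [Place.ord, Place.ord, Valuation.map_neg]

theorem ord_pow' (x : F) (n : ℕ) : V.ord (x ^ n) = n * V.ord x := by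
  have := V.ord_zpow x n
  simpa using this

theorem ord_add_of_pos {x c : F} (hc0 : c ≠ 0) (hc : V.ord c = 0) (hx : 0 < V.ord x) :
    V.ord (x + c) = 0 := by
  rcases eq_or_ne x 0 with rfl | hx0
  · rw [zero_add, hc]
  · rw [add_comm, RH24.h20_ord_add_eq_of_lt V hc0 hx0 (by rw [hc]; exact hx), hc]

theorem ord_add_of_neg {x c : F} (hc0 : c ≠ 0) (hc : V.ord c = 0) (hx : V.ord x < 0) :
    V.ord (x + c) = V.ord x := by
  have hx0 : x ≠ 0 := by
    rintro rfl
    simp at hx
  exact RH24.h20_ord_add_eq_of_lt V hx0 hc0 (by rw [hc]; exact hx)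

theorem ord_add_nonneg {x c : F} (hc : V.ord c = 0) (hx : 0 ≤ V.ord x) :
    0 ≤ V.ord (x + c) := by
  rcases eq_or_ne x 0 with rfl | hx0
  · rw [zero_add, hc]
  rcases eq_or_ne c 0 with rfl | hc0
  · rwa [add_zero]
  rcases eq_or_ne (x + c) 0 with h | h
  · rw [h]; simp
  · have := RH24.h20_ord_add V hx0 hc0 h
    rw [hc] at this
    exact le_trans (le_min hx le_rfl) this

end Ord

section Transc

variable {K F : Type*} [Field K] [Field F] [Algebra K F]

theorem ne_zero_of_transc {t : F} (ht : Transcendental K t) : t ≠ 0 := by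
  rintro rfl
  exact ht isAlgebraic_zero

theorem aeval_ne_zero_of_transc {t : F} (ht : Transcendental K t) {Q : K[X]} (hQ : Q ≠ 0) :
    aeval t Q ≠ 0 := fun h => ht ⟨Q, hQ, h⟩

end Transc

end H4BR

end
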