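import Mathlib
import Fermat.Agent.S18.C8Ord_helper4

/-!
# Item 75 (S18), slice C8' (helper4): branch data of a Hauptmodul cover, abstract part 2

`H4BR.JBranch K N j`: the branch data of `F / K(j)`.
`H4BR.unr2`, `tame2_zero`, `tame2_m64`, `tame2_inf`: branch data of `F / K(t)` for
`j t² = (t + 256)³`; `H4BR.unr3`, `tame3_zero`, `tame3_m27`, `tame3_inf`: the same for
`j t³ = (t + 27)(t + 243)³`.
-/

set_option autoImplicit false

noncomputable section

namespace H4BR

open AlgebraicCurve Polynomial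

/-- the branch data of `F / K(j)` at level `N` -/
structure JBranch (K : Type*) {F : Type*} [Field K] [Field F] [Algebra K F] (N : ℕ) (j : F) :
    Prop where
  transc : Transcendental K j
  zero : ∀ V : Place K F, 0 < V.ord j → V.ord j ∣ 3
  e1728 : ∀ V : Place K F, 0 < V.ord (j - 1728) → V.ord (j - 1728) ∣ 2
  infty : ∀ V : Place K F, V.ord j < 0 → V.ord j ∣ (N : ℤ)
  gen : ∀ a : K, a ≠ 0 → a ≠ 1728 → ∀ V : Place K F,
    0 < V.ord (j - algebraMap K F a) → V.ord (j - algebraMap K F a) = 1
  center : ∀ V : Place K F, 0 ≤ V.ord j → ∃ a : K, 0 < V.ord (j - algebraMap K F a)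

variable {K F : Type*} [Field K] [Field F] [CharZero F] [Algebra K F] {N : ℕ} {j t : F}

theorem JBranch.ne_zero (hj : JBranch K N j) : j ≠ 0 := ne_zero_of_transc hj.transc

theorem JBranch.sub_ne_zero (hj : JBranch K N j) (a : K) : j - algebraMap K F a ≠ 0 := by
  intro h
  apply hj.transc
  rw [sub_eq_zero.mp h]
  exact isAlgebraic_algebraMap a

theorem JBranch.sub_1728_ne_zero (hj : JBranch K N j) : j - 1728 ≠ 0 := by
  have := hj.sub_ne_zero 1728
  rwa [map_ofNat] at this

omit [Field K] [Algebra K F] in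
theorem ofNat_ne_zero' (n : ℕ) [n.AtLeastTwo] : (OfNat.ofNat n : F) ≠ 0 :=
  OfNat.ofNat_ne_zero n

/-! ### Level 2 -/

section Level2

variable (hrel : j * t ^ 2 = (t + 256) ^ 3)
  (hrel' : (j - 1728) * t ^ 2 = (t - 512) ^ 2 * (t + 64))

omit [Field K] [Algebra K F] in
include hrel in
theorem t_ne_zero2 : t ≠ 0 := by
  rintro rfl
  have h256 : (256 : F) ^ 3 ≠ 0 := pow_ne_zero 3 (ofNat_ne_zero' 256)
  apply h256
  rw [← zero_add (256 : F), ← hrel]
  simp

include hrel in
theorem ord_rel2 (hj : JBranch K N j) (V : Place K F) :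
    V.ord j + 2 * V.ord t = 3 * V.ord (t + 256) := by
  have ht0 := t_ne_zero2 hrel
  have h := congrArg V.ord hrel
  rw [V.ord_mul hj.ne_zero (pow_ne_zero 2 ht0), ord_pow', ord_pow'] at h
  exact_mod_cast h

include hrel hrel' in
theorem ord_rel2' (hj : JBranch K N j) (V : Place K F) :
    V.ord (j - 1728) + 2 * V.ord t = 2 * V.ord (t - 512) + V.ord (t + 64) := by
  have ht0 := t_ne_zero2 hrel
  have hne : (t - 512) ^ 2 * (t + 64) ≠ 0 := by
    rw [← hrel']
    exact mul_ne_zero hj.sub_1728_ne_zero (pow_ne_zero 2 ht0)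
  have h := congrArg V.ord hrel'
  rw [V.ord_mul hj.sub_1728_ne_zero (pow_ne_zero 2 ht0),
    V.ord_mul (left_ne_zero_of_mul hne) (right_ne_zero_of_mul hne), ord_pow', ord_pow'] at h
  exact_mod_cast h

include hrel hrel' in
/-- level 2: unramified outside `t ∈ {0, -64, ∞}` -/
theorem unr2 (hj : JBranch K N j) (V : Place K F) (h0 : V.ord t = 0) (h64 : V.ord (t + 64) = 0) :
    ∃ Q : K[X], V.ord (aeval t Q) = 1 := by
  have ht0 := t_ne_zero2 hrel
  have e1 := ord_rel2 hrel hj V
  have e2 := ord_rel2' hrel hrel' hj V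
  have h256 : 0 ≤ V.ord (t + 256) := ord_add_nonneg V (ord_ofNat V 256) h0.ge
  obtain ⟨a, ha⟩ := hj.center V (by omega)
  rcases eq_or_ne a 0 with rfl | ha0
  · rw [map_zero, sub_zero] at ha
    have hd := hj.zero V ha
    refine ⟨X + 256, ?_⟩
    have e3 : aeval t (X + 256 : K[X]) = t + 256 := by
      simp only [map_add, map_sub, map_mul, map_pow, aeval_X, map_ofNat]
    rw [e3]
    have hd' : 3 * V.ord (t + 256) ∣ 3 := by
      have : 3 * V.ord (t + 256) = V.ord j := by omega
      rwa [this]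
    have := Int.le_of_dvd (by norm_num) hd'
    omega
  rcases eq_or_ne a 1728 with rfl | ha1
  · rw [map_ofNat] at ha
    have hd := hj.e1728 V ha
    refine ⟨X - 512, ?_⟩
    have e3 : aeval t (X - 512 : K[X]) = t - 512 := by
      simp only [map_add, map_sub, map_mul, map_pow, aeval_X, map_ofNat]
    rw [e3]
    have hd' : 2 * V.ord (t - 512) ∣ 2 := by
      have : 2 * V.ord (t - 512) = V.ord (j - 1728) := by omega
      rwa [this]
    have := Int.le_of_dvd (by norm_num) hd'
    omega
  · have h1 := hj.gen a ha0 ha1 V ha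
    refine ⟨(X + 256) ^ 3 - C a * X ^ 2, ?_⟩
    have e3 : aeval t ((X + 256) ^ 3 - C a * X ^ 2 : K[X])
        = (j - algebraMap K F a) * t ^ 2 := by
      simp only [map_sub, map_mul, map_pow, map_add, aeval_X, aeval_C, map_ofNat]
      rw [← hrel]
      ring
    rw [e3, V.ord_mul (hj.sub_ne_zero a) (pow_ne_zero 2 ht0), ord_pow', h1, h0]
    norm_num

include hrel in
/-- level 2: over `t = 0` the ramification index divides `N` -/
theorem tame2_zero (hj : JBranch K N j) (V : Place K F) (h0 : 0 < V.ord t) :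
    V.ord t ∣ (N : ℤ) := by
  have e1 := ord_rel2 hrel hj V
  have h256 : V.ord (t + 256) = 0 :=
    ord_add_of_pos V (ofNat_ne_zero' 256) (ord_ofNat V 256) h0
  have hd := hj.infty V (by omega)
  have : V.ord j = -2 * V.ord t := by omega
  rw [this] at hd
  exact (Dvd.intro_left (-2) rfl).trans hd

include hrel hrel' in
/-- level 2: over `t = -64` the ramification index divides `2` -/
theorem tame2_m64 (hj : JBranch K N j) (V : Place K F) (h0 : 0 < V.ord (t + 64)) :
    V.ord (t + 64) ∣ 2 := by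
  have e2 := ord_rel2' hrel hrel' hj V
  have h1 : V.ord t = 0 := by
    have := ord_add_of_pos V (neg_ne_zero.mpr (ofNat_ne_zero' 64))
      (by rw [ord_neg']; exact ord_ofNat V 64) h0
    rwa [show t + 64 + -64 = t by ring] at this
  have h2 : V.ord (t - 512) = 0 := by
    have := ord_add_of_pos V (neg_ne_zero.mpr (ofNat_ne_zero' 576))
      (by rw [ord_neg']; exact ord_ofNat V 576) h0
    rwa [show t + 64 + -576 = t - 512 by ring] at this
  have hd := hj.e1728 V (by omega)
  have : V.ord (j - 1728) = V.ord (t + 64) := by omega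
  rwa [this] at hd

include hrel in
/-- level 2: over `t = ∞` the ramification index divides `N` -/
theorem tame2_inf (hj : JBranch K N j) (V : Place K F) (h0 : V.ord t < 0) :
    V.ord t ∣ (N : ℤ) := by
  have e1 := ord_rel2 hrel hj V
  have h256 : V.ord (t + 256) = V.ord t :=
    ord_add_of_neg V (ofNat_ne_zero' 256) (ord_ofNat V 256) h0
  have hd := hj.infty V (by omega)
  have : V.ord j = V.ord t := by omega
  rwa [this] at hd

end Level2

/-! ### Level 3 -/

section Level3

variable (hrel : j * t ^ 3 = (t + 27) * (t + 243) ^ 3)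
  (hrel' : (j - 1728) * t ^ 3 = (t ^ 2 - 486 * t - 19683) ^ 2)

omit [Field K] [Algebra K F] in
include hrel in
theorem t_ne_zero3 : t ≠ 0 := by
  rintro rfl
  have h : (27 : F) * (243 : F) ^ 3 ≠ 0 :=
    mul_ne_zero (ofNat_ne_zero' 27) (pow_ne_zero 3 (ofNat_ne_zero' 243))
  apply h
  have e : (27 : F) * (243 : F) ^ 3 = (0 + 27) * (0 + 243) ^ 3 := by ring
  rw [e, ← hrel]
  simp

include hrel in
theorem ord_rel3 (hj : JBranch K N j) (V : Place K F) :
    V.ord j + 3 * V.ord t = V.ord (t + 27) + 3 * V.ord (t + 243) := by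
  have ht0 := t_ne_zero3 hrel
  have hne : (t + 27) * (t + 243) ^ 3 ≠ 0 := by
    rw [← hrel]
    exact mul_ne_zero hj.ne_zero (pow_ne_zero 3 ht0)
  have h := congrArg V.ord hrel
  rw [V.ord_mul hj.ne_zero (pow_ne_zero 3 ht0),
    V.ord_mul (left_ne_zero_of_mul hne) (right_ne_zero_of_mul hne), ord_pow', ord_pow'] at h
  exact_mod_cast h

include hrel hrel' in
theorem ord_rel3' (hj : JBranch K N j) (V : Place K F) :
    V.ord (j - 1728) + 3 * V.ord t = 2 * V.ord (t ^ 2 - 486 * t - 19683) := by
  have ht0 := t_ne_zero3 hrel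
  have h := congrArg V.ord hrel'
  rw [V.ord_mul hj.sub_1728_ne_zero (pow_ne_zero 3 ht0), ord_pow', ord_pow'] at h
  exact_mod_cast h

include hrel hrel' in
/-- level 3: unramified outside `t ∈ {0, -27, ∞}` -/
theorem unr3 (hj : JBranch K N j) (V : Place K F) (h0 : V.ord t = 0) (h27 : V.ord (t + 27) = 0) :
    ∃ Q : K[X], V.ord (aeval t Q) = 1 := by
  have ht0 := t_ne_zero3 hrel
  have e1 := ord_rel3 hrel hj V
  have e2 := ord_rel3' hrel hrel' hj V
  have h243 : 0 ≤ V.ord (t + 243) := ord_add_nonneg V (ord_ofNat V 243) h0.ge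
  obtain ⟨a, ha⟩ := hj.center V (by omega)
  rcases eq_or_ne a 0 with rfl | ha0
  · rw [map_zero, sub_zero] at ha
    have hd := hj.zero V ha
    refine ⟨X + 243, ?_⟩
    have e3 : aeval t (X + 243 : K[X]) = t + 243 := by
      simp only [map_add, map_sub, map_mul, map_pow, aeval_X, map_ofNat]
    rw [e3]
    have hd' : 3 * V.ord (t + 243) ∣ 3 := by
      have : 3 * V.ord (t + 243) = V.ord j := by omega
      rwa [this]
    have := Int.le_of_dvd (by norm_num) hd'
    omega
  rcases eq_or_ne a 1728 with rfl | ha1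
  · rw [map_ofNat] at ha
    have hd := hj.e1728 V ha
    refine ⟨X ^ 2 - 486 * X - 19683, ?_⟩
    have e3 : aeval t (X ^ 2 - 486 * X - 19683 : K[X]) = t ^ 2 - 486 * t - 19683 := by
      simp only [map_add, map_sub, map_mul, map_pow, aeval_X, map_ofNat]
    rw [e3]
    have hd' : 2 * V.ord (t ^ 2 - 486 * t - 19683) ∣ 2 := by
      have : 2 * V.ord (t ^ 2 - 486 * t - 19683) = V.ord (j - 1728) := by omega
      rwa [this]
    have := Int.le_of_dvd (by norm_num) hd'
    omega
  · have h1 := hj.gen a ha0 ha1 V ha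
    refine ⟨(X + 27) * (X + 243) ^ 3 - C a * X ^ 3, ?_⟩
    have e3 : aeval t ((X + 27) * (X + 243) ^ 3 - C a * X ^ 3 : K[X])
        = (j - algebraMap K F a) * t ^ 3 := by
      simp only [map_sub, map_mul, map_pow, map_add, aeval_X, aeval_C, map_ofNat]
      rw [← hrel]
      ring
    rw [e3, V.ord_mul (hj.sub_ne_zero a) (pow_ne_zero 3 ht0), ord_pow', h1, h0]
    norm_num

include hrel in
/-- level 3: over `t = 0` the ramification index divides `N` -/
theorem tame3_zero (hj : JBranch K N j) (V : Place K F) (h0 : 0 < V.ord t) :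
    V.ord t ∣ (N : ℤ) := by
  have e1 := ord_rel3 hrel hj V
  have h27 : V.ord (t + 27) = 0 :=
    ord_add_of_pos V (ofNat_ne_zero' 27) (ord_ofNat V 27) h0
  have h243 : V.ord (t + 243) = 0 :=
    ord_add_of_pos V (ofNat_ne_zero' 243) (ord_ofNat V 243) h0
  have hd := hj.infty V (by omega)
  have : V.ord j = -3 * V.ord t := by omega
  rw [this] at hd
  exact (Dvd.intro_left (-3) rfl).trans hd

include hrel in
/-- level 3: over `t = -27` the ramification index divides `3` -/
theorem tame3_m27 (hj : JBranch K N j) (V : Place K F) (h0 : 0 < V.ord (t + 27)) :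
    V.ord (t + 27) ∣ 3 := by
  have e1 := ord_rel3 hrel hj V
  have h1 : V.ord t = 0 := by
    have := ord_add_of_pos V (neg_ne_zero.mpr (ofNat_ne_zero' 27))
      (by rw [ord_neg']; exact ord_ofNat V 27) h0
    rwa [show t + 27 + -27 = t by ring] at this
  have h2 : V.ord (t + 243) = 0 := by
    have := ord_add_of_pos V (ofNat_ne_zero' 216) (ord_ofNat V 216) h0
    rwa [show t + 27 + 216 = t + 243 by ring] at this
  have hd := hj.zero V (by omega)
  have : V.ord j = V.ord (t + 27) := by omega
  rwa [this] at hd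

include hrel in
/-- level 3: over `t = ∞` the ramification index divides `N` -/
theorem tame3_inf (hj : JBranch K N j) (V : Place K F) (h0 : V.ord t < 0) :
    V.ord t ∣ (N : ℤ) := by
  have e1 := ord_rel3 hrel hj V
  have h27 : V.ord (t + 27) = V.ord t :=
    ord_add_of_neg V (ofNat_ne_zero' 27) (ord_ofNat V 27) h0
  have h243 : V.ord (t + 243) = V.ord t :=
    ord_add_of_neg V (ofNat_ne_zero' 243) (ord_ofNat V 243) h0
  have hd := hj.infty V (by omega)
  have : V.ord j = V.ord t := by omega
  rwa [this] at hd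

end Level3

end H4BR

end
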