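import Mathlib
import Fermat.Agent.S18.Defs
import Fermat.Agent.S24.A2
import Fermat.Agent.S24.A1Deg
import Fermat.Agent.S24.A5
import Fermat.Agent.S24.BDegreeFinal
import Fermat.Agent.S24.BLocalGen
import Fermat.Agent.S24.BLocalEll
import Fermat.Agent.S24.BLocalInf
import Fermat.Agent.S24.BOrbit
import Fermat.Agent.S24.C2

/-!
# S18 (item 75), slice C8 (helper2): branch data of `F_N / ℚ̄(j)` from T-RH

For `F = modularFunctionFieldBar N`, `j = Jbar N`:
* a place with `j ∉ {0, 1728, ∞}` is unramified over `ℚ̄(j)`: `ord_V (j - a) = 1`;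
* `ord_V j ∣ 3`, `ord_V (j - 1728) ∣ 2`, `ord_V j ∣ N` at the poles.
In the interface shape: `H7S18.UnrOutside`, `H7S18.TameAt` with `R = K = ℚ̄`, `S = {0, 1728}`,
`e₀ = 6 N`.
-/

set_option autoImplicit false
set_option linter.style.haveILetI false

noncomputable section

open UpperHalfPlane ModularForm MatrixGroups CongruenceSubgroup AlgebraicCurve IntermediateField

namespace H2C8

open RH24

section Abstract

variable {K F : Type*} [Field K] [Field F] [Algebra K F]

/-- **the ramification index divides the size of a class** of the local uniformisation data -/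
theorem ord_dvd_class (z : F) (hz : z ≠ 0) [FiniteDimensional K⟮z⟯ F]
    {X : Type*} [Finite X] (hdeg : Module.finrank K⟮z⟯ F ≤ Nat.card X) (r : Setoid X)
    (h : HasLocalData K z r) (v : Place K F) (hv : 0 < v.ord z) :
    ∃ x : X, v.ord z ∣ (Nat.card {x' // r x' x} : ℤ) := by
  obtain ⟨E, instE, w, σ, hinj, hagK, hleK, hagz, hltz, H1, H2⟩ := h
  let D : H2LocalData K z X E :=
    { w := w, σ := σ, inj := hinj, agreeK := hagK, leK := hleK, agreez := hagz, ltz := hltz }
  obtain ⟨x, hx⟩ := D.exists_place_eq hz hdeg v hv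
  refine ⟨x, ?_⟩
  have hdvd := D.ord_z_dvd hz x (Nat.card {x' // r x' x}) (H2 x)
  rwa [hx] at hdvd

/-- at `y = a`: the ramification index divides the size of a class -/
theorem ord_sub_dvd_class (y : F) [FiniteDimensional K⟮y⟯ F] (hy : Transcendental K y)
    {X : Type*} [Finite X] (hdeg : Module.finrank K⟮y⟯ F ≤ Nat.card X) (a : K) (r : Setoid X)
    (L : HasLocalData K (y - algebraMap K F a) r) (v : Place K F)
    (hv : 0 < v.ord (y - algebraMap K F a)) :
    ∃ x : X, v.ord (y - algebraMap K F a) ∣ (Nat.card {x' // r x' x} : ℤ) := by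
  have hz := h5a_transcendental_sub_const y hy a
  haveI hfd : FiniteDimensional K⟮y - algebraMap K F a⟯ F := by
    rw [h5a_adjoin_sub_const]; infer_instance
  have hn : Module.finrank K⟮y - algebraMap K F a⟯ F = Module.finrank K⟮y⟯ F := by
    rw [h5a_adjoin_sub_const]
  have hz0 : y - algebraMap K F a ≠ 0 := fun h0 => hz (by rw [h0]; exact isAlgebraic_zero)
  exact ord_dvd_class _ hz0 (by rw [hn]; exact hdeg) r L v hv

/-- at `y = ∞`: the ramification index divides the size of a class -/
theorem ord_inv_dvd_class (y : F) [FiniteDimensional K⟮y⟯ F] (hy : Transcendental K y)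
    {X : Type*} [Finite X] (hdeg : Module.finrank K⟮y⟯ F ≤ Nat.card X) (r : Setoid X)
    (L : HasLocalData K y⁻¹ r) (v : Place K F) (hv : 0 < v.ord y⁻¹) :
    ∃ x : X, v.ord y⁻¹ ∣ (Nat.card {x' // r x' x} : ℤ) := by
  have hz := h5a_transcendental_inv y hy
  haveI hfd : FiniteDimensional K⟮y⁻¹⟯ F := by
    rw [h5a_adjoin_inv]; infer_instance
  have hn : Module.finrank K⟮y⁻¹⟯ F = Module.finrank K⟮y⟯ F := by
    rw [h5a_adjoin_inv]
  have hz0 : y⁻¹ ≠ 0 := fun h0 => hz (by rw [h0]; exact isAlgebraic_zero)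
  exact ord_dvd_class _ hz0 (by rw [hn]; exact hdeg) r L v hv

end Abstract

section Modular

variable (N : ℕ) [NeZero N]

local notation "FN" => ModularCurve.modularFunctionFieldBar N

/-- a place of `F_N` over `j = a`, `a ≠ 0, 1728`, is unramified over `ℚ̄(j)` -/
theorem ord_sub_eq_one (a : Kbar) (h0 : a ≠ 0) (h1 : a ≠ 1728) (V : Place Kbar FN)
    (hV : 0 < V.ord (Jbar N - algebraMap Kbar FN a)) :
    V.ord (Jbar N - algebraMap Kbar FN a) = 1 := by
  haveI := (B_degree N).1
  obtain ⟨x, hx⟩ := ord_sub_dvd_class (Jbar N) (B_transcendental N) (B_degree N).2 a _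
    (B_local_generic N a h0 h1) V hV
  have hc : Nat.card {x' // (⊥ : Setoid (SL(2, ℤ) ⧸ Gamma0 N)) x' x} = 1 := by
    rw [Nat.card_eq_one_iff_unique]
    exact ⟨⟨fun a b => Subtype.ext (a.2.trans b.2.symm)⟩, ⟨⟨x, rfl⟩⟩⟩
  rw [hc] at hx
  have := Int.le_of_dvd one_pos hx
  omega

/-- places over `j = 0`: `e ∣ 3` -/
theorem ord_zero_dvd (V : Place Kbar FN) (hV : 0 < V.ord (Jbar N)) :
    V.ord (Jbar N) ∣ 3 := by
  haveI := (B_degree N).1
  have hV' : 0 < V.ord (Jbar N - algebraMap Kbar FN 0) := by rwa [map_zero, sub_zero]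
  obtain ⟨x, hx⟩ := ord_sub_dvd_class (Jbar N) (B_transcendental N) (B_degree N).2 0 _
    (B_local_zero N) V hV'
  obtain ⟨-, h2, -⟩ := class_card_spec (ModularGroup.S * ModularGroup.T) 3 (by norm_num) x
    (h8_ST_cube_smul N x)
  rw [map_zero, sub_zero] at hx
  exact hx.trans (by exact_mod_cast h2)

/-- places over `j = 1728`: `e ∣ 2` -/
theorem ord_1728_dvd (V : Place Kbar FN)
    (hV : 0 < V.ord (Jbar N - algebraMap Kbar FN 1728)) :
    V.ord (Jbar N - algebraMap Kbar FN 1728) ∣ 2 := by
  haveI := (B_degree N).1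
  obtain ⟨x, hx⟩ := ord_sub_dvd_class (Jbar N) (B_transcendental N) (B_degree N).2 1728 _
    (B_local_1728 N) V hV
  obtain ⟨-, h2, -⟩ := class_card_spec ModularGroup.S 2 (by norm_num) x (h8_S_sq_smul N x)
  exact hx.trans (by exact_mod_cast h2)

/-- places over `j = ∞`: `e ∣ N` -/
theorem ord_infty_dvd (V : Place Kbar FN) (hV : V.ord (Jbar N) < 0) :
    V.ord (Jbar N) ∣ (N : ℤ) := by
  haveI := (B_degree N).1
  have hV' : 0 < V.ord (Jbar N)⁻¹ := by rw [Place.ord_inv]; omega
  obtain ⟨x, hx⟩ := ord_inv_dvd_class (Jbar N) (B_transcendental N) (B_degree N).2 _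
    (B_local_infty N) V hV'
  obtain ⟨-, h2, -⟩ := class_card_spec ModularGroup.T N (Nat.pos_of_ne_zero (NeZero.ne N)) x
    (T_pow_smul N x)
  rw [Place.ord_inv] at hx
  exact (neg_dvd.mp hx).trans (by exact_mod_cast h2)

/-- the branch set `{0, 1728}` of `j` -/
def branchSet : Finset Kbar := {0, 1728}

/-- **C8, finite part**: outside `j = 0, 1728` every place of `F_N` at which `j` is finite is
unramified over `ℚ̄(j)`. -/
theorem unrOutside : H7S18.UnrOutside Kbar Kbar branchSet (Jbar N) := by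
  intro V hV hS
  haveI := (B_degree N).1
  obtain ⟨a, ha⟩ := exists_center (Jbar N) (B_transcendental N) V hV
  have h0 : a ≠ 0 := by
    rintro rfl
    have := hS 0 (by simp [branchSet])
    omega
  have h1 : a ≠ 1728 := by
    rintro rfl
    have := hS 1728 (by simp [branchSet])
    omega
  refine ⟨Polynomial.X - Polynomial.C a, ?_⟩
  rw [map_sub, Polynomial.aeval_X, Polynomial.aeval_C]
  exact ord_sub_eq_one N a h0 h1 V ha

/-- **C8, branch points**: the ramification indices over `j = 0, 1728, ∞` divide `6 N`. -/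
theorem tameAt : H7S18.TameAt Kbar Kbar branchSet (6 * N) (Jbar N) := by
  refine ⟨?_, ?_⟩
  · intro c hc V hV
    simp only [branchSet, Finset.mem_insert, Finset.mem_singleton] at hc
    rcases hc with rfl | rfl
    · have h := ord_zero_dvd N V (by rwa [map_zero, sub_zero] at hV)
      rw [map_zero, sub_zero]
      exact h.trans ⟨2 * N, by push_cast; ring⟩
    · exact (ord_1728_dvd N V hV).trans ⟨3 * N, by push_cast; ring⟩
  · intro V hV
    exact (ord_infty_dvd N V hV).trans ⟨6, by push_cast; ring⟩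

end Modular

end H2C8

end
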