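import Mathlib
import Fermat.Agent.S18.C8Abs_helper4
import Fermat.Agent.S18.C8_helper2
import Fermat.Agent.S18.C9Final_helper4
import Fermat.Agent.S18.DefsD

/-!
# Item 75 (S18), slice C8' (helper4): `H7S18.BranchStatement`

Branch data of `F_N / ℚ̄(t)` for the three base functions `t = j`, `t = h₂` (`2 ∣ N`),
`t = h₃` (`3 ∣ N`), from the branch data of `F_N / ℚ̄(j)` (T-RH, helper2's `H2C8`) and the
Hauptmodul identities (C9).
-/

set_option autoImplicit false
set_option linter.style.haveILetI false

noncomputable section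

namespace H4BR

open RH24 ModularCurve AlgebraicCurve H4HM Polynomial

variable (N : ℕ) [NeZero N]

/-- the branch data of `F_N / ℚ̄(j)` -/
theorem jBranch : JBranch Kbar N (Jbar N) where
  transc := B_transcendental N
  zero := H2C8.ord_zero_dvd N
  e1728 := fun V hV => by
    have := H2C8.ord_1728_dvd N V (by rwa [map_ofNat])
    rwa [map_ofNat] at this
  infty := H2C8.ord_infty_dvd N
  gen := fun a h0 h1 V hV => H2C8.ord_sub_eq_one N a h0 h1 V hV
  center := fun V hV => by
    haveI := (B_degree N).1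
    exact exists_center (Jbar N) (B_transcendental N) V hV

instance charZero_FK : CharZero (H7S18.FK Kbar N) :=
  charZero_of_injective_algebraMap (algebraMap Kbar (H7S18.FK Kbar N)).injective

theorem coe_injective_FK :
    Function.Injective (algebraMap (H7S18.FK Kbar N) (LaurentSeries Kbar)) :=
  (algebraMap (H7S18.FK Kbar N) (LaurentSeries Kbar)).injective

theorem algebraMap_FK (x : H7S18.FK Kbar N) :
    algebraMap (H7S18.FK Kbar N) (LaurentSeries Kbar) x = (x : LaurentSeries Kbar) := rfl

theorem coeffEmb_jq : coeffEmb Kbar jq = jqModC Kbar := map_jqModC (algebraMap ℚ Kbar)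

theorem coeffEmb_t2 : coeffEmb Kbar (t2 ℚ) = t2 Kbar := coeffMap_t2 (algebraMap ℚ Kbar)

theorem coeffEmb_t3 : coeffEmb Kbar (t3 ℚ) = t3 Kbar := coeffMap_t3 (algebraMap ℚ Kbar)

section Rel

variable {N}
variable (t : H7S18.FK Kbar N)

theorem rel2 (ht : (t : LaurentSeries Kbar) = coeffEmb Kbar (t2 ℚ)) :
    Jbar N * t ^ 2 = (t + 256) ^ 3 := by
  apply coe_injective_FK N
  simp only [map_mul, map_pow, map_add, map_ofNat, algebraMap_FK]
  rw [ht, coe_Jbar, coeffEmb_jq, coeffEmb_t2]
  exact hm2 Kbar

theorem rel2' (ht : (t : LaurentSeries Kbar) = coeffEmb Kbar (t2 ℚ)) :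
    (Jbar N - 1728) * t ^ 2 = (t - 512) ^ 2 * (t + 64) := by
  apply coe_injective_FK N
  simp only [map_mul, map_pow, map_add, map_sub, map_ofNat, algebraMap_FK]
  rw [ht, coe_Jbar, coeffEmb_jq, coeffEmb_t2]
  exact hm2' Kbar

theorem rel3 (ht : (t : LaurentSeries Kbar) = coeffEmb Kbar (t3 ℚ)) :
    Jbar N * t ^ 3 = (t + 27) * (t + 243) ^ 3 := by
  apply coe_injective_FK N
  simp only [map_mul, map_pow, map_add, map_ofNat, algebraMap_FK]
  rw [ht, coe_Jbar, coeffEmb_jq, coeffEmb_t3]
  exact hm3 Kbar

theorem rel3' (ht : (t : LaurentSeries Kbar) = coeffEmb Kbar (t3 ℚ)) :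
    (Jbar N - 1728) * t ^ 3 = (t ^ 2 - 486 * t - 19683) ^ 2 := by
  apply coe_injective_FK N
  simp only [map_mul, map_pow, map_add, map_sub, map_ofNat, algebraMap_FK]
  rw [ht, coe_Jbar, coeffEmb_jq, coeffEmb_t3]
  exact hm3' Kbar

end Rel

/-- a base function of kind 3 is `t₃` -/
theorem eq_t3_of_isBase {t₀ : LaurentSeries ℚ} (h : H7S18.IsBase 3 t₀) : t₀ = t3 ℚ := by
  rcases h with ⟨h, -⟩ | ⟨h, -⟩ | ⟨-, h2, h1⟩
  · omega
  · omega
  · rw [← t3_sq_eq, sq_eq_sq_iff_eq_or_eq_neg] at h2
    rcases h2 with h2 | h2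
    · exact h2
    · exfalso
      rw [h2, HahnSeries.coeff_neg, t3_coeff_neg_one] at h1
      norm_num at h1

theorem eq_t2_of_isBase {t₀ : LaurentSeries ℚ} (h : H7S18.IsBase 2 t₀) : t₀ = t2 ℚ := by
  rcases h with ⟨h, -⟩ | ⟨-, h⟩ | ⟨h, -⟩
  · omega
  · rw [h, modularUnitSeries_two]
  · omega

theorem eq_jq_of_isBase {t₀ : LaurentSeries ℚ} (h : H7S18.IsBase 1 t₀) : t₀ = jq := by
  rcases h with ⟨-, h⟩ | ⟨h, -⟩ | ⟨h, -⟩
  · exact h
  · omega
  · omega

/-- **C8'**: the branch statement of route Y', for the three kinds of base functions. -/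
theorem branchStatement : H7S18.BranchStatement := by
  intro N _ i hi t₀ ht₀ t htc
  have hJ := jBranch N
  rcases hi with rfl | ⟨rfl, -⟩ | ⟨rfl, -⟩
  · -- `t = j`
    have et : t = Jbar N := Subtype.ext (by rw [htc, eq_jq_of_isBase ht₀]; rfl)
    subst et
    have hS : H7S18.branchSet 1 = {0, 1728} := by rw [H7S18.branchSet, if_pos rfl]
    have hI : H7S18.branchIndex 1 N = 6 * N := by rw [H7S18.branchIndex, if_pos rfl]
    rw [hS, hI]
    refine ⟨?_, ?_, ?_⟩
    · intro V hV hc
      obtain ⟨a, ha⟩ := hJ.center V hV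
      have h0 : a ≠ 0 := by
        rintro rfl
        have := hc 0 (by simp)
        rw [map_zero] at this ha
        omega
      have h1 : a ≠ 1728 := by
        rintro rfl
        have := hc 1728 (by simp)
        rw [map_ofNat] at this ha
        omega
      refine ⟨X - C a, ?_⟩
      rw [map_sub, aeval_X, aeval_C]
      exact hJ.gen a h0 h1 V ha
    · intro c hc V hV
      simp only [Finset.mem_insert, Finset.mem_singleton] at hc
      rcases hc with rfl | rfl
      · rw [map_zero, sub_zero] at hV ⊢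
        exact (hJ.zero V hV).trans ⟨2 * N, by push_cast; ring⟩
      · rw [map_ofNat] at hV ⊢
        exact (hJ.e1728 V hV).trans ⟨3 * N, by push_cast; ring⟩
    · intro V hV
      exact (hJ.infty V hV).trans ⟨6, by push_cast; ring⟩
  · -- `t = h₂`
    have ht : (t : LaurentSeries Kbar) = coeffEmb Kbar (t2 ℚ) := by
      rw [htc, eq_t2_of_isBase ht₀]
    have r := rel2 t ht
    have r' := rel2' t ht
    have hS : H7S18.branchSet 2 = {0, -64} := by
      rw [H7S18.branchSet, if_neg (by norm_num), if_pos rfl]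
    have hI : H7S18.branchIndex 2 N = 2 * N := by
      rw [H7S18.branchIndex, if_neg (by norm_num), if_pos rfl]
    have e64 : t - algebraMap ℤ (H7S18.FK Kbar N) (-64) = t + 64 := by
      rw [map_neg, map_ofNat, sub_neg_eq_add]
    rw [hS, hI]
    refine ⟨?_, ?_, ?_⟩
    · intro V hV hc
      have h0 : V.ord t = 0 := by
        have := hc 0 (by simp)
        rw [map_zero, sub_zero] at this
        omega
      have h64 : V.ord (t + 64) = 0 := by
        have := hc (-64) (by simp)
        rw [e64] at this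
        have h' : 0 ≤ V.ord (t + 64) := ord_add_nonneg V (ord_ofNat V 64) hV
        omega
      exact unr2 r r' hJ V h0 h64
    · intro c hc V hV
      simp only [Finset.mem_insert, Finset.mem_singleton] at hc
      rcases hc with rfl | rfl
      · rw [map_zero, sub_zero] at hV ⊢
        exact (tame2_zero r hJ V hV).trans ⟨2, by push_cast; ring⟩
      · rw [e64] at hV ⊢
        exact (tame2_m64 r r' hJ V hV).trans ⟨N, by push_cast; ring⟩
    · intro V hV
      exact (tame2_inf r hJ V hV).trans ⟨2, by push_cast; ring⟩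
  · -- `t = h₃`
    have ht : (t : LaurentSeries Kbar) = coeffEmb Kbar (t3 ℚ) := by
      rw [htc, eq_t3_of_isBase ht₀]
    have r := rel3 t ht
    have r' := rel3' t ht
    have hS : H7S18.branchSet 3 = {0, -27} := by
      rw [H7S18.branchSet, if_neg (by norm_num), if_neg (by norm_num)]
    have hI : H7S18.branchIndex 3 N = 3 * N := by
      rw [H7S18.branchIndex, if_neg (by norm_num), if_neg (by norm_num)]
    have e27 : t - algebraMap ℤ (H7S18.FK Kbar N) (-27) = t + 27 := by
      rw [map_neg, map_ofNat, sub_neg_eq_add]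
    rw [hS, hI]
    refine ⟨?_, ?_, ?_⟩
    · intro V hV hc
      have h0 : V.ord t = 0 := by
        have := hc 0 (by simp)
        rw [map_zero, sub_zero] at this
        omega
      have h27 : V.ord (t + 27) = 0 := by
        have := hc (-27) (by simp)
        rw [e27] at this
        have h' : 0 ≤ V.ord (t + 27) := ord_add_nonneg V (ord_ofNat V 27) hV
        omega
      exact unr3 r r' hJ V h0 h27
    · intro c hc V hV
      simp only [Finset.mem_insert, Finset.mem_singleton] at hc
      rcases hc with rfl | rfl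
      · rw [map_zero, sub_zero] at hV ⊢
        exact (tame3_zero r hJ V hV).trans ⟨3, by push_cast; ring⟩
      · rw [e27] at hV ⊢
        exact (tame3_m27 r hJ V hV).trans ⟨N, by push_cast; ring⟩
    · intro V hV
      exact (tame3_inf r hJ V hV).trans ⟨3, by push_cast; ring⟩

end H4BR

end
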