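/-
S18 (item 75), route Y', slice C4a (helper21): the chart statement from the local lemmas
C2 (purity, no branch point), C3 (Abhyankar, tame branch point) and the gluing C2'.
-/
import Mathlib
import Fermat.Agent.S18.Defs
import Fermat.Agent.S18.Glue_helper21

set_option autoImplicit false

open Polynomial IntermediateField AlgebraicCurve

namespace H21S18

open H7S18

/-- the element `t - c` of the chart ring `R[t]` -/
def tSub {R : Type} [CommRing R] {E : Type} [Field E] [Algebra R E] (t : E) (c : R) :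
    Algebra.adjoin R {t} :=
  ⟨t - algebraMap R E c,
    Subalgebra.sub_mem _ (Algebra.subset_adjoin (Set.mem_singleton t))
      (Subalgebra.algebraMap_mem _ c)⟩

@[simp] theorem coe_tSub {R : Type} [CommRing R] {E : Type} [Field E] [Algebra R E] (t : E)
    (c : R) : ((tSub t c : Algebra.adjoin R {t}) : E) = t - algebraMap R E c := rfl

/-- two branch points that are distinct mod `ϖ` do not lie on the same maximal ideal -/
theorem not_both_mem {R : Type} [CommRing R] {E : Type} [Field E] [Algebra R E] (t : E)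
    (𝔪 : Ideal (Algebra.adjoin R {t})) (h𝔪 : 𝔪.IsMaximal) {c c' : R} (hu : IsUnit (c - c'))
    (h : tSub t c ∈ 𝔪) (h' : tSub t c' ∈ 𝔪) : False := by
  have hsub : tSub t c' - tSub t c ∈ 𝔪 := 𝔪.sub_mem h' h
  have e : tSub t c' - tSub t c = algebraMap R (Algebra.adjoin R {t}) (c - c') := by
    apply Subtype.ext
    simp only [AddSubgroupClass.coe_sub, coe_tSub, Subalgebra.coe_algebraMap, map_sub]
    ring
  rw [e] at hsub
  exact h𝔪.ne_top (Ideal.eq_top_of_isUnit_mem _ hsub (hu.map _))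

end H21S18

/-- **C4a (chart statement)** from C2 and C3 (and the landed gluing C2'). -/
theorem h21s18_chartIdem (hC2 : H7S18.LocalIdemUnrStatement)
    (hC3 : H7S18.LocalIdemTameStatement) : H7S18.ChartIdemStatement := by
  intro R _ _ _ K _ _ _ _ E _ _ _ _ ϖ hϖ t ht hfin hunr S hS e₀ he₀ hζ hout htame x hx hidem
  refine h21s18_glue R K E ϖ hϖ t ht hfin x hx (fun 𝔪 h𝔪 hϖ𝔪 => ?_)
  by_cases hcase : ∃ c ∈ S, H21S18.tSub t c ∈ 𝔪
  · obtain ⟨c, hcS, hc𝔪⟩ := hcase
    refine hC3 R K E ϖ hϖ t ht hfin hunr 𝔪 h𝔪 hϖ𝔪 c ?_ e₀ he₀ hζ ?_ (htame c hcS) x hx hidem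
    · intro s hs
      have : s = H21S18.tSub t c := Subtype.ext hs
      rw [this]
      exact hc𝔪
    · intro V hV hVc
      refine hout V hV.1 (fun c' hc'S => ?_)
      by_cases hcc : c' = c
      · rw [hcc]
        exact hVc
      · by_contra hpos
        rw [not_le] at hpos
        have hmem : H21S18.tSub t c' ∈ 𝔪 := hV.2 (H21S18.tSub t c') hpos
        exact H21S18.not_both_mem t 𝔪 h𝔪 (hS c hcS c' hc'S (Ne.symm hcc)) hc𝔪 hmem
  · refine hC2 R K E ϖ hϖ t ht hfin hunr 𝔪 h𝔪 hϖ𝔪 ?_ x hx hidem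
    intro V hV
    refine hout V hV.1 (fun c hcS => ?_)
    by_contra hpos
    rw [not_le] at hpos
    exact hcase ⟨c, hcS, hV.2 (H21S18.tSub t c) hpos⟩
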