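/-
S18 (item 75), route Y', slice C4b, part 1 (helper21): change of chart `t ↔ t⁻¹`.
`GInt`, `ModPi`, `GBase` do not depend on the chart; integrality over `R[t⁻¹]` becomes
integrality over `R[t]` after multiplication by a power of `t`.
-/
import Mathlib
import Fermat.Agent.S18.Defs
import Fermat.Agent.S18.Glue_helper21

set_option autoImplicit false

open Polynomial IntermediateField AlgebraicCurve

namespace H21S18

open H7S18

section chart

variable {R : Type} [CommRing R] [IsDomain R] {E : Type} [Field E] [Algebra R E]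

/-- `t^N P(t⁻¹) = (reflect N P)(t)` -/
theorem pow_mul_aeval_inv {t : E} (ht0 : t ≠ 0) (P : R[X]) {N : ℕ} (hN : P.natDegree ≤ N) :
    t ^ N * Polynomial.aeval t⁻¹ P = Polynomial.aeval t (Polynomial.reflect N P) := by
  letI : Invertible t := invertibleOfNonzero ht0
  have h := Polynomial.eval₂_reflect_mul_pow (algebraMap R E) t N (Polynomial.reflect N P)
    (by
      refine (Polynomial.natDegree_reflect_le).trans ?_
      exact max_le le_rfl hN)
  rw [Polynomial.reflect_reflect, invOf_eq_inv] at h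
  rw [Polynomial.aeval_def, Polynomial.aeval_def, ← h]
  ring

theorem C_dvd_reflect_iff (ϖ : R) (P : R[X]) (N : ℕ) :
    Polynomial.C ϖ ∣ Polynomial.reflect N P ↔ Polynomial.C ϖ ∣ P := by
  rw [Polynomial.C_dvd_iff_dvd_coeff, Polynomial.C_dvd_iff_dvd_coeff]
  constructor
  · intro h i
    have := h (Polynomial.revAt N i)
    rwa [Polynomial.coeff_reflect, Polynomial.revAt_invol] at this
  · intro h i
    rw [Polynomial.coeff_reflect]
    exact h _

theorem transcendental_inv {A : Type} [CommRing A] [Algebra A E] {t : E}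
    (ht : Transcendental A t) : Transcendental A t⁻¹ := by
  intro h
  exact ht (by simpa using h.inv)

theorem ne_zero_of_transcendental {A : Type} [CommRing A] [Nontrivial A] [Algebra A E] {t : E}
    (ht : Transcendental A t) : t ≠ 0 := by
  rintro rfl
  exact ht isAlgebraic_zero

theorem isGaussUnit_inv_to {ϖ : R} {t : E} (ht : Transcendental R t) {s : E}
    (hs : IsGaussUnit R ϖ t⁻¹ s) :
    ∃ N₀ : ℕ, ∀ N, N₀ ≤ N → IsGaussUnit R ϖ t (t ^ N * s) := by
  have ht0 := ne_zero_of_transcendental ht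
  obtain ⟨P, rfl⟩ := exists_poly_of_mem hs.1
  refine ⟨P.natDegree, fun N hN => ?_⟩
  rw [pow_mul_aeval_inv ht0 P hN, isGaussUnit_aeval_iff ht, C_dvd_reflect_iff]
  exact (isGaussUnit_aeval_iff (transcendental_inv ht) P).mp hs

theorem mem_inv_to {t : E} (ht0 : t ≠ 0) {a : E} (ha : a ∈ Algebra.adjoin R {t⁻¹}) :
    ∃ N₀ : ℕ, ∀ N, N₀ ≤ N → t ^ N * a ∈ Algebra.adjoin R {t} := by
  obtain ⟨P, rfl⟩ := exists_poly_of_mem ha
  refine ⟨P.natDegree, fun N hN => ?_⟩
  rw [pow_mul_aeval_inv ht0 P hN]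
  exact aeval_mem t _

theorem t_mem (t : E) : t ∈ Algebra.adjoin R {t} := Algebra.subset_adjoin (Set.mem_singleton t)

theorem t_pow_mem (t : E) (n : ℕ) : t ^ n ∈ Algebra.adjoin R {t} :=
  Subalgebra.pow_mem _ (t_mem t) n

/-- integrality over `R[t⁻¹]` becomes integrality over `R[t]` after scaling by a power of `t` -/
theorem isInt_inv_to {t : E} (ht0 : t ≠ 0) {y : E} (hy : IsInt R t⁻¹ y) :
    ∃ d : ℕ, ∀ j, d ≤ j → IsInt R t (t ^ j * y) := by
  obtain ⟨p, hp, hpy⟩ := hy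
  have hc : ∀ i : ℕ, ∃ N₀ : ℕ, ∀ N, N₀ ≤ N →
      t ^ N * ((p.coeff i : Algebra.adjoin R {t⁻¹}) : E) ∈ Algebra.adjoin R {t} :=
    fun i => mem_inv_to ht0 (p.coeff i).2
  choose N₀ hN₀ using hc
  refine ⟨(Finset.range p.natDegree).sup N₀, fun j hj => ?_⟩
  set n := p.natDegree with hn
  have hmem : ∀ i, i < n →
      t ^ (j * (n - i)) * ((p.coeff i : Algebra.adjoin R {t⁻¹}) : E) ∈ Algebra.adjoin R {t} := by
    intro i hi
    apply hN₀
    calc N₀ i ≤ (Finset.range n).sup N₀ := Finset.le_sup (Finset.mem_range.mpr hi)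
      _ ≤ j := hj
      _ ≤ j * (n - i) := Nat.le_mul_of_pos_right _ (by omega)
  set c : ℕ → Algebra.adjoin R {t} := fun i =>
    if hi : i < n then ⟨_, hmem i hi⟩ else 0 with hcdef
  have hcval : ∀ i, i < n →
      ((c i : Algebra.adjoin R {t}) : E)
        = t ^ (j * (n - i)) * ((p.coeff i : Algebra.adjoin R {t⁻¹}) : E) := by
    intro i hi
    simp only [hcdef, dif_pos hi]
  set q : (Algebra.adjoin R {t})[X] :=
    Polynomial.X ^ n + ∑ i ∈ Finset.range n, Polynomial.C (c i) * Polynomial.X ^ i with hq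
  have hdeg : (∑ i ∈ Finset.range n, Polynomial.C (c i) * Polynomial.X ^ i).degree
      < ((n : ℕ) : WithBot ℕ) := by
    rw [Polynomial.degree_lt_iff_coeff_zero]
    intro m hm
    rw [Polynomial.finset_sum_coeff]
    refine Finset.sum_eq_zero fun i hi => ?_
    rw [Polynomial.coeff_C_mul_X_pow, if_neg]
    have := Finset.mem_range.mp hi
    omega
  have hpsum := hp.as_sum
  have hpy' : y ^ n + ∑ i ∈ Finset.range n,
      ((p.coeff i : Algebra.adjoin R {t⁻¹}) : E) * y ^ i = 0 := by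
    have h1 := hpy
    rw [hpsum] at h1
    simp only [Polynomial.eval₂_add, Polynomial.eval₂_pow, Polynomial.eval₂_X,
      Polynomial.eval₂_finsetSum, Polynomial.eval₂_mul, Polynomial.eval₂_C] at h1
    exact h1
  show IsIntegral (Algebra.adjoin R {t}) (t ^ j * y)
  refine ⟨q, Polynomial.monic_X_pow_add hdeg, ?_⟩
  rw [hq]
  simp only [Polynomial.eval₂_add, Polynomial.eval₂_pow, Polynomial.eval₂_X,
    Polynomial.eval₂_finsetSum, Polynomial.eval₂_mul, Polynomial.eval₂_C]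
  have hterm : ∀ i ∈ Finset.range n,
      (algebraMap (Algebra.adjoin R {t}) E) (c i) * (t ^ j * y) ^ i
        = t ^ (j * n) * (((p.coeff i : Algebra.adjoin R {t⁻¹}) : E) * y ^ i) := by
    intro i hi
    have hi' := Finset.mem_range.mp hi
    have e1 : (algebraMap (Algebra.adjoin R {t}) E) (c i) = ((c i : Algebra.adjoin R {t}) : E) :=
      rfl
    rw [e1, hcval i hi', mul_pow, ← pow_mul]
    have e2 : j * n = j * (n - i) + j * i := by
      rw [← Nat.mul_add, Nat.sub_add_cancel hi'.le]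
    rw [e2, pow_add]
    ring
  rw [Finset.sum_congr rfl hterm, ← Finset.mul_sum, mul_pow, ← pow_mul, ← mul_add, hpy',
    mul_zero]

theorem gInt_inv_to {ϖ : R} (hϖ : Prime ϖ) {t : E} (ht : Transcendental R t) {x : E}
    (hx : GInt R ϖ t⁻¹ x) : GInt R ϖ t x := by
  have ht0 := ne_zero_of_transcendental ht
  obtain ⟨s, hs, hsx⟩ := hx
  obtain ⟨N₀, hN₀⟩ := isGaussUnit_inv_to ht hs
  obtain ⟨d, hd⟩ := isInt_inv_to ht0 hsx
  refine ⟨t ^ (max N₀ d) * s, hN₀ _ (le_max_left _ _), ?_⟩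
  rw [mul_assoc]
  exact hd _ (le_max_right _ _)

theorem gInt_inv_iff {ϖ : R} (hϖ : Prime ϖ) {t : E} (ht : Transcendental R t) {x : E} :
    GInt R ϖ t⁻¹ x ↔ GInt R ϖ t x := by
  refine ⟨gInt_inv_to hϖ ht, fun h => ?_⟩
  have h' : GInt R ϖ (t⁻¹)⁻¹ x := by rwa [inv_inv]
  exact gInt_inv_to hϖ (transcendental_inv ht) h'

theorem modPi_inv_iff {ϖ : R} (hϖ : Prime ϖ) {t : E} (ht : Transcendental R t) {x y : E} :
    ModPi R ϖ t⁻¹ x y ↔ ModPi R ϖ t x y := by
  constructor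
  · rintro ⟨z, hz, e⟩
    exact ⟨z, (gInt_inv_iff hϖ ht).mp hz, e⟩
  · rintro ⟨z, hz, e⟩
    exact ⟨z, (gInt_inv_iff hϖ ht).mpr hz, e⟩

theorem gBase_inv_to {ϖ : R} {t : E} (ht : Transcendental R t) {c : E}
    (hc : GBase R ϖ t⁻¹ c) : GBase R ϖ t c := by
  have ht0 := ne_zero_of_transcendental ht
  obtain ⟨s, a, hs, ha, e⟩ := hc
  obtain ⟨N₀, hN₀⟩ := isGaussUnit_inv_to ht hs
  obtain ⟨N₁, hN₁⟩ := mem_inv_to (R := R) ht0 ha
  refine ⟨t ^ (max N₀ N₁) * s, t ^ (max N₀ N₁) * a, hN₀ _ (le_max_left _ _),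
    hN₁ _ (le_max_right _ _), ?_⟩
  rw [mul_assoc, e]

theorem gBase_inv_iff {ϖ : R} {t : E} (ht : Transcendental R t) {c : E} :
    GBase R ϖ t⁻¹ c ↔ GBase R ϖ t c := by
  refine ⟨gBase_inv_to ht, fun h => ?_⟩
  have h' : GBase R ϖ (t⁻¹)⁻¹ c := by rwa [inv_inv]
  exact gBase_inv_to (transcendental_inv ht) h'

theorem gBase_mul_of_mem {ϖ : R} {t : E} {r c : E} (hr : r ∈ Algebra.adjoin R {t})
    (hc : GBase R ϖ t c) : GBase R ϖ t (r * c) := by
  obtain ⟨s, a, hs, ha, e⟩ := hc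
  refine ⟨s, r * a, hs, Subalgebra.mul_mem _ hr ha, ?_⟩
  rw [← e]
  ring

end chart

end H21S18
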