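/-
S18 (item 75), route Y', slice C4b (helper21): the generic theorem
`ConnectedStatement` from C1 (connectedness lemma CL) and the chart statement C4a,
applied in the two charts `t` and `t⁻¹`.
-/
import Mathlib
import Fermat.Agent.S18.Defs
import Fermat.Agent.S18.Glue_helper21
import Fermat.Agent.S18.ChartChange_helper21
import Fermat.Agent.S24.PlaceBasic

set_option autoImplicit false

open Polynomial IntermediateField AlgebraicCurve

namespace H21S18

open H7S18

section fields

variable {K : Type} [Field K] {E : Type} [Field E] [Algebra K E]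

theorem adjoin_inv_eq (t : E) : K⟮t⁻¹⟯ = K⟮t⟯ := by
  apply le_antisymm
  · rw [IntermediateField.adjoin_simple_le_iff]
    exact inv_mem (IntermediateField.mem_adjoin_simple_self K t)
  · rw [IntermediateField.adjoin_simple_le_iff]
    have := inv_mem (IntermediateField.mem_adjoin_simple_self K t⁻¹)
    rwa [inv_inv] at this

theorem trace_transport {F₁ F₂ : IntermediateField K E} (h : F₁ = F₂) (z : E) :
    algebraMap F₁ E (Algebra.trace F₁ E z) = algebraMap F₂ E (Algebra.trace F₂ E z) := by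
  subst h
  rfl

theorem finiteDimensional_transport {F₁ F₂ : IntermediateField K E} (h : F₁ = F₂)
    (hfin : FiniteDimensional F₁ E) : FiniteDimensional F₂ E := by
  subst h
  exact hfin

/-- the trace is `K(t)`-linear: scaling by a power of `t` -/
theorem trace_pow_mul (t : E) (d : ℕ) (z : E) :
    algebraMap K⟮t⟯ E (Algebra.trace K⟮t⟯ E (t ^ d * z))
      = t ^ d * algebraMap K⟮t⟯ E (Algebra.trace K⟮t⟯ E z) := by
  set τ : K⟮t⟯ := ⟨t, IntermediateField.mem_adjoin_simple_self K t⟩ with hτ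
  have h1 : t ^ d * z = (τ ^ d) • z := by
    rw [Algebra.smul_def, map_pow]
    rfl
  rw [h1, map_smul, smul_eq_mul, map_mul, map_pow]
  rfl

end fields

section transfer

variable {R : Type} [CommRing R] [IsDomain R]
  {K : Type} [Field K] [Algebra R K] [IsFractionRing R K]
  {E : Type} [Field E] [Algebra K E] [Algebra R E] [IsScalarTower R K E]

/-- `UnrGauss` does not depend on the chart -/
theorem unrGauss_inv {ϖ : R} (hϖ : Prime ϖ) {t : E} (ht : Transcendental R t)
    (h : UnrGauss R K ϖ t) : UnrGauss R K ϖ t⁻¹ := by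
  have ht0 := ne_zero_of_transcendental ht
  intro y hy
  rw [gInt_inv_iff hϖ ht]
  refine h y (fun m hm => ?_)
  have hm' : IsInt R (t⁻¹)⁻¹ m := by rwa [inv_inv]
  obtain ⟨d, hd⟩ := isInt_inv_to (inv_ne_zero ht0) hm'
  have h1 := hy _ (hd d le_rfl)
  rw [trace_transport (adjoin_inv_eq (K := K) t), gBase_inv_iff ht] at h1
  have e1 : y * (t⁻¹ ^ d * m) = t⁻¹ ^ d * (y * m) := by ring
  have e2 : algebraMap K⟮t⟯ E (Algebra.trace K⟮t⟯ E (y * m))
      = t ^ d * algebraMap K⟮t⟯ E (Algebra.trace K⟮t⟯ E (t⁻¹ ^ d * (y * m))) := by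
    rw [← trace_pow_mul]
    congr 2
    rw [← mul_assoc, ← mul_pow, mul_inv_cancel₀ ht0, one_pow, one_mul]
  rw [e2]
  rw [e1] at h1
  exact gBase_mul_of_mem (t_pow_mem t d) h1

/-- the inverse of a unit of `R` in `E` -/
theorem algebraMap_ringInverse {c : R} (hc : IsUnit c) :
    algebraMap R E (Ring.inverse c) = (algebraMap R E c)⁻¹ := by
  obtain ⟨u, rfl⟩ := hc
  rw [Ring.inverse_unit]
  have h : algebraMap R E (u : R) * algebraMap R E ((u⁻¹ : Rˣ) : R) = 1 := by
    rw [← map_mul, Units.mul_inv, map_one]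
  exact eq_inv_of_mul_eq_one_right h

theorem algebraMap_ne_zero_of_isUnit {c : R} (hc : IsUnit c) : algebraMap R E c ≠ 0 :=
  (hc.map (algebraMap R E)).ne_zero

theorem ord_algebraMap_R (V : Place K E) (c : R) : V.ord (algebraMap R E c) = 0 := by
  rw [IsScalarTower.algebraMap_apply R K E]
  exact RH24.h20_ord_algebraMap V _

theorem sub_ne_zero_of_transcendental {t : E} (ht : Transcendental R t) (c : R) :
    t - algebraMap R E c ≠ 0 := by
  intro h
  apply ht
  rw [sub_eq_zero.mp h]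
  exact isAlgebraic_algebraMap c

/-- `t - c = -c t (t⁻¹ - c⁻¹)`: orders at places where `t` is a unit -/
theorem ord_sub_eq_of_ord_eq_zero (V : Place K E) {t : E} (ht : Transcendental R t) {c : R}
    (hc : IsUnit c) (hVt : V.ord t = 0) :
    V.ord (t - algebraMap R E c) = V.ord (t⁻¹ - algebraMap R E (Ring.inverse c)) := by
  have ht0 := ne_zero_of_transcendental ht
  have hc0 := algebraMap_ne_zero_of_isUnit (E := E) hc
  have hne : t⁻¹ - algebraMap R E (Ring.inverse c) ≠ 0 := by
    have := sub_ne_zero_of_transcendental (transcendental_inv ht) (Ring.inverse c)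
    exact this
  have e : t - algebraMap R E c
      = (-(algebraMap R E c) * t) * (t⁻¹ - algebraMap R E (Ring.inverse c)) := by
    rw [algebraMap_ringInverse hc]
    field_simp
    ring
  have hct : -(algebraMap R E c) * t ≠ 0 := mul_ne_zero (neg_ne_zero.mpr hc0) ht0
  rw [e, V.ord_mul hct hne, V.ord_mul (neg_ne_zero.mpr hc0) ht0, hVt]
  have : V.ord (-(algebraMap R E c)) = 0 := by
    rw [← map_neg]
    exact ord_algebraMap_R V _
  rw [this]
  ring

open Classical in
/-- the branch set in the chart `t⁻¹` -/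
noncomputable def invBranch (S : Finset R) : Finset R := insert 0 (S.image Ring.inverse)

theorem mem_invBranch {S : Finset R} {a : R} :
    a ∈ invBranch S ↔ a = 0 ∨ ∃ c ∈ S, Ring.inverse c = a := by
  classical
  simp [invBranch]

theorem invBranch_cases {S : Finset R} (hS0 : ∀ c ∈ S, c ≠ 0 → IsUnit c) {a : R}
    (ha : a ∈ invBranch S) : a = 0 ∨ ∃ c ∈ S, IsUnit c ∧ Ring.inverse c = a := by
  rcases mem_invBranch.mp ha with h | ⟨c, hc, rfl⟩
  · exact Or.inl h
  · by_cases hc0 : c = 0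
    · left
      rw [hc0, Ring.inverse_zero]
    · exact Or.inr ⟨c, hc, hS0 c hc hc0, rfl⟩

theorem isUnit_ringInverse {c : R} (hc : IsUnit c) : IsUnit (Ring.inverse c) := by
  obtain ⟨u, rfl⟩ := hc
  rw [Ring.inverse_unit]
  exact (u⁻¹).isUnit

theorem invBranch_pairwise {S : Finset R}
    (hS : ∀ c ∈ S, ∀ c' ∈ S, c ≠ c' → IsUnit (c - c'))
    (hS0 : ∀ c ∈ S, c ≠ 0 → IsUnit c) :
    ∀ a ∈ invBranch S, ∀ b ∈ invBranch S, a ≠ b → IsUnit (a - b) := by
  intro a ha b hb hab
  rcases invBranch_cases hS0 ha with rfl | ⟨c, hc, hcu, rfl⟩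
  · rcases invBranch_cases hS0 hb with rfl | ⟨c', hc', hcu', rfl⟩
    · exact absurd rfl hab
    · rw [zero_sub]
      exact (isUnit_ringInverse hcu').neg
  · rcases invBranch_cases hS0 hb with rfl | ⟨c', hc', hcu', rfl⟩
    · rw [sub_zero]
      exact isUnit_ringInverse hcu
    · have hne : c ≠ c' := fun h => hab (by rw [h])
      have hu := hS c' hc' c hc (Ne.symm hne)
      obtain ⟨u, rfl⟩ := hcu
      obtain ⟨u', rfl⟩ := hcu'
      rw [Ring.inverse_unit, Ring.inverse_unit]
      have e : ((u⁻¹ : Rˣ) : R) - ((u'⁻¹ : Rˣ) : R)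
          = ((u⁻¹ : Rˣ) : R) * ((u'⁻¹ : Rˣ) : R) * ((u' : R) - (u : R)) := by
        have h1 : ((u⁻¹ : Rˣ) : R) * (u : R) = 1 := Units.inv_mul u
        have h2 : ((u'⁻¹ : Rˣ) : R) * (u' : R) = 1 := Units.inv_mul u'
        linear_combination (-(u⁻¹ : Rˣ) : R) * h2 + ((u'⁻¹ : Rˣ) : R) * h1
      rw [e]
      exact ((u⁻¹).isUnit.mul (u'⁻¹).isUnit).mul hu

theorem unrOutside_inv {t : E} (ht : Transcendental R t) (htK : Transcendental K t)
    {S : Finset R} (hS0 : ∀ c ∈ S, c ≠ 0 → IsUnit c) (h : UnrOutside R K S t) :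
    UnrOutside R K (invBranch S) t⁻¹ := by
  have ht0 := ne_zero_of_transcendental ht
  intro V hV hVS
  have h0 : V.ord t⁻¹ ≤ 0 := by
    have := hVS 0 (mem_invBranch.mpr (Or.inl rfl))
    rwa [map_zero, sub_zero] at this
  have hVt' : V.ord t⁻¹ = 0 := le_antisymm h0 hV
  have hVt : V.ord t = 0 := by
    rw [V.ord_inv] at hVt'
    omega
  obtain ⟨Q, hQ⟩ := h V hVt.ge (fun c hc => by
    by_cases hc0 : c = 0
    · rw [hc0, map_zero, sub_zero, hVt]
    · have hcu := hS0 c hc hc0
      rw [ord_sub_eq_of_ord_eq_zero V ht hcu hVt]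
      exact hVS _ (mem_invBranch.mpr (Or.inr ⟨c, hc, rfl⟩)))
  refine ⟨Polynomial.reflect Q.natDegree Q, ?_⟩
  have hQ0 : Polynomial.aeval t Q ≠ 0 := by
    intro h0
    rw [h0, V.ord_zero] at hQ
    omega
  have e := pow_mul_aeval_inv (R := K) (t := t⁻¹) (inv_ne_zero ht0) Q le_rfl
  rw [inv_inv] at e
  rw [← e, V.ord_mul (pow_ne_zero _ (inv_ne_zero ht0)) hQ0, hQ]
  have : V.ord (t⁻¹ ^ Q.natDegree) = 0 := by
    have := V.ord_zpow t⁻¹ (Q.natDegree : ℤ)
    rw [zpow_natCast] at this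
    rw [this, hVt', mul_zero]
  rw [this, zero_add]

theorem tame_inv {t : E} (ht : Transcendental R t)
    {S : Finset R} (hS0 : ∀ c ∈ S, c ≠ 0 → IsUnit c) {e₀ : ℕ} (h : TameAt R K S e₀ t) :
    ∀ c ∈ invBranch S, ∀ V : Place K E, 0 < V.ord (t⁻¹ - algebraMap R E c) →
      V.ord (t⁻¹ - algebraMap R E c) ∣ (e₀ : ℤ) := by
  have ht0 := ne_zero_of_transcendental ht
  intro a ha V hV
  rcases invBranch_cases hS0 ha with rfl | ⟨c, hc, hcu, rfl⟩
  · rw [map_zero, sub_zero] at hV ⊢
    have h1 : V.ord t < 0 := by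
      rw [V.ord_inv] at hV
      omega
    have h2 := h.2 V h1
    rw [V.ord_inv]
    exact (Int.neg_dvd).mpr h2
  · -- `t⁻¹ ≡ c⁻¹` at `V`, so `t` is a unit at `V`
    have hci : algebraMap R E (Ring.inverse c) ≠ 0 :=
      algebraMap_ne_zero_of_isUnit (isUnit_ringInverse hcu)
    have hne : t⁻¹ - algebraMap R E (Ring.inverse c) ≠ 0 :=
      sub_ne_zero_of_transcendental (transcendental_inv ht) (Ring.inverse c)
    have hVt' : V.ord t⁻¹ = 0 := by
      have e : t⁻¹ = algebraMap R E (Ring.inverse c) + (t⁻¹ - algebraMap R E (Ring.inverse c)) := by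
        ring
      rw [e, RH24.h20_ord_add_eq_of_lt V hci hne (by rw [ord_algebraMap_R]; exact hV)]
      exact ord_algebraMap_R V _
    have hVt : V.ord t = 0 := by
      rw [V.ord_inv] at hVt'
      omega
    have e := ord_sub_eq_of_ord_eq_zero V ht hcu hVt
    rw [← e] at hV ⊢
    exact h.1 c hc V hV

end transfer

end H21S18

/-- **C4b (generic theorem)** from C1 (connectedness lemma) and the chart statement. -/
theorem h21s18_connected (hCL : H7S18.CLStatement) (hChart : H7S18.ChartIdemStatement) :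
    H7S18.ConnectedStatement := by
  intro R _ _ _ K _ _ _ _ E _ _ _ _ ϖ hϖ t ht hfin halg hunr S hS hS0 e₀ he₀ hζ hout htame
    x hx hidem
  have hϖp : Prime ϖ := H21S18.prime_of_irreducible hϖ
  have htR : Transcendental R t := H21S18.transcendental_base ht
  -- the chart `t`
  obtain ⟨a, ha, hxa⟩ := hChart R K E ϖ hϖ t ht hfin hunr S hS e₀ he₀ hζ hout htame.1 x hx hidem
  -- the chart `t⁻¹`
  obtain ⟨b, hb, hxb⟩ := hChart R K E ϖ hϖ t⁻¹ (H21S18.transcendental_inv ht)
    (H21S18.finiteDimensional_transport (H21S18.adjoin_inv_eq (K := K) t).symm hfin)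
    (H21S18.unrGauss_inv hϖp htR hunr) (H21S18.invBranch S)
    (H21S18.invBranch_pairwise hS hS0) e₀ he₀ hζ
    (H21S18.unrOutside_inv htR ht hS0 hout) (H21S18.tame_inv htR hS0 htame) x
    ((H21S18.gInt_inv_iff hϖp htR).mpr hx) ((H21S18.modPi_inv_iff hϖp htR).mpr hidem)
  exact hCL R K E ϖ hϖ t ht hfin halg x a b hidem ha hxa hb
    ((H21S18.modPi_inv_iff hϖp htR).mp hxb)
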