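import Mathlib
import Fermat.Agent.S18.DefsD

/-!
# S18 (item 75), route Y': final assembly from the chain statements (helper7)
-/

set_option autoImplicit false

open ModularCurve

namespace H7S18

/-- `ψ(qN) = (q+1) ψ(N)` for a prime `q ∤ N`. -/
theorem h7_dedekindPsi_prime_mul (q N : ℕ) (hq : q.Prime) (hN : N ≠ 0) (hqN : ¬ q ∣ N) :
    dedekindPsi (q * N) = (q + 1) * dedekindPsi N := by
  classical
  have hcop : Nat.Coprime q N := (Nat.Prime.coprime_iff_not_dvd hq).2 hqN
  unfold dedekindPsi
  have hdiv : (q * N).divisors = N.divisors ∪ N.divisors.image (fun d => q * d) := by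
    ext d
    simp only [Nat.mem_divisors, Finset.mem_union, Finset.mem_image, ne_eq, mul_eq_zero,
      hq.ne_zero, hN, or_self, not_false_eq_true, and_true]
    constructor
    · intro hd
      by_cases hqd : q ∣ d
      · obtain ⟨d', rfl⟩ := hqd
        right
        exact ⟨d', (Nat.mul_dvd_mul_iff_left hq.pos).1 hd, rfl⟩
      · left
        exact (Nat.Coprime.dvd_mul_left ((Nat.Prime.coprime_iff_not_dvd hq).2 hqd).symm).1 hd
    · rintro (hd | ⟨d', hd', rfl⟩)
      · exact hd.mul_left q
      · exact Nat.mul_dvd_mul_left q hd'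
  have hdisj : Disjoint N.divisors (N.divisors.image (fun d => q * d)) := by
    rw [Finset.disjoint_left]
    intro d hd hd'
    obtain ⟨d', -, rfl⟩ := Finset.mem_image.1 hd'
    exact hqN ((dvd_mul_right q d').trans (Nat.dvd_of_mem_divisors hd))
  rw [hdiv, Finset.filter_union, Finset.sum_union (Finset.disjoint_filter_filter hdisj),
    Finset.filter_image, Finset.sum_image (fun a _ b _ h => Nat.eq_of_mul_eq_mul_left hq.pos h)]
  have h1 : ∑ d ∈ N.divisors with Squarefree d, q * N / d
      = q * ∑ d ∈ N.divisors with Squarefree d, N / d := by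
    rw [Finset.mul_sum]
    refine Finset.sum_congr rfl fun d hd => ?_
    have hdN : d ∣ N := Nat.dvd_of_mem_divisors (Finset.mem_filter.1 hd).1
    exact Nat.mul_div_assoc q hdN
  have h2 : ∑ d ∈ N.divisors with Squarefree (q * d), q * N / (q * d)
      = ∑ d ∈ N.divisors with Squarefree d, N / d := by
    have hfil : (N.divisors.filter fun d => Squarefree (q * d))
        = N.divisors.filter fun d => Squarefree d := by
      refine Finset.filter_congr fun d hd => ?_
      have hdN : d ∣ N := Nat.dvd_of_mem_divisors hd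
      have hqd : Nat.Coprime q d := Nat.Coprime.coprime_dvd_right hdN hcop
      rw [Nat.squarefree_mul_iff]
      exact ⟨fun h => h.2.2, fun h => ⟨hqd, hq.squarefree, h⟩⟩
    rw [hfil]
    refine Finset.sum_congr rfl fun d _ => ?_
    exact Nat.mul_div_mul_left N d hq.pos
  rw [h1, h2]
  ring

/-- **Final assembly**: S18 from the four chain statements. -/
theorem h7s18_of_chain (hTop : TopReductionStatement) (hPrime : PrimeReductionStatement)
    (hLevel : LevelChangeStatement) (hTame : KummerTameStatement)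
    (N : ℕ) [NeZero N] {ℓ : ℕ} [Fact ℓ.Prime] (hℓN : ¬ ℓ ∣ N)
    (A : ValuationSubring (AlgebraicClosure ℚ)) (hA : A.LiesOverPrime ℓ)
    (h : ModularCurve.ReductionInputsModL A N) (m : ℕ) (hm : ¬ ℓ ∣ m)
    (z : ModularCurve.JZero N) (hmz : m • z = 0)
    (hz : ModularCurve.reductionModL A N z = 0) : z = 0 := by
  have hℓ : ℓ.Prime := Fact.out
  have hN0 : N ≠ 0 := NeZero.ne N
  refine hTop N ℓ hℓN A hA (fun m hm0 hmℓ => hPrime N ℓ hℓN A hA (fun p hp hpℓ => ?_) m hm0 hmℓ)
    h m hm z hmz hz
  -- `(K)_p` at level `N`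
  by_cases h2 : ℓ = 2
  · by_cases h3N : 3 ∣ N
    · exact hTame N ℓ ⟨hℓN, fun _ => h3N, fun h3 => by omega⟩ A hA p hp hpℓ
    · -- pass to level `3 N`
      have : NeZero (3 * N) := ⟨by positivity⟩
      have hℓ3N : ¬ ℓ ∣ 3 * N := by
        intro hd
        rcases (Nat.Prime.dvd_mul hℓ).1 hd with h' | h'
        · rw [h2] at h'; omega
        · exact hℓN h'
      have hψ : dedekindPsi (3 * N) / dedekindPsi N = 4 := by
        rw [h7_dedekindPsi_prime_mul 3 N Nat.prime_three hN0 h3N]
        have hpos : 0 < dedekindPsi N := by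
          unfold dedekindPsi
          refine Finset.sum_pos' (fun _ _ => Nat.zero_le _) ⟨1, ?_, ?_⟩
          · simp [hN0]
          · simp [Nat.pos_of_ne_zero hN0]
        exact Nat.mul_div_cancel _ hpos
      have hcop : Nat.Coprime (dedekindPsi (3 * N) / dedekindPsi N) p := by
        rw [hψ]
        have : Nat.Coprime 2 p := (Nat.coprime_primes Nat.prime_two hp).2 (by omega)
        exact Nat.Coprime.pow_left 2 this
      exact hLevel N (3 * N) ℓ hℓ3N (dvd_mul_left N 3) A hA p hp hcop
        (hTame (3 * N) ℓ ⟨hℓ3N, fun _ => dvd_mul_right 3 N, fun h3 => by omega⟩ A hA p hp hpℓ)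
  · by_cases h3 : ℓ = 3
    · by_cases h2N : 2 ∣ N
      · exact hTame N ℓ ⟨hℓN, fun h => absurd h h2, fun _ => h2N⟩ A hA p hp hpℓ
      · haveI : NeZero (2 * N) := ⟨by positivity⟩
        have hℓ2N : ¬ ℓ ∣ 2 * N := by
          intro hd
          rcases (Nat.Prime.dvd_mul hℓ).1 hd with h' | h'
          · rw [h3] at h'; omega
          · exact hℓN h'
        have hψ : dedekindPsi (2 * N) / dedekindPsi N = 3 := by
          rw [h7_dedekindPsi_prime_mul 2 N Nat.prime_two hN0 h2N]
          have hpos : 0 < dedekindPsi N := by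
            unfold dedekindPsi
            refine Finset.sum_pos' (fun _ _ => Nat.zero_le _) ⟨1, ?_, ?_⟩
            · simp [hN0]
            · simp [Nat.pos_of_ne_zero hN0]
          exact Nat.mul_div_cancel _ hpos
        have hcop : Nat.Coprime (dedekindPsi (2 * N) / dedekindPsi N) p := by
          rw [hψ]
          exact (Nat.coprime_primes Nat.prime_three hp).2 (by omega)
        exact hLevel N (2 * N) ℓ hℓ2N (dvd_mul_left N 2) A hA p hp hcop
          (hTame (2 * N) ℓ ⟨hℓ2N, fun h => absurd h h2, fun _ => dvd_mul_right 2 N⟩ A hA p hp hpℓ)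
    · exact hTame N ℓ ⟨hℓN, fun h => absurd h h2, fun h => absurd h h3⟩ A hA p hp hpℓ

end H7S18
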