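import Mathlib
import Fermat.Agent.S18.Final_helper7
import Fermat.Agent.S18.C12bMain_helper7
import Fermat.Agent.S18.C1_helper19
import Fermat.Agent.S18.Chart_helper21
import Fermat.Agent.S18.Connected_helper21
import Fermat.Agent.S18.C3Done_helper12
import Fermat.Agent.S18.C12aFinal_helper19
import Fermat.Agent.S18.C6a_helper1
import Fermat.Agent.S18.C6b_helper4
import Fermat.Agent.S18.C6e_helper9
import Fermat.Agent.S18.C6f_helper1
import Fermat.Agent.S18.C8Branch_helper4
import Fermat.Agent.S18.C9Final_helper4
import Fermat.Agent.S18.C10_helper27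
import Fermat.Agent.S18.C11a_helper16
import Fermat.Agent.S18.C11b_helper12

/-!
# S18 (item 75), route Y': assembly of all landed slices (helper7)

Remaining inputs (hypotheses): C2 `LocalIdemUnrStatement` and C7 `GaussStatement`.
Everything else is proved in the imported files.
-/

set_option autoImplicit false

open ModularCurve

namespace H7S18

/-- `KummerTameStatement` from the two remaining slices C2 and C7. -/
theorem h7s18_kummerTame_of (hC2 : LocalIdemUnrStatement) (hC7 : GaussStatement) :
    KummerTameStatement := by
  have hC3 : LocalIdemTameStatement := H12C3.localIdemTame_of_unr hC2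
  have hChart : ChartIdemStatement := h21s18_chartIdem hC2 hC3
  have hConn : ConnectedStatement := h21s18_connected H19S18.h19_CLStatement hChart
  have hAbs : AbstractKummerStatement := H19S18.h19_abstractKummer_of_connected hConn
  exact h7_kummerTame hAbs H1S18.numberField H4DVR.dvrStatement H9C6e.fieldBasics
    H1S18.baseChange hC7 H4BR.branchStatement H4HM.hauptmodulStatement

/-- The statement of S18 from the two remaining slices C2 and C7. -/
theorem h7s18_asm (hC2 : LocalIdemUnrStatement) (hC7 : GaussStatement)
    (N : ℕ) [NeZero N] {ℓ : ℕ} [Fact ℓ.Prime] (hℓN : ¬ ℓ ∣ N)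
    (A : ValuationSubring (AlgebraicClosure ℚ)) (hA : A.LiesOverPrime ℓ)
    (h : ModularCurve.ReductionInputsModL A N) (m : ℕ) (hm : ¬ ℓ ∣ m)
    (z : ModularCurve.JZero N) (hmz : m • z = 0)
    (hz : ModularCurve.reductionModL A N z = 0) : z = 0 :=
  h7s18_of_chain H27C10.h27c10_topReduction H16C11a.h16_primeReduction
    H12C11b.levelChange (h7s18_kummerTame_of hC2 hC7) N hℓN A hA h m hm z hmz hz

end H7S18
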