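import Mathlib
import Fermat.Agent.S18.Glue_helper21

/-!
# S18 (item 75), route Y', slice C2, part G (helper12): transfer lemmas `R[t] ↔ K[t]`

* `G3` `exists_isIntegral_smul` : an element integral over `K[t]` becomes integral over `R[t]`
  after multiplication by a nonzero element of `R` (clearing denominators, `scaleRoots`);
* `G4` `gauss_transfer` : a prime `P₀` of `R[X]` not associated to `ϖ` stays irreducible in
  `K[X]`, and divisibility by `P₀` can be tested in `K[X]` (Gauss lemma).
-/

set_option autoImplicit false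
set_option linter.style.haveILetI false
set_option linter.unusedSectionVars false

open Polynomial IntermediateField

noncomputable section

namespace H12C2G

open H7S18 H21S18

section G3

variable {R : Type} [CommRing R] [IsDomain R]
  {K : Type} [Field K] [Algebra R K] [IsFractionRing R K]
  {E : Type} [Field E] [Algebra K E] [Algebra R E] [IsScalarTower R K E]

/-- clearing the denominators of one element of `K[t]` -/
theorem exists_smul_mem (t : E) {c : E} (hc : c ∈ Algebra.adjoin K {t}) :
    ∃ r : R, r ≠ 0 ∧ algebraMap R E r * c ∈ Algebra.adjoin R {t} := by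
  rw [Algebra.adjoin_singleton_eq_range_aeval] at hc
  obtain ⟨P, hP⟩ := hc
  have hP' : Polynomial.aeval t P = c := hP
  obtain ⟨b, hb, hbP⟩ := IsLocalization.integerNormalization_spec (nonZeroDivisors R) P
  refine ⟨b, nonZeroDivisors.ne_zero hb, ?_⟩
  have h1 : algebraMap R E b * c =
      Polynomial.aeval t (IsLocalization.integerNormalization (nonZeroDivisors R) P) := by
    have h2 : b • P = Polynomial.C (algebraMap R K b) * P := by
      rw [Algebra.smul_def, Polynomial.algebraMap_apply]
    rw [← Polynomial.aeval_map_algebraMap K t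
      (IsLocalization.integerNormalization (nonZeroDivisors R) P), hbP, h2, map_mul,
      Polynomial.aeval_C, hP', ← IsScalarTower.algebraMap_apply R K E]
  rw [h1]
  exact aeval_mem t _

/-- clearing the denominators of finitely many elements of `K[t]` -/
theorem exists_smul_mem_finset (t : E) {ι : Type} (s : Finset ι) (c : ι → E)
    (hc : ∀ i ∈ s, c i ∈ Algebra.adjoin K {t}) :
    ∃ r : R, r ≠ 0 ∧ ∀ i ∈ s, algebraMap R E r * c i ∈ Algebra.adjoin R {t} := by
  classical
  induction s using Finset.induction_on with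
  | empty => exact ⟨1, one_ne_zero, fun i hi => absurd hi (Finset.notMem_empty i)⟩
  | insert a s ha ih =>
    obtain ⟨r, hr, hrs⟩ := ih (fun i hi => hc i (Finset.mem_insert_of_mem hi))
    obtain ⟨r', hr', hra⟩ := exists_smul_mem (R := R) t (hc a (Finset.mem_insert_self a s))
    refine ⟨r * r', mul_ne_zero hr hr', fun i hi => ?_⟩
    rcases Finset.mem_insert.mp hi with rfl | his
    · rw [map_mul, mul_assoc]
      exact mul_mem (Subalgebra.algebraMap_mem _ _) hra
    · rw [map_mul, mul_comm (algebraMap R E r), mul_assoc]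
      exact mul_mem (Subalgebra.algebraMap_mem _ _) (hrs i his)

theorem adjoin_le_adjoin (t : E) {b : E} (hb : b ∈ Algebra.adjoin R {t}) :
    b ∈ Algebra.adjoin K {t} := by
  obtain ⟨P, rfl⟩ := exists_poly_of_mem hb
  rw [← Polynomial.aeval_map_algebraMap K t]
  rw [Algebra.adjoin_singleton_eq_range_aeval]
  exact ⟨_, rfl⟩

/-- **G3**: clearing denominators for integrality. -/
theorem exists_isIntegral_smul (t m : E) (hm : IsIntegral (Algebra.adjoin K {t}) m) :
    ∃ r : R, r ≠ 0 ∧ IsIntegral (Algebra.adjoin R {t}) (algebraMap R E r * m) := by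
  classical
  obtain ⟨p, hpm, hp0⟩ := hm
  -- the inclusion `R[t] → K[t]`
  let ι : Algebra.adjoin R {t} →+* Algebra.adjoin K {t} :=
    RingHom.codRestrict (algebraMap (Algebra.adjoin R {t}) E) (Algebra.adjoin K {t})
      (fun b => adjoin_le_adjoin t b.2)
  have hι : (algebraMap (Algebra.adjoin K {t}) E).comp ι = algebraMap (Algebra.adjoin R {t}) E := by
    ext b
    rfl
  obtain ⟨r, hr, hrs⟩ := exists_smul_mem_finset (R := R) t p.support
    (fun i => ((p.coeff i : Algebra.adjoin K {t}) : E)) (fun i _ => (p.coeff i).2)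
  refine ⟨r, hr, ?_⟩
  set s : Algebra.adjoin K {t} := algebraMap R (Algebra.adjoin K {t}) r with hs
  have hsE : algebraMap (Algebra.adjoin K {t}) E s = algebraMap R E r := rfl
  have hlift : p.scaleRoots s ∈ Polynomial.lifts ι := by
    rw [Polynomial.lifts_iff_coeff_lifts]
    intro n
    rw [Polynomial.coeff_scaleRoots]
    by_cases h₁ : n ∈ p.support
    · by_cases h₂ : n = p.natDegree
      · rw [h₂, Polynomial.coeff_natDegree, tsub_self, pow_zero, mul_one, hpm.leadingCoeff]
        exact ⟨1, map_one ι⟩
      · have hlt : n + 1 ≤ p.natDegree :=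
          lt_of_le_of_ne (Polynomial.le_natDegree_of_mem_supp _ h₁) h₂
        obtain ⟨k, hk⟩ : ∃ k, p.natDegree - n = k + 1 := ⟨p.natDegree - n - 1, by omega⟩
        rw [hk, pow_succ, ← mul_assoc, mul_comm (p.coeff n * s ^ k), ← mul_assoc]
        refine ⟨⟨algebraMap R E r * ((p.coeff n : Algebra.adjoin K {t}) : E), hrs n h₁⟩ *
          algebraMap R (Algebra.adjoin R {t}) (r ^ k), ?_⟩
        apply Subtype.ext
        simp only [map_mul, map_pow]
        rfl
    · rw [Polynomial.notMem_support_iff] at h₁
      rw [h₁, zero_mul]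
      exact ⟨0, map_zero ι⟩
  obtain ⟨p', hp'₁, -, hp'₂⟩ := Polynomial.lifts_and_natDegree_eq_and_monic hlift
    ((Polynomial.monic_scaleRoots_iff s).mpr hpm)
  refine ⟨p', hp'₂, ?_⟩
  rw [← hι, ← Polynomial.eval₂_map, hp'₁, ← hsE]
  exact Polynomial.scaleRoots_eval₂_eq_zero _ hp0

end G3

section G4

variable {R : Type} [CommRing R] [IsDomain R] [IsDiscreteValuationRing R]
  {K : Type} [Field K] [Algebra R K] [IsFractionRing R K]

/-- **G4**: Gauss lemma for a prime of `R[X]` not associated to `ϖ`. -/
theorem gauss_transfer {ϖ : R} (hϖ : Irreducible ϖ) (P₀ : R[X]) (hP : Prime P₀)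
    (hPϖ : ¬ Associated P₀ (Polynomial.C ϖ)) :
    Irreducible (P₀.map (algebraMap R K)) ∧
      ∀ s₀ : R[X], P₀.map (algebraMap R K) ∣ s₀.map (algebraMap R K) → P₀ ∣ s₀ := by
  classical
  have hirr : Irreducible P₀ := hP.irreducible
  have hdeg : P₀.natDegree ≠ 0 := by
    intro h0
    apply hPϖ
    obtain ⟨a, ha⟩ := Polynomial.natDegree_eq_zero.mp h0
    have hairr : Irreducible a := by
      rw [← ha] at hP
      exact (Polynomial.prime_C_iff.mp hP).irreducible
    rw [← ha]
    exact (IsDiscreteValuationRing.associated_of_irreducible R hairr hϖ).map Polynomial.C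
  have hprim : P₀.IsPrimitive := hirr.isPrimitive hdeg
  refine ⟨(hprim.irreducible_iff_irreducible_map_fraction_map (K := K)).mp hirr, ?_⟩
  intro s₀ hdvd
  exact hprim.dvd_of_fraction_map_dvd_fraction_map hdvd

end G4

end H12C2G
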