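/-
helper19: S18 route Y', slice C2, part Hb (for helper18's assembly of `LocalIdemUnrStatement`):
the horizontal hypothesis (hH) of the abstract purity theorem in the concrete setting
`T = R[t] ⊆ E`.
* `h19_HorizontalF` : helper18's part F (statement over `K[t]`), as a `Prop`;
* `h19_G5`          : a place `V` with `ord t ≥ 0`, `ord P₁(t) > 0`, `ord f(t) > 0`, `P₁` irreducible
                      ⟹ `P₁ ∣ f`;
* `h19_c2_hH`       : the hypothesis (hH) from part F + G3 + G4 (helper12) + G5.
-/
import Mathlib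
import Fermat.Agent.S18.Defs
import Fermat.Agent.S18.TBase_helper19
import Fermat.Agent.S18.C12aOrd_helper19
import Fermat.Agent.S18.C2G_helper12

set_option autoImplicit false
set_option linter.unusedSectionVars false
set_option linter.style.haveILetI false

namespace H19S18

open Polynomial IntermediateField AlgebraicCurve H7S18 RH24

/-- helper18's part F (horizontal self-duality over `K[t]`), as a `Prop`. -/
def h19_HorizontalF : Prop :=
  ∀ (K : Type) [Field K] [CharZero K] (E : Type) [Field E] [Algebra K E] (t : E)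
    (_ : Transcendental K t) [FiniteDimensional K⟮t⟯ E] (P₁ : K[X]) (_ : Irreducible P₁)
    (_ : ∀ V : Place K E, 0 ≤ V.ord t → 0 < V.ord (aeval t P₁) →
      ∃ Q : K[X], V.ord (aeval t Q) = 1)
    (y : E) (_ : ∀ m : E, IsIntegral (Algebra.adjoin K {t}) m →
      ∃ a : K[X], algebraMap K⟮t⟯ E (Algebra.trace K⟮t⟯ E (y * m)) = aeval t a),
    ∃ s : K[X], ¬ P₁ ∣ s ∧ IsIntegral (Algebra.adjoin K {t}) (aeval t s * y)

/-- **G5**: at a place `V` with `t` finite, two polynomials in `t` of positive order, one of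
them irreducible: the irreducible one divides the other. -/
theorem h19_G5 {K E : Type} [Field K] [Field E] [Algebra K E] (V : Place K E) {t : E}
    (ht : 0 ≤ V.ord t) {P₁ f : K[X]} (hP₁ : Irreducible P₁) (hP : 0 < V.ord (aeval t P₁))
    (hf : 0 < V.ord (aeval t f)) : P₁ ∣ f := by
  by_contra hdvd
  obtain ⟨a, b, hab⟩ := hP₁.coprime_iff_not_dvd.mpr hdvd
  have h1 : aeval t a * aeval t P₁ + aeval t b * aeval t f = 1 := by
    rw [← map_mul, ← map_mul, ← map_add, hab, map_one]
  have hP0 : aeval t P₁ ≠ 0 := by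
    intro h; rw [h, Place.ord_zero] at hP; omega
  have hf0 : aeval t f ≠ 0 := by
    intro h; rw [h, Place.ord_zero] at hf; omega
  have ha := h19_ord_aeval_nonneg V ht a
  have hb := h19_ord_aeval_nonneg V ht b
  by_cases ha0 : aeval t a = 0
  · rw [ha0, zero_mul, zero_add] at h1
    have hb0 : aeval t b ≠ 0 := by
      intro h; rw [h, zero_mul] at h1; exact zero_ne_one h1
    have := congrArg V.ord h1
    rw [Place.ord_mul V hb0 hf0, Place.ord_one] at this
    omega
  by_cases hb0 : aeval t b = 0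
  · rw [hb0, zero_mul, add_zero] at h1
    have := congrArg V.ord h1
    rw [Place.ord_mul V ha0 hP0, Place.ord_one] at this
    omega
  have h2 := h20_ord_add V (mul_ne_zero ha0 hP0) (mul_ne_zero hb0 hf0)
    (by rw [h1]; exact one_ne_zero)
  rw [h1, Place.ord_one, Place.ord_mul V ha0 hP0, Place.ord_mul V hb0 hf0] at h2
  rcases min_le_iff.mp h2 with h | h <;> omega

section Main

variable {R : Type} [CommRing R] [IsDomain R] [IsDiscreteValuationRing R]
  {K : Type} [Field K] [CharZero K] [Algebra R K] [IsFractionRing R K]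
  {E : Type} [Field E] [Algebra K E] [Algebra R E] [IsScalarTower R K E]

omit [IsDomain R] [IsDiscreteValuationRing R] [CharZero K] [IsFractionRing R K] in
theorem h19_aeval_map_K (t : E) (q : R[X]) :
    aeval t (q.map (algebraMap R K)) = aeval t q :=
  aeval_map_algebraMap K t q

omit [IsDomain R] [IsDiscreteValuationRing R] [CharZero K] [IsFractionRing R K] [Field K]
  [Algebra R K] [Algebra K E] [IsScalarTower R K E] in
theorem h19_exists_poly_of_mem_T (t : E) (s : Algebra.adjoin R {t}) :
    ∃ q : R[X], (s : E) = aeval t q := by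
  obtain ⟨q, hq⟩ := Algebra.adjoin_mem_exists_aeval _ _ s.2
  exact ⟨q, hq.symm⟩

/-- the polynomial data of a prime element `P` of `T = R[t]` not associated to `ϖ`. -/
theorem h19_c2_poly {t : E} (htR : Transcendental R t) (ϖ : R)
    (P : Algebra.adjoin R {t}) (hP : Prime P)
    (hPπ : ¬ Associated P (algebraMap R (Algebra.adjoin R {t}) ϖ)) :
    ∃ P₀ : R[X], Prime P₀ ∧ ¬ Associated P₀ (C ϖ) ∧
      ∀ (s : Algebra.adjoin R {t}) (q : R[X]), (s : E) = aeval t q → (P ∣ s ↔ P₀ ∣ q) := by
  have he_coe : ∀ q : R[X],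
      ((Polynomial.algEquivOfTranscendental R t htR q : Algebra.adjoin R {t}) : E) =
        aeval t q := by
    intro q
    rw [Polynomial.algEquivOfTranscendental_apply]
    exact Polynomial.aeval_subalgebra_coe q _ _
  refine ⟨(Polynomial.algEquivOfTranscendental R t htR).symm P,
    (MulEquiv.prime_iff (Polynomial.algEquivOfTranscendental R t htR).symm).mpr hP, ?_, ?_⟩
  · intro h
    apply hPπ
    have h3 : (Polynomial.algEquivOfTranscendental R t htR) (C ϖ) =
        algebraMap R (Algebra.adjoin R {t}) ϖ := by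
      rw [← Polynomial.algebraMap_eq, AlgEquiv.commutes]
    obtain ⟨u, hu⟩ := h
    refine ⟨Units.map ((Polynomial.algEquivOfTranscendental R t htR).toRingEquiv.toRingHom :
      R[X] →* Algebra.adjoin R {t}) u, ?_⟩
    have h4 := congrArg (Polynomial.algEquivOfTranscendental R t htR) hu
    rw [map_mul, AlgEquiv.apply_symm_apply, h3] at h4
    exact h4
  · intro s q hsq
    have hs : s = Polynomial.algEquivOfTranscendental R t htR q := by
      apply Subtype.ext
      rw [hsq, he_coe]
    rw [hs]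
    constructor
    · intro h
      have := map_dvd (Polynomial.algEquivOfTranscendental R t htR).symm h
      rwa [AlgEquiv.symm_apply_apply] at this
    · intro h
      have := map_dvd (Polynomial.algEquivOfTranscendental R t htR) h
      rwa [AlgEquiv.apply_symm_apply] at this

omit [CharZero K] in
/-- the trace hypothesis over `R[t]` implies the trace hypothesis over `K[t]`. -/
theorem h19_c2_hyK (t : E) [FiniteDimensional K⟮t⟯ E] (y : E)
    (hy : ∀ m : E, IsIntegral (Algebra.adjoin R {t}) m →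
      ∃ a : Algebra.adjoin R {t}, algebraMap K⟮t⟯ E (Algebra.trace K⟮t⟯ E (y * m)) = (a : E))
    (m : E) (hm : IsIntegral (Algebra.adjoin K {t}) m) :
    ∃ a : K[X], algebraMap K⟮t⟯ E (Algebra.trace K⟮t⟯ E (y * m)) = aeval t a := by
  obtain ⟨r, hr, hrm⟩ := H12C2G.exists_isIntegral_smul (R := R) t m hm
  obtain ⟨a, ha⟩ := hy _ hrm
  obtain ⟨a₀, ha₀⟩ := h19_exists_poly_of_mem_T t a
  have hrE : algebraMap R E r ≠ 0 := by
    rw [Ne, ← map_zero (algebraMap R E)]
    exact fun h => hr (h19_algebraMap_injective R K h)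
  have hrK : algebraMap R E r =
      algebraMap K⟮t⟯ E (algebraMap K K⟮t⟯ (algebraMap R K r)) := by
    rw [← IsScalarTower.algebraMap_apply K K⟮t⟯ E, ← IsScalarTower.algebraMap_apply R K E]
  have h1 : y * (algebraMap R E r * m) =
      (algebraMap K K⟮t⟯ (algebraMap R K r)) • (y * m) := by
    rw [Algebra.smul_def, ← hrK]
    ring
  rw [h1, map_smul, smul_eq_mul, map_mul, ← hrK, ha₀] at ha
  refine ⟨C (algebraMap R K r)⁻¹ * a₀.map (algebraMap R K), ?_⟩
  have h2 : aeval t (C (algebraMap R K r)⁻¹ * a₀.map (algebraMap R K)) =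
      (algebraMap R E r)⁻¹ * aeval t a₀ := by
    rw [map_mul (aeval t), aeval_C, h19_aeval_map_K, map_inv₀,
      ← IsScalarTower.algebraMap_apply R K E]
  rw [h2, ← ha, ← mul_assoc, inv_mul_cancel₀ hrE, one_mul]

/-- **C2-Hb**: the horizontal hypothesis (hH) for `T = R[t]`. -/
theorem h19_c2_hH (hF : h19_HorizontalF)
    (ϖ : R) (hϖ : Irreducible ϖ) (t : E) (ht : Transcendental K t) [FiniteDimensional K⟮t⟯ E]
    (𝔪 : Ideal (Algebra.adjoin R {t})) (_h𝔪 : 𝔪.IsMaximal)
    (hplaces : ∀ V : Place K E, Through R K t 𝔪 V → ∃ Q : K[X], V.ord (aeval t Q) = 1)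
    (P : Algebra.adjoin R {t}) (hP : Prime P) (hP𝔪 : P ∈ 𝔪)
    (hPπ : ¬ Associated P (algebraMap R (Algebra.adjoin R {t}) ϖ))
    (y : E) (hy : ∀ m : E, IsIntegral (Algebra.adjoin R {t}) m →
      ∃ a : Algebra.adjoin R {t}, algebraMap K⟮t⟯ E (Algebra.trace K⟮t⟯ E (y * m)) = (a : E)) :
    ∃ s : Algebra.adjoin R {t}, ¬ P ∣ s ∧ IsIntegral (Algebra.adjoin R {t}) ((s : E) * y) := by
  classical
  have htR : Transcendental R t := h19_transc R K ht
  obtain ⟨P₀, hP₀, hPϖ₀, hdvd⟩ := h19_c2_poly htR ϖ P hP hPπ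
  obtain ⟨hP₁, hG4⟩ := H12C2G.gauss_transfer (K := K) hϖ P₀ hP₀ hPϖ₀
  -- (1) places
  have hV : ∀ V : Place K E, 0 ≤ V.ord t →
      0 < V.ord (aeval t (P₀.map (algebraMap R K))) → ∃ Q : K[X], V.ord (aeval t Q) = 1 := by
    intro V hVt hVP
    refine hplaces V ⟨hVt, fun s hs => ?_⟩
    obtain ⟨q, hq⟩ := h19_exists_poly_of_mem_T t s
    have hs' : 0 < V.ord (aeval t (q.map (algebraMap R K))) := by
      rw [h19_aeval_map_K, ← hq]
      exact hs
    have h1 := hG4 _ (h19_G5 V hVt hP₁ hVP hs')
    obtain ⟨q', hq'⟩ := (hdvd s q hq).mpr h1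
    rw [hq']
    exact 𝔪.mul_mem_right _ hP𝔪
  -- (3) apply part F and clear denominators
  obtain ⟨s₁, hs₁, hs₁y⟩ := hF K E t ht _ hP₁ hV y (h19_c2_hyK t y hy)
  obtain ⟨b, hb, hbs⟩ := IsLocalization.integerNormalization_spec (nonZeroDivisors R) s₁
  have hb0 : b ≠ 0 := nonZeroDivisors.ne_zero hb
  obtain ⟨r₂, hr₂, hr₂y⟩ := H12C2G.exists_isIntegral_smul (R := R) t _ hs₁y
  have hbs' : (IsLocalization.integerNormalization (nonZeroDivisors R) s₁).map (algebraMap R K) =
      C (algebraMap R K b) * s₁ := by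
    rw [hbs, Algebra.smul_def, Polynomial.algebraMap_apply]
  have hcoe : ((⟨aeval t (C r₂ * IsLocalization.integerNormalization (nonZeroDivisors R) s₁),
      Polynomial.aeval_mem_adjoin_singleton R t⟩ : Algebra.adjoin R {t}) : E) =
        aeval t (C r₂ * IsLocalization.integerNormalization (nonZeroDivisors R) s₁) := rfl
  refine ⟨⟨aeval t (C r₂ * IsLocalization.integerNormalization (nonZeroDivisors R) s₁),
      Polynomial.aeval_mem_adjoin_singleton R t⟩, ?_, ?_⟩
  · intro hd
    have h0 := (hdvd _ _ hcoe).mp hd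
    rcases hP₀.dvd_or_dvd h0 with h | h
    · -- `P₀ ∣ C r₂`
      obtain ⟨n, hn⟩ := IsDiscreteValuationRing.associated_pow_irreducible hr₂ hϖ
      have h2 : P₀ ∣ (C ϖ) ^ n := by
        have h4 : (C r₂ : R[X]) ∣ C (ϖ ^ n) := map_dvd (C : R →+* R[X]) hn.dvd
        have h3 := h.trans h4
        rwa [C_pow] at h3
      exact hPϖ₀ (hP₀.associated_of_dvd (Polynomial.prime_C_iff.mpr hϖ.prime)
        (hP₀.dvd_of_dvd_pow h2))
    · -- `P₀ ∣ s₀`
      have h3 : P₀.map (algebraMap R K) ∣ C (algebraMap R K b) * s₁ := by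
        rw [← hbs']
        exact Polynomial.map_dvd _ h
      have hunit : IsUnit (C (algebraMap R K b) : K[X]) := by
        rw [Polynomial.isUnit_iff]
        refine ⟨algebraMap R K b, ?_, rfl⟩
        rw [isUnit_iff_ne_zero, Ne, ← map_zero (algebraMap R K)]
        exact fun h => hb0 (IsFractionRing.injective R K h)
      exact hs₁ ((hunit.dvd_mul_left).mp h3)
  · -- integrality
    have h2 : aeval t (IsLocalization.integerNormalization (nonZeroDivisors R) s₁) =
        algebraMap R E b * aeval t s₁ := by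
      rw [← h19_aeval_map_K (K := K), hbs', map_mul (aeval t), aeval_C,
        ← IsScalarTower.algebraMap_apply R K E]
    have h1 : aeval t (C r₂ * IsLocalization.integerNormalization (nonZeroDivisors R) s₁) * y =
        algebraMap (Algebra.adjoin R {t}) E (algebraMap R (Algebra.adjoin R {t}) b) *
          (algebraMap R E r₂ * (aeval t s₁ * y)) := by
      rw [map_mul (aeval t), aeval_C, h2, ← IsScalarTower.algebraMap_apply R (Algebra.adjoin R {t}) E]
      ring
    rw [hcoe, h1]
    exact IsIntegral.mul isIntegral_algebraMap hr₂y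

end Main

end H19S18
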