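/-
helper18: S18 (item 75), route Y', slice C2, part F: horizontal self-duality.

`K` a field of characteristic 0, `E / K(t)` finite, `P₁ ∈ K[t]` irreducible.  If every place of
`E / K` over `P₁` is unramified over `K(t)` (some polynomial in `t` is a uniformizer), then the
integral closure of `K[t]` in `E` is self-dual for the trace form locally at `P₁`:
every `y` in the trace dual has a denominator prime to `P₁`.

Proof: Mathlib's different ideal (`not_dvd_differentIdeal_of_isCoprime_of_isSeparable`),
helper27's dictionary primes ↔ places (`H27L6.h27_placeOf`), going-up.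
-/
import Mathlib
import Fermat.Agent.RR.L6Place

set_option autoImplicit false
set_option linter.unusedSectionVars false
set_option linter.style.haveILetI false

open Polynomial IntermediateField AlgebraicCurve IsDedekindDomain
open scoped IntermediateField.algebraAdjoinAdjoin

namespace H18S18

theorem h18pf_sep_quot {A B : Type*} [CommRing A] [CommRing B] [Algebra A B]
    [Algebra.IsIntegral A B] (p : Ideal A) [p.IsMaximal] (𝔓 : Ideal B) [𝔓.IsMaximal]
    [𝔓.LiesOver p] [CharZero (A ⧸ p)] : Algebra.IsSeparable (A ⧸ p) (B ⧸ 𝔓) := by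
  letI := Ideal.Quotient.field p
  letI := Ideal.Quotient.field 𝔓
  haveI : Algebra.IsIntegral (A ⧸ p) (B ⧸ 𝔓) := inferInstance
  exact Algebra.IsAlgebraic.isSeparable_of_perfectField

open nonZeroDivisors in
theorem h18pf_sep_frac {A B : Type*} [CommRing A] [IsDedekindDomain A] [CommRing B]
    [IsDedekindDomain B]
    [Algebra A B] [Module.Finite A B] [Module.IsTorsionFree A B] [CharZero A] :
    @Algebra.IsSeparable (FractionRing A) (FractionRing B) _ _
      (FractionRing.liftAlgebra A (FractionRing B)) := by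
  letI : Algebra (FractionRing A) (FractionRing B) := FractionRing.liftAlgebra A (FractionRing B)
  haveI : IsScalarTower A (FractionRing A) (FractionRing B) :=
    FractionRing.isScalarTower_liftAlgebra A (FractionRing B)
  haveI : CharZero (FractionRing A) :=
    charZero_of_injective_algebraMap (IsFractionRing.injective A (FractionRing A))
  haveI : Algebra.IsIntegral A B := inferInstance
  haveI : IsIntegralClosure B A (FractionRing B) :=
    IsIntegralClosure.of_isIntegrallyClosed B A (FractionRing B)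
  haveI : IsLocalization (Algebra.algebraMapSubmonoid B A⁰) (FractionRing B) :=
    IsIntegralClosure.isLocalization A (FractionRing A) (FractionRing B) B
  haveI : FiniteDimensional (FractionRing A) (FractionRing B) :=
    .of_isLocalization A B A⁰
  exact Algebra.IsAlgebraic.isSeparable_of_perfectField

/-- a prime `𝔓` over `p` such that some element of `p` is not in `𝔓²` (ramification index 1),
in characteristic 0, does not divide the different. -/
theorem h18pf_not_dvd_different {A B : Type*} [CommRing A] [IsDedekindDomain A] [CommRing B]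
    [IsDedekindDomain B] [Algebra A B] [Module.Finite A B] [Module.IsTorsionFree A B]
    [CharZero A] (p : Ideal A) [hpmax : p.IsMaximal] (hpbot : p ≠ ⊥) [CharZero (A ⧸ p)]
    (𝔓 : Ideal B) [h𝔓 : 𝔓.IsPrime] (h𝔓bot : 𝔓 ≠ ⊥) [h𝔓p : 𝔓.LiesOver p]
    (q : A) (hq : q ∈ p) (hq2 : algebraMap A B q ∉ 𝔓 ^ 2) :
    ¬ 𝔓 ∣ differentIdeal A B := by
  classical
  have hinjAB : Function.Injective (algebraMap A B) := FaithfulSMul.algebraMap_injective A B
  have hcomap : 𝔓.comap (algebraMap A B) = p := h𝔓p.over.symm
  haveI h𝔓max : 𝔓.IsMaximal := Ideal.IsPrime.isMaximal h𝔓 h𝔓bot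
  have hmapbot : p.map (algebraMap A B) ≠ ⊥ :=
    (Ideal.map_eq_bot_iff_of_injective hinjAB).not.mpr hpbot
  obtain ⟨Q', k, hQ'1, hQ'2⟩ : ∃ (Q' : Ideal B) (k : ℕ), 𝔓 ⊔ Q' = ⊤ ∧
      p.map (algebraMap A B) = 𝔓 ^ k * Q' := by
    obtain ⟨Q', h1, h2⟩ := Ideal.eq_prime_pow_mul_coprime hmapbot 𝔓
    exact ⟨Q', _, h1, h2⟩
  have hmaple : p.map (algebraMap A B) ≤ 𝔓 := by
    rw [Ideal.map_le_iff_le_comap, hcomap]
  have hqmap : algebraMap A B q ∈ p.map (algebraMap A B) := Ideal.mem_map_of_mem _ hq
  have hk1 : k = 1 := by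
    rcases Nat.lt_trichotomy k 1 with h | h | h
    · have hk0 : k = 0 := by omega
      rw [hk0, pow_zero, one_mul] at hQ'2
      rw [hQ'2] at hmaple
      have : 𝔓 ⊔ Q' = 𝔓 := sup_eq_left.mpr hmaple
      rw [this] at hQ'1
      exact absurd hQ'1 h𝔓.ne_top
    · exact h
    · exfalso
      apply hq2
      have h3 : 𝔓 ^ k * Q' ≤ 𝔓 ^ k := Ideal.mul_le_left
      have h4 : 𝔓 ^ k ≤ 𝔓 ^ 2 := Ideal.pow_le_pow_right h
      have h2 : p.map (algebraMap A B) ≤ 𝔓 ^ 2 := by
        rw [hQ'2]
        exact h3.trans h4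
      exact h2 hqmap
  rw [hk1, pow_one] at hQ'2
  haveI hsq : Algebra.IsSeparable (A ⧸ p) (B ⧸ 𝔓) := h18pf_sep_quot p 𝔓
  letI : Algebra (FractionRing A) (FractionRing B) :=
    FractionRing.liftAlgebra A (FractionRing B)
  haveI hsf : Algebra.IsSeparable (FractionRing A) (FractionRing B) := h18pf_sep_frac
  exact not_dvd_differentIdeal_of_isCoprime_of_isSeparable A 𝔓 Q'
    (Ideal.isCoprime_iff_sup_eq.mpr hQ'1) hQ'2.symm

/-- abstract local self-duality: if no prime over `p` divides the different, every element of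
the trace dual has a denominator outside `p`. -/
theorem h18pf_selfdual_abs (A K : Type*) {L B : Type*} [CommRing A] [IsDedekindDomain A]
    [Field K] [Algebra A K] [IsFractionRing A K] [Field L] [Algebra K L] [Algebra A L]
    [IsScalarTower A K L] [FiniteDimensional K L] [Algebra.IsSeparable K L]
    [CommRing B] [IsDedekindDomain B] [Algebra B L] [IsFractionRing B L] [Algebra A B]
    [IsScalarTower A B L] [Module.Finite A B] [Module.IsTorsionFree A B]
    [IsIntegralClosure B A L]
    (p : Ideal A) [hp : p.IsPrime]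
    (hunr : ∀ 𝔓 : Ideal B, 𝔓.IsPrime → 𝔓.comap (algebraMap A B) = p →
      ¬ 𝔓 ∣ differentIdeal A B)
    (y : L) (hy : ∀ b : B, Algebra.trace K L (y * algebraMap B L b) ∈ (algebraMap A K).range) :
    ∃ s : A, s ∉ p ∧ ∃ b : B, algebraMap B L b = algebraMap A L s * y := by
  classical
  have hone : (1 : FractionalIdeal (nonZeroDivisors B) L) ≠ 0 := one_ne_zero
  have hydual : y ∈ FractionalIdeal.dual A K (1 : FractionalIdeal (nonZeroDivisors B) L) := by
    rw [FractionalIdeal.mem_dual hone]
    intro a ha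
    obtain ⟨b, rfl⟩ := (FractionalIdeal.mem_one_iff _).mp ha
    rw [Algebra.traceForm_apply]
    exact hy b
  -- a denominator outside `p`
  have hJ : ¬ (differentIdeal A B).comap (algebraMap A B) ≤ p := by
    intro hle
    obtain ⟨Q, hQle, hQp, hQc⟩ :=
      Ideal.exists_ideal_over_prime_of_isIntegral p (differentIdeal A B) hle
    exact hunr Q hQp hQc (Ideal.dvd_iff_le.mpr hQle)
  obtain ⟨s, hsJ, hsp⟩ := Set.not_subset.mp hJ
  refine ⟨s, hsp, ?_⟩
  have hδ : algebraMap B L (algebraMap A B s) ∈
      ((differentIdeal A B : Ideal B) : FractionalIdeal (nonZeroDivisors B) L) :=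
    (FractionalIdeal.mem_coeIdeal _).mpr ⟨_, hsJ, rfl⟩
  rw [coeIdeal_differentIdeal A K L B] at hδ
  have hmul := FractionalIdeal.mul_mem_mul hδ hydual
  rw [inv_mul_cancel₀ (FractionalIdeal.dual_ne_zero A K hone)] at hmul
  obtain ⟨b, hb⟩ := (FractionalIdeal.mem_one_iff _).mp hmul
  exact ⟨b, by rw [hb, ← IsScalarTower.algebraMap_apply]⟩

section Concrete

variable {K : Type} [Field K] [CharZero K] {E : Type} [Field E] [Algebra K E]

theorem h18pf_pid (t : E) (ht : Transcendental K t) :
    IsPrincipalIdealRing (Algebra.adjoin K {t}) :=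
  IsPrincipalIdealRing.of_surjective
    (Polynomial.algEquivOfTranscendental K t ht).toRingEquiv.toRingHom
    (Polynomial.algEquivOfTranscendental K t ht).surjective

theorem h18pf_coe_equiv (t : E) (ht : Transcendental K t) (f : K[X]) :
    ((Polynomial.algEquivOfTranscendental K t ht f : Algebra.adjoin K {t}) : E) = aeval t f := by
  change ((aeval (⟨t, Algebra.self_mem_adjoin_singleton K t⟩ : Algebra.adjoin K {t}) f :
    Algebra.adjoin K {t}) : E) = aeval t f
  rw [← Subalgebra.coe_val, ← Polynomial.aeval_algHom_apply]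
  rfl

/-- the primes over `P₁` do not divide the different -/
theorem h18pf_unr (t : E) (ht : Transcendental K t) [FiniteDimensional K⟮t⟯ E]
    (P₁ : K[X]) (hP₁ : Irreducible P₁)
    (hV : ∀ V : Place K E, 0 ≤ V.ord t → 0 < V.ord (aeval t P₁) →
      ∃ Q : K[X], V.ord (aeval t Q) = 1)
    [IsDedekindDomain (Algebra.adjoin K {t})]
    [IsDedekindDomain (integralClosure (Algebra.adjoin K {t}) E)]
    [IsFractionRing (integralClosure (Algebra.adjoin K {t}) E) E]
    [Module.Finite (Algebra.adjoin K {t}) (integralClosure (Algebra.adjoin K {t}) E)]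
    (𝔓 : Ideal (integralClosure (Algebra.adjoin K {t}) E)) (h𝔓 : 𝔓.IsPrime)
    (hcomap : 𝔓.comap (algebraMap (Algebra.adjoin K {t})
      (integralClosure (Algebra.adjoin K {t}) E)) =
      Ideal.span {Polynomial.algEquivOfTranscendental K t ht P₁}) :
    ¬ 𝔓 ∣ differentIdeal (Algebra.adjoin K {t}) (integralClosure (Algebra.adjoin K {t}) E) := by
  classical
  have heA := h18pf_coe_equiv t ht
  haveI : IsScalarTower K (integralClosure (Algebra.adjoin K {t}) E) E :=
    IsScalarTower.of_algebraMap_eq (fun _ => rfl)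
  haveI := h18pf_pid t ht
  have hPAirr : Irreducible (Polynomial.algEquivOfTranscendental K t ht P₁) :=
    (MulEquiv.irreducible_iff (Polynomial.algEquivOfTranscendental K t ht).toMulEquiv).mpr hP₁
  haveI hpmax : (Ideal.span {Polynomial.algEquivOfTranscendental K t ht P₁}).IsMaximal :=
    PrincipalIdealRing.isMaximal_of_irreducible hPAirr
  have hpbot : Ideal.span {Polynomial.algEquivOfTranscendental K t ht P₁} ≠ ⊥ := by
    rw [Ne, Ideal.span_singleton_eq_bot]
    exact hPAirr.ne_zero
  have hinjAB : Function.Injective (algebraMap (Algebra.adjoin K {t})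
      (integralClosure (Algebra.adjoin K {t}) E)) := fun a b h =>
    Subtype.ext (congrArg (fun z : integralClosure (Algebra.adjoin K {t}) E => (z : E)) h)
  have hcoeAB : ∀ a : Algebra.adjoin K {t}, algebraMap (integralClosure (Algebra.adjoin K {t}) E) E
      (algebraMap (Algebra.adjoin K {t}) (integralClosure (Algebra.adjoin K {t}) E) a) = (a : E) :=
    fun a => rfl
  have hPA𝔓 : algebraMap (Algebra.adjoin K {t}) (integralClosure (Algebra.adjoin K {t}) E)
      (Polynomial.algEquivOfTranscendental K t ht P₁) ∈ 𝔓 := by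
    have : Polynomial.algEquivOfTranscendental K t ht P₁ ∈ 𝔓.comap (algebraMap _ _) := by
      rw [hcomap]; exact Ideal.mem_span_singleton_self _
    exact this
  have hPAB0 : algebraMap (Algebra.adjoin K {t}) (integralClosure (Algebra.adjoin K {t}) E)
      (Polynomial.algEquivOfTranscendental K t ht P₁) ≠ 0 := fun h =>
    hPAirr.ne_zero (hinjAB (h.trans (map_zero _).symm))
  have h𝔓bot : 𝔓 ≠ ⊥ := by
    rintro rfl
    rw [Ideal.mem_bot] at hPA𝔓
    exact hPAB0 hPA𝔓
  let 𝔓s : HeightOneSpectrum (integralClosure (Algebra.adjoin K {t}) E) := ⟨𝔓, h𝔓, h𝔓bot⟩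
  let V : Place K E := H27L6.h27_placeOf K (integralClosure (Algebra.adjoin K {t}) E) 𝔓s
  have hVt : 0 ≤ V.ord t := by
    have htB : IsIntegral (Algebra.adjoin K {t}) t :=
      isIntegral_algebraMap (R := Algebra.adjoin K {t})
        (x := ⟨t, Algebra.self_mem_adjoin_singleton K t⟩)
    have : algebraMap (integralClosure (Algebra.adjoin K {t}) E) E ⟨t, htB⟩ ∈
        V.toValuationSubring :=
      H27L6.h27_mem_placeOf (F := E) K (integralClosure (Algebra.adjoin K {t}) E) 𝔓s _
    exact RH24.h20_ord_nonneg_of_mem V this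
  have hVP : 0 < V.ord (aeval t P₁) := by
    have := (H27L6.h27_placeOf_ord_pos_iff (F := E) K
      (integralClosure (Algebra.adjoin K {t}) E) 𝔓s hPAB0).mpr hPA𝔓
    rwa [hcoeAB, heA] at this
  obtain ⟨Q, hQ⟩ := hV V hVt hVP
  set qB : integralClosure (Algebra.adjoin K {t}) E :=
    algebraMap (Algebra.adjoin K {t}) (integralClosure (Algebra.adjoin K {t}) E)
      (Polynomial.algEquivOfTranscendental K t ht Q) with hqB
  have hqE : algebraMap (integralClosure (Algebra.adjoin K {t}) E) E qB = aeval t Q := by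
    rw [hqB, hcoeAB, heA]
  have hQ0 : aeval t Q ≠ 0 := by
    intro h
    rw [h, Place.ord_zero] at hQ
    exact zero_ne_one hQ
  have hqB0 : qB ≠ 0 := by
    intro h
    apply hQ0
    rw [← hqE, h, map_zero]
  have hval : 𝔓s.intValuation qB = WithZero.exp (-1 : ℤ) := by
    have h1 := H27L6.h27_placeOf_ord (F := E) K (integralClosure (Algebra.adjoin K {t}) E) 𝔓s
      (aeval t Q)
    rw [hQ, ← hqE, HeightOneSpectrum.valuation_of_algebraMap] at h1
    have h2 : 𝔓s.intValuation qB ≠ 0 := 𝔓s.intValuation_ne_zero qB hqB0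
    have h3 : WithZero.log (𝔓s.intValuation qB) = -1 := by omega
    rw [← WithZero.exp_log h2, h3]
  have hq1 : qB ∈ 𝔓 := by
    have := (𝔓s.intValuation_le_pow_iff_mem qB 1).mp (by rw [hval]; simp)
    simpa using this
  have hq2 : qB ∉ 𝔓 ^ 2 := by
    intro h
    have h' : qB ∈ 𝔓s.asIdeal ^ 2 := h
    have := (𝔓s.intValuation_le_pow_iff_mem qB 2).mpr h'
    rw [hval, WithZero.exp_le_exp] at this
    omega
  haveI : 𝔓.LiesOver (Ideal.span {Polynomial.algEquivOfTranscendental K t ht P₁}) :=
    ⟨hcomap.symm⟩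
  haveI : CharZero (Algebra.adjoin K {t}) :=
    charZero_of_injective_algebraMap (R := K) (A := Algebra.adjoin K {t}) (RingHom.injective _)
  haveI : CharZero (Algebra.adjoin K {t} ⧸
      Ideal.span {Polynomial.algEquivOfTranscendental K t ht P₁}) := by
    haveI : Nontrivial (Algebra.adjoin K {t} ⧸
      Ideal.span {Polynomial.algEquivOfTranscendental K t ht P₁}) :=
      Ideal.Quotient.nontrivial_iff.mpr hpmax.ne_top
    exact charZero_of_injective_algebraMap (R := K) (RingHom.injective _)
  have hqp : Polynomial.algEquivOfTranscendental K t ht Q ∈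
      Ideal.span {Polynomial.algEquivOfTranscendental K t ht P₁} := by
    rw [← hcomap]
    exact hq1
  exact h18pf_not_dvd_different (Ideal.span {Polynomial.algEquivOfTranscendental K t ht P₁})
    hpbot 𝔓 h𝔓bot (Polynomial.algEquivOfTranscendental K t ht Q) hqp hq2

/-- **Horizontal self-duality**: if all places of `E / K` over the irreducible polynomial `P₁`
are unramified over `K(t)`, every element of the trace dual of the integral closure of `K[t]`
has a denominator prime to `P₁`. -/
theorem h18pf_horizontal (t : E) (ht : Transcendental K t) [FiniteDimensional K⟮t⟯ E]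
    (P₁ : K[X]) (hP₁ : Irreducible P₁)
    (hV : ∀ V : Place K E, 0 ≤ V.ord t → 0 < V.ord (aeval t P₁) →
      ∃ Q : K[X], V.ord (aeval t Q) = 1)
    (y : E) (hy : ∀ m : E, IsIntegral (Algebra.adjoin K {t}) m →
      ∃ a : K[X], algebraMap K⟮t⟯ E (Algebra.trace K⟮t⟯ E (y * m)) = aeval t a) :
    ∃ s : K[X], ¬ P₁ ∣ s ∧ IsIntegral (Algebra.adjoin K {t}) (aeval t s * y) := by
  classical
  have heA := h18pf_coe_equiv t ht
  haveI := h18pf_pid t ht
  haveI : IsDedekindDomain (Algebra.adjoin K {t}) := inferInstance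
  haveI : CharZero K⟮t⟯ := charZero_of_injective_algebraMap (algebraMap K K⟮t⟯).injective
  haveI : Algebra.IsSeparable K⟮t⟯ E := inferInstance
  haveI : IsDedekindDomain (integralClosure (Algebra.adjoin K {t}) E) :=
    integralClosure.isDedekindDomain (Algebra.adjoin K {t}) K⟮t⟯ E
  haveI : IsFractionRing (integralClosure (Algebra.adjoin K {t}) E) E :=
    integralClosure.isFractionRing_of_finite_extension K⟮t⟯ E
  haveI : Module.Finite (Algebra.adjoin K {t}) (integralClosure (Algebra.adjoin K {t}) E) :=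
    IsIntegralClosure.finite (Algebra.adjoin K {t}) K⟮t⟯ E _
  have hPAirr : Irreducible (Polynomial.algEquivOfTranscendental K t ht P₁) :=
    (MulEquiv.irreducible_iff (Polynomial.algEquivOfTranscendental K t ht).toMulEquiv).mpr hP₁
  haveI hpmax : (Ideal.span {Polynomial.algEquivOfTranscendental K t ht P₁}).IsMaximal :=
    PrincipalIdealRing.isMaximal_of_irreducible hPAirr
  have hy' : ∀ b : integralClosure (Algebra.adjoin K {t}) E,
      Algebra.trace K⟮t⟯ E (y * algebraMap (integralClosure (Algebra.adjoin K {t}) E) E b) ∈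
        (algebraMap (Algebra.adjoin K {t}) K⟮t⟯).range := by
    intro b
    obtain ⟨a, ha⟩ := hy (b : E) b.2
    refine ⟨Polynomial.algEquivOfTranscendental K t ht a, ?_⟩
    apply (algebraMap K⟮t⟯ E).injective
    have : algebraMap (integralClosure (Algebra.adjoin K {t}) E) E b = (b : E) := rfl
    rw [this, ha, ← heA]
    rfl
  obtain ⟨s, hsp, b, hb⟩ := h18pf_selfdual_abs (Algebra.adjoin K {t}) K⟮t⟯ (L := E)
    (B := integralClosure (Algebra.adjoin K {t}) E)
    (Ideal.span {Polynomial.algEquivOfTranscendental K t ht P₁})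
    (fun 𝔓 h𝔓 hc => h18pf_unr t ht P₁ hP₁ hV 𝔓 h𝔓 hc) y hy'
  refine ⟨(Polynomial.algEquivOfTranscendental K t ht).symm s, ?_, ?_⟩
  · intro hdvd
    apply hsp
    obtain ⟨c, hc⟩ := hdvd
    have : s = Polynomial.algEquivOfTranscendental K t ht P₁ *
        Polynomial.algEquivOfTranscendental K t ht c := by
      rw [← map_mul, ← hc, AlgEquiv.apply_symm_apply]
    rw [this]
    exact Ideal.mul_mem_right _ _ (Ideal.mem_span_singleton_self _)
  · have h1 : aeval t ((Polynomial.algEquivOfTranscendental K t ht).symm s) = (s : E) := by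
      rw [← heA, AlgEquiv.apply_symm_apply]
    rw [h1]
    have h2 : algebraMap (Algebra.adjoin K {t}) E s = (s : E) := rfl
    rw [← h2, ← hb]
    exact b.2

end Concrete

end H18S18
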