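import Mathlib

/-!
# Item 75 (S18), slice C2-G1 + C2-G2 (helper16)

Transfer lemmas for `Algebra.adjoin R {t}` with `t` transcendental over a DVR `R`:

* `H16C2G.h16_adjoin_ufd`  (G1): `Algebra.adjoin R {t}` is a UFD.
* `H16C2G.h16_adjoin_quot_pid` (G2): `(Algebra.adjoin R {t}) ⧸ (ϖ)` is a principal ideal ring
  for an irreducible `ϖ : R`.
-/

namespace H16C2G

open Polynomial

/-- G1 in general form: for a UFD `R` and a transcendental `t`, `R[t]` is a UFD. -/
theorem h16_adjoin_ufd_gen {R : Type*} [CommRing R] [IsDomain R] [UniqueFactorizationMonoid R]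
    {E : Type*} [CommRing E] [Algebra R E] (t : E) (ht : Transcendental R t) :
    UniqueFactorizationMonoid (Algebra.adjoin R {t}) :=
  (Polynomial.algEquivOfTranscendental R t ht).toMulEquiv.uniqueFactorizationMonoid
    inferInstance

/-- The adjoin of a transcendental element over a domain is a domain. -/
theorem h16_adjoin_isDomain {R : Type*} [CommRing R] [IsDomain R]
    {E : Type*} [CommRing E] [Algebra R E] (t : E) (ht : Transcendental R t) :
    IsDomain (Algebra.adjoin R {t}) :=
  (Polynomial.algEquivOfTranscendental R t ht).symm.toMulEquiv.isDomain _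

/-- **G1**: for a DVR `R` and `t` transcendental over `R`, `Algebra.adjoin R {t}` is a UFD. -/
theorem h16_adjoin_ufd {R : Type} [CommRing R] [IsDomain R] [IsDiscreteValuationRing R]
    {E : Type} [Field E] [Algebra R E] (t : E) (ht : Transcendental R t) :
    UniqueFactorizationMonoid (Algebra.adjoin R {t}) :=
  h16_adjoin_ufd_gen t ht

/-- G2 in general form: for `ϖ` generating a maximal ideal of `R` and `t` transcendental,
`R[t] ⧸ (ϖ)` is a principal ideal ring. -/
theorem h16_adjoin_quot_pid_gen {R : Type*} [CommRing R]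
    {E : Type*} [CommRing E] [Algebra R E] (t : E) (ht : Transcendental R t)
    {ϖ : R} (hmax : (Ideal.span {ϖ} : Ideal R).IsMaximal) :
    IsPrincipalIdealRing
      ((Algebra.adjoin R {t}) ⧸
        Ideal.span {algebraMap R (Algebra.adjoin R {t}) ϖ}) := by
  classical
  let e : R[X] ≃ₐ[R] Algebra.adjoin R {t} := Polynomial.algEquivOfTranscendental R t ht
  let I : Ideal R := Ideal.span {ϖ}
  let J : Ideal (Algebra.adjoin R {t}) := Ideal.span {algebraMap R (Algebra.adjoin R {t}) ϖ}
  let _ : Field (R ⧸ I) := Ideal.Quotient.field I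
  -- the ring hom `R[X] → R[t] ⧸ J`
  let f : R[X] →+* (Algebra.adjoin R {t}) ⧸ J :=
    (Ideal.Quotient.mk J).comp (e : R[X] →+* Algebra.adjoin R {t})
  have hf_surj : Function.Surjective f :=
    Ideal.Quotient.mk_surjective.comp e.surjective
  -- `f` kills `I.map C`
  have hker : ∀ a ∈ Ideal.map (C : R →+* R[X]) I, f a = 0 := by
    intro a ha
    have hle : Ideal.map (C : R →+* R[X]) I ≤ RingHom.ker f := by
      rw [Ideal.map_le_iff_le_comap]
      intro r hr
      rw [Ideal.mem_comap, RingHom.mem_ker]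
      obtain ⟨s, rfl⟩ := Ideal.mem_span_singleton'.mp hr
      have h1 : (e : R[X] →+* Algebra.adjoin R {t}) (C (s * ϖ))
          = algebraMap R (Algebra.adjoin R {t}) s * algebraMap R (Algebra.adjoin R {t}) ϖ := by
        rw [← map_mul]
        exact e.commutes (s * ϖ)
      change Ideal.Quotient.mk J ((e : R[X] →+* Algebra.adjoin R {t}) (C (s * ϖ))) = 0
      rw [h1, Ideal.Quotient.eq_zero_iff_mem]
      exact Ideal.mul_mem_left _ _ (Ideal.subset_span rfl)
    exact hle ha
  let g : R[X] ⧸ Ideal.map (C : R →+* R[X]) I →+* (Algebra.adjoin R {t}) ⧸ J :=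
    Ideal.Quotient.lift _ f hker
  have hg_surj : Function.Surjective g := by
    intro y
    obtain ⟨x, rfl⟩ := hf_surj y
    exact ⟨Ideal.Quotient.mk _ x, by simp [g]⟩
  let φ : (R ⧸ I)[X] ≃+* R[X] ⧸ Ideal.map (C : R →+* R[X]) I :=
    (Ideal.polynomialQuotientEquivQuotientPolynomial I)
  let h : (R ⧸ I)[X] →+* (Algebra.adjoin R {t}) ⧸ J := g.comp (φ : (R ⧸ I)[X] →+* _)
  have hh_surj : Function.Surjective h := hg_surj.comp φ.surjective
  exact IsPrincipalIdealRing.of_surjective h hh_surj

/-- **G2**: for a DVR `R`, an irreducible `ϖ : R` and `t` transcendental over `R`,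
`(Algebra.adjoin R {t}) ⧸ (ϖ)` is a principal ideal ring. -/
theorem h16_adjoin_quot_pid {R : Type} [CommRing R] [IsDomain R] [IsDiscreteValuationRing R]
    {E : Type} [Field E] [Algebra R E] (t : E) (ht : Transcendental R t)
    {ϖ : R} (hϖ : Irreducible ϖ) :
    IsPrincipalIdealRing
      ((Algebra.adjoin R {t}) ⧸
        Ideal.span {algebraMap R (Algebra.adjoin R {t}) ϖ}) := by
  have hmax : (Ideal.span {ϖ} : Ideal R).IsMaximal :=
    PrincipalIdealRing.isMaximal_of_irreducible hϖ
  exact h16_adjoin_quot_pid_gen t ht hmax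

end H16C2G
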