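/-
helper18: S18 (item 75), route Y', slice C2, part H: assembly of
`H7S18.LocalIdemUnrStatement` from the abstract purity theorem (`H18S18.h18_purity_abs`),
`UnrGauss` (vertical self-duality) and the horizontal self-duality statement `HbStatement`
(proved by helper19 from `H18S18.h18pf_horizontal`).
-/
import Mathlib
import Fermat.Agent.S18.Defs
import Fermat.Agent.S18.TBase_helper19
import Fermat.Agent.S18.TFin_helper19
import Fermat.Agent.S18.C2G12_helper16
import Fermat.Agent.S18.H18PurityE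

set_option autoImplicit false
set_option linter.unusedSectionVars false
set_option linter.style.haveILetI false

open Polynomial IntermediateField AlgebraicCurve

namespace H18S18

/-- The horizontal self-duality statement in the concrete setting (slice C2-Hb). -/
def HbStatement : Prop :=
  ∀ (R : Type) [CommRing R] [IsDomain R] [IsDiscreteValuationRing R]
    (K : Type) [Field K] [CharZero K] [Algebra R K] [IsFractionRing R K]
    (E : Type) [Field E] [Algebra K E] [Algebra R E] [IsScalarTower R K E]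
    (ϖ : R) (_ : Irreducible ϖ) (t : E) (_ : Transcendental K t)
    (_ : FiniteDimensional K⟮t⟯ E)
    (𝔪 : Ideal (Algebra.adjoin R {t})) (_ : 𝔪.IsMaximal)
    (_ : ∀ V : Place K E, H7S18.Through R K t 𝔪 V →
      ∃ Q : K[X], V.ord (Polynomial.aeval t Q) = 1)
    (P : Algebra.adjoin R {t}) (_ : Prime P) (_ : P ∈ 𝔪)
    (_ : ¬ Associated P (algebraMap R (Algebra.adjoin R {t}) ϖ))
    (y : E) (_ : ∀ m : E, IsIntegral (Algebra.adjoin R {t}) m →
      ∃ a : Algebra.adjoin R {t},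
        algebraMap K⟮t⟯ E (Algebra.trace K⟮t⟯ E (y * m)) = (a : E)),
    ∃ s : Algebra.adjoin R {t}, ¬ P ∣ s ∧ IsIntegral (Algebra.adjoin R {t}) ((s : E) * y)

theorem h18_localIdemUnr_of (hHb : HbStatement) : H7S18.LocalIdemUnrStatement := by
  intro R _ _ _ K _ _ _ _ E _ _ _ _ ϖ hϖ t ht hfin hUnr 𝔪 h𝔪 hπ𝔪 hplaces x hx hxx
  classical
  have htR : Transcendental R t := H19S18.h19_transc R K ht
  haveI : UniqueFactorizationMonoid (Algebra.adjoin R {t}) := H16C2G.h16_adjoin_ufd t htR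
  haveI : IsNoetherianRing (Algebra.adjoin R {t}) := H19S18.h19_T_noeth R htR
  letI : Algebra (Algebra.adjoin R {t}) K⟮t⟯ := (H19S18.h19_TtoKt R K t).toAlgebra
  haveI : IsFractionRing (Algebra.adjoin R {t}) K⟮t⟯ := H19S18.h19_T_isFractionRing R K t
  haveI : IsScalarTower (Algebra.adjoin R {t}) K⟮t⟯ E :=
    IsScalarTower.of_algebraMap_eq (fun _ => rfl)
  haveI : CharZero K⟮t⟯ := charZero_of_injective_algebraMap (algebraMap K K⟮t⟯).injective
  haveI : Algebra.IsSeparable K⟮t⟯ E := inferInstance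
  have hπ : Prime (algebraMap R (Algebra.adjoin R {t}) ϖ) := H19S18.h19_T_prime R htR hϖ
  have hPID := H16C2G.h16_adjoin_quot_pid t htR hϖ
  have hcoe : ∀ s : Algebra.adjoin R {t}, algebraMap (Algebra.adjoin R {t}) E s = (s : E) :=
    fun _ => rfl
  have hcoeπ : algebraMap (Algebra.adjoin R {t}) E (algebraMap R (Algebra.adjoin R {t}) ϖ) =
      algebraMap R E ϖ := rfl
  -- translation `GInt ↔ OEp`
  have hGO : ∀ y : E, H7S18.GInt R ϖ t y → OEp (algebraMap R (Algebra.adjoin R {t}) ϖ) y := by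
    rintro y ⟨s, hs, hsy⟩
    exact ⟨⟨s, hs.1⟩, (H19S18.h19_gaussUnit_iff R ϖ t ⟨s, hs.1⟩).mp hs, hsy⟩
  have hOG : ∀ y : E, OEp (algebraMap R (Algebra.adjoin R {t}) ϖ) y → H7S18.GInt R ϖ t y := by
    rintro y ⟨s, hs, hsy⟩
    exact ⟨(s : E), (H19S18.h19_gaussUnit_iff R ϖ t s).mpr hs, hsy⟩
  -- vertical self-duality
  have hG : ∀ y : E, (∀ m : E, IsIntegral (Algebra.adjoin R {t}) m →
        ∃ a : Algebra.adjoin R {t},
          Algebra.trace K⟮t⟯ E (y * m) = algebraMap (Algebra.adjoin R {t}) K⟮t⟯ a) →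
        ∃ s : Algebra.adjoin R {t}, ¬ algebraMap R (Algebra.adjoin R {t}) ϖ ∣ s ∧
          IsIntegral (Algebra.adjoin R {t}) (algebraMap (Algebra.adjoin R {t}) E s * y) := by
    intro y hy
    have h1 : H7S18.GInt R ϖ t y := by
      apply hUnr y
      intro m hm
      obtain ⟨a, ha⟩ := hy m hm
      refine ⟨1, (a : E), H19S18.h19_gaussUnit_one R htR hϖ, a.2, ?_⟩
      rw [one_mul, ha]
      rfl
    exact hGO y h1
  -- horizontal self-duality
  have hH : ∀ P : Algebra.adjoin R {t}, Prime P → P ∈ 𝔪 →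
      ¬ Associated P (algebraMap R (Algebra.adjoin R {t}) ϖ) → ∀ y : E,
        (∀ m : E, IsIntegral (Algebra.adjoin R {t}) m → ∃ a : Algebra.adjoin R {t},
          Algebra.trace K⟮t⟯ E (y * m) = algebraMap (Algebra.adjoin R {t}) K⟮t⟯ a) →
        ∃ s : Algebra.adjoin R {t}, ¬ P ∣ s ∧
          IsIntegral (Algebra.adjoin R {t}) (algebraMap (Algebra.adjoin R {t}) E s * y) := by
    intro P hP hP𝔪 hPπ y hy
    refine hHb R K E ϖ hϖ t ht hfin 𝔪 h𝔪 hplaces P hP hP𝔪 hPπ y (fun m hm => ?_)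
    obtain ⟨a, ha⟩ := hy m hm
    exact ⟨a, by rw [ha]; rfl⟩
  obtain ⟨z, hz, hxz⟩ := hxx
  obtain ⟨s, hs𝔪, a, hai, z', hz', hsz⟩ := h18_purity_abs K⟮t⟯
    (algebraMap R (Algebra.adjoin R {t}) ϖ) hπ hPID 𝔪 h𝔪 hπ𝔪 hG hH x (hGO x hx) z (hGO z hz)
    (by rw [hcoeπ]; exact hxz)
  exact ⟨s, hs𝔪, a, hai, z', hOG z' hz', by rw [← hcoeπ]; exact hsz⟩

end H18S18
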