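/-
helper19: S18 route Y', slice C2, part Hb, final form:
`h19_HbStatement : H18S18.HbStatement` (from helper18's part F `h18pf_horizontal`) and
`h19_localIdemUnr : H7S18.LocalIdemUnrStatement` (slice C2, via helper18's assembly).
-/
import Mathlib
import Fermat.Agent.S18.C2Hb_helper19
import Fermat.Agent.S18.H18PurityF
import Fermat.Agent.S18.H18PurityH

set_option autoImplicit false

namespace H19S18

open Polynomial IntermediateField AlgebraicCurve

theorem h19_horizontalF : h19_HorizontalF := by
  intro K _ _ E _ _ t ht _ P₁ hP₁ hV y hy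
  exact H18S18.h18pf_horizontal t ht P₁ hP₁ hV y hy

/-- **C2-Hb**. -/
theorem h19_HbStatement : H18S18.HbStatement := by
  intro R _ _ _ K _ _ _ _ E _ _ _ _ ϖ hϖ t ht hfin 𝔪 h𝔪 hplaces P hP hP𝔪 hPπ y hy
  haveI := hfin
  exact h19_c2_hH h19_horizontalF ϖ hϖ t ht 𝔪 h𝔪 hplaces P hP hP𝔪 hPπ y hy

/-- **C2** (purity at a maximal ideal without branch point). -/
theorem h19_localIdemUnr : H7S18.LocalIdemUnrStatement :=
  H18S18.h18_localIdemUnr_of h19_HbStatement

end H19S18
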