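/-
S18 (item 75), route Y', slice C7 (helper28): sub-slices C7a–C7d (exact Props).

The abstract part of C7 is done: `H28UG.gauss_abstract` (UnrGenD) and `H28UG.GaussData.finrank_eq`
(UnrGenE).  The four Props below are the remaining concrete inputs; helper28 does the
instantiation (`GaussData` for the Gauss valuation ring of `F_{K₁}(N)`) and the assembly.
-/
import Mathlib
import Fermat.Agent.S18.DefsD
import Fermat.Prelude.Def_ModularCurve_ReductionModL

set_option autoImplicit false

open Polynomial IntermediateField ModularCurve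

namespace H28UG

/-- **C7a**: the residue field of `A₁ = A ∩ K₁` is perfect of characteristic `ℓ`
(it is algebraic over `𝔽_ℓ`). -/
def C7PerfectStatement : Prop :=
  ∀ (ℓ : ℕ) [Fact ℓ.Prime] (A : ValuationSubring (AlgebraicClosure ℚ)) (_ : A.LiesOverPrime ℓ)
    (K₁ : IntermediateField ℚ (AlgebraicClosure ℚ)),
    PerfectField (IsLocalRing.ResidueField ↥(H7S18.descVal A K₁)) ∧
      CharP (IsLocalRing.ResidueField ↥(H7S18.descVal A K₁)) ℓ

/-- **C7b**: `[F_k(N) : k(j)] = ψ(N)` as a `finrank` of subtypes, for every field `k` in which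
the primes dividing `N` are invertible (S28 degree theory). -/
def C7DegStatement : Prop :=
  ∀ (k : Type) [Field k] (N : ℕ) [NeZero N] (_ : ∀ r : ℕ, r.Prime → r ∣ N → (r : k) ≠ 0)
    (M : IntermediateField k (LaurentSeries k)) (_ : M = modularFunctionFieldFullC k N)
    (j : ↥M) (_ : (j : LaurentSeries k) = jqModC k),
    Module.finrank ↥k⟮j⟯ ↥M = dedekindPsi N

/-- **C7c**: separability of a finite subextension of `k((q)) / k(t)` (`k` perfect of
characteristic `p`, `t = q⁻¹ + …`); from `H28GV.gv_isSeparable`. -/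
def C7SepStatement : Prop :=
  ∀ (k : Type) [Field k] (p : ℕ) [Fact p.Prime] [CharP k p] [PerfectField k]
    (M : IntermediateField k (LaurentSeries k)) (t : ↥M)
    (_ : Transcendental k (t : LaurentSeries k)) (_ : (t : LaurentSeries k).coeff (-1) = 1)
    (_ : FiniteDimensional ↥k⟮t⟯ ↥M),
    Algebra.IsSeparable ↥k⟮t⟯ ↥M

/-- **C7d**: basic facts on the base functions `j`, `h₂`, `h₃`: residue `1` at `q = 0`,
integral coefficients, and `j ∈ ℚ(t)`. -/
def C7BaseStatement : Prop :=
  ∀ (i : ℕ) (t₀ : LaurentSeries ℚ), H7S18.IsBase i t₀ →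
    t₀.coeff (-1) = 1 ∧ (∃ T : LaurentSeries ℤ, coeffMap (Int.castRingHom ℚ) T = t₀) ∧
      jq ∈ IntermediateField.adjoin ℚ {t₀}

end H28UG
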