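import Mathlib
import Fermat.Agent.S18.GVBar_helper28

/-!
# W2-B (S18), foundation slice GV, part 9 (helper28): the orthonormal basis over ANY residue field

`gv_basis_nonempty_gen`: `Nonempty (GVBasis A π N)` for every field `k` in which the primes
dividing `N` are invertible (no algebraic closedness): descent of the independent monomials from
the algebraic closure of `k`.  In particular for `L = K₁` a number field and `A` the valuation
subring of a prime over `ℓ ∤ N`.
-/

set_option autoImplicit false
open ModularCurve HahnSeries

noncomputable section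

namespace H28GV

section Descent

variable {k K : Type*} [Field k] [Field K] (φ : k →+* K)

theorem gv_coeffMap_injective : Function.Injective (coeffMap φ) := (coeffMap φ).injective

theorem gv_coeffMap_aeval (x : LaurentSeries k) (p : Polynomial k) :
    coeffMap φ (Polynomial.aeval x p) = Polynomial.aeval (coeffMap φ x) (p.map φ) := by
  rw [Polynomial.aeval_def, Polynomial.hom_eval₂, Polynomial.aeval_def, Polynomial.eval₂_map]
  congr 1
  ext c : 1
  rw [RingHom.comp_apply, RingHom.comp_apply, algebraMap_laurentSeries_eq_single,
    algebraMap_laurentSeries_eq_single, coeffMap_single]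

/-- the coefficient map sends `k(J)` into `K(J)` -/
theorem gv_coeffMap_mem_base {a : LaurentSeries k}
    (ha : a ∈ IntermediateField.adjoin k {jqModC k}) :
    coeffMap φ a ∈ IntermediateField.adjoin K {jqModC K} := by
  obtain ⟨r, s, hrs⟩ := (IntermediateField.mem_adjoin_simple_iff _ _).mp ha
  rw [hrs, map_div₀, gv_coeffMap_aeval, gv_coeffMap_aeval, coeffMap_jqModC]
  exact div_mem (gv_aeval_mem_adjoin _ _) (gv_aeval_mem_adjoin _ _)

/-- monomials in the `J(q^d)` over `K` come from monomials over `k` -/
theorem gv_monomial_descent (N : ℕ) {z : LaurentSeries K}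
    (hz : z ∈ Submonoid.closure (divisorExpansionsC K N)) :
    ∃ y ∈ Submonoid.closure (divisorExpansionsC k N), coeffMap φ y = z := by
  induction hz using Submonoid.closure_induction with
  | mem x hx =>
    obtain ⟨d, hd, hdN, rfl⟩ := hx
    have := hd
    refine ⟨qExpand k d (jqModC k), Submonoid.subset_closure ⟨d, hd, hdN, rfl⟩, ?_⟩
    rw [coeffMap_qExpand, coeffMap_jqModC]
  | one => exact ⟨1, one_mem _, map_one _⟩
  | mul x y _ _ hx hy =>
    obtain ⟨f, hf, hf'⟩ := hx
    obtain ⟨g, hg, hg'⟩ := hy
    exact ⟨f * g, mul_mem hf hg, by rw [map_mul, hf', hg']⟩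

/-- descent of linear independence over `K(J)` to linear independence over `k(J)` -/
theorem gv_li_descent {ι : Type*} [Fintype ι] (v : ι → LaurentSeries k)
    (h : LinearIndependent ↥(IntermediateField.adjoin K {jqModC K})
      (fun i => coeffMap φ (v i))) :
    LinearIndependent ↥(IntermediateField.adjoin k {jqModC k}) v := by
  rw [Fintype.linearIndependent_iff] at h ⊢
  intro g hg i
  have h0 : ∑ i, (g i : LaurentSeries k) * v i = 0 := hg
  have h1 := h (fun i => ⟨coeffMap φ (g i : LaurentSeries k), gv_coeffMap_mem_base φ (g i).2⟩) (by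
    have h2 := congrArg (coeffMap φ) h0
    rw [map_sum, map_zero] at h2
    rw [← h2]
    refine Finset.sum_congr rfl (fun i _ => ?_)
    rw [map_mul]
    rfl) i
  have h3 : coeffMap φ (g i : LaurentSeries k) = 0 := congrArg Subtype.val h1
  have h4 : (g i : LaurentSeries k) = 0 :=
    gv_coeffMap_injective φ (h3.trans (map_zero _).symm)
  exact Subtype.ext h4

end Descent

section Gen

variable {L : Type} [Field L] (A : ValuationSubring L) {k : Type} [Field k] (π : A →+* k)
variable (N : ℕ) [NeZero N]

/-- **existence of the orthonormal basis over any residue field** with `char k ∤ N` -/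
theorem gv_basis_nonempty_gen
    (hchar : ∀ r : ℕ, r.Prime → r ∣ N → (r : k) ≠ 0) : Nonempty (GVBasis A π N) := by
  classical
  set φ : k →+* AlgebraicClosure k := algebraMap k (AlgebraicClosure k) with hφ
  have hchar' : ∀ r : ℕ, r.Prime → r ∣ N → (r : AlgebraicClosure k) ≠ 0 := by
    intro r hr hrN h0
    apply hchar r hr hrN
    have h1 : φ (r : k) = 0 := by rw [map_natCast]; exact h0
    exact (map_eq_zero φ).mp h1
  have hdeg := H26WP3.h26_induct' (AlgebraicClosure k) N
    (fun p hp _ => H28S28.h10_hasModEq_all p hp) hchar'
  obtain ⟨t, htM, htli, htcard⟩ := H18WP3.h18_exists_indep_monomials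
    (divisorExpansionsC (AlgebraicClosure k) N)
    (IntermediateField.adjoin (AlgebraicClosure k) {jqModC (AlgebraicClosure k)})
    (gv_adjoin_j_le_full (AlgebraicClosure k) N) (dedekindPsi N) hdeg
  have hdesc := fun x : t => gv_monomial_descent φ N (htM x x.2)
  choose z hzM hz using hdesc
  have hzli : LinearIndependent ↥(IntermediateField.adjoin k {jqModC k}) z := by
    apply gv_li_descent φ z
    have h4 : (fun i => coeffMap φ (z i)) =
        (fun x : t => (x : LaurentSeries (AlgebraicClosure k))) := by
      funext i
      exact hz i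
    rw [h4]
    exact htli
  have hlift := fun x : t => gv_lift_monomial A π N (hzM x)
  choose f hf hf' using hlift
  let e : Fin (dedekindPsi N) ≃ t := (Finset.equivFinOfCardEq htcard).symm
  refine ⟨⟨fun i => f (e i), fun i => gv_closure_le_full L N (hf' (e i)), fun i => ?_, ?_⟩⟩
  · rw [hf]
    exact gv_closure_le_full k N (hzM (e i))
  · have h3 := hzli.comp e e.injective
    have h4 : (fun i => gvRho A π (f (e i))) = z ∘ e := by
      funext i
      exact hf (e i)
    rw [h4]
    exact h3

end Gen

end H28GV
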