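/-
Item 75 (S18), helper18: the norm commutes with reduction.

Abstract setting: `F'/F` a finite field extension, `O ⊂ F`, `O' ⊂ F'` valuation subrings with
`O' ∩ F = O`, reduction maps `red : O → κ`, `red' : O' → κ'` onto the residue fields, compatible with
`κ → κ'`, and `[κ' : κ] = [F' : F]` (no defect, unique extension).  Then `O'` is free over `O` on any
lift of a `κ`-basis of `κ'`, and characteristic polynomial, norm and trace commute with reduction.
-/
import Mathlib

set_option autoImplicit false
set_option linter.unusedSectionVars false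
set_option linter.unusedVariables false

namespace H18S18

open Module

section NormRed

variable {F F' : Type*} [Field F] [Field F'] [Algebra F F']
variable (O : ValuationSubring F) (O' : ValuationSubring F')
variable {κ κ' : Type*} [Field κ] [Field κ'] [Algebra κ κ']
variable (red : O →+* κ) (red' : O' →+* κ')

/-- The data of a compatible pair of reductions. -/
structure RedPair : Prop where
  /-- `O' ∩ F = O`. -/
  mem_iff : ∀ x : F, algebraMap F F' x ∈ O' ↔ x ∈ O
  /-- the kernel of `red` is the maximal ideal -/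
  ker : ∀ x : O, red x = 0 ↔ x ∈ nonunits O
  /-- the kernel of `red'` is the maximal ideal -/
  ker' : ∀ x : O', red' x = 0 ↔ x ∈ nonunits O'
  surj' : Function.Surjective red'
  compat : ∀ (x : O) (hx : algebraMap F F' (x : F) ∈ O'),
    red' ⟨algebraMap F F' (x : F), hx⟩ = algebraMap κ κ' (red x)

variable {O O' red red'}

theorem RedPair.algebraMap_mem (h : RedPair O O' red red') (x : O) :
    algebraMap F F' (x : F) ∈ O' := (h.mem_iff _).mpr x.2

/-- an element of `F` not in `O` has inverse in the maximal ideal -/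
theorem h18_inv_mem_nonunits {x : F} (hx : x ∉ O) :
    ∃ z : O, (z : F) = x⁻¹ ∧ z ∈ nonunits O := by
  have hx0 : x ≠ 0 := fun h => hx (h ▸ O.zero_mem)
  have hinv : x⁻¹ ∈ O := by
    rcases O.mem_or_inv_mem x with h | h
    · exact absurd h hx
    · exact h
  refine ⟨⟨x⁻¹, hinv⟩, rfl, ?_⟩
  intro hu
  obtain ⟨u, hu⟩ := hu
  have h1 : ((u⁻¹ : Oˣ) : O) * ⟨x⁻¹, hinv⟩ = 1 := by rw [← hu]; exact u.inv_mul
  have h2 : (((u⁻¹ : Oˣ) : O) : F) * x⁻¹ = 1 := by
    have := congrArg (fun z : O => (z : F)) h1
    simpa using this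
  have h3 : (((u⁻¹ : Oˣ) : O) : F) = x := by
    field_simp at h2
    exact h2
  exact hx (h3 ▸ ((u⁻¹ : Oˣ) : O).2)

/-- Among finitely many elements of `F`, not all zero, one divides all others in `O`. -/
theorem h18_exists_max {ι : Type*} [Finite ι] [Nonempty ι] (a : ι → F) :
    ∃ i₀ : ι, ∀ i, ∃ c : O, a i = (c : F) * a i₀ := by
  classical
  have := Fintype.ofFinite ι
  -- induction on the finset
  suffices H : ∀ s : Finset ι, s.Nonempty → ∃ i₀ ∈ s, ∀ i ∈ s, ∃ c : O, a i = (c : F) * a i₀ by
    obtain ⟨i₀, _, h⟩ := H Finset.univ Finset.univ_nonempty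
    exact ⟨i₀, fun i => h i (Finset.mem_univ i)⟩
  intro s hs
  induction hs using Finset.Nonempty.cons_induction with
  | singleton i =>
    refine ⟨i, Finset.mem_singleton_self i, fun j hj => ?_⟩
    rw [Finset.mem_singleton] at hj
    subst hj
    exact ⟨1, by simp⟩
  | cons i s hi hs ih =>
    obtain ⟨i₀, hi₀, h⟩ := ih
    by_cases hai : a i = 0
    · refine ⟨i₀, Finset.mem_cons_of_mem hi₀, fun j hj => ?_⟩
      rw [Finset.mem_cons] at hj
      rcases hj with rfl | hj
      · exact ⟨0, by rw [hai]; simp⟩
      · exact h j hj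
    by_cases h0 : a i₀ = 0
    · refine ⟨i, Finset.mem_cons_self i s, fun j hj => ?_⟩
      rw [Finset.mem_cons] at hj
      rcases hj with rfl | hj
      · exact ⟨1, by simp⟩
      · obtain ⟨c, hc⟩ := h j hj
        refine ⟨0, ?_⟩
        rw [hc, h0]
        simp
    rcases O.mem_or_inv_mem (a i / a i₀) with hmem | hmem
    · refine ⟨i₀, Finset.mem_cons_of_mem hi₀, fun j hj => ?_⟩
      rw [Finset.mem_cons] at hj
      rcases hj with rfl | hj
      · exact ⟨⟨_, hmem⟩, by simp only; field_simp⟩
      · exact h j hj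
    · refine ⟨i, Finset.mem_cons_self i s, fun j hj => ?_⟩
      rw [Finset.mem_cons] at hj
      rcases hj with rfl | hj
      · exact ⟨1, by simp⟩
      · obtain ⟨c, hc⟩ := h j hj
        refine ⟨c * ⟨_, hmem⟩, ?_⟩
        rw [hc]
        push_cast
        field_simp

/-- the image in `O'` of an element of `O` -/
def RedPair.incl (h : RedPair O O' red red') (x : O) : O' :=
  ⟨algebraMap F F' (x : F), h.algebraMap_mem x⟩

theorem RedPair.red'_incl (h : RedPair O O' red red') (x : O) :
    red' (h.incl x) = algebraMap κ κ' (red x) := h.compat x _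

/-- Key computation: a relation `∑ a i • b i = y₀` with `a i = c i * a i₀`. -/
theorem h18_red_sum (h : RedPair O O' red red') {ι : Type*} [Fintype ι] (b : ι → O')
    (c : ι → O) (w : O') (hw : (w : F') = ∑ i, (c i : F) • ((b i : O') : F')) :
    red' w = ∑ i, red (c i) • red' (b i) := by
  have h1 : w = ∑ i, h.incl (c i) * b i := by
    apply Subtype.ext
    rw [hw]
    push_cast
    refine Finset.sum_congr rfl (fun i _ => ?_)
    rw [Algebra.smul_def]
    rfl
  rw [h1, map_sum]
  refine Finset.sum_congr rfl (fun i _ => ?_)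
  rw [map_mul, h.red'_incl, Algebra.smul_def]

/-- Lifts of `κ`-linearly independent elements are `F`-linearly independent. -/
theorem h18_linearIndependent_lift (h : RedPair O O' red red') {ι : Type*} [Finite ι]
    (b : ι → O') (hb : LinearIndependent κ (fun i => red' (b i))) :
    LinearIndependent F (fun i => ((b i : O') : F')) := by
  classical
  have := Fintype.ofFinite ι
  rw [Fintype.linearIndependent_iff]
  intro a ha
  by_contra hne
  push Not at hne
  obtain ⟨i₁, hi₁⟩ := hne
  have : Nonempty ι := ⟨i₁⟩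
  obtain ⟨i₀, hi₀⟩ := h18_exists_max (O := O) a
  have ha0 : a i₀ ≠ 0 := by
    intro h0
    obtain ⟨c, hc⟩ := hi₀ i₁
    rw [h0, mul_zero] at hc
    exact hi₁ hc
  choose c hc using hi₀
  have hsum : ((0 : O') : F') = ∑ i, (c i : F) • ((b i : O') : F') := by
    have h2 : (a i₀)⁻¹ • ∑ i, a i • ((b i : O') : F') = 0 := by rw [ha, smul_zero]
    rw [Finset.smul_sum] at h2
    rw [ZeroMemClass.coe_zero, ← h2]
    refine Finset.sum_congr rfl (fun i _ => ?_)
    rw [smul_smul, hc i]
    congr 1
    field_simp
  have hred := h18_red_sum h b c 0 hsum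
  rw [map_zero] at hred
  have h3 := Fintype.linearIndependent_iff.mp hb (fun i => red (c i)) hred.symm i₀
  have hc1 : c i₀ = 1 := by
    apply Subtype.ext
    have := hc i₀
    have h4 : (c i₀ : F) * a i₀ = 1 * a i₀ := by rw [one_mul]; exact this.symm
    exact mul_right_cancel₀ ha0 h4
  rw [hc1, map_one] at h3
  exact one_ne_zero h3

/-- Coordinates of an element of `O'` with respect to a lift of an independent family lie in `O`. -/
theorem h18_coord_mem (h : RedPair O O' red red') {ι : Type*} [Fintype ι]
    (b : ι → O') (hb : LinearIndependent κ (fun i => red' (b i)))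
    (a : ι → F) (y : O') (hy : (y : F') = ∑ i, a i • ((b i : O') : F')) (i : ι) : a i ∈ O := by
  classical
  by_contra hi
  have : Nonempty ι := ⟨i⟩
  obtain ⟨i₀, hi₀⟩ := h18_exists_max (O := O) a
  choose c hc using hi₀
  have hnot : a i₀ ∉ O := by
    intro hmem
    apply hi
    rw [hc i]
    exact O.mul_mem _ _ (c i).2 hmem
  have ha0 : a i₀ ≠ 0 := fun h0 => hnot (h0 ▸ O.zero_mem)
  obtain ⟨z, hz, hznu⟩ := h18_inv_mem_nonunits (O := O) hnot
  have hsum : ((h.incl z * y : O') : F') = ∑ i, (c i : F) • ((b i : O') : F') := by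
    have h1 : ((h.incl z * y : O') : F') = algebraMap F F' (z : F) * (y : F') := rfl
    rw [h1, hy, hz, ← Algebra.smul_def, Finset.smul_sum]
    refine Finset.sum_congr rfl (fun i _ => ?_)
    rw [smul_smul, hc i]
    congr 1
    field_simp
  have hred := h18_red_sum h b c _ hsum
  rw [map_mul, h.red'_incl, (h.ker z).mpr hznu, map_zero, zero_mul] at hred
  have h3 := Fintype.linearIndependent_iff.mp hb (fun i => red (c i)) hred.symm i₀
  have hc1 : c i₀ = 1 := by
    apply Subtype.ext
    have := hc i₀
    have h4 : (c i₀ : F) * a i₀ = 1 * a i₀ := by rw [one_mul]; exact this.symm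
    exact mul_right_cancel₀ ha0 h4
  rw [hc1, map_one] at h3
  exact one_ne_zero h3

section Main

variable [FiniteDimensional F F']

/-- `O'` is free over `O` on a lift of a basis of `κ'/κ`; multiplication matrices reduce. -/
theorem h18_exists_basis_lift (h : RedPair O O' red red')
    (hdeg : finrank κ κ' = finrank F F') :
    ∃ (n : ℕ) (B : Basis (Fin n) F F') (Bbar : Basis (Fin n) κ κ'),
      (∀ i, B i ∈ O') ∧
      ∀ y : O', ∃ M : Matrix (Fin n) (Fin n) O,
        M.map (fun x : O => (x : F)) = Algebra.leftMulMatrix B (y : F') ∧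
        M.map red = Algebra.leftMulMatrix Bbar (red' y) := by
  classical
  have hpos : 0 < finrank κ κ' := by
    rw [hdeg]
    exact finrank_pos
  have hfin : Module.Finite κ κ' := Module.finite_of_finrank_pos hpos
  let Bbar : Basis (Fin (finrank κ κ')) κ κ' := Module.finBasis κ κ'
  choose b hb using fun i => h.surj' (Bbar i)
  have hli : LinearIndependent κ (fun i => red' (b i)) := by
    have : (fun i => red' (b i)) = Bbar := funext hb
    rw [this]
    exact Bbar.linearIndependent
  have hliF := h18_linearIndependent_lift h b hli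
  have hcard : Fintype.card (Fin (finrank κ κ')) = finrank F F' := by
    rw [Fintype.card_fin, hdeg]
  have hne : Nonempty (Fin (finrank κ κ')) := ⟨⟨0, hpos⟩⟩
  let B : Basis (Fin (finrank κ κ')) F F' := basisOfLinearIndependentOfCardEqFinrank hliF hcard
  have hB : ∀ i, B i = ((b i : O') : F') := fun i => by
    simp [B]
  refine ⟨_, B, Bbar, fun i => by rw [hB]; exact (b i).2, fun y => ?_⟩
  -- the matrix of multiplication by `y`
  have hyj : ∀ j, ((y * b j : O') : F') =
      ∑ i, Algebra.leftMulMatrix B (y : F') i j • ((b i : O') : F') := by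
    intro j
    have h1 := B.sum_repr ((y : F') * B j)
    have h2 : ((y * b j : O') : F') = (y : F') * B j := by rw [hB]; rfl
    rw [h2, ← h1]
    refine Finset.sum_congr rfl (fun i _ => ?_)
    rw [Algebra.leftMulMatrix_eq_repr_mul, hB i]
  have hcoord : ∀ j i, Algebra.leftMulMatrix B (y : F') i j ∈ O := fun j i =>
    h18_coord_mem h b hli _ (y * b j) (hyj j) i
  refine ⟨fun i j => ⟨_, hcoord j i⟩, ?_, ?_⟩
  · ext i j
    rfl
  · ext i j
    have hred := h18_red_sum h b (fun i => ⟨_, hcoord j i⟩) (y * b j) (hyj j)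
    rw [map_mul] at hred
    simp only [hb] at hred
    have h5 : Algebra.leftMulMatrix Bbar (red' y) i j = Bbar.repr (red' y * Bbar j) i :=
      Algebra.leftMulMatrix_eq_repr_mul Bbar (red' y) i j
    rw [h5, hred, map_sum, Finset.sum_apply']
    simp only [map_smul, Bbar.repr_self, Finsupp.smul_single, smul_eq_mul, mul_one]
    rw [Finset.sum_eq_single i]
    · first
        | (simp; done)
        | (simp; rfl)
    · intro k _ hk
      simp [hk]
    · intro hi
      exact absurd (Finset.mem_univ i) hi

/-- **The norm commutes with reduction.** -/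
theorem h18_norm_red (h : RedPair O O' red red')
    (hdeg : finrank κ κ' = finrank F F') (y : O') :
    ∃ n : O, (n : F) = Algebra.norm F (y : F') ∧ red n = Algebra.norm κ (red' y) := by
  classical
  obtain ⟨n, B, Bbar, -, hM⟩ := h18_exists_basis_lift h hdeg
  obtain ⟨M, hM1, hM2⟩ := hM y
  refine ⟨M.det, ?_, ?_⟩
  · rw [Algebra.norm_eq_matrix_det B, ← hM1]
    exact (RingHom.map_det O.subtype M)
  · rw [Algebra.norm_eq_matrix_det Bbar, ← hM2]
    exact (RingHom.map_det red M)

/-- **The trace commutes with reduction.** -/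
theorem h18_trace_red (h : RedPair O O' red red')
    (hdeg : finrank κ κ' = finrank F F') (y : O') :
    ∃ n : O, (n : F) = Algebra.trace F F' (y : F') ∧ red n = Algebra.trace κ κ' (red' y) := by
  classical
  obtain ⟨n, B, Bbar, -, hM⟩ := h18_exists_basis_lift h hdeg
  obtain ⟨M, hM1, hM2⟩ := hM y
  refine ⟨M.trace, ?_, ?_⟩
  · rw [Algebra.trace_eq_matrix_trace B, ← hM1]
    simp [Matrix.trace, Matrix.map_apply]
  · rw [Algebra.trace_eq_matrix_trace Bbar, ← hM2]
    simp [Matrix.trace, Matrix.map_apply]

/-- **The characteristic polynomial commutes with reduction.** -/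
theorem h18_charpoly_red [FiniteDimensional κ κ'] (h : RedPair O O' red red')
    (hdeg : finrank κ κ' = finrank F F') (y : O') :
    ∃ p : Polynomial O, p.Monic ∧
      p.map O.subtype = LinearMap.charpoly (Algebra.lmul F F' (y : F')) ∧
      p.map red = LinearMap.charpoly (Algebra.lmul κ κ' (red' y)) := by
  classical
  obtain ⟨n, B, Bbar, -, hM⟩ := h18_exists_basis_lift h hdeg
  obtain ⟨M, hM1, hM2⟩ := hM y
  refine ⟨M.charpoly, Matrix.charpoly_monic M, ?_, ?_⟩
  · rw [← LinearMap.charpoly_toMatrix _ B, ← Matrix.charpoly_map]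
    congr 1
  · rw [← LinearMap.charpoly_toMatrix _ Bbar, ← Matrix.charpoly_map]
    congr 1

end Main

end NormRed


end H18S18
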