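/-
S18 (item 75), route Y', slice C7 (helper28), part A: calculus of `GBase` and the criterion
"root of a monic polynomial with coefficients in the Gauss localization ⇒ `GInt`".
-/
import Mathlib
import Fermat.Agent.S18.Defs
import Fermat.Agent.S18.Glue_helper21

set_option autoImplicit false
set_option linter.unusedSectionVars false

open Polynomial IntermediateField

namespace H28UG

open H7S18 H21S18

section gbase

variable {R : Type} [CommRing R] [IsDomain R] {E : Type} [Field E] [Algebra R E]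

theorem gBase_of_mem {ϖ : R} (hϖ : Prime ϖ) {t : E} (ht : Transcendental R t) {a : E}
    (ha : a ∈ Algebra.adjoin R {t}) : GBase R ϖ t a :=
  ⟨1, a, isGaussUnit_one hϖ ht, ha, one_mul a⟩

theorem gBase_zero {ϖ : R} (hϖ : Prime ϖ) {t : E} (ht : Transcendental R t) :
    GBase R ϖ t 0 := gBase_of_mem hϖ ht (Subalgebra.zero_mem _)

theorem gBase_one {ϖ : R} (hϖ : Prime ϖ) {t : E} (ht : Transcendental R t) :
    GBase R ϖ t 1 := gBase_of_mem hϖ ht (Subalgebra.one_mem _)

theorem gBase_add {ϖ : R} (hϖ : Prime ϖ) {t : E} (ht : Transcendental R t) {x y : E}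
    (hx : GBase R ϖ t x) (hy : GBase R ϖ t y) : GBase R ϖ t (x + y) := by
  obtain ⟨s₁, a₁, hs₁, ha₁, h₁⟩ := hx
  obtain ⟨s₂, a₂, hs₂, ha₂, h₂⟩ := hy
  refine ⟨s₁ * s₂, s₂ * a₁ + s₁ * a₂, isGaussUnit_mul hϖ ht hs₁ hs₂,
    Subalgebra.add_mem _ (Subalgebra.mul_mem _ hs₂.1 ha₁) (Subalgebra.mul_mem _ hs₁.1 ha₂), ?_⟩
  rw [← h₁, ← h₂]; ring

theorem gBase_mul {ϖ : R} (hϖ : Prime ϖ) {t : E} (ht : Transcendental R t) {x y : E}
    (hx : GBase R ϖ t x) (hy : GBase R ϖ t y) : GBase R ϖ t (x * y) := by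
  obtain ⟨s₁, a₁, hs₁, ha₁, h₁⟩ := hx
  obtain ⟨s₂, a₂, hs₂, ha₂, h₂⟩ := hy
  refine ⟨s₁ * s₂, a₁ * a₂, isGaussUnit_mul hϖ ht hs₁ hs₂, Subalgebra.mul_mem _ ha₁ ha₂, ?_⟩
  rw [← h₁, ← h₂]; ring

theorem gBase_neg {ϖ : R} {t : E} {x : E} (hx : GBase R ϖ t x) : GBase R ϖ t (-x) := by
  obtain ⟨s, a, hs, ha, h⟩ := hx
  exact ⟨s, -a, hs, Subalgebra.neg_mem _ ha, by rw [← h]; ring⟩

theorem gBase_sum {ϖ : R} (hϖ : Prime ϖ) {t : E} (ht : Transcendental R t) {ι : Type*}
    (s : Finset ι) (f : ι → E) (hf : ∀ i ∈ s, GBase R ϖ t (f i)) :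
    GBase R ϖ t (∑ i ∈ s, f i) := by
  classical
  induction s using Finset.induction_on with
  | empty => simpa using gBase_zero hϖ ht
  | insert a s ha ih =>
    rw [Finset.sum_insert ha]
    exact gBase_add hϖ ht (hf a (Finset.mem_insert_self a s))
      (ih (fun i hi => hf i (Finset.mem_insert_of_mem hi)))

/-- division by a Gauss unit -/
theorem gBase_of_mul {ϖ : R} (hϖ : Prime ϖ) {t : E} (ht : Transcendental R t) {s x : E}
    (hs : IsGaussUnit R ϖ t s) (hx : GBase R ϖ t (s * x)) : GBase R ϖ t x := by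
  obtain ⟨s₁, a₁, hs₁, ha₁, h₁⟩ := hx
  exact ⟨s₁ * s, a₁, isGaussUnit_mul hϖ ht hs₁ hs, ha₁, by rw [← h₁]; ring⟩

theorem gBase_mul_gInt {ϖ : R} (hϖ : Prime ϖ) {t : E} (ht : Transcendental R t) {c x : E}
    (hc : GBase R ϖ t c) (hx : GInt R ϖ t x) : GInt R ϖ t (c * x) := by
  obtain ⟨s₁, a₁, hs₁, ha₁, h₁⟩ := hc
  obtain ⟨s₂, hs₂, h₂⟩ := hx
  refine ⟨s₁ * s₂, isGaussUnit_mul hϖ ht hs₁ hs₂, ?_⟩
  have e : s₁ * s₂ * (c * x) = a₁ * (s₂ * x) := by rw [← h₁]; ring
  rw [e]
  exact isInt_mul (isInt_of_mem ha₁) h₂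

theorem gInt_sum {ϖ : R} (hϖ : Prime ϖ) {t : E} (ht : Transcendental R t) {ι : Type*}
    (s : Finset ι) (f : ι → E) (hf : ∀ i ∈ s, GInt R ϖ t (f i)) :
    GInt R ϖ t (∑ i ∈ s, f i) := by
  classical
  induction s using Finset.induction_on with
  | empty => simpa using gInt_zero hϖ ht
  | insert a s ha ih =>
    rw [Finset.sum_insert ha]
    exact gInt_add hϖ ht (hf a (Finset.mem_insert_self a s))
      (ih (fun i hi => hf i (Finset.mem_insert_of_mem hi)))

/-- a Gauss unit is nonzero -/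
theorem isGaussUnit_ne_zero {ϖ : R} {t : E} {s : E} (hs : IsGaussUnit R ϖ t s) : s ≠ 0 := by
  intro h0
  exact hs.2 0 (Subalgebra.zero_mem _) (by rw [h0, mul_zero])

/-- common Gauss-unit denominator of a finite family in the Gauss localization -/
theorem gBase_common_den {ϖ : R} (hϖ : Prime ϖ) {t : E} (ht : Transcendental R t) {ι : Type*}
    (s : Finset ι) (f : ι → E) (hf : ∀ i ∈ s, GBase R ϖ t (f i)) :
    ∃ d, IsGaussUnit R ϖ t d ∧ ∀ i ∈ s, d * f i ∈ Algebra.adjoin R {t} := by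
  classical
  induction s using Finset.induction_on with
  | empty => exact ⟨1, isGaussUnit_one hϖ ht, fun i hi => absurd hi (Finset.notMem_empty i)⟩
  | insert a s ha ih =>
    obtain ⟨d, hd, hds⟩ := ih (fun i hi => hf i (Finset.mem_insert_of_mem hi))
    obtain ⟨s₁, a₁, hs₁, ha₁, h₁⟩ := hf a (Finset.mem_insert_self a s)
    refine ⟨s₁ * d, isGaussUnit_mul hϖ ht hs₁ hd, fun i hi => ?_⟩
    rcases Finset.mem_insert.mp hi with rfl | hi
    · have e : s₁ * d * f i = d * a₁ := by rw [← h₁]; ring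
      rw [e]
      exact Subalgebra.mul_mem _ hd.1 ha₁
    · have e : s₁ * d * f i = s₁ * (d * f i) := by ring
      rw [e]
      exact Subalgebra.mul_mem _ hs₁.1 (hds i hi)

end gbase

section scale

variable {R : Type} [CommRing R] {E : Type} [Field E] [Algebra R E]

/-- scaling the root of a monic polynomial: if `d * c_i ∈ T` for the lower coefficients, then
`d * y` is integral over `T`. -/
theorem isIntegral_mul_of_monic_root (T : Subalgebra R E) (d y : E) (hd : d ∈ T)
    (p : E[X]) (hp : p.Monic) (hy : p.eval y = 0)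
    (hc : ∀ i, i < p.natDegree → d * p.coeff i ∈ T) : IsIntegral T (d * y) := by
  have hq : scaleRoots p d ∈ Polynomial.lifts (algebraMap T E) := by
    rw [Polynomial.lifts_iff_coeff_lifts]
    intro i
    rw [coeff_scaleRoots]
    rcases lt_trichotomy i p.natDegree with hi | hi | hi
    · have h1 : p.coeff i * d ^ (p.natDegree - i) = d * p.coeff i * d ^ (p.natDegree - i - 1) := by
        have : p.natDegree - i = (p.natDegree - i - 1) + 1 := by omega
        rw [this, pow_succ]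
        have h2 : p.natDegree - i - 1 + 1 - 1 = p.natDegree - i - 1 := by omega
        rw [h2]; ring
      rw [h1]
      exact ⟨⟨_, T.mul_mem (hc i hi) (T.pow_mem hd _)⟩, rfl⟩
    · rw [hi, Nat.sub_self, pow_zero, mul_one, hp.coeff_natDegree]
      exact ⟨1, map_one _⟩
    · rw [Polynomial.coeff_eq_zero_of_natDegree_lt hi, zero_mul]
      exact ⟨0, map_zero _⟩
  have hqm : (scaleRoots p d).Monic := (monic_scaleRoots_iff d).mpr hp
  obtain ⟨q, hq1, -, hq2⟩ := Polynomial.lifts_and_degree_eq_and_monic hq hqm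
  refine ⟨q, hq2, ?_⟩
  rw [← Polynomial.eval_map, hq1]
  have := scaleRoots_eval₂_eq_zero (RingHom.id E) (p := p) (r := y) (s := d)
    (by rwa [Polynomial.eval₂_id])
  simpa [Polynomial.eval₂_id] using this

end scale

section monicroot

variable {R : Type} [CommRing R] [IsDomain R] {E : Type} [Field E] [Algebra R E]

/-- a root of a monic polynomial with coefficients in the Gauss localization lies in `O_E` -/
theorem gInt_of_monic_root {ϖ : R} (hϖ : Prime ϖ) {t : E} (ht : Transcendental R t) (y : E)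
    (p : E[X]) (hp : p.Monic) (hy : p.eval y = 0) (hc : ∀ i, GBase R ϖ t (p.coeff i)) :
    GInt R ϖ t y := by
  obtain ⟨d, hd, hds⟩ := gBase_common_den hϖ ht (Finset.range p.natDegree) (fun i => p.coeff i)
    (fun i _ => hc i)
  exact ⟨d, hd, isIntegral_mul_of_monic_root (Algebra.adjoin R {t}) d y hd.1 p hp hy
    (fun i hi => hds i (Finset.mem_range.mpr hi))⟩

end monicroot

end H28UG
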