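/-
S18 (item 75), route Y', slice C7 (helper28), part B: the generic criterion.

`R[t]_(ϖ) = O ⊂ K(t)` a valuation ring, `O' ⊂ E` a valuation ring above it with
`[κ' : κ] = [E : K(t)]` (helper18's `RedPair`) and `κ' / κ` separable.  Then the Gauss prime is
unramified in `E` in the trace-dual form `H7S18.UnrGauss`.
-/
import Mathlib
import Fermat.Agent.S18.UnrGenA_helper28
import Fermat.Agent.S18.H18NormRed

set_option autoImplicit false
set_option linter.unusedSectionVars false
set_option linter.unusedVariables false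

open Polynomial IntermediateField

namespace H28UG

open H7S18 H21S18 H18S18 Module

section

variable {R : Type} [CommRing R] [IsDomain R] {K : Type} [Field K] [Algebra R K]
  {E : Type} [Field E] [Algebra K E] [Algebra R E] [IsScalarTower R K E]

/-- `R[t] ⊆ K(t)` -/
theorem adjoin_le_adjoin (t : E) {s : E} (hs : s ∈ Algebra.adjoin R {t}) : s ∈ K⟮t⟯ := by
  induction hs using Algebra.adjoin_induction with
  | mem x hx =>
    rw [Set.mem_singleton_iff] at hx
    subst hx
    exact mem_adjoin_simple_self K _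
  | algebraMap r =>
    rw [IsScalarTower.algebraMap_apply R K E]
    exact IntermediateField.algebraMap_mem _ _
  | add x y _ _ hx hy => exact add_mem hx hy
  | mul x y _ _ hx hy => exact mul_mem hx hy

variable {ϖ : R} {t : E} [FiniteDimensional K⟮t⟯ E]
  {O : ValuationSubring K⟮t⟯} {O' : ValuationSubring E}
  {κ κ' : Type*} [Field κ] [Field κ'] [Algebra κ κ']
  {red : O →+* κ} {red' : O' →+* κ'}

/-- Cayley–Hamilton for the multiplication map -/
theorem eval_charpoly_lmul (y : E) :
    ((LinearMap.charpoly (Algebra.lmul K⟮t⟯ E y)).map (algebraMap K⟮t⟯ E)).eval y = 0 := by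
  have h1 := LinearMap.aeval_self_charpoly (Algebra.lmul K⟮t⟯ E y)
  rw [Polynomial.aeval_algHom_apply] at h1
  have h2 := congrArg (fun f : E →ₗ[K⟮t⟯] E => f 1) h1
  simp only [LinearMap.zero_apply] at h2
  have h3 : ((Algebra.lmul K⟮t⟯ E) ((aeval y) (LinearMap.charpoly ((Algebra.lmul K⟮t⟯ E) y)))) 1
      = (aeval y) (LinearMap.charpoly ((Algebra.lmul K⟮t⟯ E) y)) * 1 := rfl
  rw [h3, mul_one] at h2
  rw [Polynomial.eval_map, ← Polynomial.aeval_def]
  exact h2

/-- `O' ⊆ O_E`: the valuation ring above the Gauss ring consists of `GInt` elements. -/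
theorem gInt_of_mem_top (hϖ : Prime ϖ) (ht : Transcendental R t)
    (h : RedPair O O' red red') (hdeg : finrank κ κ' = finrank K⟮t⟯ E)
    (hO : ∀ c : K⟮t⟯, c ∈ O → GBase R ϖ t (c : E)) (y : O') : GInt R ϖ t (y : E) := by
  have hpos : 0 < finrank κ κ' := by
    rw [hdeg]
    exact finrank_pos
  have hfin : Module.Finite κ κ' := Module.finite_of_finrank_pos hpos
  obtain ⟨p, hpm, hp1, -⟩ := h18_charpoly_red h hdeg y
  refine gInt_of_monic_root hϖ ht (y : E) ((p.map O.subtype).map (algebraMap K⟮t⟯ E))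
    ((hpm.map _).map _) ?_ (fun i => ?_)
  · rw [hp1]
    exact eval_charpoly_lmul (y : E)
  · rw [Polynomial.coeff_map, Polynomial.coeff_map]
    exact hO _ (p.coeff i).2

/-- **Generic criterion for `UnrGauss`**. -/
theorem unrGauss_of_redPair (hϖ : Prime ϖ) (ht : Transcendental R t)
    [Algebra.IsSeparable κ κ']
    (h : RedPair O O' red red') (hdeg : finrank κ κ' = finrank K⟮t⟯ E)
    (hO : ∀ c : K⟮t⟯, c ∈ O ↔ GBase R ϖ t (c : E)) : UnrGauss R K ϖ t := by
  classical
  intro y hy
  have hpos : 0 < finrank κ κ' := by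
    rw [hdeg]
    exact finrank_pos
  have hfin : Module.Finite κ κ' := Module.finite_of_finrank_pos hpos
  let Bbar : Basis (Fin (finrank κ κ')) κ κ' := Module.finBasis κ κ'
  choose b hb using fun i => h.surj' (Bbar i)
  have hli : LinearIndependent κ (fun i => red' (b i)) := by
    have : (fun i => red' (b i)) = Bbar := funext hb
    rw [this]
    exact Bbar.linearIndependent
  have hliF := h18_linearIndependent_lift h b hli
  have hcard : Fintype.card (Fin (finrank κ κ')) = finrank K⟮t⟯ E := by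
    rw [Fintype.card_fin, hdeg]
  have hne : Nonempty (Fin (finrank κ κ')) := ⟨⟨0, hpos⟩⟩
  let B : Basis (Fin (finrank κ κ')) K⟮t⟯ E := basisOfLinearIndependentOfCardEqFinrank hliF hcard
  have hB : ∀ i, B i = ((b i : O') : E) := fun i => by
    simp [B]
  -- the trace matrix
  have htr : ∀ i j, ∃ n : O, (n : K⟮t⟯) = Algebra.trace K⟮t⟯ E ((b i : E) * (b j : E)) ∧
      red n = Algebra.trace κ κ' (Bbar i * Bbar j) := by
    intro i j
    obtain ⟨n, hn1, hn2⟩ := h18_trace_red h hdeg (b i * b j)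
    refine ⟨n, hn1, ?_⟩
    rw [hn2, map_mul, hb, hb]
  choose T hT1 hT2 using htr
  have hdet : red (Matrix.det (Matrix.of T)) ≠ 0 := by
    rw [RingHom.map_det]
    have h1 : (RingHom.mapMatrix red) (Matrix.of T) = Algebra.traceMatrix κ Bbar := by
      ext i j
      rw [RingHom.mapMatrix_apply, Matrix.map_apply, Matrix.of_apply, hT2,
        Algebra.traceMatrix_apply, Algebra.traceForm_apply]
    rw [h1, Algebra.traceMatrix_of_basis]
    exact det_traceForm_ne_zero Bbar
  have hunit : IsUnit (Matrix.det (Matrix.of T)) := by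
    by_contra hnu
    exact hdet ((h.ker _).mpr hnu)
  -- the traces `c i = tr (y b_i)` lie in `O`
  have hc : ∀ i, ∃ c : O, (c : K⟮t⟯) = Algebra.trace K⟮t⟯ E (y * (b i : E)) := by
    intro i
    obtain ⟨s, hs, hint⟩ := gInt_of_mem_top hϖ ht h hdeg (fun c hc => (hO c).mp hc) (b i)
    have h1 := hy (s * (b i : E)) hint
    have hsK : s ∈ K⟮t⟯ := adjoin_le_adjoin t hs.1
    have h2 : y * (s * (b i : E)) = (⟨s, hsK⟩ : K⟮t⟯) • (y * (b i : E)) := by
      rw [Algebra.smul_def]
      show _ = s * _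
      ring
    rw [h2, map_smul, smul_eq_mul, map_mul] at h1
    have h3 : GBase R ϖ t (algebraMap K⟮t⟯ E (Algebra.trace K⟮t⟯ E (y * (b i : E)))) :=
      gBase_of_mul hϖ ht hs h1
    exact ⟨⟨_, (hO _).mpr h3⟩, rfl⟩
  choose c hc using hc
  -- `c i = Σ_j x_j T j i`
  have hx : ∀ i, (c i : K⟮t⟯) = ∑ j, B.repr y j * (T j i : K⟮t⟯) := by
    intro i
    rw [hc i]
    conv_lhs => rw [← B.sum_repr y]
    rw [Finset.sum_mul, map_sum]
    refine Finset.sum_congr rfl (fun j _ => ?_)
    rw [smul_mul_assoc, map_smul, smul_eq_mul, hT1, hB]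
  -- inversion
  have hinv : (Matrix.of T) * (Matrix.of T)⁻¹ = 1 := Matrix.mul_nonsing_inv _ hunit
  have hxO : ∀ l, B.repr y l = ((∑ i, c i * (Matrix.of T)⁻¹ i l : O) : K⟮t⟯) := by
    intro l
    have h1 : ((∑ i, c i * (Matrix.of T)⁻¹ i l : O) : K⟮t⟯)
        = ∑ i, (c i : K⟮t⟯) * (((Matrix.of T)⁻¹ i l : O) : K⟮t⟯) := by
      rw [← ValuationSubring.subtype_apply, map_sum]
      rfl
    rw [h1]
    simp_rw [hx, Finset.sum_mul]
    rw [Finset.sum_comm]
    have h2 : ∀ j, ∑ i, B.repr y j * (T j i : K⟮t⟯) * (((Matrix.of T)⁻¹ i l : O) : K⟮t⟯)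
        = B.repr y j * (((1 : Matrix _ _ O) j l : O) : K⟮t⟯) := by
      intro j
      rw [← hinv, Matrix.mul_apply]
      rw [← ValuationSubring.subtype_apply, map_sum, Finset.mul_sum]
      refine Finset.sum_congr rfl (fun i _ => ?_)
      rw [map_mul, Matrix.of_apply]
      simp only [ValuationSubring.subtype_apply]
      ring
    simp_rw [h2]
    rw [Finset.sum_eq_single l]
    · rw [Matrix.one_apply_eq]
      simp
    · intro j _ hj
      rw [Matrix.one_apply_ne hj]
      simp
    · intro hl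
      exact absurd (Finset.mem_univ l) hl
  -- conclusion
  rw [← B.sum_repr y]
  refine gInt_sum hϖ ht _ _ (fun l _ => ?_)
  rw [Algebra.smul_def, hB]
  refine gBase_mul_gInt hϖ ht ?_ (gInt_of_mem_top hϖ ht h hdeg (fun c hc => (hO c).mp hc) (b l))
  rw [hxO l]
  exact (hO _).mp (SetLike.coe_mem _)

end

end H28UG
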