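/-
S18 (item 75), route Y', slice C7 (helper28), part C: abstract construction of helper18's
`RedPair`s from one valuation ring `OE ⊂ E` with reduction `redE : OE → Eb`.

For a subfield `F → E` with residue subfield `κ → Eb` (`redE (F ∩ OE) ⊆ κ`) we get the valuation
ring `gdO F = OE ∩ F` and the reduction `gdRed : gdO F → κ`; for a tower `F → F' → E` these form
a `RedPair`.
-/
import Mathlib
import Fermat.Agent.S18.H18NormRed

set_option autoImplicit false
set_option linter.unusedSectionVars false
set_option linter.unusedVariables false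

namespace H28UG

open H18S18

section Lift

variable {S : Type*} [Ring S] {κ : Type*} [Field κ] {Eb : Type*} [Field Eb] [Algebra κ Eb]

/-- the range of `κ → Eb` as a field isomorphic to `κ` -/
noncomputable def rangeEquiv (κ : Type*) [Field κ] (Eb : Type*) [Field Eb] [Algebra κ Eb] :
    κ ≃+* (algebraMap κ Eb).range :=
  RingEquiv.ofBijective (algebraMap κ Eb).rangeRestrict
    ⟨fun x y h => (algebraMap κ Eb).injective (congrArg Subtype.val h),
      (algebraMap κ Eb).rangeRestrict_surjective⟩

theorem coe_rangeEquiv (z : κ) : ((rangeEquiv κ Eb z : (algebraMap κ Eb).range) : Eb)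
    = algebraMap κ Eb z := rfl

/-- lifting a ring homomorphism with values in the image of `κ` -/
noncomputable def liftHom (f : S →+* Eb) (h : ∀ s, f s ∈ (algebraMap κ Eb).range) : S →+* κ :=
  (rangeEquiv κ Eb).symm.toRingHom.comp (f.codRestrict (algebraMap κ Eb).range h)

theorem liftHom_spec (f : S →+* Eb) (h : ∀ s, f s ∈ (algebraMap κ Eb).range) (s : S) :
    algebraMap κ Eb (liftHom f h s) = f s := by
  have h1 : rangeEquiv κ Eb (liftHom f h s) = f.codRestrict (algebraMap κ Eb).range h s := by
    unfold liftHom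
    simp
  have h2 := congrArg (fun z : (algebraMap κ Eb).range => (z : Eb)) h1
  simpa [coe_rangeEquiv] using h2

end Lift

section GD

variable {E : Type*} [Field E] {Eb : Type*} [Field Eb] (OE : ValuationSubring E)
  (redE : OE →+* Eb)

/-- the valuation ring `OE ∩ F` -/
def gdO (F : Type*) [Field F] [Algebra F E] : ValuationSubring F :=
  OE.comap (algebraMap F E)

theorem mem_gdO (F : Type*) [Field F] [Algebra F E] (x : F) :
    x ∈ gdO OE F ↔ algebraMap F E x ∈ OE := Iff.rfl

/-- the inclusion `OE ∩ F → OE` -/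
def gdIncl (F : Type*) [Field F] [Algebra F E] : gdO OE F →+* OE where
  toFun x := ⟨algebraMap F E (x : F), x.2⟩
  map_one' := by ext; simp
  map_mul' x y := by ext; simp
  map_zero' := by ext; simp
  map_add' x y := by ext; simp

@[simp] theorem coe_gdIncl (F : Type*) [Field F] [Algebra F E] (x : gdO OE F) :
    ((gdIncl OE F x : OE) : E) = algebraMap F E (x : F) := rfl

variable {OE}

/-- the reduction `OE ∩ F → κ` -/
noncomputable def gdRed (F : Type*) [Field F] [Algebra F E] (κ : Type*) [Field κ] [Algebra κ Eb]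
    (hF : ∀ x : gdO OE F, redE (gdIncl OE F x) ∈ (algebraMap κ Eb).range) : gdO OE F →+* κ :=
  liftHom (redE.comp (gdIncl OE F)) hF

theorem gdRed_spec (F : Type*) [Field F] [Algebra F E] (κ : Type*) [Field κ] [Algebra κ Eb]
    (hF : ∀ x : gdO OE F, redE (gdIncl OE F x) ∈ (algebraMap κ Eb).range) (x : gdO OE F) :
    algebraMap κ Eb (gdRed redE F κ hF x) = redE (gdIncl OE F x) :=
  liftHom_spec _ hF x

theorem gdRed_eq_zero_iff (F : Type*) [Field F] [Algebra F E] (κ : Type*) [Field κ]
    [Algebra κ Eb]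
    (hF : ∀ x : gdO OE F, redE (gdIncl OE F x) ∈ (algebraMap κ Eb).range) (x : gdO OE F) :
    gdRed redE F κ hF x = 0 ↔ redE (gdIncl OE F x) = 0 := by
  rw [← gdRed_spec redE F κ hF x]
  exact (map_eq_zero_iff _ (algebraMap κ Eb).injective).symm

/-- units of `OE ∩ F` are the elements of `F` that are units of `OE` -/
theorem gdIncl_mem_nonunits_iff (F : Type*) [Field F] [Algebra F E] (x : gdO OE F) :
    gdIncl OE F x ∈ nonunits OE ↔ x ∈ nonunits (gdO OE F) := by
  rw [mem_nonunits_iff, mem_nonunits_iff, not_iff_not]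
  constructor
  · intro hu
    obtain ⟨y, hy⟩ := hu.exists_right_inv
    have hy' : algebraMap F E (x : F) * (y : E) = 1 := by
      have := congrArg (fun z : OE => (z : E)) hy
      simpa using this
    have hx0 : (x : F) ≠ 0 := by
      intro h0
      rw [h0, map_zero, zero_mul] at hy'
      exact zero_ne_one hy'
    have hyx : (y : E) = algebraMap F E ((x : F)⁻¹) := by
      rw [map_inv₀]
      exact eq_inv_of_mul_eq_one_right hy'
    have hmem : (x : F)⁻¹ ∈ gdO OE F := by
      rw [mem_gdO, ← hyx]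
      exact y.2
    refine IsUnit.of_mul_eq_one (⟨_, hmem⟩ : gdO OE F) ?_
    ext
    exact mul_inv_cancel₀ hx0
  · intro hu
    exact hu.map (gdIncl OE F)

theorem gdRed_ker (hker : ∀ x : OE, redE x = 0 ↔ x ∈ nonunits OE)
    (F : Type*) [Field F] [Algebra F E] (κ : Type*) [Field κ] [Algebra κ Eb]
    (hF : ∀ x : gdO OE F, redE (gdIncl OE F x) ∈ (algebraMap κ Eb).range) (x : gdO OE F) :
    gdRed redE F κ hF x = 0 ↔ x ∈ nonunits (gdO OE F) := by
  rw [gdRed_eq_zero_iff, hker, gdIncl_mem_nonunits_iff]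

theorem gdRed_surjective (F : Type*) [Field F] [Algebra F E] (κ : Type*) [Field κ]
    [Algebra κ Eb]
    (hF : ∀ x : gdO OE F, redE (gdIncl OE F x) ∈ (algebraMap κ Eb).range)
    (hs : ∀ z : κ, ∃ x : gdO OE F, redE (gdIncl OE F x) = algebraMap κ Eb z) :
    Function.Surjective (gdRed redE F κ hF) := by
  intro z
  obtain ⟨x, hx⟩ := hs z
  refine ⟨x, (algebraMap κ Eb).injective ?_⟩
  rw [gdRed_spec, hx]

/-- **the `RedPair` of a tower `F → F' → E`** -/
theorem gd_redPair (hker : ∀ x : OE, redE x = 0 ↔ x ∈ nonunits OE)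
    (F : Type*) [Field F] [Algebra F E] (κ : Type*) [Field κ] [Algebra κ Eb]
    (F' : Type*) [Field F'] [Algebra F' E] (κ' : Type*) [Field κ'] [Algebra κ' Eb]
    [Algebra F F'] [IsScalarTower F F' E] [Algebra κ κ'] [IsScalarTower κ κ' Eb]
    (hF : ∀ x : gdO OE F, redE (gdIncl OE F x) ∈ (algebraMap κ Eb).range)
    (hF' : ∀ x : gdO OE F', redE (gdIncl OE F' x) ∈ (algebraMap κ' Eb).range)
    (hs : ∀ z : κ', ∃ x : gdO OE F', redE (gdIncl OE F' x) = algebraMap κ' Eb z) :
    RedPair (gdO OE F) (gdO OE F') (gdRed redE F κ hF) (gdRed redE F' κ' hF') where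
  mem_iff x := by
    rw [mem_gdO, mem_gdO, ← IsScalarTower.algebraMap_apply]
  ker := gdRed_ker redE hker F κ hF
  ker' := gdRed_ker redE hker F' κ' hF'
  surj' := gdRed_surjective redE F' κ' hF' hs
  compat x hx := by
    apply (algebraMap κ' Eb).injective
    rw [gdRed_spec, ← IsScalarTower.algebraMap_apply, gdRed_spec]
    congr 1
    ext
    simp only [coe_gdIncl]
    rw [← IsScalarTower.algebraMap_apply]

end GD

end H28UG
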