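/-
S18 (item 75), route Y', slice C7 (helper28), part D: the abstract Gauss criterion.

`A ⊂ K` a valuation ring with residue map `π : A → k`, `E / K` a field with a valuation ring
`OE` above `A` and reduction `redE : OE → Eb` (surjective, kernel = non-units, compatible with
`π`), `t ∈ OE` with transcendental reduction.  Then `OE ∩ K(t)` is the Gauss localization
`A[t]_(ϖ)` (`GBase`), and if `[Eb : k(t̄)] = [E : K(t)]` with `Eb / k(t̄)` separable, then
`UnrGauss` holds and `OE ⊆ GInt`.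
-/
import Mathlib
import Fermat.Agent.S18.UnrGenB_helper28
import Fermat.Agent.S18.UnrGenC_helper28
import Fermat.Agent.S18.GVRat_helper28

set_option autoImplicit false
set_option linter.unusedSectionVars false
set_option linter.unusedVariables false

open Polynomial IntermediateField

namespace H28UG

open H7S18 H21S18 H18S18 Module

section VR

variable {K : Type*} [Field K] (A : ValuationSubring K)

/-- in a valuation ring an irreducible element generates the maximal ideal -/
theorem vr_dvd_of_not_isUnit {ϖ : A} (hϖ : Irreducible ϖ) (a : A) (ha : ¬ IsUnit a) : ϖ ∣ a := by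
  rcases ValuationRing.dvd_total ϖ a with h | h
  · exact h
  · obtain ⟨b, hb⟩ := h
    rcases hϖ.isUnit_or_isUnit hb with h1 | h1
    · exact absurd h1 ha
    · obtain ⟨u, rfl⟩ := h1
      exact ⟨((u⁻¹ : Aˣ) : A), by rw [hb, mul_assoc, Units.mul_inv, mul_one]⟩

theorem vr_prime {ϖ : A} (hϖ : Irreducible ϖ) : Prime ϖ := by
  refine ⟨hϖ.ne_zero, hϖ.not_isUnit, fun x y hxy => ?_⟩
  by_contra hcon
  push Not at hcon
  have hx : IsUnit x := by
    by_contra h
    exact hcon.1 (vr_dvd_of_not_isUnit A hϖ x h)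
  have hy : IsUnit y := by
    by_contra h
    exact hcon.2 (vr_dvd_of_not_isUnit A hϖ y h)
  exact hϖ.not_isUnit (isUnit_of_dvd_unit hxy (hx.mul hy))

end VR

section Data

variable {K : Type} [Field K] (A : ValuationSubring K) {k : Type*} [Field k] (π : A →+* k)
  {E : Type} [Field E] [Algebra K E] {Eb : Type*} [Field Eb] [Algebra k Eb]
  (OE : ValuationSubring E) (redE : OE →+* Eb)

/-- the data of a valuation ring of `E` above `A` with its reduction map -/
structure GaussData : Prop where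
  mem_iff : ∀ c : K, algebraMap K E c ∈ OE ↔ c ∈ A
  ker : ∀ x : OE, redE x = 0 ↔ x ∈ nonunits OE
  surj : Function.Surjective redE
  compat : ∀ (a : A) (h : algebraMap K E (a : K) ∈ OE), redE ⟨_, h⟩ = algebraMap k Eb (π a)
  πsurj : Function.Surjective π

variable {A π OE redE}

/-- the inclusion `A → OE` -/
def GaussData.incl (hd : GaussData A π OE redE) : A →+* OE where
  toFun a := ⟨algebraMap K E (a : K), (hd.mem_iff _).mpr a.2⟩
  map_one' := by ext; simp
  map_mul' x y := by ext; simp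
  map_zero' := by ext; simp
  map_add' x y := by ext; simp

@[simp] theorem GaussData.coe_incl (hd : GaussData A π OE redE) (a : A) :
    ((hd.incl a : OE) : E) = algebraMap K E (a : K) := rfl

theorem GaussData.red_incl (hd : GaussData A π OE redE) (a : A) :
    redE (hd.incl a) = algebraMap k Eb (π a) := hd.compat a _

theorem GaussData.isUnit_of_red (hd : GaussData A π OE redE) (x : OE) (hx : redE x ≠ 0) :
    IsUnit x := by
  by_contra h
  exact hx ((hd.ker x).mpr h)

theorem GaussData.red_ne_zero_of_isUnit (hd : GaussData A π OE redE) (x : OE) (hx : IsUnit x) :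
    redE x ≠ 0 := by
  intro h
  exact ((hd.ker x).mp h) hx

theorem GaussData.pi_eq_zero_iff (hd : GaussData A π OE redE) (a : A) :
    π a = 0 ↔ ¬ IsUnit a := by
  have h1 : π a = 0 ↔ redE (hd.incl a) = 0 := by
    rw [hd.red_incl]
    exact (map_eq_zero_iff _ (algebraMap k Eb).injective).symm
  rw [h1, hd.ker]
  rw [mem_nonunits_iff, not_iff_not]
  constructor
  · intro hu
    obtain ⟨y, hy⟩ := hu.exists_right_inv
    have hy' : algebraMap K E (a : K) * (y : E) = 1 := by
      have := congrArg (fun z : OE => (z : E)) hy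
      simpa using this
    have ha0 : (a : K) ≠ 0 := by
      intro h0
      rw [h0, map_zero, zero_mul] at hy'
      exact zero_ne_one hy'
    have hyx : (y : E) = algebraMap K E ((a : K)⁻¹) := by
      rw [map_inv₀]
      exact eq_inv_of_mul_eq_one_right hy'
    have hmem : (a : K)⁻¹ ∈ A := by
      rw [← hd.mem_iff, ← hyx]
      exact y.2
    refine IsUnit.of_mul_eq_one (⟨_, hmem⟩ : A) ?_
    ext
    exact mul_inv_cancel₀ ha0
  · intro hu
    exact hu.map hd.incl

/-- evaluation of polynomials over `A` at an element of `OE` -/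
noncomputable def GaussData.ev (hd : GaussData A π OE redE) (t : OE) : A[X] →+* OE :=
  Polynomial.eval₂RingHom hd.incl t

theorem GaussData.red_ev (hd : GaussData A π OE redE) (t : OE) (P : A[X]) :
    redE (hd.ev t P) = Polynomial.aeval (redE t) (P.map π) := by
  rw [GaussData.ev, Polynomial.coe_eval₂RingHom, Polynomial.hom_eval₂, Polynomial.aeval_def,
    Polynomial.eval₂_map]
  congr 1
  ext a
  exact hd.red_incl a

theorem GaussData.coe_ev_map (hd : GaussData A π OE redE) (t : OE) (P : A[X]) :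
    ((hd.ev t P : OE) : E) = Polynomial.aeval (t : E) (P.map A.subtype) := by
  have h1 := Polynomial.hom_eval₂ P hd.incl OE.subtype t
  rw [GaussData.ev, Polynomial.coe_eval₂RingHom]
  rw [Polynomial.aeval_def, Polynomial.eval₂_map]
  exact h1

theorem GaussData.coe_ev (hd : GaussData A π OE redE) [Algebra A E] [IsScalarTower A K E]
    (t : OE) (P : A[X]) :
    ((hd.ev t P : OE) : E) = Polynomial.aeval (t : E) P := by
  rw [hd.coe_ev_map]
  exact Polynomial.aeval_map_algebraMap K (t : E) P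

theorem GaussData.red_ev_ne_zero (hd : GaussData A π OE redE) (t : OE)
    (htb : Transcendental k (redE t)) (P : A[X]) (hP : P.map π ≠ 0) :
    redE (hd.ev t P) ≠ 0 := by
  rw [hd.red_ev]
  exact fun h => hP ((transcendental_iff.mp htb) _ h)

theorem aeval_mem_adjoin_simple {K₀ E₀ : Type*} [Field K₀] [Field E₀] [Algebra K₀ E₀]
    (t : E₀) (p : K₀[X]) : Polynomial.aeval t p ∈ K₀⟮t⟯ :=
  (IntermediateField.mem_adjoin_simple_iff _ _).mpr ⟨p, 1, by rw [map_one, div_one]⟩

theorem GaussData.coe_ev_mem (hd : GaussData A π OE redE) (t : OE) (P : A[X]) :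
    ((hd.ev t P : OE) : E) ∈ K⟮(t : E)⟯ := by
  rw [hd.coe_ev_map]
  exact aeval_mem_adjoin_simple _ _

/-- **Gauss**: elements of `K(t)` are constants times quotients of primitive polynomials -/
theorem GaussData.rat (hd : GaussData A π OE redE) (t : OE) (htb : Transcendental k (redE t))
    (x : E) (hx : x ∈ K⟮(t : E)⟯) (hx0 : x ≠ 0) :
    ∃ (c : K) (P Q : A[X]), c ≠ 0 ∧ P.map π ≠ 0 ∧ Q.map π ≠ 0 ∧
      x * ((hd.ev t Q : OE) : E) = algebraMap K E c * ((hd.ev t P : OE) : E) := by
  obtain ⟨r, s, hrs⟩ := (IntermediateField.mem_adjoin_simple_iff _ _).mp hx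
  have hs0 : Polynomial.aeval (t : E) s ≠ 0 := by
    intro h
    rw [h, div_zero] at hrs
    exact hx0 hrs
  have hr0 : Polynomial.aeval (t : E) r ≠ 0 := by
    intro h
    rw [h, zero_div] at hrs
    exact hx0 hrs
  have hs : s ≠ 0 := by
    rintro rfl
    exact hs0 (map_zero _)
  have hr : r ≠ 0 := by
    rintro rfl
    exact hr0 (map_zero _)
  obtain ⟨cr, r₀, hcr, hr₀, hrr⟩ := H28GV.gv_exists_primitive A r hr
  obtain ⟨cs, s₀, hcs, hs₀, hss⟩ := H28GV.gv_exists_primitive A s hs
  refine ⟨cr / cs, r₀, s₀, div_ne_zero hcr hcs, H28GV.gv_map_ne_zero_of_coeff_one A π r₀ hr₀,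
    H28GV.gv_map_ne_zero_of_coeff_one A π s₀ hs₀, ?_⟩
  have h1 : Polynomial.aeval (t : E) r = algebraMap K E cr * ((hd.ev t r₀ : OE) : E) := by
    rw [hrr, map_mul, Polynomial.aeval_C, hd.coe_ev_map]
  have h2 : Polynomial.aeval (t : E) s = algebraMap K E cs * ((hd.ev t s₀ : OE) : E) := by
    rw [hss, map_mul, Polynomial.aeval_C, hd.coe_ev_map]
  have hcs' : algebraMap K E cs ≠ 0 := fun h => hcs ((map_eq_zero _).mp h)
  have hs₀' : ((hd.ev t s₀ : OE) : E) ≠ 0 := by
    intro h
    rw [h2, h, mul_zero] at hs0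
    exact hs0 rfl
  rw [hrs, h1, h2, map_div₀]
  field_simp

/-- `OE ∩ K = A` in the form: constants `c` with `c · unit ∈ OE` lie in `A` -/
theorem GaussData.const_mem (hd : GaussData A π OE redE) (c : K) (x u v : OE)
    (hu : IsUnit u) (h : (x : E) * (u : E) = algebraMap K E c * (v : E)) (hv : IsUnit v) :
    c ∈ A := by
  rw [← hd.mem_iff]
  obtain ⟨v', hv'⟩ := hv.exists_right_inv
  have h1 : (v : E) * (v' : E) = 1 := by
    have := congrArg (fun z : OE => (z : E)) hv'
    simpa using this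
  have h2 : algebraMap K E c = ((x * u * v' : OE) : E) := by
    push_cast
    rw [h, mul_assoc, h1, mul_one]
  rw [h2]
  exact SetLike.coe_mem _

/-- **(G2)** the reduction of `OE ∩ K(t)` lies in `k(t̄)` -/
theorem GaussData.red_mem (hd : GaussData A π OE redE) (t : OE)
    (htb : Transcendental k (redE t)) (x : OE) (hx : (x : E) ∈ K⟮(t : E)⟯) :
    redE x ∈ k⟮redE t⟯ := by
  by_cases hx0 : (x : E) = 0
  · have : x = 0 := Subtype.ext hx0
    rw [this, map_zero]
    exact zero_mem _
  obtain ⟨c, P, Q, hc, hP, hQ, h⟩ := hd.rat t htb (x : E) hx hx0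
  have hPu := hd.isUnit_of_red _ (hd.red_ev_ne_zero t htb P hP)
  have hQu := hd.isUnit_of_red _ (hd.red_ev_ne_zero t htb Q hQ)
  have hcA : c ∈ A := hd.const_mem c x _ _ hQu h hPu
  have h1 : x * hd.ev t Q = hd.incl ⟨c, hcA⟩ * hd.ev t P := by
    ext
    push_cast
    rw [h]
    rfl
  have h2 := congrArg redE h1
  rw [map_mul, map_mul, hd.red_incl, hd.red_ev, hd.red_ev] at h2
  have hQ0 : Polynomial.aeval (redE t) (Q.map π) ≠ 0 :=
    fun h => hQ ((transcendental_iff.mp htb) _ h)
  have h3 : redE x = algebraMap k Eb (π ⟨c, hcA⟩) * Polynomial.aeval (redE t) (P.map π) /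
      Polynomial.aeval (redE t) (Q.map π) := by
    rw [eq_div_iff hQ0, h2]
  rw [h3]
  exact div_mem (mul_mem (IntermediateField.algebraMap_mem _ _) (aeval_mem_adjoin_simple _ _))
    (aeval_mem_adjoin_simple _ _)

/-- **(G3)** every element of `k(t̄)` is the reduction of an element of `OE ∩ K(t)` -/
theorem GaussData.red_surj (hd : GaussData A π OE redE) (t : OE)
    (htb : Transcendental k (redE t)) (z : Eb) (hz : z ∈ k⟮redE t⟯) :
    ∃ x : OE, (x : E) ∈ K⟮(t : E)⟯ ∧ redE x = z := by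
  obtain ⟨r, s, hrs⟩ := (IntermediateField.mem_adjoin_simple_iff _ _).mp hz
  by_cases hs0 : Polynomial.aeval (redE t) s = 0
  · refine ⟨0, zero_mem _, ?_⟩
    rw [hrs, hs0, div_zero, map_zero]
  obtain ⟨R, hR⟩ := Polynomial.map_surjective π hd.πsurj r
  obtain ⟨S, hS⟩ := Polynomial.map_surjective π hd.πsurj s
  have hSu : IsUnit (hd.ev t S) := by
    apply hd.isUnit_of_red
    rw [hd.red_ev, hS]
    exact hs0
  obtain ⟨u, hu⟩ := hSu
  refine ⟨hd.ev t R * ((u⁻¹ : OEˣ) : OE), ?_, ?_⟩
  · have h1 : (((u⁻¹ : OEˣ) : OE) : E) = ((hd.ev t S : OE) : E)⁻¹ := by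
      have h2 : (u : OE) * ((u⁻¹ : OEˣ) : OE) = 1 := u.mul_inv
      have h3 : ((u : OE) : E) * (((u⁻¹ : OEˣ) : OE) : E) = 1 := by
        have h4 := congrArg OE.subtype h2
        rw [map_mul, map_one] at h4
        exact h4
      rw [← hu]
      exact eq_inv_of_mul_eq_one_right h3
    push_cast
    rw [h1]
    exact mul_mem (hd.coe_ev_mem t R) (inv_mem (hd.coe_ev_mem t S))
  · have h2 : redE (u : OE) * redE ((u⁻¹ : OEˣ) : OE) = 1 := by
      rw [← map_mul, u.mul_inv, map_one]
    have h3 : redE ((u⁻¹ : OEˣ) : OE) = (Polynomial.aeval (redE t) s)⁻¹ := by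
      rw [hu, hd.red_ev, hS] at h2
      exact eq_inv_of_mul_eq_one_right h2
    rw [map_mul, hd.red_ev, hR, h3, hrs, div_eq_mul_inv]

/-- `t` is transcendental over `K` -/
theorem GaussData.transcendental (hd : GaussData A π OE redE) (t : OE)
    (htb : Transcendental k (redE t)) : Transcendental K (t : E) := by
  rw [transcendental_iff]
  intro p hp
  by_contra hp0
  obtain ⟨c, p₀, hc, hp₀, hpp⟩ := H28GV.gv_exists_primitive A p hp0
  rw [hpp, map_mul, Polynomial.aeval_C, ← hd.coe_ev_map] at hp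
  have hc' : algebraMap K E c ≠ 0 := fun h => hc ((map_eq_zero _).mp h)
  have h1 : ((hd.ev t p₀ : OE) : E) = 0 := by
    rcases mul_eq_zero.mp hp with h | h
    · exact absurd h hc'
    · exact h
  have h2 : hd.ev t p₀ = 0 := Subtype.ext h1
  have h3 := hd.red_ev_ne_zero t htb p₀ (H28GV.gv_map_ne_zero_of_coeff_one A π p₀ hp₀)
  rw [h2, map_zero] at h3
  exact h3 rfl

theorem GaussData.transcendental' (hd : GaussData A π OE redE) [Algebra A E]
    [IsScalarTower A K E] (t : OE)
    (htb : Transcendental k (redE t)) : Transcendental A (t : E) := by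
  rw [transcendental_iff]
  intro p hp
  have h1 : Polynomial.aeval (t : E) (p.map (algebraMap A K)) = 0 := by
    rw [Polynomial.aeval_map_algebraMap]
    exact hp
  have h2 := (transcendental_iff.mp (hd.transcendental t htb)) _ h1
  exact Polynomial.map_injective (algebraMap A K) A.subtype_injective
    (h2.trans (Polynomial.map_zero _).symm)

end Data

section Main

variable {K : Type} [Field K] {A : ValuationSubring K} {k : Type*} [Field k] {π : A →+* k}
  {E : Type} [Field E] [Algebra K E] {Eb : Type*} [Field Eb] [Algebra k Eb]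
  {OE : ValuationSubring E} {redE : OE →+* Eb}
  [Algebra A E] [IsScalarTower A K E]

/-- **`OE ∩ K(t)` is the Gauss localization `A[t]_(ϖ)`** -/
theorem GaussData.gBase_iff (hd : GaussData A π OE redE) {ϖ : A} (hϖ : Irreducible ϖ) (t : OE)
    (htb : Transcendental k (redE t)) (c : K⟮(t : E)⟯) :
    c ∈ gdO OE ↥K⟮(t : E)⟯ ↔ GBase A ϖ (t : E) (c : E) := by
  have hϖp := vr_prime A hϖ
  have htA := hd.transcendental' t htb
  constructor
  · intro hc
    have hc' : (c : E) ∈ OE := hc
    by_cases hc0 : (c : E) = 0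
    · rw [hc0]
      exact gBase_zero hϖp htA
    obtain ⟨c₀, P, Q, hc₀, hP, hQ, h⟩ := hd.rat t htb (c : E) c.2 hc0
    have hPu := hd.isUnit_of_red _ (hd.red_ev_ne_zero t htb P hP)
    have hQu := hd.isUnit_of_red _ (hd.red_ev_ne_zero t htb Q hQ)
    have hcA : c₀ ∈ A := hd.const_mem c₀ ⟨(c : E), hc'⟩ _ _ hQu h hPu
    refine ⟨Polynomial.aeval (t : E) Q,
      algebraMap A E ⟨c₀, hcA⟩ * Polynomial.aeval (t : E) P, ?_, ?_, ?_⟩
    · rw [isGaussUnit_aeval_iff htA]
      rintro ⟨Q', rfl⟩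
      apply hQ
      rw [Polynomial.map_mul, Polynomial.map_C, (hd.pi_eq_zero_iff ϖ).mpr hϖ.not_isUnit,
        map_zero, zero_mul]
    · exact Subalgebra.mul_mem _ (Subalgebra.algebraMap_mem _ _) (aeval_mem (t : E) P)
    · rw [mul_comm, ← hd.coe_ev, h, hd.coe_ev, IsScalarTower.algebraMap_apply A K E]
      rfl
  · rintro ⟨s, a, hs, ha, hsa⟩
    obtain ⟨S, rfl⟩ := exists_poly_of_mem hs.1
    obtain ⟨P, rfl⟩ := exists_poly_of_mem ha
    rw [isGaussUnit_aeval_iff htA] at hs
    have hS : S.map π ≠ 0 := by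
      intro h0
      apply hs
      rw [Polynomial.C_dvd_iff_dvd_coeff]
      intro i
      have h1 := congrArg (fun q => q.coeff i) h0
      simp only [Polynomial.coeff_map, Polynomial.coeff_zero] at h1
      exact vr_dvd_of_not_isUnit A hϖ _ ((hd.pi_eq_zero_iff _).mp h1)
    have hSu := hd.isUnit_of_red _ (hd.red_ev_ne_zero t htb S hS)
    obtain ⟨u, hu⟩ := hSu
    have h3 : ((u : OE) : E) * (((u⁻¹ : OEˣ) : OE) : E) = 1 := by
      have h4 := congrArg OE.subtype (u.mul_inv)
      rw [map_mul, map_one] at h4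
      exact h4
    have hu0 : ((u : OE) : E) ≠ 0 := by
      intro h0
      rw [h0, zero_mul] at h3
      exact zero_ne_one h3
    have h5 : (c : E) = ((((u⁻¹ : OEˣ) : OE) * hd.ev t P : OE) : E) := by
      push_cast
      rw [hd.coe_ev, ← hsa, ← hd.coe_ev t S, ← hu]
      rw [← mul_assoc, mul_comm (((u⁻¹ : OEˣ) : OE) : E), h3, one_mul]
    show (c : E) ∈ OE
    rw [h5]
    exact SetLike.coe_mem _

/-- **The abstract Gauss criterion.** -/
theorem gauss_abstract (hd : GaussData A π OE redE) {ϖ : A} (hϖ : Irreducible ϖ) (t : OE)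
    (htb : Transcendental k (redE t)) [FiniteDimensional K⟮(t : E)⟯ E]
    [Algebra.IsSeparable k⟮redE t⟯ Eb]
    (hdeg : finrank k⟮redE t⟯ Eb = finrank K⟮(t : E)⟯ E) :
    UnrGauss A K ϖ (t : E) ∧ ∀ x : E, x ∈ OE → GInt A ϖ (t : E) x := by
  have hϖp := vr_prime A hϖ
  have htA := hd.transcendental' t htb
  have hF : ∀ x : gdO OE ↥K⟮(t : E)⟯,
      redE (gdIncl OE ↥K⟮(t : E)⟯ x) ∈ (algebraMap ↥k⟮redE t⟯ Eb).range := by
    intro x
    have h1 := hd.red_mem t htb (gdIncl OE ↥K⟮(t : E)⟯ x) (x : ↥K⟮(t : E)⟯).2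
    exact ⟨⟨_, h1⟩, rfl⟩
  have hF' : ∀ x : gdO OE E, redE (gdIncl OE E x) ∈ (algebraMap Eb Eb).range :=
    fun x => ⟨_, rfl⟩
  have hs : ∀ z : Eb, ∃ x : gdO OE E, redE (gdIncl OE E x) = algebraMap Eb Eb z := by
    intro z
    obtain ⟨x, hx⟩ := hd.surj z
    refine ⟨⟨(x : E), x.2⟩, ?_⟩
    rw [← hx]
    rfl
  have hRP := gd_redPair redE hd.ker ↥K⟮(t : E)⟯ ↥k⟮redE t⟯ E Eb hF hF' hs
  have hO : ∀ c : K⟮(t : E)⟯, c ∈ gdO OE ↥K⟮(t : E)⟯ ↔ GBase A ϖ (t : E) (c : E) :=
    hd.gBase_iff hϖ t htb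
  refine ⟨unrGauss_of_redPair hϖp htA hRP hdeg hO, fun x hx => ?_⟩
  exact gInt_of_mem_top hϖp htA hRP hdeg (fun c hc => (hO c).mp hc) ⟨x, hx⟩

end Main

end H28UG
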