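/-
S18 (item 75), route Y', slice C7 (helper28), part E: the abstract degree lemma.

In the situation of `GaussData`: if `j ∈ K(t)`, `[Eb : k(j̄)] = [E : K(j)]` (finite), then
`[Eb : k(t̄)] = [E : K(t)]`.  (Fundamental inequality `f ≤ n` on both levels of the tower
`K(j) ⊆ K(t) ⊆ E`.)
-/
import Mathlib
import Fermat.Agent.S18.UnrGenD_helper28

set_option autoImplicit false
set_option linter.unusedSectionVars false
set_option linter.unusedVariables false

open Polynomial IntermediateField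

namespace H28UG

open H7S18 H21S18 H18S18 Module

/-- the fundamental inequality `f ≤ n` for a `RedPair` -/
theorem finrank_le_of_redPair {F F' : Type*} [Field F] [Field F'] [Algebra F F']
    {O : ValuationSubring F} {O' : ValuationSubring F'}
    {κ κ' : Type*} [Field κ] [Field κ'] [Algebra κ κ']
    {red : O →+* κ} {red' : O' →+* κ'} (h : RedPair O O' red red') [FiniteDimensional F F'] :
    finrank κ κ' ≤ finrank F F' := by
  classical
  by_cases hfin : Module.Finite κ κ'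
  · let Bbar : Basis (Fin (finrank κ κ')) κ κ' := Module.finBasis κ κ'
    choose b hb using fun i => h.surj' (Bbar i)
    have hli : LinearIndependent κ (fun i => red' (b i)) := by
      have : (fun i => red' (b i)) = Bbar := funext hb
      rw [this]
      exact Bbar.linearIndependent
    have h1 := (h18_linearIndependent_lift h b hli).fintype_card_le_finrank
    rwa [Fintype.card_fin] at h1
  · rw [Module.finrank_of_not_finite hfin]
    exact Nat.zero_le _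

section Deg

variable {K : Type} [Field K] {A : ValuationSubring K} {k : Type*} [Field k] {π : A →+* k}
  {E : Type} [Field E] [Algebra K E] {Eb : Type*} [Field Eb] [Algebra k Eb]
  {OE : ValuationSubring E} {redE : OE →+* Eb}

theorem GaussData.redPair_top (hd : GaussData A π OE redE) (t : OE)
    (htb : Transcendental k (redE t)) :
    ∃ (hF : ∀ x : gdO OE ↥K⟮(t : E)⟯,
      redE (gdIncl OE ↥K⟮(t : E)⟯ x) ∈ (algebraMap ↥k⟮redE t⟯ Eb).range)
      (hF' : ∀ x : gdO OE E, redE (gdIncl OE E x) ∈ (algebraMap Eb Eb).range),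
      RedPair (gdO OE ↥K⟮(t : E)⟯) (gdO OE E) (gdRed redE ↥K⟮(t : E)⟯ ↥k⟮redE t⟯ hF)
        (gdRed redE E Eb hF') := by
  have hF : ∀ x : gdO OE ↥K⟮(t : E)⟯,
      redE (gdIncl OE ↥K⟮(t : E)⟯ x) ∈ (algebraMap ↥k⟮redE t⟯ Eb).range := by
    intro x
    have h1 := hd.red_mem t htb (gdIncl OE ↥K⟮(t : E)⟯ x) (x : ↥K⟮(t : E)⟯).2
    exact ⟨⟨_, h1⟩, rfl⟩
  have hF' : ∀ x : gdO OE E, redE (gdIncl OE E x) ∈ (algebraMap Eb Eb).range :=
    fun x => ⟨_, rfl⟩
  have hs : ∀ z : Eb, ∃ x : gdO OE E, redE (gdIncl OE E x) = algebraMap Eb Eb z := by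
    intro z
    obtain ⟨x, hx⟩ := hd.surj z
    refine ⟨⟨(x : E), x.2⟩, ?_⟩
    rw [← hx]
    rfl
  exact ⟨hF, hF', gd_redPair redE hd.ker ↥K⟮(t : E)⟯ ↥k⟮redE t⟯ E Eb hF hF' hs⟩

/-- `[Eb : k(t̄)] ≤ [E : K(t)]` -/
theorem GaussData.finrank_le (hd : GaussData A π OE redE) (t : OE)
    (htb : Transcendental k (redE t)) [FiniteDimensional K⟮(t : E)⟯ E] :
    finrank k⟮redE t⟯ Eb ≤ finrank K⟮(t : E)⟯ E := by
  obtain ⟨hF, hF', hRP⟩ := hd.redPair_top t htb
  exact finrank_le_of_redPair hRP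

/-- `[k(t̄) : k(j̄)] ≤ [K(t) : K(j)]` -/
theorem GaussData.relfinrank_le (hd : GaussData A π OE redE) (j t : OE)
    (hjb : Transcendental k (redE j)) (htb : Transcendental k (redE t))
    (hjt : (j : E) ∈ K⟮(t : E)⟯) [FiniteDimensional K⟮(j : E)⟯ E] :
    relfinrank k⟮redE j⟯ k⟮redE t⟯ ≤ relfinrank K⟮(j : E)⟯ K⟮(t : E)⟯ := by
  have hle : K⟮(j : E)⟯ ≤ K⟮(t : E)⟯ := adjoin_simple_le_iff.mpr hjt
  have hjbt : redE j ∈ k⟮redE t⟯ := hd.red_mem t htb j hjt
  have hleb : k⟮redE j⟯ ≤ k⟮redE t⟯ := adjoin_simple_le_iff.mpr hjbt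
  rw [relfinrank_eq_finrank_of_le hle, relfinrank_eq_finrank_of_le hleb]
  have hF : ∀ x : gdO OE ↥K⟮(j : E)⟯,
      redE (gdIncl OE ↥K⟮(j : E)⟯ x) ∈ (algebraMap ↥k⟮redE j⟯ Eb).range := by
    intro x
    have h1 := hd.red_mem j hjb (gdIncl OE ↥K⟮(j : E)⟯ x) (x : ↥K⟮(j : E)⟯).2
    exact ⟨⟨_, h1⟩, rfl⟩
  have hF' : ∀ x : gdO OE ↥(extendScalars hle),
      redE (gdIncl OE ↥(extendScalars hle) x) ∈ (algebraMap ↥(extendScalars hleb) Eb).range := by
    intro x
    have h1 := hd.red_mem t htb (gdIncl OE ↥(extendScalars hle) x) (x : ↥(extendScalars hle)).2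
    have h1' : redE (gdIncl OE ↥(extendScalars hle) x) ∈ extendScalars hleb := h1
    exact ⟨⟨_, h1'⟩, rfl⟩
  have hs : ∀ z : ↥(extendScalars hleb), ∃ x : gdO OE ↥(extendScalars hle),
      redE (gdIncl OE ↥(extendScalars hle) x) = algebraMap ↥(extendScalars hleb) Eb z := by
    intro z
    obtain ⟨x, hx, hxz⟩ := hd.red_surj t htb (z : Eb) z.2
    have hx' : (x : E) ∈ extendScalars hle := hx
    refine ⟨⟨⟨(x : E), hx'⟩, x.2⟩, ?_⟩
    have h1 : gdIncl OE ↥(extendScalars hle) ⟨⟨(x : E), hx'⟩, x.2⟩ = x := rfl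
    rw [h1, hxz]
    rfl
  have hRP := gd_redPair redE hd.ker ↥K⟮(j : E)⟯ ↥k⟮redE j⟯ ↥(extendScalars hle)
    ↥(extendScalars hleb) hF hF' hs
  exact finrank_le_of_redPair hRP

/-- **The abstract degree lemma.** -/
theorem GaussData.finrank_eq (hd : GaussData A π OE redE) (j t : OE)
    (hjb : Transcendental k (redE j)) (htb : Transcendental k (redE t))
    (hjt : (j : E) ∈ K⟮(t : E)⟯) [FiniteDimensional K⟮(j : E)⟯ E]
    (hdeg : finrank k⟮redE j⟯ Eb = finrank K⟮(j : E)⟯ E) :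
    FiniteDimensional K⟮(t : E)⟯ E ∧ finrank k⟮redE t⟯ Eb = finrank K⟮(t : E)⟯ E := by
  have hle : K⟮(j : E)⟯ ≤ K⟮(t : E)⟯ := adjoin_simple_le_iff.mpr hjt
  have hjbt : redE j ∈ k⟮redE t⟯ := hd.red_mem t htb j hjt
  have hleb : k⟮redE j⟯ ≤ k⟮redE t⟯ := adjoin_simple_le_iff.mpr hjbt
  have h1 := relfinrank_mul_finrank_top (E := E) hle
  have h2 := relfinrank_mul_finrank_top (E := Eb) hleb
  have hpos : 0 < finrank K⟮(j : E)⟯ E := finrank_pos
  have h3 := hd.relfinrank_le j t hjb htb hjt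
  have hmpos : 0 < finrank K⟮(t : E)⟯ E := by
    rcases Nat.eq_zero_or_pos (finrank K⟮(t : E)⟯ E) with h0 | h0
    · rw [h0, mul_zero] at h1
      omega
    · exact h0
  have hfd : FiniteDimensional K⟮(t : E)⟯ E := Module.finite_of_finrank_pos hmpos
  have h4 := hd.finrank_le t htb
  refine ⟨hfd, le_antisymm h4 ?_⟩
  by_contra hlt
  push Not at hlt
  have hdbpos : 0 < relfinrank k⟮redE j⟯ k⟮redE t⟯ := by
    rcases Nat.eq_zero_or_pos (relfinrank k⟮redE j⟯ k⟮redE t⟯) with h0 | h0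
    · rw [h0, zero_mul] at h2
      omega
    · exact h0
  have h5 : relfinrank k⟮redE j⟯ k⟮redE t⟯ * finrank k⟮redE t⟯ Eb <
      relfinrank k⟮redE j⟯ k⟮redE t⟯ * finrank K⟮(t : E)⟯ E :=
    Nat.mul_lt_mul_of_pos_left hlt hdbpos
  have h6 : relfinrank k⟮redE j⟯ k⟮redE t⟯ * finrank K⟮(t : E)⟯ E ≤
      relfinrank K⟮(j : E)⟯ K⟮(t : E)⟯ * finrank K⟮(t : E)⟯ E :=
    Nat.mul_le_mul_right _ h3
  omega

end Deg

end H28UG
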