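/-
S18 (item 75), route Y', slice C7 (helper28): instantiation of the abstract Gauss criterion for
the Gauss valuation ring `gvOF` of `F_L(N)`.
-/
import Mathlib
import Fermat.Agent.S18.UnrGenE_helper28
import Fermat.Agent.S18.C7Defs_helper28
import Fermat.Agent.S18.A0_helper28
import Fermat.Agent.S18.GVBasisGen_helper28

set_option autoImplicit false
set_option linter.unusedSectionVars false
set_option linter.unusedVariables false
set_option synthInstance.maxHeartbeats 400000

open ModularCurve HahnSeries Polynomial IntermediateField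

noncomputable section

namespace H28UG

open H7S18 H28GV Module

section Pole

/-- a Laurent series with a pole is transcendental over the constants -/
theorem transcendental_of_pole {k : Type*} [Field k] (x : LaurentSeries k)
    (hx : x.coeff (-1) ≠ 0) : Transcendental k x := by
  have hord : x.order ≤ -1 := HahnSeries.order_le_of_coeff_ne_zero hx
  have hx0 : x ≠ 0 := HahnSeries.ne_zero_of_coeff_ne_zero hx
  rw [transcendental_iff]
  intro p hp
  by_contra hp0
  have hcoeff : (Polynomial.aeval x p).coeff (p.natDegree • x.order) =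
      p.coeff p.natDegree * (x ^ p.natDegree).coeff (p.natDegree • x.order) := by
    rw [Polynomial.aeval_def, Polynomial.eval₂_eq_sum_range, HahnSeries.coeff_sum,
      Finset.sum_eq_single p.natDegree]
    · rw [algebraMap_laurentSeries_eq_single, HahnSeries.coeff_single_zero_mul]
    · intro i hi hin
      have hilt : i < p.natDegree :=
        lt_of_le_of_ne (Nat.lt_succ_iff.mp (Finset.mem_range.mp hi)) hin
      rw [algebraMap_laurentSeries_eq_single, HahnSeries.coeff_single_zero_mul,
        HahnSeries.coeff_eq_zero_of_lt_order, mul_zero]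
      rw [HahnSeries.order_pow]
      simp only [nsmul_eq_mul]
      have h1 : ((i : ℕ) : ℤ) < (p.natDegree : ℤ) := by exact_mod_cast hilt
      nlinarith
    · intro hn'
      exact absurd (Finset.self_mem_range_succ _) hn'
  rw [hp] at hcoeff
  simp only [HahnSeries.coeff_zero] at hcoeff
  have h2 : (x ^ p.natDegree).coeff (p.natDegree • x.order) ≠ 0 := by
    rw [← HahnSeries.order_pow]
    exact HahnSeries.coeff_order_eq_zero.not.mpr (pow_ne_zero _ hx0)
  rcases mul_eq_zero.mp hcoeff.symm with h | h
  · exact hp0 (Polynomial.leadingCoeff_eq_zero.mp h)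
  · exact h2 h

end Pole

section Inst

variable {L : Type} [Field L] [Algebra ℚ L] {A : ValuationSubring L} {k : Type} [Field k]
  {π : A →+* k} {N : ℕ} [NeZero N]

/-- **the Gauss valuation ring of `F_L(N)` is a `GaussData`** -/
theorem gaussData_gv (B : GVBasis A π N) (hπs : Function.Surjective π)
    (hπ0 : ∀ a : A, ¬ IsUnit a → π a = 0) :
    GaussData A π (gvOF B) (gvRedF B (gv_hpi_of_nonunit hπ0)) where
  mem_iff c := by
    constructor
    · intro h
      rw [mem_gvOF, gv_coe_algebraMap] at h
      exact gv_const_mem (gv_hpi_of_nonunit hπ0) c h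
    · intro h
      exact gvOF_const_mem B c h
  ker x := by
    rw [mem_nonunits_iff]
    constructor
    · intro h hu
      exact (hu.map (gvRedF B (gv_hpi_of_nonunit hπ0))).ne_zero h
    · intro h
      by_contra h0
      exact h (gvOF_isUnit_of_red B _ x h0)
  surj := gvRedF_surjective B _ hπs
  compat a h := gvRedF_const B _ (a : L) a.2
  πsurj := hπs

end Inst

section Main

variable {L : Type} [Field L] [Algebra ℚ L] (A : ValuationSubring L) (N : ℕ) [NeZero N]

theorem c7_dedekindPsi_pos : 0 < dedekindPsi N := by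
  unfold dedekindPsi
  refine Finset.sum_pos' (fun _ _ => Nat.zero_le _) ⟨1, ?_, ?_⟩
  · simp [NeZero.ne N]
  · simp [Nat.pos_of_ne_zero (NeZero.ne N)]

set_option maxHeartbeats 3200000 in
/-- **C7, general form**: `A ⊂ L` a valuation ring of a field of characteristic 0 with perfect
residue field of characteristic `p ∤ N`, `t ∈ F_L(N)` with integral coefficients, residue `1` at
`q = 0` and `j ∈ ℚ(t)`.  Then the Gauss prime of `A[t]` is unramified in `F_L(N)` and the Gauss
ring `gvO ∩ F_L(N)` consists of `GInt` elements. -/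
theorem gauss_inst (hD : C7DegStatement) (hS : C7SepStatement)
    (p : ℕ) [Fact p.Prime] [CharP (IsLocalRing.ResidueField A) p]
    [PerfectField (IsLocalRing.ResidueField A)] (hpN : ¬ p ∣ N)
    [Algebra A (FK L N)] [IsScalarTower A L (FK L N)]
    (ϖ : A) (hϖ : Irreducible ϖ)
    (T : LaurentSeries ℤ) (hT1 : T.coeff (-1) = 1)
    (hjT : jq ∈ IntermediateField.adjoin ℚ {coeffMap (Int.castRingHom ℚ) T})
    (t : FK L N) (ht : (t : LaurentSeries L) = coeffEmb L (coeffMap (Int.castRingHom ℚ) T)) :
    UnrGauss A L ϖ t ∧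
      ∀ x : FK L N, (x : LaurentSeries L) ∈ gvO A (IsLocalRing.residue A) → GInt A ϖ t x := by
  classical
  have hπs : Function.Surjective (IsLocalRing.residue A) := IsLocalRing.residue_surjective
  have hπ0 : ∀ a : A, ¬ IsUnit a → IsLocalRing.residue A a = 0 := fun a ha =>
    (IsLocalRing.residue_eq_zero_iff a).mpr ((IsLocalRing.mem_maximalIdeal a).mpr ha)
  have hchar : ∀ r : ℕ, r.Prime → r ∣ N → (r : IsLocalRing.ResidueField A) ≠ 0 := by
    intro r hr hrN h0
    have h1 := (CharP.cast_eq_zero_iff (IsLocalRing.ResidueField A) p r).mp h0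
    have h2 : p = r := (Nat.prime_dvd_prime_iff_eq Fact.out hr).mp h1
    exact hpN (h2 ▸ hrN)
  have hcharL : ∀ r : ℕ, r.Prime → r ∣ N → (r : L) ≠ 0 := by
    intro r hr _
    haveI : CharZero L := algebraRat.charZero L
    exact Nat.cast_ne_zero.mpr hr.ne_zero
  obtain ⟨B⟩ := gv_basis_nonempty_gen A (IsLocalRing.residue A) N hchar
  have hd := gaussData_gv B hπs hπ0
  -- the element `j`
  have hjmem : jqModC L ∈ laurentBaseChange L (modularFunctionFieldFull N) :=
    gv_mem_base_of_full N (jqModC_mem_full L N)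
  have hjO : (⟨jqModC L, hjmem⟩ : FK L N) ∈ gvOF B := by
    rw [mem_gvOF]
    show jqModC L ∈ gvO A (IsLocalRing.residue A)
    rw [← gvEps_jq A]
    exact gvEps_mem_gvO A _ _
  have hjred : ((gvRedF B (gv_hpi_of_nonunit hπ0) ⟨⟨jqModC L, hjmem⟩, hjO⟩ :
      ↥(modularFunctionFieldFullC (IsLocalRing.ResidueField A) N)) :
        LaurentSeries (IsLocalRing.ResidueField A)) = jqModC (IsLocalRing.ResidueField A) := by
    rw [coe_gvRedF]
    have h1 : gvOFincl B ⟨⟨jqModC L, hjmem⟩, hjO⟩ =
        ⟨gvEps A (jqModC A), gvEps_mem_gvO A (IsLocalRing.residue A) _⟩ :=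
      Subtype.ext (gvEps_jq A).symm
    rw [h1, gvRed_eps, gvRho_jq]
  -- the element `t`
  have htA : (t : LaurentSeries L) = gvEps A (coeffMap (Int.castRingHom A) T) := by
    rw [ht, coeffEmb, coeffMap_coeffMap, gvEps_def, coeffMap_coeffMap]
    exact coeffMap_congr (RingHom.ext_int _ _) T
  have htO : t ∈ gvOF B := by
    rw [mem_gvOF, htA]
    exact gvEps_mem_gvO A _ _
  have htred : ((gvRedF B (gv_hpi_of_nonunit hπ0) ⟨t, htO⟩ :
      ↥(modularFunctionFieldFullC (IsLocalRing.ResidueField A) N)) :
        LaurentSeries (IsLocalRing.ResidueField A)) =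
      coeffMap (Int.castRingHom (IsLocalRing.ResidueField A)) T := by
    rw [coe_gvRedF]
    have h1 : gvOFincl B ⟨t, htO⟩ = ⟨gvEps A (coeffMap (Int.castRingHom A) T),
        gvEps_mem_gvO A (IsLocalRing.residue A) _⟩ := Subtype.ext htA
    rw [h1, gvRed_eps, gvRho_def, coeffMap_coeffMap]
    exact coeffMap_congr (RingHom.ext_int _ _) T
  have htcoeff : ((gvRedF B (gv_hpi_of_nonunit hπ0) ⟨t, htO⟩ :
      ↥(modularFunctionFieldFullC (IsLocalRing.ResidueField A) N)) :
        LaurentSeries (IsLocalRing.ResidueField A)).coeff (-1) = 1 := by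
    rw [htred, coeffMap_coeff, hT1]
    simp
  -- transcendence
  have hinj : Function.Injective
      (algebraMap ↥(modularFunctionFieldFullC (IsLocalRing.ResidueField A) N)
        (LaurentSeries (IsLocalRing.ResidueField A))) := Subtype.val_injective
  have htL : Transcendental (IsLocalRing.ResidueField A)
      ((gvRedF B (gv_hpi_of_nonunit hπ0) ⟨t, htO⟩ :
        ↥(modularFunctionFieldFullC (IsLocalRing.ResidueField A) N)) :
          LaurentSeries (IsLocalRing.ResidueField A)) :=
    transcendental_of_pole _ (by rw [htcoeff]; exact one_ne_zero)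
  have htb : Transcendental (IsLocalRing.ResidueField A)
      (gvRedF B (gv_hpi_of_nonunit hπ0) ⟨t, htO⟩) :=
    (transcendental_algebraMap_iff hinj).mp htL
  have hjb : Transcendental (IsLocalRing.ResidueField A)
      (gvRedF B (gv_hpi_of_nonunit hπ0) ⟨⟨jqModC L, hjmem⟩, hjO⟩) := by
    refine (transcendental_algebraMap_iff hinj).mp ?_
    show Transcendental (IsLocalRing.ResidueField A)
      ((gvRedF B (gv_hpi_of_nonunit hπ0) ⟨⟨jqModC L, hjmem⟩, hjO⟩ :
        ↥(modularFunctionFieldFullC (IsLocalRing.ResidueField A) N)) :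
          LaurentSeries (IsLocalRing.ResidueField A))
    rw [hjred]
    exact P2MW.S_ModularCurve_coeff_jqModC_neg_one.ModularCurve.CharLRows.transcendental_jqModC _
  -- `j ∈ L(t)`
  have hjt : (⟨jqModC L, hjmem⟩ : FK L N) ∈ L⟮t⟯ := by
    obtain ⟨r, s, hrs⟩ := (IntermediateField.mem_adjoin_simple_iff _ _).mp hjT
    rw [IntermediateField.mem_adjoin_simple_iff]
    refine ⟨r.map (algebraMap ℚ L), s.map (algebraMap ℚ L), ?_⟩
    apply Subtype.ext
    have h1 := congrArg (coeffEmb L) hrs
    rw [gv_coeffEmb_jq, map_div₀, coeffEmb, gv_coeffMap_aeval, gv_coeffMap_aeval] at h1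
    have h2 : coeffMap (algebraMap ℚ L) (coeffMap (Int.castRingHom ℚ) T) = (t : LaurentSeries L) :=
      ht.symm
    rw [h2] at h1
    have h3 : ∀ q : Polynomial L,
        ((Polynomial.aeval t q : FK L N) : LaurentSeries L) =
          Polynomial.aeval (t : LaurentSeries L) q := fun q =>
      (Polynomial.aeval_algHom_apply
        (laurentBaseChange L (modularFunctionFieldFull N)).val t q).symm
    show jqModC L = ((Polynomial.aeval t (r.map (algebraMap ℚ L)) /
      Polynomial.aeval t (s.map (algebraMap ℚ L)) : FK L N) : LaurentSeries L)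
    rw [h1]
    push_cast
    rw [h3, h3]
  -- degrees
  have hdegL := hD L N hcharL (laurentBaseChange L (modularFunctionFieldFull N)) (gv_bar_eq L N)
    ⟨jqModC L, hjmem⟩ rfl
  have hdegk := hD (IsLocalRing.ResidueField A) N hchar
    (modularFunctionFieldFullC (IsLocalRing.ResidueField A) N) rfl
    (gvRedF B (gv_hpi_of_nonunit hπ0) ⟨⟨jqModC L, hjmem⟩, hjO⟩) hjred
  haveI hfdj : FiniteDimensional L⟮(⟨jqModC L, hjmem⟩ : FK L N)⟯ (FK L N) :=
    Module.finite_of_finrank_pos (by rw [hdegL]; exact c7_dedekindPsi_pos N)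
  obtain ⟨hfd, hdeg⟩ := hd.finrank_eq ⟨⟨jqModC L, hjmem⟩, hjO⟩ ⟨t, htO⟩ hjb htb hjt
    (hdegk.trans hdegL.symm)
  haveI := hfd
  have hfdk : FiniteDimensional
      (IsLocalRing.ResidueField A)⟮gvRedF B (gv_hpi_of_nonunit hπ0) ⟨t, htO⟩⟯
      ↥(modularFunctionFieldFullC (IsLocalRing.ResidueField A) N) :=
    Module.finite_of_finrank_pos (by rw [hdeg]; exact finrank_pos)
  haveI hsep := hS (IsLocalRing.ResidueField A) p
    (modularFunctionFieldFullC (IsLocalRing.ResidueField A) N)
    (gvRedF B (gv_hpi_of_nonunit hπ0) ⟨t, htO⟩) htL htcoeff hfdk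
  obtain ⟨h1, h2⟩ := gauss_abstract hd hϖ ⟨t, htO⟩ htb hdeg
  exact ⟨h1, fun x hx => h2 x hx⟩

end Main

end H28UG
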