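/-
S18 (item 75), route Y', slice C7 (helper28): assembly of `H7S18.GaussStatement` from the
general form `H28UG.gauss_inst` and the sub-slices C7a–C7d.
-/
import Mathlib
import Fermat.Agent.S18.C7Inst_helper28

set_option autoImplicit false
set_option linter.unusedSectionVars false
set_option linter.unusedVariables false
set_option synthInstance.maxHeartbeats 400000

open ModularCurve HahnSeries Polynomial IntermediateField

noncomputable section

namespace H28UG

open H7S18 H28GV Module

/-- units of `A₁ = A ∩ K₁` are detected in `A` -/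
theorem descIncl_isUnit (A : ValuationSubring (AlgebraicClosure ℚ))
    (K₁ : IntermediateField ℚ (AlgebraicClosure ℚ)) (a : ↥(descVal A K₁))
    (h : IsUnit (descIncl A K₁ a)) : IsUnit a := by
  obtain ⟨b, hb⟩ := h.exists_right_inv
  have hb' : algebraMap K₁ (AlgebraicClosure ℚ) (a : K₁) * (b : AlgebraicClosure ℚ) = 1 := by
    have := congrArg (fun z : A => (z : AlgebraicClosure ℚ)) hb
    simpa [descIncl] using this
  have ha0 : (a : K₁) ≠ 0 := by
    intro h0
    rw [h0, map_zero, zero_mul] at hb'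
    exact zero_ne_one hb'
  have hbx : (b : AlgebraicClosure ℚ) = algebraMap K₁ (AlgebraicClosure ℚ) ((a : K₁)⁻¹) := by
    rw [map_inv₀]
    exact eq_inv_of_mul_eq_one_right hb'
  have hmem : (a : K₁)⁻¹ ∈ descVal A K₁ := by
    show algebraMap K₁ (AlgebraicClosure ℚ) ((a : K₁)⁻¹) ∈ A
    rw [← hbx]
    exact b.2
  refine IsUnit.of_mul_eq_one (⟨_, hmem⟩ : ↥(descVal A K₁)) ?_
  apply Subtype.ext
  show (a : K₁) * (a : K₁)⁻¹ = 1
  exact mul_inv_cancel₀ ha0

/-- nonvanishing of the reduction does not depend on the residue field used -/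
theorem rho_ne_zero_of_desc (A : ValuationSubring (AlgebraicClosure ℚ))
    (K₁ : IntermediateField ℚ (AlgebraicClosure ℚ)) (g : LaurentSeries ↥(descVal A K₁))
    (hg : coeffMap ((IsLocalRing.residue A).comp (descIncl A K₁)) g ≠ 0) :
    gvRho (descVal A K₁) (IsLocalRing.residue ↥(descVal A K₁)) g ≠ 0 := by
  intro h0
  apply hg
  ext n
  have h1 := congrArg (fun z => z.coeff n) h0
  simp only [gvRho_coeff, HahnSeries.coeff_zero] at h1
  rw [coeffMap_coeff, HahnSeries.coeff_zero, RingHom.comp_apply]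
  have h2 : ¬ IsUnit (g.coeff n) := by
    intro hu
    have := (IsLocalRing.residue_eq_zero_iff (g.coeff n)).mp h1
    exact (IsLocalRing.mem_maximalIdeal _).mp this hu
  have h3 : ¬ IsUnit (descIncl A K₁ (g.coeff n)) := fun hu => h2 (descIncl_isUnit A K₁ _ hu)
  exact (IsLocalRing.residue_eq_zero_iff _).mpr ((IsLocalRing.mem_maximalIdeal _).mpr h3)

/-- **C7** from its sub-slices. -/
theorem gaussStatement_of_slices (hP : C7PerfectStatement) (hD : C7DegStatement)
    (hS : C7SepStatement) (hB : C7BaseStatement) : H7S18.GaussStatement := by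
  intro N _ ℓ _ hTame A hA K₁ hK₁ _ _ ϖ hϖ t₀ ht₀ t ht
  obtain ⟨hperf, hcharp⟩ := hP ℓ A hA K₁
  obtain ⟨hc1, ⟨T, hT⟩, hj⟩ := hB (baseKind ℓ) t₀ ht₀
  haveI := hperf
  haveI := hcharp
  have hT1 : T.coeff (-1) = 1 := by
    have h1 : (coeffMap (Int.castRingHom ℚ) T).coeff (-1) = 1 := by rw [hT]; exact hc1
    rw [coeffMap_coeff] at h1
    have h2 : ((T.coeff (-1) : ℤ) : ℚ) = ((1 : ℤ) : ℚ) := by
      rw [Int.cast_one]
      exact h1
    exact Int.cast_injective h2
  have hmain := gauss_inst (descVal A K₁) N hD hS ℓ hTame.1 ϖ hϖ T hT1 (by rw [hT]; exact hj) t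
    (by rw [hT]; exact ht)
  refine ⟨hmain.1, fun f g x hg hx => hmain.2 x ⟨f, g, rho_ne_zero_of_desc A K₁ g hg, hx⟩⟩

end H28UG
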