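import Mathlib
import Fermat.Agent.S18.C7Defs_helper28

/-!
# S18 (item 75), route Y', slice C7a (helper1): the residue field of `A ∩ K₁` is perfect of
characteristic `ℓ`

`H1S18.c7Perfect : H28UG.C7PerfectStatement`.  Every element of `K₁ ⊆ ℚ̄` is a root of a
primitive polynomial over `ℤ`, whose reduction mod `ℓ` is nonzero; hence the residue field is
algebraic over `𝔽_ℓ`.
-/

set_option autoImplicit false
set_option linter.style.longLine false
set_option linter.unusedSectionVars false
set_option linter.style.haveILetI false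
set_option linter.unusedVariables false

noncomputable section

open Polynomial

namespace H1S18

/-- a primitive integer polynomial is nonzero mod `ℓ` -/
theorem map_ne_zero_of_isPrimitive {ℓ : ℕ} (hℓ : ℓ.Prime) {P : ℤ[X]} (hP : P.IsPrimitive) :
    P.map (Int.castRingHom (ZMod ℓ)) ≠ 0 := by
  intro h0
  have hdvd : C (ℓ : ℤ) ∣ P := by
    rw [Polynomial.C_dvd_iff_dvd_coeff]
    intro i
    have hi : (P.map (Int.castRingHom (ZMod ℓ))).coeff i = 0 := by rw [h0, coeff_zero]
    rw [coeff_map] at hi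
    exact (ZMod.intCast_zmod_eq_zero_iff_dvd _ _).mp hi
  have hunit := hP (ℓ : ℤ) hdvd
  rw [Int.isUnit_iff] at hunit
  have := hℓ.one_lt
  omega

/-- characteristic `ℓ` and algebraicity over `𝔽_ℓ` for the residue field of a valuation subring
of a field algebraic over `ℚ` -/
theorem residue_charP_and_isAlgebraic {K : Type*} [Field K] [CharZero K]
    (hK : ∀ x : K, IsAlgebraic ℤ x) (ℓ : ℕ) [Fact ℓ.Prime] (B : ValuationSubring K)
    (hB : B.LiesOverPrime ℓ) :
    PerfectField (IsLocalRing.ResidueField ↥B) ∧ CharP (IsLocalRing.ResidueField ↥B) ℓ := by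
  have hℓ : ℓ.Prime := Fact.out
  have h0 : ((ℓ : ℕ) : IsLocalRing.ResidueField ↥B) = 0 := by
    have h1 : (((ℓ : ℕ) : B) : K) ∈ B.nonunits := by
      have : (((ℓ : ℕ) : B) : K) = (ℓ : K) := by simp
      rw [this]
      exact hB
    have h2 : ((ℓ : ℕ) : B) ∈ IsLocalRing.maximalIdeal B :=
      ValuationSubring.coe_mem_nonunits_iff.mp h1
    have h3 := (IsLocalRing.residue_eq_zero_iff ((ℓ : ℕ) : B)).mpr h2
    rwa [map_natCast] at h3
  haveI hchar : CharP (IsLocalRing.ResidueField ↥B) ℓ := (CharP.charP_iff_prime_eq_zero hℓ).mpr h0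
  refine ⟨?_, hchar⟩
  letI : Algebra (ZMod ℓ) (IsLocalRing.ResidueField ↥B) := ZMod.algebra _ ℓ
  haveI : Algebra.IsAlgebraic (ZMod ℓ) (IsLocalRing.ResidueField ↥B) := by
    refine ⟨fun xbar => ?_⟩
    obtain ⟨x, rfl⟩ := IsLocalRing.residue_surjective xbar
    obtain ⟨p, hp0, hpx⟩ := hK (x : K)
    have hprim : aeval (x : K) p.primPart = 0 := aeval_primPart_eq_zero hp0 hpx
    set P := p.primPart with hPdef
    have hPprim : P.IsPrimitive := isPrimitive_primPart p
    -- the relation holds in `B`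
    have hB0 : aeval x P = 0 := by
      apply Subtype.ext
      have h1 : ((aeval x P : B) : K) = aeval (x : K) P := by
        have := Polynomial.aeval_algHom_apply (B.subtype.toIntAlgHom) x P
        exact this.symm
      rw [h1, hprim]
      rfl
    -- and in the residue field
    have hres : aeval (IsLocalRing.residue B x) P = 0 := by
      have := Polynomial.aeval_algHom_apply ((IsLocalRing.residue B).toIntAlgHom) x P
      rw [hB0, map_zero] at this
      exact this
    refine ⟨P.map (Int.castRingHom (ZMod ℓ)), map_ne_zero_of_isPrimitive hℓ hPprim, ?_⟩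
    rw [aeval_def, eval₂_map]
    have hcomp : (algebraMap (ZMod ℓ) (IsLocalRing.ResidueField ↥B)).comp (Int.castRingHom (ZMod ℓ))
        = algebraMap ℤ (IsLocalRing.ResidueField ↥B) := Subsingleton.elim _ _
    rw [hcomp, ← aeval_def]
    exact hres
  exact Algebra.IsAlgebraic.perfectField (K := ZMod ℓ)

/-- **C7a** -/
theorem c7Perfect : H28UG.C7PerfectStatement := by
  intro ℓ _ A hA K₁
  refine residue_charP_and_isAlgebraic (fun x => ?_) ℓ (H7S18.descVal A K₁) ?_
  · have h : IsAlgebraic ℚ x := by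
      have h1 : IsAlgebraic ℚ (algebraMap K₁ (AlgebraicClosure ℚ) x) := by
        obtain ⟨p, hp, hpa⟩ := ((AlgebraicClosure.isAlgebraic ℚ).isAlgebraic
          (algebraMap K₁ (AlgebraicClosure ℚ) x)).isIntegral
        refine ⟨p, hp.ne_zero, ?_⟩
        rw [aeval_def, ← hpa]
        congr 1
      exact (isAlgebraic_algebraMap_iff (algebraMap K₁ (AlgebraicClosure ℚ)).injective).mp h1
    exact (IsFractionRing.isAlgebraic_iff ℤ ℚ K₁).mpr h
  · -- `ℓ` is a nonunit of `A ∩ K₁`
    show ((ℓ : ℕ) : K₁) ∈ (H7S18.descVal A K₁).nonunits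
    rw [ValuationSubring.mem_nonunits_iff_exists_mem_maximalIdeal]
    have hmem : ((ℓ : ℕ) : K₁) ∈ H7S18.descVal A K₁ := by
      show algebraMap K₁ (AlgebraicClosure ℚ) ((ℓ : ℕ) : K₁) ∈ A
      rw [map_natCast]
      exact natCast_mem A ℓ
    refine ⟨hmem, ?_⟩
    rw [IsLocalRing.mem_maximalIdeal, mem_nonunits_iff]
    intro hu
    obtain ⟨b, hb⟩ := isUnit_iff_exists_inv.mp hu
    have hb' : ((ℓ : ℕ) : K₁) * (b : K₁) = 1 := congrArg Subtype.val hb
    have hbA : algebraMap K₁ (AlgebraicClosure ℚ) (b : K₁) ∈ A := b.2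
    have h1 : ((ℓ : ℕ) : AlgebraicClosure ℚ) * algebraMap K₁ (AlgebraicClosure ℚ) (b : K₁) = 1 := by
      have := congrArg (algebraMap K₁ (AlgebraicClosure ℚ)) hb'
      rwa [map_mul, map_natCast, map_one] at this
    -- `ℓ` would be a unit of `A`
    have hℓA : ((ℓ : ℕ) : AlgebraicClosure ℚ) ∈ A.nonunits := hA
    rw [ValuationSubring.mem_nonunits_iff_exists_mem_maximalIdeal] at hℓA
    obtain ⟨hℓmem, hℓmax⟩ := hℓA
    rw [IsLocalRing.mem_maximalIdeal, mem_nonunits_iff] at hℓmax
    apply hℓmax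
    refine isUnit_iff_exists_inv.mpr ⟨⟨_, hbA⟩, ?_⟩
    apply Subtype.ext
    exact h1

end H1S18
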