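import Mathlib
import Fermat.Agent.S18.C7Defs_helper28
import Fermat.Agent.S28.DegreeBounds
import Fermat.Agent.S18.GVBasisGen_helper28

/-!
# S18 (item 75), route Y', slice C7b (helper9): `H28UG.C7DegStatement`

`[F_k(N) : k(j)] = ψ(N)` as a `finrank` of subtypes, for every field `k` in which the primes
dividing `N` are invertible: `≤` from the tower bound of S28 (WP2), `≥` from the induction of
S28 (WP3).
-/

set_option autoImplicit false
set_option linter.unusedSectionVars false
set_option linter.style.haveILetI false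

noncomputable section

open Polynomial IntermediateField ModularCurve

namespace H9C7b

variable (k : Type) [Field k] (N : ℕ) [NeZero N]

theorem map_adjoin_j (j : ↥(modularFunctionFieldFullC k N))
    (hj : (j : LaurentSeries k) = jqModC k) :
    (k⟮j⟯).map (modularFunctionFieldFullC k N).val = k⟮jqModC k⟯ := by
  rw [IntermediateField.adjoin_map, Set.image_singleton]
  congr 2

/-- `rank ≤ ψ(N)` -/
theorem rank_le_psi (j : ↥(modularFunctionFieldFullC k N))
    (hj : (j : LaurentSeries k) = jqModC k) :
    Module.rank k⟮j⟯ ↥(modularFunctionFieldFullC k N) ≤ ((dedekindPsi N : ℕ) : Cardinal) := by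
  classical
  apply rank_le
  intro t ht
  have hg : Function.Injective
      (Subtype.val : ↥(modularFunctionFieldFullC k N) → LaurentSeries k) :=
    Subtype.val_injective
  have hcard : (t.image
      (Subtype.val : ↥(modularFunctionFieldFullC k N) → LaurentSeries k)).card = t.card :=
    Finset.card_image_of_injective t hg
  rw [← hcard]
  apply H28S28.h10_degreeUpperBoundC' k N (fun p hp _ => H28S28.h10_hasModEq_all p hp)
  · intro x hx
    obtain ⟨y, _, rfl⟩ := Finset.mem_image.mp hx
    exact y.2
  · have hmem : ∀ x : k⟮j⟯,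
        (((x : ↥(modularFunctionFieldFullC k N)) : LaurentSeries k)) ∈ k⟮jqModC k⟯ := by
      intro x
      rw [← map_adjoin_j k N j hj]
      exact ⟨x.1, x.2, rfl⟩
    let i : k⟮j⟯ → k⟮jqModC k⟯ := fun x => ⟨_, hmem x⟩
    have hsurj : Function.Surjective i := by
      rintro ⟨c, hc⟩
      rw [← map_adjoin_j k N j hj] at hc
      obtain ⟨x, hx, hxc⟩ := hc
      exact ⟨⟨x, hx⟩, Subtype.ext hxc⟩
    let jj : ↥(modularFunctionFieldFullC k N) →+ LaurentSeries k :=
      (modularFunctionFieldFullC k N).val.toRingHom.toAddMonoidHom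
    have hinj : ∀ m : ↥(modularFunctionFieldFullC k N), jj m = 0 → m = 0 := by
      intro m hm
      exact Subtype.ext hm
    have hc : ∀ (r : k⟮j⟯) (m : ↥(modularFunctionFieldFullC k N)), jj (r • m) = i r • jj m := by
      intro r m
      rfl
    have h1 : LinearIndependent ↥k⟮jqModC k⟯
        (⇑jj ∘ fun x : ↥t => (x : ↥(modularFunctionFieldFullC k N))) :=
      ht.map_of_surjective_injective i jj hsurj hinj hc
    have h2 : LinearIndependent ↥k⟮jqModC k⟯
        (fun x : ↥(Set.range (⇑jj ∘ fun x : ↥t => (x : ↥(modularFunctionFieldFullC k N)))) =>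
          (x : LaurentSeries k)) := h1.linearIndepOn_id
    let f : ↥(t.image (Subtype.val : ↥(modularFunctionFieldFullC k N) → LaurentSeries k)) →
        ↥(Set.range (⇑jj ∘ fun x : ↥t => (x : ↥(modularFunctionFieldFullC k N)))) :=
      fun x => ⟨x.1, by
        obtain ⟨y, hy, hxy⟩ := Finset.mem_image.mp x.2
        exact ⟨⟨y, hy⟩, hxy⟩⟩
    have hf : Function.Injective f := by
      intro a b hab
      have h3 : (f a).1 = (f b).1 := congrArg Subtype.val hab
      exact Subtype.ext h3
    exact h2.comp f hf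

/-- `ψ(N) ≤ finrank` -/
theorem psi_le_finrank (hchar : ∀ r : ℕ, r.Prime → r ∣ N → (r : k) ≠ 0)
    (j : ↥(modularFunctionFieldFullC k N)) (hj : (j : LaurentSeries k) = jqModC k)
    [FiniteDimensional k⟮j⟯ ↥(modularFunctionFieldFullC k N)] :
    dedekindPsi N ≤ Module.finrank k⟮j⟯ ↥(modularFunctionFieldFullC k N) := by
  classical
  obtain ⟨B⟩ := H28GV.gv_basis_nonempty_gen (⊤ : ValuationSubring k)
    (⊤ : ValuationSubring k).subtype N hchar
  set w : Fin (dedekindPsi N) → ↥(modularFunctionFieldFullC k N) :=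
    fun i => ⟨H28GV.gvRho _ _ (B.y i), B.rho_mem i⟩ with hw
  have hmem : ∀ x : k⟮j⟯,
      (((x : ↥(modularFunctionFieldFullC k N)) : LaurentSeries k)) ∈ k⟮jqModC k⟯ := by
    intro x
    rw [← map_adjoin_j k N j hj]
    exact ⟨x.1, x.2, rfl⟩
  have hli : LinearIndependent k⟮j⟯ w := by
    rw [Fintype.linearIndependent_iff]
    intro g hg i
    have hB := B.li
    rw [Fintype.linearIndependent_iff] at hB
    have h1 := hB (fun i => ⟨_, hmem (g i)⟩) (by
      have h0 := congrArg (fun x : ↥(modularFunctionFieldFullC k N) => (x : LaurentSeries k)) hg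
      simp only [AddSubmonoidClass.coe_finsetSum, ZeroMemClass.coe_zero] at h0
      rw [← h0]
      rfl) i
    have h3 : (((g i : k⟮j⟯) : ↥(modularFunctionFieldFullC k N)) : LaurentSeries k) = 0 :=
      congrArg (fun x : ↥(k⟮jqModC k⟯) => (x : LaurentSeries k)) h1
    exact Subtype.ext (Subtype.ext h3)
  have h2 := hli.fintype_card_le_finrank
  simpa using h2

/-- **C7b** -/
theorem c7Deg : H28UG.C7DegStatement := by
  intro k _ N _ hchar M hM j hj
  subst hM
  have hrank := rank_le_psi k N j hj
  haveI : FiniteDimensional k⟮j⟯ ↥(modularFunctionFieldFullC k N) :=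
    IsNoetherian.iff_fg.mp
      (IsNoetherian.iff_rank_lt_aleph0.mpr (lt_of_le_of_lt hrank Cardinal.natCast_lt_aleph0))
  exact le_antisymm (Module.finrank_le_of_rank_le hrank) (psi_le_finrank k N hchar j hj)

end H9C7b
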