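import Mathlib
import Fermat.Agent.S18.C9Final_helper4
import Fermat.Agent.S18.C8Branch_helper4
import Fermat.Agent.S18.C7Defs_helper28

/-!
# Item 75 (S18), slice C7d (helper4): `H28UG.C7BaseStatement`

For each of the base functions `t₀ = j, h₂, h₃`: the coefficient of `q⁻¹` is `1`, the
coefficients are integers, and `j ∈ ℚ(t₀)`.
-/

set_option autoImplicit false

noncomputable section

namespace H4C7d

open ModularCurve PowerSeries H28S28 H4HM

theorem jq_coeff_neg_one (A : Type) [CommRing A] : (jqModC A).coeff (-1) = 1 := by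
  rw [jqModC_eq, HahnSeries.coeff_single_mul, one_mul, sub_self,
    show (0 : ℤ) = ((0 : ℕ) : ℤ) from rfl, iota_coeff_nat,
    PowerSeries.coeff_zero_eq_constantCoeff_apply, map_mul, map_pow, constantCoeff_eisenstein4,
    constantCoeff_dedekindEtaUnitInv]
  simp

theorem t2_ne_zero : t2 ℚ ≠ 0 := by
  intro h
  have := t2_coeff_neg_one ℚ
  rw [h] at this
  simp at this

theorem t3_ne_zero : t3 ℚ ≠ 0 := by
  intro h
  have := t3_coeff_neg_one ℚ
  rw [h] at this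
  simp at this

theorem jq_mem_adjoin_t2 : jq ∈ IntermediateField.adjoin ℚ {t2 ℚ} := by
  set F := IntermediateField.adjoin ℚ {t2 ℚ}
  have ht : t2 ℚ ∈ F := IntermediateField.mem_adjoin_simple_self ℚ _
  have h := hm2 ℚ
  have e : jq = (t2 ℚ + 256) ^ 3 * (t2 ℚ ^ 2)⁻¹ := by
    rw [eq_mul_inv_iff_mul_eq₀ (pow_ne_zero 2 t2_ne_zero)]
    exact h
  rw [e]
  exact F.mul_mem (F.pow_mem (F.add_mem ht (by exact_mod_cast F.natCast_mem 256)) 3)
    (F.inv_mem (F.pow_mem ht 2))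

theorem jq_mem_adjoin_t3 : jq ∈ IntermediateField.adjoin ℚ {t3 ℚ} := by
  set F := IntermediateField.adjoin ℚ {t3 ℚ}
  have ht : t3 ℚ ∈ F := IntermediateField.mem_adjoin_simple_self ℚ _
  have h := hm3 ℚ
  have e : jq = (t3 ℚ + 27) * (t3 ℚ + 243) ^ 3 * (t3 ℚ ^ 3)⁻¹ := by
    rw [eq_mul_inv_iff_mul_eq₀ (pow_ne_zero 3 t3_ne_zero)]
    exact h
  rw [e]
  exact F.mul_mem (F.mul_mem (F.add_mem ht (by exact_mod_cast F.natCast_mem 27))
    (F.pow_mem (F.add_mem ht (by exact_mod_cast F.natCast_mem 243)) 3))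
    (F.inv_mem (F.pow_mem ht 3))

/-- **C7d** -/
theorem c7BaseStatement : H28UG.C7BaseStatement := by
  intro i t₀ h
  have hi : i = 1 ∨ i = 2 ∨ i = 3 := by
    rcases h with ⟨h, -⟩ | ⟨h, -⟩ | ⟨h, -⟩
    · exact Or.inl h
    · exact Or.inr (Or.inl h)
    · exact Or.inr (Or.inr h)
  rcases hi with rfl | rfl | rfl
  · rw [H4BR.eq_jq_of_isBase h]
    exact ⟨jq_coeff_neg_one ℚ, ⟨jqModC ℤ, coeffMap_jqModC _⟩,
      IntermediateField.mem_adjoin_simple_self ℚ _⟩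
  · rw [H4BR.eq_t2_of_isBase h]
    exact ⟨t2_coeff_neg_one ℚ, ⟨t2 ℤ, coeffMap_t2 _⟩, jq_mem_adjoin_t2⟩
  · rw [H4BR.eq_t3_of_isBase h]
    exact ⟨t3_coeff_neg_one ℚ, ⟨t3 ℤ, coeffMap_t3 _⟩, jq_mem_adjoin_t3⟩

end H4C7d

end
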