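/-
S18 (item 75), route Y', slice C7 (helper28): `GaussStatement` modulo C7c (separability),
using C7a (helper1), C7b (helper9), C7d (helper4).
-/
import Mathlib
import Fermat.Agent.S18.C7Asm_helper28
import Fermat.Agent.S18.C7a_helper1
import Fermat.Agent.S18.C7b_helper9
import Fermat.Agent.S18.C7d_helper4

set_option autoImplicit false

namespace H28UG

/-- **C7 modulo C7c**. -/
theorem gaussStatement_of_sep (hS : C7SepStatement) : H7S18.GaussStatement :=
  gaussStatement_of_slices H1S18.c7Perfect H9C7b.c7Deg hS H4C7d.c7BaseStatement

end H28UG
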