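import Mathlib
import Fermat.Prelude.Def_ModularCurve_X0ModL

/-!
# W2-B (S18), foundation slice GV, part 10 (helper28): separability inside `k((q))`

`θ = q d/dq` is a derivation of `k((q))`.  If `k` is a perfect field of characteristic `p`,
`τ ∈ k((q))` is transcendental over `k` with `θ τ ≠ 0`, then every element of `k((q))` which is
algebraic over `k(τ)` is separable over `k(τ)` (`gv_isSeparable`).
In particular (`τ = J`, or a Hauptmodul `q⁻¹ + ⋯`) the function fields `k(J(q^d) : d ∣ N)` are
separable over `k(J)`.
-/

set_option autoImplicit false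
open ModularCurve HahnSeries Polynomial

noncomputable section

namespace H28GV

section Theta

variable {k : Type*} [Field k]

/-- the derivation `θ = q d/dq` -/
def gvTheta (f : LaurentSeries k) : LaurentSeries k where
  coeff n := (n : k) * f.coeff n
  isPWO_support' := f.isPWO_support.mono (fun n hn => by
    simp only [Function.mem_support, ne_eq] at hn
    rw [HahnSeries.mem_support]
    intro h0
    exact hn (by rw [h0, mul_zero]))

@[simp] theorem gvTheta_coeff (f : LaurentSeries k) (n : ℤ) :
    (gvTheta f).coeff n = (n : k) * f.coeff n := rfl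

theorem gvTheta_support (f : LaurentSeries k) : (gvTheta f).support ⊆ f.support := by
  intro n hn
  rw [HahnSeries.mem_support] at hn ⊢
  intro h0
  exact hn (by rw [gvTheta_coeff, h0, mul_zero])

theorem gvTheta_add (f g : LaurentSeries k) : gvTheta (f + g) = gvTheta f + gvTheta g := by
  ext n
  simp [mul_add]

theorem gvTheta_zero : gvTheta (0 : LaurentSeries k) = 0 := by
  ext n
  simp

/-- `θ` as an additive map -/
def gvThetaHom : LaurentSeries k →+ LaurentSeries k where
  toFun := gvTheta
  map_zero' := gvTheta_zero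
  map_add' := gvTheta_add

@[simp] theorem gvThetaHom_apply (f : LaurentSeries k) : gvThetaHom f = gvTheta f := rfl

theorem gvTheta_sum {ι : Type*} (s : Finset ι) (f : ι → LaurentSeries k) :
    gvTheta (∑ i ∈ s, f i) = ∑ i ∈ s, gvTheta (f i) := by
  exact map_sum (gvThetaHom (k := k)) f s

theorem gvTheta_neg (f : LaurentSeries k) : gvTheta (-f) = -gvTheta f := by
  exact map_neg (gvThetaHom (k := k)) f

theorem gvTheta_sub (f g : LaurentSeries k) : gvTheta (f - g) = gvTheta f - gvTheta g := by
  exact map_sub (gvThetaHom (k := k)) f g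

/-- **Leibniz rule** -/
theorem gvTheta_mul (f g : LaurentSeries k) :
    gvTheta (f * g) = gvTheta f * g + f * gvTheta g := by
  ext n
  rw [gvTheta_coeff, HahnSeries.coeff_add, HahnSeries.coeff_mul,
    HahnSeries.coeff_mul_left' f.isPWO_support (gvTheta_support f),
    HahnSeries.coeff_mul_right' g.isPWO_support (gvTheta_support g), Finset.mul_sum,
    ← Finset.sum_add_distrib]
  refine Finset.sum_congr rfl (fun ij hij => ?_)
  have h := (Finset.mem_antidiagonal.mp hij).2.2
  simp only [gvTheta_coeff]
  rw [← h]
  push_cast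
  ring

theorem gvTheta_single_zero (c : k) : gvTheta (HahnSeries.single (0 : ℤ) c) = 0 := by
  ext n
  rw [gvTheta_coeff, HahnSeries.coeff_zero]
  by_cases hn : n = 0
  · subst hn
    simp
  · rw [HahnSeries.coeff_single_of_ne hn, mul_zero]

theorem gvTheta_algebraMap (c : k) : gvTheta (algebraMap k (LaurentSeries k) c) = 0 := by
  rw [algebraMap_laurentSeries_eq_single]
  exact gvTheta_single_zero c

theorem gvTheta_one : gvTheta (1 : LaurentSeries k) = 0 := by
  have := gvTheta_algebraMap (1 : k)
  rwa [map_one] at this

theorem gvTheta_algebraMap_mul (c : k) (f : LaurentSeries k) :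
    gvTheta (algebraMap k (LaurentSeries k) c * f) =
      algebraMap k (LaurentSeries k) c * gvTheta f := by
  rw [gvTheta_mul, gvTheta_algebraMap, zero_mul, zero_add]

theorem gvTheta_pow_succ (f : LaurentSeries k) (n : ℕ) :
    gvTheta (f ^ (n + 1)) = ((n + 1 : ℕ) : LaurentSeries k) * f ^ n * gvTheta f := by
  induction n with
  | zero => simp
  | succ n ih =>
    rw [pow_succ, gvTheta_mul, ih]
    push_cast
    ring

theorem gvTheta_pow (f : LaurentSeries k) (n : ℕ) :
    gvTheta (f ^ n) = (n : LaurentSeries k) * f ^ (n - 1) * gvTheta f := by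
  rcases n with _ | n
  · simp [gvTheta_one]
  · rw [gvTheta_pow_succ]
    simp

/-- chain rule for polynomials with constant coefficients -/
theorem gvTheta_aeval (x : LaurentSeries k) (P : Polynomial k) :
    gvTheta (Polynomial.aeval x P) = Polynomial.aeval x (Polynomial.derivative P) * gvTheta x := by
  induction P using Polynomial.induction_on' with
  | add p q hp hq =>
    rw [map_add, gvTheta_add, hp, hq, Polynomial.derivative_add, map_add, add_mul]
  | monomial n a =>
    rw [Polynomial.aeval_monomial, gvTheta_algebraMap_mul, gvTheta_pow,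
      Polynomial.derivative_monomial, Polynomial.aeval_monomial, map_mul, map_natCast]
    ring

/-- quotient rule -/
theorem gvTheta_div (a b : LaurentSeries k) (hb : b ≠ 0) :
    gvTheta (a / b) = (gvTheta a * b - a * gvTheta b) / b ^ 2 := by
  have h1 : gvTheta a = gvTheta (a / b) * b + a / b * gvTheta b := by
    conv_lhs => rw [← div_mul_cancel₀ a hb]
    rw [gvTheta_mul]
  rw [h1]
  field_simp
  ring

/-- chain rule on `k(τ)` -/
theorem gvTheta_rat (τ : LaurentSeries k) (r s : Polynomial k)
    (hs : Polynomial.aeval τ s ≠ 0) :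
    gvTheta (Polynomial.aeval τ r / Polynomial.aeval τ s) =
      gvTheta τ * (Polynomial.aeval τ (Polynomial.derivative r * s - r * Polynomial.derivative s)
        / (Polynomial.aeval τ s) ^ 2) := by
  rw [gvTheta_div _ _ hs, gvTheta_aeval, gvTheta_aeval, map_sub, map_mul, map_mul]
  field_simp

theorem gv_aeval_mem_adjoin' (s : LaurentSeries k) (p : Polynomial k) :
    Polynomial.aeval s p ∈ IntermediateField.adjoin k {s} :=
  (IntermediateField.mem_adjoin_simple_iff _ _).mpr ⟨p, 1, by rw [map_one, div_one]⟩

/-- `θ` maps `k(τ)` into `θ τ · k(τ)` -/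
theorem gvTheta_mem (τ : LaurentSeries k) (c : LaurentSeries k)
    (hc : c ∈ IntermediateField.adjoin k {τ}) :
    ∃ w ∈ IntermediateField.adjoin k {τ}, gvTheta c = gvTheta τ * w := by
  obtain ⟨r, s, hrs⟩ := (IntermediateField.mem_adjoin_simple_iff _ _).mp hc
  by_cases hs : Polynomial.aeval τ s = 0
  · rw [hs, div_zero] at hrs
    exact ⟨0, zero_mem _, by rw [hrs, gvTheta_zero, mul_zero]⟩
  · refine ⟨_, ?_, by rw [hrs]; exact gvTheta_rat τ r s hs⟩
    exact div_mem (gv_aeval_mem_adjoin' _ _) (pow_mem (gv_aeval_mem_adjoin' _ _) 2)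

end Theta

section PthPower

variable {k : Type*} [Field k] (p : ℕ) [Fact p.Prime] [CharP k p] [PerfectField k]

/-- over a perfect field of characteristic `p`, a polynomial with zero derivative is a `p`-th
power -/
theorem gv_poly_pth_power (a : Polynomial k) (ha : Polynomial.derivative a = 0) :
    ∃ a₀ : Polynomial k, a = a₀ ^ p := by
  have : ExpChar k p := ExpChar.prime (Fact.out : p.Prime)
  have : PerfectRing k p := PerfectField.toPerfectRing p
  have h1 : Polynomial.expand k p (Polynomial.contract p a) = a :=
    Polynomial.expand_contract p ha (Fact.out : p.Prime).ne_zero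
  obtain ⟨a₀, ha₀⟩ := Polynomial.map_surjective (frobenius k p)
    (bijective_frobenius k p).surjective (Polynomial.contract p a)
  refine ⟨a₀, ?_⟩
  rw [← Polynomial.map_frobenius_expand, Polynomial.map_expand, ha₀, h1]

/-- **`θ`-constants of `k(τ)` are `p`-th powers in `k(τ)`** -/
theorem gv_theta_const_pth_power (τ : LaurentSeries k) (hτ : Transcendental k τ)
    (hθ : gvTheta τ ≠ 0) (c : LaurentSeries k) (hc : c ∈ IntermediateField.adjoin k {τ})
    (h0 : gvTheta c = 0) :
    ∃ w ∈ IntermediateField.adjoin k {τ}, c = w ^ p := by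
  classical
  have hp0 : p ≠ 0 := (Fact.out : p.Prime).ne_zero
  by_cases hc0 : c = 0
  · exact ⟨0, zero_mem _, by rw [hc0, zero_pow hp0]⟩
  obtain ⟨r, s, hrs⟩ := (IntermediateField.mem_adjoin_simple_iff _ _).mp hc
  have hs0 : Polynomial.aeval τ s ≠ 0 := by
    intro h
    rw [h, div_zero] at hrs
    exact hc0 hrs
  have hr0 : Polynomial.aeval τ r ≠ 0 := by
    intro h
    rw [h, zero_div] at hrs
    exact hc0 hrs
  have hs : s ≠ 0 := by
    rintro rfl
    exact hs0 (map_zero _)
  have hr : r ≠ 0 := by
    rintro rfl
    exact hr0 (map_zero _)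
  -- reduce the fraction
  set g := EuclideanDomain.gcd r s with hg
  have hg0 : g ≠ 0 := by
    intro h
    rw [hg, EuclideanDomain.gcd_eq_zero_iff] at h
    exact hr h.1
  obtain ⟨a, ha⟩ := EuclideanDomain.gcd_dvd_left r s
  obtain ⟨b, hb⟩ := EuclideanDomain.gcd_dvd_right r s
  rw [← hg] at ha hb
  have hcop : IsCoprime a b := by
    obtain ⟨x, y, hxy⟩ : ∃ x y : Polynomial k, g = r * x + s * y :=
      ⟨_, _, EuclideanDomain.gcd_eq_gcd_ab r s⟩
    refine ⟨x, y, ?_⟩
    have h2 : g * (x * a + y * b) = g * 1 := by
      calc g * (x * a + y * b) = (g * a) * x + (g * b) * y := by ring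
        _ = r * x + s * y := by rw [← ha, ← hb]
        _ = g := hxy.symm
        _ = g * 1 := (mul_one g).symm
    exact mul_left_cancel₀ hg0 h2
  have hgτ : Polynomial.aeval τ g ≠ 0 := fun h => hg0 ((transcendental_iff.mp hτ) g h)
  have ha0 : a ≠ 0 := by
    rintro rfl
    rw [mul_zero] at ha
    exact hr ha
  have hb0 : b ≠ 0 := by
    rintro rfl
    rw [mul_zero] at hb
    exact hs hb
  have hbτ : Polynomial.aeval τ b ≠ 0 := fun h => hb0 ((transcendental_iff.mp hτ) b h)
  have hcab : c = Polynomial.aeval τ a / Polynomial.aeval τ b := by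
    rw [hrs, ha, hb, map_mul, map_mul, mul_div_mul_left _ _ hgτ]
  -- the derivative identity
  have h1 := gvTheta_rat τ a b hbτ
  rw [← hcab, h0] at h1
  have h2 : Polynomial.aeval τ (Polynomial.derivative a * b - a * Polynomial.derivative b) = 0 := by
    rcases mul_eq_zero.mp h1.symm with h | h
    · exact absurd h hθ
    · rcases div_eq_zero_iff.mp h with h | h
      · exact h
      · exact absurd (pow_eq_zero_iff (two_ne_zero)|>.mp h) hbτ
  have h3 : Polynomial.derivative a * b = a * Polynomial.derivative b :=
    sub_eq_zero.mp ((transcendental_iff.mp hτ) _ h2)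
  have hda : Polynomial.derivative a = 0 := by
    by_contra hne
    have hdvd : a ∣ Polynomial.derivative a :=
      hcop.dvd_of_dvd_mul_right (Dvd.intro _ h3.symm)
    have h4 := Polynomial.natDegree_le_of_dvd hdvd hne
    by_cases hdeg : a.natDegree = 0
    · apply hne
      rw [Polynomial.eq_C_of_natDegree_eq_zero hdeg, Polynomial.derivative_C]
    · have := Polynomial.natDegree_derivative_lt hdeg
      omega
  have hdb : Polynomial.derivative b = 0 := by
    by_contra hne
    have hdvd : b ∣ Polynomial.derivative b := by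
      apply hcop.symm.dvd_of_dvd_mul_right
      refine Dvd.intro (Polynomial.derivative a) ?_
      rw [mul_comm b, h3, mul_comm]
    have h4 := Polynomial.natDegree_le_of_dvd hdvd hne
    by_cases hdeg : b.natDegree = 0
    · apply hne
      rw [Polynomial.eq_C_of_natDegree_eq_zero hdeg, Polynomial.derivative_C]
    · have := Polynomial.natDegree_derivative_lt hdeg
      omega
  obtain ⟨a₀, ha₀⟩ := gv_poly_pth_power p a hda
  obtain ⟨b₀, hb₀⟩ := gv_poly_pth_power p b hdb
  refine ⟨Polynomial.aeval τ a₀ / Polynomial.aeval τ b₀,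
    div_mem (gv_aeval_mem_adjoin' _ _) (gv_aeval_mem_adjoin' _ _), ?_⟩
  rw [hcab, ha₀, hb₀, map_pow, map_pow, div_pow]

end PthPower

/-- **Separability inside `k((q))`**: for `k` perfect of characteristic `p` and `τ`
transcendental with `θ τ ≠ 0`, every element of `k((q))` integral over `k(τ)` is separable over
`k(τ)`. -/
theorem gv_isSeparable {k : Type*} [Field k] (p : ℕ) [Fact p.Prime] [CharP k p]
    [PerfectField k] (τ : LaurentSeries k) (hτ : Transcendental k τ)
    (hθ : gvTheta τ ≠ 0) (z : LaurentSeries k)
    (hz : IsIntegral ↥(IntermediateField.adjoin k {τ}) z) :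
    IsSeparable ↥(IntermediateField.adjoin k {τ}) z := by
  classical
  have hp0 : p ≠ 0 := (Fact.out : p.Prime).ne_zero
  have hirr := minpoly.irreducible hz
  have hmonic := minpoly.monic hz
  set m := minpoly ↥(IntermediateField.adjoin k {τ}) z with hm
  show m.Separable
  by_contra hsep
  have hder : Polynomial.derivative m = 0 := by
    by_contra h
    exact hsep ((Polynomial.separable_iff_derivative_ne_zero hirr).mpr h)
  set n := m.natDegree with hn
  -- the relation `m(z) = 0`
  have hrel : ∑ i ∈ Finset.range (n + 1),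
      ((m.coeff i : ↥(IntermediateField.adjoin k {τ})) : LaurentSeries k) * z ^ i = 0 := by
    have h1 := minpoly.aeval ↥(IntermediateField.adjoin k {τ}) z
    rw [← hm, Polynomial.aeval_eq_sum_range] at h1
    rw [← h1]
    refine Finset.sum_congr rfl (fun i _ => ?_)
    rw [Algebra.smul_def]
    rfl
  -- `i · c_i = 0`
  have hic : ∀ i : ℕ, ((m.coeff i : ↥(IntermediateField.adjoin k {τ})) : LaurentSeries k) *
      (i : LaurentSeries k) = 0 := by
    intro i
    rcases i with _ | i
    · simp
    · have h1 := congrArg (fun q => q.coeff i) hder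
      simp only [Polynomial.coeff_derivative, Polynomial.coeff_zero] at h1
      have h2 := congrArg (fun c : ↥(IntermediateField.adjoin k {τ}) => (c : LaurentSeries k)) h1
      simp only [ZeroMemClass.coe_zero] at h2
      rw [← h2]
      push_cast
      rfl
  -- apply `θ`
  have hθrel : ∑ i ∈ Finset.range (n + 1),
      gvTheta ((m.coeff i : ↥(IntermediateField.adjoin k {τ})) : LaurentSeries k) * z ^ i = 0 := by
    have h1 := congrArg gvTheta hrel
    rw [gvTheta_sum, gvTheta_zero] at h1
    rw [← h1]
    refine Finset.sum_congr rfl (fun i _ => ?_)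
    rw [gvTheta_mul, gvTheta_pow]
    have h2 : ((m.coeff i : ↥(IntermediateField.adjoin k {τ})) : LaurentSeries k) *
        ((i : LaurentSeries k) * z ^ (i - 1) * gvTheta z) =
        (((m.coeff i : ↥(IntermediateField.adjoin k {τ})) : LaurentSeries k) *
          (i : LaurentSeries k)) * (z ^ (i - 1) * gvTheta z) := by ring
    rw [h2, hic i, zero_mul, add_zero]
  -- chain rule
  have hw := fun i : ℕ => gvTheta_mem τ _ (m.coeff i).2
  choose w hwK hwθ using hw
  have hsum : ∑ i ∈ Finset.range (n + 1), w i * z ^ i = 0 := by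
    have h1 : gvTheta τ * ∑ i ∈ Finset.range (n + 1), w i * z ^ i = 0 := by
      rw [← hθrel, Finset.mul_sum]
      refine Finset.sum_congr rfl (fun i _ => ?_)
      rw [hwθ i, mul_assoc]
    rcases mul_eq_zero.mp h1 with h | h
    · exact absurd h hθ
    · exact h
  have hwn : w n = 0 := by
    have h1 := hwθ n
    have h2 : ((m.coeff n : ↥(IntermediateField.adjoin k {τ})) : LaurentSeries k) = 1 := by
      rw [hn, hmonic.coeff_natDegree]
      rfl
    rw [h2, gvTheta_one] at h1
    rcases mul_eq_zero.mp h1.symm with h | h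
    · exact absurd h hθ
    · exact h
  rw [Finset.sum_range_succ, hwn, zero_mul, add_zero] at hsum
  have hli := linearIndependent_pow (K := ↥(IntermediateField.adjoin k {τ})) z
  rw [← hm, ← hn, Fintype.linearIndependent_iff] at hli
  have hw0 : ∀ i : Fin n, w i = 0 := by
    intro i
    have h1 := hli (fun i => ⟨w i, hwK i⟩) (by
      rw [← hsum, Finset.sum_range]
      refine Finset.sum_congr rfl (fun i _ => ?_)
      rw [Algebra.smul_def]
      rfl) i
    exact congrArg Subtype.val h1
  have hθc : ∀ i : ℕ,
      gvTheta ((m.coeff i : ↥(IntermediateField.adjoin k {τ})) : LaurentSeries k) = 0 := by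
    intro i
    rcases lt_trichotomy i n with h | h | h
    · rw [hwθ i, hw0 ⟨i, h⟩, mul_zero]
    · rw [h, hwθ n, hwn, mul_zero]
    · rw [Polynomial.coeff_eq_zero_of_natDegree_lt h]
      exact gvTheta_zero
  -- coefficients are `p`-th powers
  have hv := fun i : ℕ => gv_theta_const_pth_power p τ hτ hθ _ (m.coeff i).2 (hθc i)
  choose v hvK hvp using hv
  have hvp' : ∀ i : ℕ, m.coeff i =
      (⟨v i, hvK i⟩ : ↥(IntermediateField.adjoin k {τ})) ^ p := by
    intro i
    apply Subtype.ext
    rw [hvp i]
    rfl
  have : CharP ↥(IntermediateField.adjoin k {τ}) p :=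
    charP_of_injective_algebraMap (algebraMap k ↥(IntermediateField.adjoin k {τ})).injective p
  have : ExpChar ↥(IntermediateField.adjoin k {τ}) p := ExpChar.prime (Fact.out : p.Prime)
  have hexp : Polynomial.expand ↥(IntermediateField.adjoin k {τ}) p (Polynomial.contract p m) = m :=
    Polynomial.expand_contract p hder hp0
  set h : Polynomial ↥(IntermediateField.adjoin k {τ}) :=
    ∑ j ∈ Finset.range (n + 1), Polynomial.monomial j
      (⟨v (j * p), hvK (j * p)⟩ : ↥(IntermediateField.adjoin k {τ})) with hh
  have hmap : Polynomial.map (frobenius ↥(IntermediateField.adjoin k {τ}) p) h =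
      Polynomial.contract p m := by
    refine Polynomial.ext (fun j => ?_)
    rw [Polynomial.coeff_map, Polynomial.coeff_contract hp0, hh, Polynomial.finsetSum_coeff]
    by_cases hj : j ∈ Finset.range (n + 1)
    · rw [Finset.sum_eq_single j]
      · rw [Polynomial.coeff_monomial, if_pos rfl, frobenius_def, ← hvp']
      · intro i _ hi
        rw [Polynomial.coeff_monomial, if_neg hi]
      · intro h'
        exact absurd hj h'
    · rw [Finset.sum_eq_zero, map_zero]
      · symm
        apply Polynomial.coeff_eq_zero_of_natDegree_lt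
        rw [Finset.mem_range, not_lt] at hj
        have hp1 : 1 ≤ p := Nat.one_le_iff_ne_zero.mpr hp0
        calc m.natDegree = n := rfl
          _ < j := by omega
          _ = j * 1 := (mul_one j).symm
          _ ≤ j * p := Nat.mul_le_mul_left j hp1
      · intro i hi
        rw [Polynomial.coeff_monomial, if_neg]
        rintro rfl
        exact hj hi
  have hpow : m = h ^ p := by
    rw [← Polynomial.map_frobenius_expand, Polynomial.map_expand, hmap, hexp]
  rw [hpow] at hirr
  exact not_irreducible_pow (Fact.out : p.Prime).ne_one hirr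

end H28GV
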