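import Mathlib
import Fermat.Agent.S18.C7Defs_helper28
import Fermat.Agent.S18.GVSep_helper28

/-!
# Item 75 (S18), slice C7c (helper16): separability of finite subextensions of `k((q)) / k(t)`

`H16C7c.h16_c7Sep : H28UG.C7SepStatement`: for `k` perfect of characteristic `p`,
`M ⊆ k((q))` an intermediate field, `t ∈ M` transcendental with `coeff (-1) t = 1` and
`M / k(t)` finite, the extension `M / k(t)` is separable.  From `H28GV.gv_isSeparable`
(`θ t ≠ 0` because the coefficient of `q⁻¹` of `θ t` is `-1`).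
-/

set_option autoImplicit false
set_option synthInstance.maxHeartbeats 400000
set_option maxHeartbeats 1000000

open Polynomial IntermediateField

namespace H16C7c

/-- `θ τ ≠ 0` when the coefficient of `q⁻¹` of `τ` is `1`. -/
theorem h16_theta_ne_zero {k : Type*} [Field k] (τ : LaurentSeries k)
    (hτ : τ.coeff (-1) = 1) : H28GV.gvTheta τ ≠ 0 := by
  intro h
  have h1 := congrArg (fun f => f.coeff (-1 : ℤ)) h
  simp only [H28GV.gvTheta_coeff, HahnSeries.coeff_zero] at h1
  rw [hτ, mul_one] at h1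
  have h2 : ((-1 : ℤ) : k) = -1 := by push_cast; rfl
  rw [h2, neg_eq_zero] at h1
  exact one_ne_zero h1

/-- Separability of every element of a subextension `M ⊆ k((q))` finite over `k(t)`,
general form (any `τ = t` with `θ τ ≠ 0`). -/
theorem h16_sep_of_theta {k : Type*} [Field k] (p : ℕ) [Fact p.Prime] [CharP k p]
    [PerfectField k] (M : IntermediateField k (LaurentSeries k)) (t : ↥M)
    (htr : Transcendental k (t : LaurentSeries k))
    (hθ : H28GV.gvTheta (t : LaurentSeries k) ≠ 0)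
    [Algebra.IsIntegral ↥k⟮t⟯ ↥M] :
    Algebra.IsSeparable ↥k⟮t⟯ ↥M := by
  classical
  have hmap : (k⟮t⟯).map M.val = k⟮(t : LaurentSeries k)⟯ := by
    rw [adjoin_map]
    simp
  let e : ↥k⟮t⟯ ≃ₐ[k] ↥k⟮(t : LaurentSeries k)⟯ :=
    (equivMap k⟮t⟯ M.val).trans (equivOfEq hmap)
  have he : ∀ a : ↥k⟮t⟯, ((e a : ↥k⟮(t : LaurentSeries k)⟯) : LaurentSeries k)
      = ((a : ↥M) : LaurentSeries k) := fun a => rfl
  have hcomp : (algebraMap ↥k⟮(t : LaurentSeries k)⟯ (LaurentSeries k)).comp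
      (e : ↥k⟮t⟯ →+* ↥k⟮(t : LaurentSeries k)⟯)
      = algebraMap ↥k⟮t⟯ (LaurentSeries k) :=
    RingHom.ext (fun a => he a)
  refine ⟨fun x => ?_⟩
  have hx : IsIntegral ↥k⟮t⟯ x := Algebra.IsIntegral.isIntegral x
  -- `x` viewed in `k((q))` is integral over `k⟮τ⟯`
  have hz_int : IsIntegral ↥k⟮(t : LaurentSeries k)⟯ (x : LaurentSeries k) := by
    refine ⟨(minpoly ↥k⟮t⟯ x).map (e : ↥k⟮t⟯ →+* ↥k⟮(t : LaurentSeries k)⟯),
      (minpoly.monic hx).map _, ?_⟩
    rw [Polynomial.eval₂_map, hcomp]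
    have h1 : Polynomial.aeval (algebraMap ↥M (LaurentSeries k) x) (minpoly ↥k⟮t⟯ x)
        = algebraMap ↥M (LaurentSeries k) (Polynomial.aeval x (minpoly ↥k⟮t⟯ x)) :=
      Polynomial.aeval_algebraMap_apply (LaurentSeries k) x (minpoly ↥k⟮t⟯ x)
    rw [minpoly.aeval, map_zero] at h1
    exact h1
  have hsep : IsSeparable ↥k⟮(t : LaurentSeries k)⟯ (x : LaurentSeries k) :=
    H28GV.gv_isSeparable p (t : LaurentSeries k) htr hθ (x : LaurentSeries k) hz_int
  -- transfer along `e`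
  have h1 : IsSeparable ↥k⟮t⟯ ((RingEquiv.refl (LaurentSeries k)) (x : LaurentSeries k)) := by
    refine IsSeparable.of_equiv_equiv
      ((e.symm : ↥k⟮(t : LaurentSeries k)⟯ ≃ₐ[k] ↥k⟮t⟯).toRingEquiv)
      (RingEquiv.refl (LaurentSeries k)) (RingHom.ext (fun a => ?_)) hsep
    have h2 := he (e.symm a)
    rw [AlgEquiv.apply_symm_apply] at h2
    exact h2.symm
  have h2 : IsSeparable ↥k⟮t⟯ (algebraMap ↥M (LaurentSeries k) x) := h1
  unfold IsSeparable at h2 ⊢
  rwa [minpoly.algebraMap_eq (algebraMap ↥M (LaurentSeries k)).injective] at h2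

/-- **C7c**. -/
theorem h16_c7Sep : H28UG.C7SepStatement := by
  intro k _ p _ _ _ M t htr hcoeff hfd
  have := hfd
  exact h16_sep_of_theta p M t htr (h16_theta_ne_zero _ hcoeff)

end H16C7c
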