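/-
S18 (item 75), route Y', slice C7 (helper28): `H7S18.GaussStatement`, unconditional.
Sub-slices: C7a (helper1), C7b (helper9), C7c (helper16), C7d (helper4).
-/
import Mathlib
import Fermat.Agent.S18.C7Sep_helper28
import Fermat.Agent.S18.C7c_helper16

set_option autoImplicit false

namespace H28UG

/-- **C7 (Gauss valuation over the number field `K₁`)**. -/
theorem gaussStatement : H7S18.GaussStatement :=
  gaussStatement_of_sep H16C7c.h16_c7Sep

end H28UG
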