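/-
Item 75 (S18), Block A, slice A1 (helper9), part 1: basic calculus of values at a place (`ValAt`),
of `L(D)` (`InL`) and of the push-forward of divisors.
-/
import Mathlib
import Fermat.Agent.S18.ADefs

set_option autoImplicit false

noncomputable section

open AlgebraicCurve
open scoped WithZero

namespace H9S18

section ValAt

variable {K F : Type*} [Field K] [Field F] [Algebra K F] (P : Place K F)

theorem h9a_adic_const {c : K} (hc : c ≠ 0) : P.adicValuation (algebraMap K F c) = 1 := by
  have hc' : algebraMap K F c ≠ 0 := by simpa using hc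
  rw [RH24.h20_adicValuation_eq P hc', RH24.h20_ord_algebraMap]
  simp

theorem h9a_adic_const_le (c : K) : P.adicValuation (algebraMap K F c) ≤ 1 := by
  rcases eq_or_ne c 0 with rfl | hc
  · simp
  · exact (h9a_adic_const P hc).le

theorem h9a_mem_iff (y : F) : y ∈ P.toValuationSubring ↔ P.adicValuation y ≤ 1 :=
  RH24.h20_mem_iff_adicValuation_le_one P y

theorem ValAt.mem {y : F} {a : K} (h : ValAt P y a) : y ∈ P.toValuationSubring := by
  rw [h9a_mem_iff]
  have h1 : y = (y - algebraMap K F a) + algebraMap K F a := by ring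
  rw [h1]
  refine (P.adicValuation.map_add _ _).trans (max_le h.le (h9a_adic_const_le P a))

theorem valAt_const (a : K) : ValAt P (algebraMap K F a) a := by
  unfold ValAt
  simp

theorem ValAt.add {y y' : F} {a a' : K} (h : ValAt P y a) (h' : ValAt P y' a') :
    ValAt P (y + y') (a + a') := by
  unfold ValAt at *
  have h1 : y + y' - algebraMap K F (a + a') =
      (y - algebraMap K F a) + (y' - algebraMap K F a') := by
    rw [map_add]; ring
  rw [h1]
  exact Valuation.map_add_lt _ h h'

theorem ValAt.neg {y : F} {a : K} (h : ValAt P y a) : ValAt P (-y) (-a) := by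
  unfold ValAt at *
  have h1 : -y - algebraMap K F (-a) = -(y - algebraMap K F a) := by
    rw [map_neg]; ring
  rw [h1, Valuation.map_neg]
  exact h

theorem ValAt.sub {y y' : F} {a a' : K} (h : ValAt P y a) (h' : ValAt P y' a') :
    ValAt P (y - y') (a - a') := by
  have := h.add P (h'.neg P)
  simpa [sub_eq_add_neg] using this

theorem ValAt.mul {y y' : F} {a a' : K} (h : ValAt P y a) (h' : ValAt P y' a') :
    ValAt P (y * y') (a * a') := by
  have hy' : P.adicValuation y' ≤ 1 := (h9a_mem_iff P y').mp (h'.mem P)
  unfold ValAt at *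
  have h1 : y * y' - algebraMap K F (a * a') =
      (y - algebraMap K F a) * y' + algebraMap K F a * (y' - algebraMap K F a') := by
    rw [map_mul]; ring
  rw [h1]
  refine Valuation.map_add_lt _ ?_ ?_
  · rw [map_mul]
    calc P.adicValuation (y - algebraMap K F a) * P.adicValuation y'
        ≤ P.adicValuation (y - algebraMap K F a) * 1 := by gcongr
      _ < 1 := by rwa [mul_one]
  · rw [map_mul]
    calc P.adicValuation (algebraMap K F a) * P.adicValuation (y' - algebraMap K F a')
        ≤ 1 * P.adicValuation (y' - algebraMap K F a') := by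
          gcongr
          exact h9a_adic_const_le P a
      _ < 1 := by rwa [one_mul]

theorem ValAt.unique {y : F} {a a' : K} (h : ValAt P y a) (h' : ValAt P y a') : a = a' := by
  by_contra hne
  have h1 := (h'.neg P).add P h
  have h2 : -y + y = 0 := by ring
  rw [h2] at h1
  unfold ValAt at h1
  rw [zero_sub, Valuation.map_neg] at h1
  have h3 : -a' + a ≠ 0 := by
    intro h0
    apply hne
    linear_combination h0
  rw [h9a_adic_const P h3] at h1
  exact lt_irrefl _ h1

/-- `y` has value `0` at `P` iff `y` is in the maximal ideal. -/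
theorem valAt_zero_iff {y : F} : ValAt P y 0 ↔ P.adicValuation y < 1 := by
  unfold ValAt
  simp

theorem valAt_zero_iff_ord {y : F} (hy : y ≠ 0) : ValAt P y 0 ↔ 0 < P.ord y := by
  rw [valAt_zero_iff, RH24.h20_adicValuation_lt_one_iff P hy]

theorem ValAt.adic_eq_one {y : F} {a : K} (h : ValAt P y a) (ha : a ≠ 0) :
    P.adicValuation y = 1 := by
  have h1 : y = (y - algebraMap K F a) + algebraMap K F a := by ring
  rw [h1, Valuation.map_add_eq_of_lt_right, h9a_adic_const P ha]
  rw [h9a_adic_const P ha]
  exact h

theorem ValAt.ne_zero {y : F} {a : K} (h : ValAt P y a) (ha : a ≠ 0) : y ≠ 0 := by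
  rintro rfl
  have := h.adic_eq_one P ha
  simp at this

theorem ValAt.ord_eq_zero {y : F} {a : K} (h : ValAt P y a) (ha : a ≠ 0) : P.ord y = 0 := by
  have h1 := h.adic_eq_one P ha
  rw [Place.ord, h1]
  simp

theorem ValAt.inv {y : F} {a : K} (h : ValAt P y a) (ha : a ≠ 0) : ValAt P y⁻¹ a⁻¹ := by
  have hy0 := h.ne_zero P ha
  have hy1 := h.adic_eq_one P ha
  have ha' : algebraMap K F a ≠ 0 := by simpa using ha
  unfold ValAt at *
  have h1 : y⁻¹ - algebraMap K F a⁻¹ =
      -(y - algebraMap K F a) * (y⁻¹ * (algebraMap K F a)⁻¹) := by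
    rw [map_inv₀]
    field_simp
    ring
  rw [h1, map_mul, map_mul, map_inv₀, map_inv₀, hy1, h9a_adic_const P ha, Valuation.map_neg]
  simpa using h

/-- the order of a regular function at `P` is `≥ 0`. -/
theorem h9a_ord_nonneg {y : F} (hy : y ∈ P.toValuationSubring) : 0 ≤ P.ord y :=
  RH24.h20_ord_nonneg_of_mem P hy

theorem h9a_ord_pos_of_valAt {y : F} {a : K} (h : ValAt P y a)
    (hne : y - algebraMap K F a ≠ 0) : 0 < P.ord (y - algebraMap K F a) :=
  (RH24.h20_adicValuation_lt_one_iff P hne).mp h

theorem h9a_ord_neg (y : F) : P.ord (-y) = P.ord y := by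
  rw [Place.ord, Place.ord, Valuation.map_neg]

theorem h9a_ord_const_mul {c : K} (hc : c ≠ 0) (y : F) :
    P.ord (algebraMap K F c * y) = P.ord y := by
  rcases eq_or_ne y 0 with rfl | hy
  · simp
  have hc' : algebraMap K F c ≠ 0 := by simpa using hc
  rw [P.ord_mul hc' hy, RH24.h20_ord_algebraMap, zero_add]

theorem h9a_ord_pow (y : F) (n : ℕ) : P.ord (y ^ n) = n * P.ord y := by
  have := P.ord_zpow y n
  simpa using this

end ValAt

section InL

variable {K F : Type*} [Field K] [Field F] [Algebra K F]

theorem inL_zero (D : Divisor K F) : InL D (0 : F) := Or.inl rfl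

theorem InL.smul {D : Divisor K F} {f : F} (h : InL D f) (c : K) :
    InL D (algebraMap K F c * f) := by
  rcases eq_or_ne c 0 with rfl | hc
  · left; simp
  rcases h with rfl | h
  · left; simp
  · right
    intro v
    rw [h9a_ord_const_mul v hc]
    exact h v

theorem InL.add {D : Divisor K F} {f g : F} (hf : InL D f) (hg : InL D g) : InL D (f + g) := by
  rcases eq_or_ne (f + g) 0 with h0 | h0
  · left; exact h0
  rcases hf with rfl | hf
  · simpa using hg
  rcases hg with rfl | hg
  · rw [add_zero]; exact Or.inr hf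
  rcases eq_or_ne f 0 with rfl | hf0
  · rw [zero_add]; exact Or.inr hg
  rcases eq_or_ne g 0 with rfl | hg0
  · rw [add_zero]; exact Or.inr hf
  right
  intro v
  exact (le_min (hf v) (hg v)).trans (RH24.h20_ord_add v hf0 hg0 h0)

theorem InL.neg {D : Divisor K F} {f : F} (hf : InL D f) : InL D (-f) := by
  rcases hf with rfl | hf
  · left; simp
  · right
    intro v
    rw [h9a_ord_neg]
    exact hf v

theorem InL.sub {D : Divisor K F} {f g : F} (hf : InL D f) (hg : InL D g) : InL D (f - g) := by
  rw [sub_eq_add_neg]
  exact hf.add hg.neg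

theorem InL.sum {D : Divisor K F} {ι : Type*} (s : Finset ι) (f : ι → F)
    (h : ∀ i ∈ s, InL D (f i)) : InL D (∑ i ∈ s, f i) := by
  classical
  induction s using Finset.induction_on with
  | empty => simpa using inL_zero D
  | insert a s ha ih =>
    rw [Finset.sum_insert ha]
    exact (h a (Finset.mem_insert_self a s)).add
      (ih fun i hi => h i (Finset.mem_insert_of_mem hi))

theorem InL.mono {D D' : Divisor K F} (hle : ∀ P, D P ≤ D' P) {f : F} (h : InL D f) :
    InL D' f := by
  rcases h with rfl | h
  · left; rfl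
  · right
    intro v
    have := h v
    have := hle v
    omega

/-- `L(D)` as a `K`-submodule of `F`. -/
def Lsp (D : Divisor K F) : Submodule K F where
  carrier := {f | InL D f}
  add_mem' := fun hf hg => InL.add hf hg
  zero_mem' := inL_zero D
  smul_mem' := fun c f hf => by
    show InL D (c • f)
    rw [Algebra.smul_def]
    exact InL.smul hf c

@[simp] theorem mem_Lsp {D : Divisor K F} {f : F} : f ∈ Lsp D ↔ InL D f := Iff.rfl

end InL

end H9S18
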