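/-
Item 75 (S18), Block A, slice A1 (helper9), part 2: the net-count calculus on residue discs.
* `push_apply` : `(r_* D) Q = Σ_{P ∈ supp D, r P = Q} D P`;
* `h9a_disc_sum` : for `u ∈ O`, `red u ≠ 0`:  `Σ_{P ∈ disc Q} ord_P u = ord_Q (red u)`;
* A1a `redMemL`, A1b `valueIntegral`, A1c `coordSimple`, A1d `lipschitz`.
-/
import Mathlib
import Fermat.Agent.S18.A1Basic

set_option autoImplicit false

noncomputable section

open AlgebraicCurve
open scoped WithZero

namespace H9S18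

namespace RedDatum

variable {K F k Fb : Type*} [Field K] [Field F] [Algebra K F] [Field k] [Field Fb] [Algebra k Fb]
variable (R : RedDatum K F k Fb)

/-! ### push forward -/

open Classical in
theorem push_apply (D : Divisor K F) (Q : Place k Fb) :
    R.push D Q = ∑ P ∈ D.support, if R.r P = Q then D P else 0 := by
  classical
  unfold push Finsupp.mapDomain
  rw [Finsupp.sum_apply]
  unfold Finsupp.sum
  refine Finset.sum_congr rfl fun P _ => ?_
  simp only [Finsupp.single_apply]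

theorem push_add (D D' : Divisor K F) : R.push (D + D') = R.push D + R.push D' :=
  Finsupp.mapDomain_add

theorem push_zero : R.push (0 : Divisor K F) = 0 := Finsupp.mapDomain_zero

theorem push_neg (D : Divisor K F) : R.push (-D) = -R.push D := by
  have h := R.push_add D (-D)
  rw [add_neg_cancel, push_zero] at h
  exact eq_neg_of_add_eq_zero_right h.symm

theorem push_sub (D D' : Divisor K F) : R.push (D - D') = R.push D - R.push D' := by
  rw [sub_eq_add_neg, push_add, push_neg, sub_eq_add_neg]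

theorem push_nsmul (n : ℕ) (D : Divisor K F) : R.push (n • D) = n • R.push D := by
  induction n with
  | zero => simp [push_zero]
  | succ n ih => rw [succ_nsmul, succ_nsmul, push_add, ih]

theorem push_single (P : Place K F) (n : ℤ) :
    R.push (Finsupp.single P n) = Finsupp.single (R.r P) n :=
  Finsupp.mapDomain_single

theorem push_nonneg {D : Divisor K F} (hD : Eff D) : Eff (R.push D) := by
  classical
  intro Q
  rw [push_apply]
  refine Finset.sum_nonneg fun P _ => ?_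
  split_ifs
  · exact hD P
  · exact le_refl _

theorem push_mono {D D' : Divisor K F} (h : ∀ P, D P ≤ D' P) (Q : Place k Fb) :
    R.push D Q ≤ R.push D' Q := by
  have h1 : Eff (D' - D) := fun P => by
    rw [Finsupp.sub_apply]
    have := h P
    omega
  have h2 := R.push_nonneg h1 Q
  rw [push_sub, Finsupp.sub_apply] at h2
  omega

/-- If `D ≥ 0` on the disc of `Q`, then `(r_* D) Q ≥ D P` for every `P` in the disc. -/
theorem push_ge_of_nonneg_on {D : Divisor K F} {Q : Place k Fb}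
    (hD : ∀ P, R.r P = Q → 0 ≤ D P) {P : Place K F} (hP : R.r P = Q) :
    D P ≤ R.push D Q := by
  classical
  rw [push_apply]
  by_cases hPs : P ∈ D.support
  · have h1 : (if R.r P = Q then D P else 0) ≤
        ∑ P' ∈ D.support, if R.r P' = Q then D P' else 0 := by
      refine Finset.single_le_sum (f := fun P' => if R.r P' = Q then D P' else 0) ?_ hPs
      intro P' _
      show 0 ≤ if R.r P' = Q then D P' else 0
      split_ifs with h
      · exact hD P' h
      · exact le_refl _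
    rwa [if_pos hP] at h1
  · rw [Finsupp.notMem_support_iff.mp hPs]
    refine Finset.sum_nonneg fun P' _ => ?_
    split_ifs with h
    · exact hD P' h
    · exact le_refl _

/-- If `D ≥ 0` on the disc of `Q` and `(r_* D) Q = D P` for some `P` in the disc, then `D`
vanishes at all other points of the disc. -/
theorem push_eq_imp_zero {D : Divisor K F} {Q : Place k Fb}
    (hD : ∀ P, R.r P = Q → 0 ≤ D P) {P : Place K F} (hP : R.r P = Q)
    (heq : R.push D Q ≤ D P) {P' : Place K F} (hP' : R.r P' = Q) (hne : P' ≠ P) :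
    D P' = 0 := by
  classical
  by_contra h0
  have hpos : 0 < D P' := lt_of_le_of_ne (hD P' hP') (Ne.symm h0)
  -- `D' = D - single P (D P)` is `≥ 0` on the disc and `D' P' = D P'`
  set D' : Divisor K F := D - Finsupp.single P (D P) with hD'
  have h1 : ∀ P'', R.r P'' = Q → 0 ≤ D' P'' := by
    intro P'' hP''
    rw [hD', Finsupp.sub_apply, Finsupp.single_apply]
    split_ifs with h
    · subst h; simp
    · simpa using hD P'' hP''
  have h2 := R.push_ge_of_nonneg_on h1 hP'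
  rw [hD', push_sub, push_single, Finsupp.sub_apply, Finsupp.sub_apply, Finsupp.single_apply,
    Finsupp.single_apply, if_pos hP, if_neg (Ne.symm hne)] at h2
  omega

/-! ### divisors of functions -/

theorem isDivOf_mul {f g : F} (hf : f ≠ 0) (hg : g ≠ 0) {D E : Divisor K F}
    (hD : IsDivOf f D) (hE : IsDivOf g E) : IsDivOf (f * g) (D + E) := fun P => by
  rw [Finsupp.add_apply, hD P, hE P, P.ord_mul hf hg]

theorem isDivOf_inv {f : F} {D : Divisor K F} (hD : IsDivOf f D) : IsDivOf f⁻¹ (-D) := fun P => by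
  rw [Finsupp.neg_apply, hD P, P.ord_inv]

theorem isDivOf_unique {f : F} {D E : Divisor K F} (hD : IsDivOf f D) (hE : IsDivOf f E) :
    D = E := by
  ext P
  rw [hD P, hE P]

/-! ### the net count on a disc -/

variable {R}

/-- For `u ∈ O` with `red u ≠ 0`, without poles in the disc of `Q`: `ord_P u ≤ ord_Q (red u)` for
every `P` in the disc. -/
theorem h9a_ord_le_of_noPole (hF : HasPrincipalDivisors K F) {Q : Place k Fb} {u : F}
    (hu : u ∈ R.O) (hred : R.red ⟨u, hu⟩ ≠ 0) (hnp : R.NoPoleOn Q u)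
    {P : Place K F} (hP : R.r P = Q) : P.ord u ≤ Q.ord (R.red ⟨u, hu⟩) := by
  have hu0 : u ≠ 0 := by
    rintro rfl
    apply hred
    have : (⟨0, hu⟩ : R.O) = 0 := rfl
    rw [this, map_zero]
  obtain ⟨D, hD, -⟩ := hF.exists_divisor u hu0
  have hnc := R.netcount u hu hred D hD Q
  have h1 : ∀ P', R.r P' = Q → 0 ≤ D P' := fun P' hP' => by
    rw [hD P']
    exact h9a_ord_nonneg P' (hnp P' hP')
  have h2 := R.push_ge_of_nonneg_on h1 hP
  rw [hD P] at h2
  unfold push at h2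
  omega

theorem h9a_ord_eq_zero_of_noPole (hF : HasPrincipalDivisors K F) {Q : Place k Fb} {u : F}
    (hu : u ∈ R.O) (hred : R.red ⟨u, hu⟩ ≠ 0) (hnp : R.NoPoleOn Q u)
    {P : Place K F} (hP : R.r P = Q) (heq : Q.ord (R.red ⟨u, hu⟩) ≤ P.ord u)
    {P' : Place K F} (hP' : R.r P' = Q) (hne : P' ≠ P) : P'.ord u = 0 := by
  have hu0 : u ≠ 0 := by
    rintro rfl
    apply hred
    have : (⟨0, hu⟩ : R.O) = 0 := rfl
    rw [this, map_zero]
  obtain ⟨D, hD, -⟩ := hF.exists_divisor u hu0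
  have hnc := R.netcount u hu hred D hD Q
  have h1 : ∀ P', R.r P' = Q → 0 ≤ D P' := fun P' hP' => by
    rw [hD P']
    exact h9a_ord_nonneg P' (hnp P' hP')
  have h2 := R.push_eq_imp_zero h1 hP (by unfold push; rw [hnc, hD P]; exact heq) hP' hne
  rw [← hD P']
  exact h2

/-! ### elementary facts on `O`, `A`, `red`, `π` -/

theorem red_zero_mem (h : (0 : F) ∈ R.O) : R.red ⟨0, h⟩ = 0 := by
  have : (⟨0, h⟩ : R.O) = 0 := rfl
  rw [this, map_zero]

theorem ne_zero_of_red_ne_zero {u : F} (hu : u ∈ R.O) (hred : R.red ⟨u, hu⟩ ≠ 0) : u ≠ 0 := by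
  rintro rfl
  exact hred (red_zero_mem hu)

theorem isUnit_of_red_ne_zero {u : R.O} (hred : R.red u ≠ 0) : IsUnit u := by
  by_contra h
  exact hred (R.red_nonunit u h)

theorem inv_mem_of_red_ne_zero {u : F} (hu : u ∈ R.O) (hred : R.red ⟨u, hu⟩ ≠ 0) :
    u⁻¹ ∈ R.O := by
  have h := isUnit_of_red_ne_zero hred
  obtain ⟨v, hv⟩ := h
  have h1 : (v : R.O) * ((v⁻¹ : (R.O)ˣ) : R.O) = 1 := by simp
  have h2 : u * (((v⁻¹ : (R.O)ˣ) : R.O) : F) = 1 := by
    have := congrArg (Subtype.val) h1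
    rw [hv] at this
    simpa using this
  have hu0 := ne_zero_of_red_ne_zero hu hred
  have h3 : u⁻¹ = (((v⁻¹ : (R.O)ˣ) : R.O) : F) := by
    field_simp
    rw [mul_comm] at h2
    linear_combination -h2
  rw [h3]
  exact Subtype.mem _

theorem red_inv {u : F} (hu : u ∈ R.O) (hred : R.red ⟨u, hu⟩ ≠ 0) :
    R.red ⟨u⁻¹, inv_mem_of_red_ne_zero hu hred⟩ = (R.red ⟨u, hu⟩)⁻¹ := by
  have hu0 := ne_zero_of_red_ne_zero hu hred
  have h1 : (⟨u, hu⟩ : R.O) * ⟨u⁻¹, inv_mem_of_red_ne_zero hu hred⟩ = 1 := by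
    ext
    simp [hu0]
  have h2 := congrArg R.red h1
  rw [map_mul, map_one] at h2
  exact eq_inv_of_mul_eq_one_right h2

/-- an element of `K` outside `A` has inverse in the maximal ideal of `A`. -/
theorem pi_inv_eq_zero {a : K} (ha : a ∉ R.A) :
    ∃ h : a⁻¹ ∈ R.A, R.π ⟨a⁻¹, h⟩ = 0 := by
  have h1 : a⁻¹ ∈ R.A := (R.A.mem_or_inv_mem a).resolve_left ha
  refine ⟨h1, R.π_nonunit _ ?_⟩
  intro hu
  apply ha
  obtain ⟨v, hv⟩ := hu
  have h2 : (v : R.A) * ((v⁻¹ : (R.A)ˣ) : R.A) = 1 := by simp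
  have h3 : a⁻¹ * (((v⁻¹ : (R.A)ˣ) : R.A) : K) = 1 := by
    have := congrArg (Subtype.val) h2
    rw [hv] at this
    simpa using this
  have ha0 : a ≠ 0 := by
    rintro rfl
    simp at h3
  have h4 : a = (((v⁻¹ : (R.A)ˣ) : R.A) : K) := by
    field_simp at h3
    exact h3.symm
  rw [h4]
  exact Subtype.mem _

theorem red_const_mul {a : K} (ha : a ∈ R.A) {y : F} (hy : y ∈ R.O) :
    R.red ⟨algebraMap K F a * y, mul_mem (R.const_mem a ha) hy⟩ =
      algebraMap k Fb (R.π ⟨a, ha⟩) * R.red ⟨y, hy⟩ := by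
  have h1 : (⟨algebraMap K F a * y, mul_mem (R.const_mem a ha) hy⟩ : R.O) =
      ⟨algebraMap K F a, R.const_mem a ha⟩ * ⟨y, hy⟩ := rfl
  rw [h1, map_mul, R.red_const]

theorem red_sub_const {a : K} (ha : a ∈ R.A) {y : F} (hy : y ∈ R.O) :
    R.red ⟨y - algebraMap K F a, sub_mem hy (R.const_mem a ha)⟩ =
      R.red ⟨y, hy⟩ - algebraMap k Fb (R.π ⟨a, ha⟩) := by
  have h1 : (⟨y - algebraMap K F a, sub_mem hy (R.const_mem a ha)⟩ : R.O) =
      ⟨y, hy⟩ - ⟨algebraMap K F a, R.const_mem a ha⟩ := rfl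
  rw [h1, map_sub, R.red_const]

theorem noPoleOn_const (Q : Place k Fb) (a : K) : R.NoPoleOn Q (algebraMap K F a) :=
  fun P _ => P.algebraMap_mem' a

theorem NoPoleOn.sub {Q : Place k Fb} {y y' : F} (h : R.NoPoleOn Q y) (h' : R.NoPoleOn Q y') :
    R.NoPoleOn Q (y - y') := fun P hP => sub_mem (h P hP) (h' P hP)

theorem NoPoleOn.add {Q : Place k Fb} {y y' : F} (h : R.NoPoleOn Q y) (h' : R.NoPoleOn Q y') :
    R.NoPoleOn Q (y + y') := fun P hP => add_mem (h P hP) (h' P hP)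

theorem NoPoleOn.mul {Q : Place k Fb} {y y' : F} (h : R.NoPoleOn Q y) (h' : R.NoPoleOn Q y') :
    R.NoPoleOn Q (y * y') := fun P hP => mul_mem (h P hP) (h' P hP)

/-! ### A1a -/

/-- A1a. -/
theorem redMemL (hF : HasPrincipalDivisors K F) : R.RedMemLStatement := by
  intro D y hy hL
  by_cases hred : R.red ⟨y, hy⟩ = 0
  · exact Or.inl hred
  right
  intro Q
  have hy0 := ne_zero_of_red_ne_zero hy hred
  obtain ⟨Dy, hDy, -⟩ := hF.exists_divisor y hy0
  have hnc := R.netcount y hy hred Dy hDy Q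
  rcases hL with h0 | hL
  · exact absurd h0 hy0
  have h1 : ∀ P, (-D) P ≤ Dy P := fun P => by
    rw [Finsupp.neg_apply, hDy P]
    exact hL P
  have h2 := R.push_mono h1 Q
  rw [push_neg, Finsupp.neg_apply] at h2
  unfold push at h2 ⊢
  rw [hnc] at h2
  exact h2

/-! ### A1b -/

/-- A1b. -/
theorem valueIntegral (hF : HasPrincipalDivisors K F) : R.ValueIntegralStatement := by
  intro Q y hy hnp P hP a hval
  -- Step 1: `a ∈ A`
  have haA : a ∈ R.A := by
    by_contra ha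
    obtain ⟨hinv, hπ⟩ := pi_inv_eq_zero ha
    have ha0 : a ≠ 0 := by
      rintro rfl
      exact ha (zero_mem _)
    -- `u = 1 - a⁻¹ y`
    have hmem : algebraMap K F a⁻¹ * y ∈ R.O := mul_mem (R.const_mem _ hinv) hy
    have hu : 1 - algebraMap K F a⁻¹ * y ∈ R.O := sub_mem (one_mem _) hmem
    have hred : R.red ⟨1 - algebraMap K F a⁻¹ * y, hu⟩ = 1 := by
      have h1 : (⟨1 - algebraMap K F a⁻¹ * y, hu⟩ : R.O) = 1 - ⟨_, hmem⟩ := rfl
      rw [h1, map_sub, map_one, red_const_mul hinv hy, hπ, map_zero, zero_mul, sub_zero]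
    have hred0 : R.red ⟨1 - algebraMap K F a⁻¹ * y, hu⟩ ≠ 0 := by
      rw [hred]; exact one_ne_zero
    have hnp' : R.NoPoleOn Q (1 - algebraMap K F a⁻¹ * y) := by
      intro P' hP'
      exact sub_mem (one_mem _)
        (mul_mem (P'.algebraMap_mem' _) (hnp P' hP'))
    have h2 := h9a_ord_le_of_noPole hF hu hred0 hnp' hP
    rw [hred, Place.ord_one] at h2
    -- but `u` vanishes at `P`
    have h3 : ValAt P (1 - algebraMap K F a⁻¹ * y) 0 := by
      have h4 := (valAt_const P (1 : K)).sub P ((valAt_const P a⁻¹).mul P hval)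
      rw [map_one] at h4
      have h5 : (1 : K) - a⁻¹ * a = 0 := by field_simp; ring
      rwa [h5] at h4
    have hu0 := ne_zero_of_red_ne_zero hu hred0
    have h6 := (valAt_zero_iff_ord P hu0).mp h3
    omega
  refine ⟨haA, ?_⟩
  -- Step 2
  have hu : y - algebraMap K F a ∈ R.O := sub_mem hy (R.const_mem a haA)
  have hredu := red_sub_const haA hy
  unfold ValAt
  rw [← hredu]
  by_cases hred0 : R.red ⟨y - algebraMap K F a, hu⟩ = 0
  · rw [hred0]; simp
  have hnp' : R.NoPoleOn Q (y - algebraMap K F a) := hnp.sub (noPoleOn_const Q a)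
  have h2 := h9a_ord_le_of_noPole hF hu hred0 hnp' hP
  have hu0 := ne_zero_of_red_ne_zero hu hred0
  have h3 := h9a_ord_pos_of_valAt P hval hu0
  rw [RH24.h20_adicValuation_lt_one_iff Q hred0]
  omega

/-! ### A1c -/

/-- the value of a coordinate on the disc lies in the maximal ideal -/
theorem h9a_coord_value (hF : HasPrincipalDivisors K F) {Q : Place k Fb} {z : F} (hz : z ∈ R.O)
    (hnp : R.NoPoleOn Q z) (hord : Q.ord (R.red ⟨z, hz⟩) = 1)
    {P : Place K F} (hP : R.r P = Q) {a : K} (hval : ValAt P z a) :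
    ∃ ha : a ∈ R.A, R.π ⟨a, ha⟩ = 0 := by
  obtain ⟨ha, hv⟩ := valueIntegral hF Q z hz hnp P hP a hval
  refine ⟨ha, ?_⟩
  by_contra hπ
  have hz0 : R.red ⟨z, hz⟩ ≠ 0 := by
    intro h0
    rw [h0, Place.ord_zero] at hord
    exact zero_ne_one hord
  have h1 : ValAt Q (R.red ⟨z, hz⟩) 0 := by
    rw [valAt_zero_iff_ord Q hz0, hord]
    exact one_pos
  exact hπ (hv.unique Q h1)

/-- A1c. -/
theorem coordSimple (hF : HasPrincipalDivisors K F) : R.CoordSimpleStatement := by
  intro Q z hz hnp hord P hP a hval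
  obtain ⟨ha, hπ⟩ := h9a_coord_value hF hz hnp hord hP hval
  have hu : z - algebraMap K F a ∈ R.O := sub_mem hz (R.const_mem a ha)
  have hredu : R.red ⟨z - algebraMap K F a, hu⟩ = R.red ⟨z, hz⟩ := by
    rw [red_sub_const ha hz, hπ, map_zero, sub_zero]
  have hz0 : R.red ⟨z, hz⟩ ≠ 0 := by
    intro h0
    rw [h0, Place.ord_zero] at hord
    exact zero_ne_one hord
  have hred0 : R.red ⟨z - algebraMap K F a, hu⟩ ≠ 0 := by rwa [hredu]
  have hnp' : R.NoPoleOn Q (z - algebraMap K F a) := hnp.sub (noPoleOn_const Q a)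
  have hu0 := ne_zero_of_red_ne_zero hu hred0
  have h1 := h9a_ord_le_of_noPole hF hu hred0 hnp' hP
  have h2 := h9a_ord_pos_of_valAt P hval hu0
  rw [hredu, hord] at h1
  have h3 : P.ord (z - algebraMap K F a) = 1 := by omega
  refine ⟨h3, fun P' hP' hne => ?_⟩
  refine h9a_ord_eq_zero_of_noPole hF hu hred0 hnp' hP ?_ hP' hne
  rw [hredu, hord, h3]

/-- a coordinate is injective on its disc -/
theorem h9a_coord_injective (hF : HasPrincipalDivisors K F) {Q : Place k Fb} {z : F}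
    (hz : z ∈ R.O) (hnp : R.NoPoleOn Q z) (hord : Q.ord (R.red ⟨z, hz⟩) = 1)
    {P P' : Place K F} (hP : R.r P = Q) (hP' : R.r P' = Q) {a : K} (hval : ValAt P z a)
    (hval' : ValAt P' z a) : P' = P := by
  by_contra hne
  obtain ⟨-, h2⟩ := coordSimple hF Q z hz hnp hord P hP a hval
  have h3 := h2 P' hP' hne
  obtain ⟨h4, -⟩ := coordSimple hF Q z hz hnp hord P' hP' a hval'
  omega

/-! ### A1d -/

/-- A1d. -/
theorem lipschitz (hF : HasPrincipalDivisors K F) : R.LipschitzStatement := by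
  intro Q z w hz hw hnpz hnpw hord P₁ P₂ hP₁ hP₂ a₁ a₂ b₁ b₂ hz₁ hz₂ hw₁ hw₂
  by_cases hPP : P₁ = P₂
  · subst hPP
    have h1 := hz₁.unique P₁ hz₂
    have h2 := hw₁.unique P₁ hw₂
    exact ⟨0, (zero_mem _), by rw [h1, h2]; ring⟩
  have ha_ne : a₁ ≠ a₂ := by
    intro h
    subst h
    exact hPP (h9a_coord_injective hF hz hnpz hord hP₂ hP₁ hz₂ hz₁)
  have hsub : a₁ - a₂ ≠ 0 := sub_ne_zero.mpr ha_ne
  obtain ⟨ha₂, hπ₂⟩ := h9a_coord_value hF hz hnpz hord hP₂ hz₂
  obtain ⟨hb₂, -⟩ := valueIntegral hF Q w hw hnpw P₂ hP₂ b₂ hw₂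
  -- `u = z - a₂`, a unit of `O`
  have hu : z - algebraMap K F a₂ ∈ R.O := sub_mem hz (R.const_mem a₂ ha₂)
  have hredu : R.red ⟨z - algebraMap K F a₂, hu⟩ = R.red ⟨z, hz⟩ := by
    rw [red_sub_const ha₂ hz, hπ₂, map_zero, sub_zero]
  have hz0 : R.red ⟨z, hz⟩ ≠ 0 := by
    intro h0
    rw [h0, Place.ord_zero] at hord
    exact zero_ne_one hord
  have hred0 : R.red ⟨z - algebraMap K F a₂, hu⟩ ≠ 0 := by rwa [hredu]
  have hu0 := ne_zero_of_red_ne_zero hu hred0
  have huinv := inv_mem_of_red_ne_zero hu hred0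
  obtain ⟨hs1, hs2⟩ := coordSimple hF Q z hz hnpz hord P₂ hP₂ a₂ hz₂
  -- `w₁ = (w - b₂) / (z - a₂)`
  have hwb : w - algebraMap K F b₂ ∈ R.O := sub_mem hw (R.const_mem b₂ hb₂)
  have hw₁mem : (w - algebraMap K F b₂) * (z - algebraMap K F a₂)⁻¹ ∈ R.O :=
    mul_mem hwb huinv
  have hnp₁ : R.NoPoleOn Q ((w - algebraMap K F b₂) * (z - algebraMap K F a₂)⁻¹) := by
    intro P' hP'
    by_cases hP'₂ : P' = P₂
    · subst hP'₂
      by_cases hwb0 : w - algebraMap K F b₂ = 0
      · rw [hwb0, zero_mul]; exact (zero_mem _)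
      have hne : (w - algebraMap K F b₂) * (z - algebraMap K F a₂)⁻¹ ≠ 0 :=
        mul_ne_zero hwb0 (inv_ne_zero hu0)
      rw [RH24.h20_mem_iff_ord_nonneg P' hne, P'.ord_mul hwb0 (inv_ne_zero hu0), P'.ord_inv, hs1]
      have := h9a_ord_pos_of_valAt P' hw₂ hwb0
      omega
    · have h1 := hs2 P' hP' hP'₂
      have h2 : (z - algebraMap K F a₂)⁻¹ ∈ P'.toValuationSubring := by
        rw [RH24.h20_mem_iff_ord_nonneg P' (inv_ne_zero hu0), P'.ord_inv, h1]
        simp
      exact mul_mem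
        (sub_mem (hnpw P' hP') (P'.algebraMap_mem' _)) h2
  -- its value at `P₁`
  have hv₁ : ValAt P₁ ((w - algebraMap K F b₂) * (z - algebraMap K F a₂)⁻¹)
      ((b₁ - b₂) * (a₁ - a₂)⁻¹) :=
    (hw₁.sub P₁ (valAt_const P₁ b₂)).mul P₁ ((hz₁.sub P₁ (valAt_const P₁ a₂)).inv P₁ hsub)
  obtain ⟨hx, -⟩ := valueIntegral hF Q _ hw₁mem hnp₁ P₁ hP₁ _ hv₁
  refine ⟨(b₁ - b₂) * (a₁ - a₂)⁻¹, hx, ?_⟩
  field_simp

end RedDatum

end H9S18
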