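/-
Item 75 (S18), Block A, slice A2 (helper9): lifting along an orthonormal basis, existence of good
coordinates at every place of `Fb`, surjectivity of the reduction of places.
-/
import Mathlib
import Fermat.Agent.S18.A1NetCount

set_option autoImplicit false

noncomputable section

open AlgebraicCurve
open scoped WithZero

namespace H9S18

section Degree

variable {K F : Type*} [Field K] [Field F] [Algebra K F]

/-- rational places have degree one -/
theorem h9a_deg_eq_one (hv : ExistsValue K F) (P : Place K F) : P.deg = 1 := by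
  have hsurj : Function.Surjective (algebraMap K P.ResidueField) := by
    intro x
    obtain ⟨y, rfl⟩ := IsLocalRing.residue_surjective x
    obtain ⟨a, ha⟩ := hv P (y : F) y.2
    refine ⟨a, ?_⟩
    have h1 : (algebraMap K P.ResidueField a) =
        IsLocalRing.residue P.toValuationSubring (algebraMap K P.toValuationSubring a) := rfl
    rw [h1, eq_comm, ← sub_eq_zero, ← map_sub, IsLocalRing.residue_eq_zero_iff]
    intro hu
    have h2 := (P.adicValuation_coe_eq_one_iff _).mpr hu
    unfold ValAt at ha
    have h3 : ((y - algebraMap K P.toValuationSubring a : P.toValuationSubring) : F) =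
        (y : F) - algebraMap K F a := rfl
    rw [h3] at h2
    rw [h2] at ha
    exact lt_irrefl _ ha
  have hbij : Function.Bijective (algebraMap K P.ResidueField) :=
    ⟨(algebraMap K P.ResidueField).injective, hsurj⟩
  show Module.finrank K P.ResidueField = 1
  rw [← Module.finrank_self K]
  exact ((AlgEquiv.ofBijective (Algebra.ofId K P.ResidueField) hbij).toLinearEquiv.finrank_eq).symm

theorem h9a_degree_single (hv : ExistsValue K F) (P : Place K F) (n : ℤ) :
    Divisor.degree (Finsupp.single P n) = n := by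
  rw [Divisor.degree_single, h9a_deg_eq_one hv P]
  simp

/-- with rational places, the degree is the sum of the coefficients -/
theorem h9a_degree_eq_sum (hv : ExistsValue K F) (D : Divisor K F) :
    Divisor.degree D = ∑ P ∈ D.support, D P := by
  classical
  induction D using Finsupp.induction with
  | zero => simp
  | single_add P n D hP hn ih =>
    rw [map_add, h9a_degree_single hv, ih]
    have hsupp : (Finsupp.single P n + D).support = insert P D.support := by
      ext P'
      simp only [Finsupp.mem_support_iff, Finsupp.add_apply, Finsupp.single_apply,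
        Finset.mem_insert]
      constructor
      · intro h
        by_cases hPP : P' = P
        · exact Or.inl hPP
        · right
          rwa [if_neg (Ne.symm hPP), zero_add] at h
      · rintro (rfl | h)
        · rw [if_pos rfl, Finsupp.notMem_support_iff.mp hP, add_zero]
          exact hn
        · have hPP : P ≠ P' := by
            rintro rfl
            exact hP (Finsupp.mem_support_iff.mpr h)
          rwa [if_neg hPP, zero_add]
    rw [hsupp, Finset.sum_insert hP, Finsupp.add_apply, Finsupp.single_eq_same,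
      Finsupp.notMem_support_iff.mp hP, add_zero]
    congr 1
    refine Finset.sum_congr rfl fun P' hP' => ?_
    have hPP : P ≠ P' := by
      rintro rfl
      exact hP hP'
    rw [Finsupp.add_apply, Finsupp.single_eq_of_ne' hPP, zero_add]

/-- an effective divisor of degree `0` is `0` -/
theorem h9a_eff_degree_zero (hv : ExistsValue K F) {D : Divisor K F} (hD : Eff D)
    (hdeg : Divisor.degree D = 0) : D = 0 := by
  classical
  rw [h9a_degree_eq_sum hv] at hdeg
  ext P
  by_cases hP : P ∈ D.support
  · have := (Finset.sum_eq_zero_iff_of_nonneg (fun P' _ => hD P')).mp hdeg P hP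
    simpa using this
  · simpa using Finsupp.notMem_support_iff.mp hP

/-- a nonzero function with a zero has a pole -/
theorem h9a_exists_pole (hF : CurveFacts K F) {f : F} (hf : f ≠ 0) {P : Place K F}
    (hP : 0 < P.ord f) : ∃ P' : Place K F, P'.ord f < 0 := by
  classical
  obtain ⟨D, hD, hdeg⟩ := hF.hpd.exists_divisor f hf
  by_contra hno
  push Not at hno
  have hEff : Eff D := fun P' => by rw [hD P']; exact hno P'
  have h0 := h9a_eff_degree_zero hF.value hEff hdeg
  have := hD P
  rw [h0] at this
  simp at this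
  omega

end Degree

namespace RedDatum

variable {K F k Fb : Type*} [Field K] [Field F] [Algebra K F] [Field k] [Field Fb] [Algebra k Fb]
variable {R : RedDatum K F k Fb}

/-- reduction of an `A`-linear combination -/
theorem red_sum {ι : Type*} (s : Finset ι) (a : ι → K) (ha : ∀ i, a i ∈ R.A) (w : ι → F)
    (hw : ∀ i, w i ∈ R.O) :
    ∃ h : (∑ i ∈ s, algebraMap K F (a i) * w i) ∈ R.O,
      R.red ⟨_, h⟩ = ∑ i ∈ s, algebraMap k Fb (R.π ⟨a i, ha i⟩) * R.red ⟨w i, hw i⟩ := by
  classical
  induction s using Finset.induction_on with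
  | empty =>
    refine ⟨by simp, ?_⟩
    simp only [Finset.sum_empty]
    exact red_zero_mem _
  | insert j s hj ih =>
    obtain ⟨h1, h2⟩ := ih
    have hmem : algebraMap K F (a j) * w j ∈ R.O := mul_mem (R.const_mem _ (ha j)) (hw j)
    have hsum : (∑ i ∈ insert j s, algebraMap K F (a i) * w i) =
        algebraMap K F (a j) * w j + ∑ i ∈ s, algebraMap K F (a i) * w i :=
      Finset.sum_insert hj
    have hmem' : (∑ i ∈ insert j s, algebraMap K F (a i) * w i) ∈ R.O := by
      rw [hsum]; exact add_mem hmem h1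
    refine ⟨hmem', ?_⟩
    have key : R.red ⟨_, hmem'⟩ = R.red (⟨_, hmem⟩ + ⟨_, h1⟩) :=
      congrArg R.red (Subtype.ext hsum)
    rw [key, map_add, h2, Finset.sum_insert hj]
    congr 1
    exact red_const_mul (ha j) (hw j)

/-- LIFT: along an orthonormal basis every element of `L(r_* D)` lifts to `L(D) ∩ O`. -/
theorem HasOrthBasis.lift {D : Divisor K F} (h : R.HasOrthBasis D) {ψ : Fb}
    (hψ : InL (R.push D) ψ) : ∃ (y : F) (hy : y ∈ R.O), InL D y ∧ R.red ⟨y, hy⟩ = ψ := by
  classical
  obtain ⟨s, w, hw, hwL, -, hspan, -⟩ := h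
  have h1 := hspan ψ hψ
  rw [Submodule.mem_span_range_iff_exists_fun] at h1
  obtain ⟨c, hc⟩ := h1
  choose a ha using fun i => R.π_surj (c i)
  obtain ⟨hmem, hred⟩ := red_sum (R := R) Finset.univ (fun i => (a i : K)) (fun i => (a i).2) w hw
  refine ⟨_, hmem, InL.sum _ _ (fun i _ => (hwL i).smul _), ?_⟩
  rw [hred, ← hc]
  refine Finset.sum_congr rfl fun i _ => ?_
  rw [Algebra.smul_def]
  congr 2
  rw [← ha i]

/-- A place of `F` whose reduction is different from `Q`. -/
theorem h9a_exists_other (hF : CurveFacts K F) (hFb : RedCurveFacts k Fb) (Q : Place k Fb) :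
    ∃ P : Place K F, R.r P ≠ Q := by
  classical
  have := hFb.inf
  obtain ⟨N₁, hN₁⟩ := hFb.unif
  -- a place `Q' ≠ Q`
  obtain ⟨Q', hQ'⟩ : ∃ Q' : Place k Fb, Q' ≠ Q := exists_ne Q
  set n : ℕ := (max N₁ 1).toNat with hn
  have hn1 : (n : ℤ) = max N₁ 1 := Int.toNat_of_nonneg (le_trans zero_le_one (le_max_right _ _))
  set G : Divisor k Fb := Finsupp.single Q' (n : ℤ) with hG
  have hGeff : Eff G := fun P => by
    rw [hG, Finsupp.single_apply]
    split_ifs
    · exact Int.natCast_nonneg n
    · exact le_refl _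
  have hGQ : G Q = 0 := by rw [hG, Finsupp.single_apply, if_neg hQ']
  have hdeg : N₁ ≤ Divisor.degree G := by
    rw [hG, h9a_degree_single hFb.value, hn1]
    exact le_max_left _ _
  obtain ⟨φ, hφL, hφQ⟩ := hN₁ Q G hGeff hGQ hdeg
  have hφ0 : φ ≠ 0 := by
    rintro rfl
    simp at hφQ
  -- `φ` has a pole, necessarily at `Q'`
  obtain ⟨Q'', hQ''⟩ := h9a_exists_pole hFb.toCurveFacts hφ0 (P := Q) (by omega)
  have hQQ : Q'' = Q' := by
    by_contra hne
    rcases hφL with h0 | hφL
    · exact hφ0 h0
    have := hφL Q''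
    rw [hG, Finsupp.single_apply, if_neg (Ne.symm hne)] at this
    omega
  subst hQQ
  -- lift `φ` to a unit `u`
  obtain ⟨⟨u, hu⟩, hred⟩ := R.red_surj φ
  have hred0 : R.red ⟨u, hu⟩ ≠ 0 := by rw [hred]; exact hφ0
  have hu0 := ne_zero_of_red_ne_zero hu hred0
  obtain ⟨D, hD, -⟩ := hF.hpd.exists_divisor u hu0
  have hnc := R.netcount u hu hred0 D hD Q''
  rw [hred] at hnc
  have hnc' := R.push_apply D Q''
  unfold push at hnc'
  rw [hnc] at hnc'
  -- some term of the sum is nonzero
  have : ∃ P ∈ D.support, (if R.r P = Q'' then D P else 0) ≠ 0 := by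
    by_contra hall
    push Not at hall
    rw [Finset.sum_eq_zero hall] at hnc'
    omega
  obtain ⟨P, -, hP⟩ := this
  refine ⟨P, ?_⟩
  intro hPQ
  by_cases h : R.r P = Q''
  · exact hQ' (h ▸ hPQ)
  · rw [if_neg h] at hP
    exact hP rfl

/-- A2b. good coordinates exist. -/
theorem existsCoord (hF : CurveFacts K F) (hFb : RedCurveFacts k Fb) (hG : R.GoodRed) :
    R.ExistsCoordStatement := by
  classical
  intro Q
  obtain ⟨N₁, hN₁⟩ := hFb.unif
  obtain ⟨N₀, hN₀⟩ := hG
  obtain ⟨Pinf, hPinf⟩ := h9a_exists_other (R := R) hF hFb Q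
  set n : ℕ := (max (max N₀ N₁) 1).toNat with hn
  have hn1 : (n : ℤ) = max (max N₀ N₁) 1 :=
    Int.toNat_of_nonneg (le_trans zero_le_one (le_max_right _ _))
  set G : Divisor K F := Finsupp.single Pinf (n : ℤ) with hGdef
  have hpush : R.push G = Finsupp.single (R.r Pinf) (n : ℤ) := R.push_single _ _
  have hGeff : Eff (R.push G) := fun P => by
    rw [hpush, Finsupp.single_apply]
    split_ifs
    · exact Int.natCast_nonneg n
    · exact le_refl _
  have hGQ : R.push G Q = 0 := by rw [hpush, Finsupp.single_apply, if_neg hPinf]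
  have hdeg₁ : N₁ ≤ Divisor.degree (R.push G) := by
    rw [hpush, h9a_degree_single hFb.value, hn1]
    exact le_trans (le_max_right _ _) (le_max_left _ _)
  have hdeg₀ : N₀ ≤ Divisor.degree G := by
    rw [hGdef, h9a_degree_single hF.value, hn1]
    exact le_trans (le_max_left _ _) (le_max_left _ _)
  obtain ⟨φ, hφL, hφQ⟩ := hN₁ Q _ hGeff hGQ hdeg₁
  obtain ⟨z, hz, hzL, hzred⟩ := (hN₀ G hdeg₀).lift hφL
  refine ⟨z, hz, ?_, by rw [hzred]; exact hφQ⟩
  have hφ0 : φ ≠ 0 := by
    rintro rfl
    simp at hφQ
  have hz0 : z ≠ 0 := ne_zero_of_red_ne_zero hz (by rw [hzred]; exact hφ0)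
  intro P hP
  rcases hzL with h0 | hzL
  · exact absurd h0 hz0
  have h1 := hzL P
  have hPP : Pinf ≠ P := by
    rintro rfl
    exact hPinf hP
  rw [hGdef, Finsupp.single_apply, if_neg hPP] at h1
  rw [RH24.h20_mem_iff_ord_nonneg P hz0]
  omega

/-- A2a. every residue disc is nonempty. -/
theorem surj (hF : CurveFacts K F) (hFb : RedCurveFacts k Fb) (hG : R.GoodRed) :
    R.SurjStatement := by
  classical
  intro Q
  obtain ⟨z, hz, -, hord⟩ := existsCoord hF hFb hG Q
  have hred0 : R.red ⟨z, hz⟩ ≠ 0 := by
    intro h0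
    rw [h0, Place.ord_zero] at hord
    exact zero_ne_one hord
  have hz0 := ne_zero_of_red_ne_zero hz hred0
  obtain ⟨D, hD, -⟩ := hF.hpd.exists_divisor z hz0
  have hnc := R.netcount z hz hred0 D hD Q
  have hnc' := R.push_apply D Q
  unfold push at hnc'
  rw [hnc, hord] at hnc'
  have : ∃ P ∈ D.support, (if R.r P = Q then D P else 0) ≠ 0 := by
    by_contra hall
    push Not at hall
    rw [Finset.sum_eq_zero hall] at hnc'
    omega
  obtain ⟨P, -, hP⟩ := this
  refine ⟨P, ?_⟩
  by_contra h
  rw [if_neg h] at hP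
  exact hP rfl

end RedDatum

end H9S18
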