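/-
Item 75 (S18), Block A (helper9): the reduction map as a partial function `redF : F → Fb`
(`= red` on `O`, `0` outside), with its calculus; constants of `O`; comparison of two units.
-/
import Mathlib
import Fermat.Agent.S18.A2Coord

set_option autoImplicit false

noncomputable section

open AlgebraicCurve
open scoped WithZero

namespace H9S18

namespace RedDatum

variable {K F k Fb : Type*} [Field K] [Field F] [Algebra K F] [Field k] [Field Fb] [Algebra k Fb]
variable (R : RedDatum K F k Fb)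

open Classical in
/-- the reduction map, extended by `0` outside `O` -/
def redF (x : F) : Fb := if h : x ∈ R.O then R.red ⟨x, h⟩ else 0

variable {R}

theorem redF_eq {x : F} (h : x ∈ R.O) : R.redF x = R.red ⟨x, h⟩ := by
  unfold redF
  rw [dif_pos h]

theorem redF_zero : R.redF 0 = 0 := by
  rw [redF_eq (zero_mem _)]
  exact red_zero_mem _

theorem redF_one : R.redF 1 = 1 := by
  rw [redF_eq (one_mem _)]
  exact map_one R.red

theorem redF_add {x y : F} (hx : x ∈ R.O) (hy : y ∈ R.O) :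
    R.redF (x + y) = R.redF x + R.redF y := by
  rw [redF_eq hx, redF_eq hy, redF_eq (add_mem hx hy)]
  exact map_add R.red ⟨x, hx⟩ ⟨y, hy⟩

theorem redF_sub {x y : F} (hx : x ∈ R.O) (hy : y ∈ R.O) :
    R.redF (x - y) = R.redF x - R.redF y := by
  rw [redF_eq hx, redF_eq hy, redF_eq (sub_mem hx hy)]
  exact map_sub R.red ⟨x, hx⟩ ⟨y, hy⟩

theorem redF_mul {x y : F} (hx : x ∈ R.O) (hy : y ∈ R.O) :
    R.redF (x * y) = R.redF x * R.redF y := by
  rw [redF_eq hx, redF_eq hy, redF_eq (mul_mem hx hy)]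
  exact map_mul R.red ⟨x, hx⟩ ⟨y, hy⟩

theorem redF_pow {x : F} (hx : x ∈ R.O) (n : ℕ) : R.redF (x ^ n) = R.redF x ^ n := by
  rw [redF_eq hx, redF_eq (pow_mem hx n)]
  exact map_pow R.red ⟨x, hx⟩ n

theorem redF_const {a : K} (ha : a ∈ R.A) :
    R.redF (algebraMap K F a) = algebraMap k Fb (R.π ⟨a, ha⟩) := by
  rw [redF_eq (R.const_mem a ha)]
  exact R.red_const a ha

theorem redF_natCast (n : ℕ) : R.redF (n : F) = (n : Fb) := by
  have h1 : ((n : K)) ∈ R.A := natCast_mem _ n
  have h2 : (n : F) = algebraMap K F (n : K) := by simp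
  rw [h2, redF_const h1]
  have h3 : (⟨(n : K), h1⟩ : R.A) = (n : R.A) := rfl
  rw [h3, map_natCast, map_natCast]

theorem natCast_mem_O (n : ℕ) : (n : F) ∈ R.O := natCast_mem _ n

theorem redF_sum {ι : Type*} (s : Finset ι) (x : ι → F) (hx : ∀ i ∈ s, x i ∈ R.O) :
    R.redF (∑ i ∈ s, x i) = ∑ i ∈ s, R.redF (x i) := by
  classical
  induction s using Finset.induction_on with
  | empty => simpa using redF_zero
  | insert j s hj ih =>
    rw [Finset.sum_insert hj, Finset.sum_insert hj,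
      redF_add (hx j (Finset.mem_insert_self j s))
        (sum_mem fun i hi => hx i (Finset.mem_insert_of_mem hi)),
      ih fun i hi => hx i (Finset.mem_insert_of_mem hi)]

/-- units of `O` -/
theorem inv_mem_O {x : F} (hx : x ∈ R.O) (hred : R.redF x ≠ 0) : x⁻¹ ∈ R.O := by
  rw [redF_eq hx] at hred
  exact inv_mem_of_red_ne_zero hx hred

theorem redF_inv {x : F} (hx : x ∈ R.O) (hred : R.redF x ≠ 0) :
    R.redF x⁻¹ = (R.redF x)⁻¹ := by
  have h1 := hred
  rw [redF_eq hx] at h1
  rw [redF_eq hx, redF_eq (inv_mem_of_red_ne_zero hx h1)]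
  exact red_inv hx h1

theorem ne_zero_of_redF {x : F} (hred : R.redF x ≠ 0) : x ≠ 0 := by
  rintro rfl
  exact hred redF_zero

theorem redF_eq_zero_of_not_mem {x : F} (h : x ∉ R.O) : R.redF x = 0 := by
  unfold redF
  rw [dif_neg h]

theorem mem_O_of_redF {x : F} (hred : R.redF x ≠ 0) : x ∈ R.O := by
  by_contra h
  exact hred (redF_eq_zero_of_not_mem h)

/-- a constant lying in `O` lies in `A` -/
theorem const_mem_A {d : K} (hd : algebraMap K F d ∈ R.O) : d ∈ R.A := by
  by_contra h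
  obtain ⟨hinv, hπ⟩ := pi_inv_eq_zero (R := R) h
  have hd0 : d ≠ 0 := by
    rintro rfl
    exact h (zero_mem _)
  have h1 : R.redF (algebraMap K F d⁻¹) = 0 := by
    rw [redF_const hinv, hπ, map_zero]
  have h2 : R.redF (algebraMap K F d * algebraMap K F d⁻¹) = 1 := by
    rw [← map_mul, mul_inv_cancel₀ hd0, map_one]
    exact redF_one
  rw [redF_mul hd (R.const_mem _ hinv), h1, mul_zero] at h2
  exact zero_ne_one h2

/-- `π a = 0` iff `a⁻¹ ∉ A` (for `a ≠ 0`) -/
theorem pi_ne_zero_of_inv_mem {a : K} (ha : a ∈ R.A) (hinv : a⁻¹ ∈ R.A) (ha0 : a ≠ 0) :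
    R.π ⟨a, ha⟩ ≠ 0 := by
  intro h
  have h1 : (⟨a, ha⟩ : R.A) * ⟨a⁻¹, hinv⟩ = 1 := by
    ext
    simp [ha0]
  have h2 := congrArg R.π h1
  rw [map_mul, h, zero_mul, map_one] at h2
  exact zero_ne_one h2

/-- COMPARISON of two units of `O` differing by a constant. -/
theorem compare_units {t W : F} (ht : R.redF t ≠ 0) (hW : R.redF W ≠ 0) {d : K}
    (hd : algebraMap K F d * t = W) :
    ∃ (h1 : d ∈ R.A), d⁻¹ ∈ R.A ∧ R.π ⟨d, h1⟩ ≠ 0 ∧
      R.redF W = algebraMap k Fb (R.π ⟨d, h1⟩) * R.redF t := by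
  have htO := mem_O_of_redF ht
  have hWO := mem_O_of_redF hW
  have ht0 := ne_zero_of_redF ht
  have hW0 := ne_zero_of_redF hW
  have hd0 : d ≠ 0 := by
    rintro rfl
    rw [map_zero, zero_mul] at hd
    exact hW0 hd.symm
  have hd1 : algebraMap K F d = W * t⁻¹ := by
    rw [← hd]; field_simp
  have hd2 : algebraMap K F d⁻¹ = t * W⁻¹ := by
    rw [map_inv₀, hd1]; field_simp
  have h1 : d ∈ R.A := const_mem_A (by rw [hd1]; exact mul_mem hWO (inv_mem_O htO ht))
  have h2 : d⁻¹ ∈ R.A := const_mem_A (by rw [hd2]; exact mul_mem htO (inv_mem_O hWO hW))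
  refine ⟨h1, h2, pi_ne_zero_of_inv_mem h1 h2 hd0, ?_⟩
  rw [← hd, redF_mul (R.const_mem d h1) htO, redF_const h1]

theorem ord_const_mul_eq (Q : Place k Fb) {c : k} (hc : c ≠ 0) (φ : Fb) :
    Q.ord (algebraMap k Fb c * φ) = Q.ord φ := h9a_ord_const_mul Q hc φ

/-- `0 ≤ ord_Q (red u)` if `u` has no pole in the disc of `Q`. -/
theorem h9a_ord_red_nonneg (hF : HasPrincipalDivisors K F) {Q : Place k Fb} {u : F}
    (hnp : R.NoPoleOn Q u) : 0 ≤ Q.ord (R.redF u) := by
  classical
  by_cases hred : R.redF u = 0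
  · rw [hred, Place.ord_zero]
  have hu := mem_O_of_redF hred
  have hu0 := ne_zero_of_redF hred
  rw [redF_eq hu] at hred ⊢
  obtain ⟨D, hD, -⟩ := hF.exists_divisor u hu0
  have hnc := R.netcount u hu hred D hD Q
  have h1 := R.push_apply D Q
  unfold push at h1
  rw [← hnc, h1]
  refine Finset.sum_nonneg fun P _ => ?_
  split_ifs with h
  · rw [hD P]
    exact h9a_ord_nonneg P (hnp P h)
  · exact le_refl _

/-- If `D ≥ 0` and `(r_* D) Q = 1` there is exactly one point of `D` in the disc of `Q`. -/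
theorem exists_point_of_push_eq_one {D : Divisor K F} (hD : Eff D) {Q : Place k Fb}
    (h1 : R.push D Q = 1) :
    ∃ P : Place K F, R.r P = Q ∧ D P = 1 ∧ ∀ P' : Place K F, R.r P' = Q → P' ≠ P → D P' = 0 := by
  classical
  have h2 := R.push_apply D Q
  rw [h1] at h2
  have : ∃ P ∈ D.support, (if R.r P = Q then D P else 0) ≠ 0 := by
    by_contra hall
    push Not at hall
    rw [Finset.sum_eq_zero hall] at h2
    omega
  obtain ⟨P, -, hP⟩ := this
  have hPQ : R.r P = Q := by
    by_contra h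
    rw [if_neg h] at hP
    exact hP rfl
  rw [if_pos hPQ] at hP
  have h3 := R.push_ge_of_nonneg_on (fun P' _ => hD P') hPQ
  have h4 := hD P
  have h5 : D P = 1 := by omega
  refine ⟨P, hPQ, h5, fun P' hP' hne => ?_⟩
  exact R.push_eq_imp_zero (fun P'' _ => hD P'') hPQ (by omega) hP' hne

/-- If `D ≥ 0` and `(r_* D) Q = 0` then `D` vanishes on the disc of `Q`. -/
theorem eq_zero_of_push_eq_zero {D : Divisor K F} (hD : Eff D) {Q : Place k Fb}
    (h0 : R.push D Q = 0) {P : Place K F} (hP : R.r P = Q) : D P = 0 := by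
  have h3 := R.push_ge_of_nonneg_on (fun P' _ => hD P') hP
  have h4 := hD P
  omega

end RedDatum

end H9S18
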