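/-
Item 75 (S18), Block A, slice A3 (helper9): LOCAL ANALYSIS on a residue disc.
If `div f = m (E' - E)` with `r_* E = r_* E'` multiplicity free and `f = 1 + c t` (`c` small,
`t ∈ O`), then `red t ∈ L(r_* E)` (A3a) and the points of `E'`, `E` in a disc are `c`-close in
any coordinate (A3b).
-/
import Mathlib
import Fermat.Agent.S18.A3Red

set_option autoImplicit false

noncomputable section

open AlgebraicCurve
open scoped WithZero

namespace H9S18

namespace RedDatum

variable {K F k Fb : Type*} [Field K] [Field F] [Algebra K F] [Field k] [Field Fb] [Algebra k Fb]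
variable {R : RedDatum K F k Fb}

theorem Small.mem {c : K} (hc : R.Small c) : c ∈ R.A := hc.2.1

theorem Small.ne_zero {c : K} (hc : R.Small c) : c ≠ 0 := hc.1

theorem Small.pi_eq {c : K} (hc : R.Small c) : R.π ⟨c, hc.mem⟩ = 0 := hc.2.2

theorem Small.redF_eq_zero {c : K} (hc : R.Small c) : R.redF (algebraMap K F c) = 0 := by
  rw [redF_const hc.mem, hc.pi_eq, map_zero]

theorem Small.mul_right {c : K} (hc : R.Small c) {d : K} (hd : d ∈ R.A) (hd0 : d ≠ 0) :
    R.Small (c * d) := by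
  refine ⟨mul_ne_zero hc.1 hd0, MulMemClass.mul_mem hc.mem hd, ?_⟩
  have h1 : (⟨c * d, MulMemClass.mul_mem hc.mem hd⟩ : R.A) = ⟨c, hc.mem⟩ * ⟨d, hd⟩ := rfl
  rw [h1, map_mul, hc.pi_eq, zero_mul]

/-- the reduction of `1 + c t` is `1` -/
theorem redF_one_add_small {c : K} (hc : R.Small c) {t : F} (ht : t ∈ R.O) :
    (1 + algebraMap K F c * t) ∈ R.O ∧ R.redF (1 + algebraMap K F c * t) = 1 := by
  have h1 : algebraMap K F c * t ∈ R.O := mul_mem (R.const_mem c hc.mem) ht
  refine ⟨add_mem (one_mem _) h1, ?_⟩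
  rw [redF_add (one_mem _) h1, redF_mul (R.const_mem c hc.mem) ht, hc.redF_eq_zero, zero_mul,
    add_zero, redF_one]

/-- If `t ∈ O`, `t ≠ 0`, then `t = d t'` with `d ∈ A` and `t'` a unit. -/
theorem exists_unit_factor {t : F} (ht : t ∈ R.O) (ht0 : t ≠ 0) :
    ∃ (d : K) (t' : F), d ≠ 0 ∧ d ∈ R.A ∧ R.redF t' ≠ 0 ∧ t = algebraMap K F d * t' ∧
      (R.redF t = 0 → ∃ h : d ∈ R.A, R.π ⟨d, h⟩ = 0) := by
  obtain ⟨c', hc', hmem, hred⟩ := R.unit_scale t ht0
  have hred' : R.redF (algebraMap K F c' * t) ≠ 0 := by rwa [redF_eq hmem]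
  have hc'F : algebraMap K F c' ≠ 0 := by simpa using hc'
  have hEq : t = algebraMap K F c'⁻¹ * (algebraMap K F c' * t) := by
    rw [map_inv₀]; field_simp
  have hdO : algebraMap K F c'⁻¹ ∈ R.O := by
    have : algebraMap K F c'⁻¹ = t * (algebraMap K F c' * t)⁻¹ := by
      rw [map_inv₀]; field_simp
    rw [this]
    exact mul_mem ht (inv_mem_O hmem hred')
  have hdA := const_mem_A hdO
  refine ⟨c'⁻¹, algebraMap K F c' * t, inv_ne_zero hc', hdA, hred', hEq, fun h0 => ⟨hdA, ?_⟩⟩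
  have h1 : R.redF t = algebraMap k Fb (R.π ⟨c'⁻¹, hdA⟩) * R.redF (algebraMap K F c' * t) := by
    conv_lhs => rw [hEq]
    rw [redF_mul hdO hmem, redF_const hdA]
  rw [h0] at h1
  have h2 := (mul_eq_zero.mp h1.symm).resolve_right hred'
  exact (map_eq_zero _).mp h2

/-- LA, core computation at one disc. -/
theorem la_core (hF : CurveFacts K F) {m : ℕ} (hm : (m : k) ≠ 0)
    {Q : Place k Fb} {z : F} (hz : z ∈ R.O) (hnp : R.NoPoleOn Q z)
    (hord : Q.ord (R.red ⟨z, hz⟩) = 1)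
    {P' P₀ : Place K F} (hP' : R.r P' = Q) (hP₀ : R.r P₀ = Q) (hne : P' ≠ P₀)
    {a b : K} (ha : ValAt P' z a) (hb : ValAt P₀ z b)
    {f : F} (hf0 : f ≠ 0) (hfP' : P'.ord f = m) (hfP₀ : P₀.ord f = -(m : ℤ))
    (hfo : ∀ P : Place K F, R.r P = Q → P ≠ P' → P ≠ P₀ → P.ord f = 0)
    {c : K} (hc : R.Small c) {t : F} (ht : R.redF t ≠ 0) (hft : f = 1 + algebraMap K F c * t) :
    -1 ≤ Q.ord (R.redF t) ∧ ∃ x : K, x ∈ R.A ∧ a - b = c * x := by
  classical
  have hpd := hF.hpd
  have htO := mem_O_of_redF ht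
  have hzred : R.redF z ≠ 0 := by
    rw [redF_eq hz]
    intro h0
    rw [h0, Place.ord_zero] at hord
    exact zero_ne_one hord
  have hordz : Q.ord (R.redF z) = 1 := by rw [redF_eq hz]; exact hord
  -- Step 1: the values `a`, `b`
  obtain ⟨haA, hπa⟩ := h9a_coord_value hpd hz hnp hord hP' ha
  obtain ⟨hbA, hπb⟩ := h9a_coord_value hpd hz hnp hord hP₀ hb
  have hab : a ≠ b := by
    rintro rfl
    exact hne (h9a_coord_injective hpd hz hnp hord hP₀ hP' hb ha)
  set ε : K := b - a with hε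
  have hε0 : ε ≠ 0 := sub_ne_zero.mpr (Ne.symm hab)
  have hεA : ε ∈ R.A := sub_mem hbA haA
  have hπε : R.π ⟨ε, hεA⟩ = 0 := by
    have h1 : (⟨ε, hεA⟩ : R.A) = ⟨b, hbA⟩ - ⟨a, haA⟩ := rfl
    rw [h1, map_sub, hπa, hπb, sub_zero]
  have hεsmall : R.Small ε := ⟨hε0, hεA, hπε⟩
  -- Step 2: `za = z - a`, `zb = z - b`
  set za : F := z - algebraMap K F a with hza
  set zb : F := z - algebraMap K F b with hzb
  have hzaO : za ∈ R.O := sub_mem hz (R.const_mem a haA)
  have hzbO : zb ∈ R.O := sub_mem hz (R.const_mem b hbA)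
  have hzared : R.redF za = R.redF z := by
    rw [hza, redF_sub hz (R.const_mem a haA), redF_const haA, hπa, map_zero, sub_zero]
  have hzbred : R.redF zb = R.redF z := by
    rw [hzb, redF_sub hz (R.const_mem b hbA), redF_const hbA, hπb, map_zero, sub_zero]
  have hza0 : za ≠ 0 := ne_zero_of_redF (by rw [hzared]; exact hzred)
  have hzb0 : zb ≠ 0 := ne_zero_of_redF (by rw [hzbred]; exact hzred)
  obtain ⟨hza1, hza2⟩ := coordSimple hpd Q z hz hnp hord P' hP' a ha
  obtain ⟨hzb1, hzb2⟩ := coordSimple hpd Q z hz hnp hord P₀ hP₀ b hb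
  have hzbinvO : zb⁻¹ ∈ R.O := inv_mem_O hzbO (by rw [hzbred]; exact hzred)
  have hzbinvred : R.redF zb⁻¹ = (R.redF z)⁻¹ := by
    rw [redF_inv hzbO (by rw [hzbred]; exact hzred), hzbred]
  -- Step 3: `h = za / zb`
  set h : F := za * zb⁻¹ with hh
  have hhO : h ∈ R.O := mul_mem hzaO hzbinvO
  have hhred : R.redF h = 1 := by
    rw [hh, redF_mul hzaO hzbinvO, hzared, hzbinvred, mul_inv_cancel₀ hzred]
  have hh0 : h ≠ 0 := mul_ne_zero hza0 (inv_ne_zero hzb0)
  have hzazb : za - zb = algebraMap K F ε := by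
    rw [hza, hzb, hε, map_sub]; ring
  have hhsub : h - 1 = algebraMap K F ε * zb⁻¹ := by
    have h1 : h - 1 = (za - zb) * zb⁻¹ := by
      rw [hh]; field_simp
    rw [h1, hzazb]
  have hordh : ∀ P : Place K F, P.ord h = P.ord za - P.ord zb := fun P => by
    rw [hh, P.ord_mul hza0 (inv_ne_zero hzb0), P.ord_inv]; ring
  have hhP' : P'.ord h = 1 := by rw [hordh, hza1, hzb2 P' hP' hne]; ring
  have hhP₀ : P₀.ord h = -1 := by rw [hordh, hzb1, hza2 P₀ hP₀ (Ne.symm hne)]; ring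
  have hho : ∀ P : Place K F, R.r P = Q → P ≠ P' → P ≠ P₀ → P.ord h = 0 := by
    intro P hP h1 h2
    rw [hordh, hza2 P hP h1, hzb2 P hP h2]; ring
  -- Step 4: `u = f / h ^ m`
  have hhm0 : h ^ m ≠ 0 := pow_ne_zero m hh0
  have hhmO : h ^ m ∈ R.O := pow_mem hhO m
  have hhmred : R.redF (h ^ m) = 1 := by rw [redF_pow hhO, hhred, one_pow]
  have hhminvO : (h ^ m)⁻¹ ∈ R.O := inv_mem_O hhmO (by rw [hhmred]; exact one_ne_zero)
  have hhminvred : R.redF (h ^ m)⁻¹ = 1 := by
    rw [redF_inv hhmO (by rw [hhmred]; exact one_ne_zero), hhmred, inv_one]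
  obtain ⟨hfO, hfred⟩ := redF_one_add_small hc htO
  rw [← hft] at hfO hfred
  set u : F := f * (h ^ m)⁻¹ with hu
  have huO : u ∈ R.O := mul_mem hfO hhminvO
  have hured : R.redF u = 1 := by rw [hu, redF_mul hfO hhminvO, hfred, hhminvred, mul_one]
  have hu0 : u ≠ 0 := mul_ne_zero hf0 (inv_ne_zero hhm0)
  have hordu : ∀ P : Place K F, R.r P = Q → P.ord u = 0 := by
    intro P hP
    rw [hu, P.ord_mul hf0 (inv_ne_zero hhm0), P.ord_inv, h9a_ord_pow]
    by_cases h1 : P = P'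
    · subst h1; rw [hfP', hhP']; ring
    by_cases h2 : P = P₀
    · subst h2; rw [hfP₀, hhP₀]; ring
    rw [hfo P hP h1 h2, hho P hP h1 h2]; ring
  have hunp : R.NoPoleOn Q u := fun P hP => by
    rw [RH24.h20_mem_iff_ord_nonneg P hu0, hordu P hP]
  -- Step 5: `x = u - 1`
  set x : F := u - 1 with hx
  have hxO : x ∈ R.O := sub_mem huO (one_mem _)
  have hxred : R.redF x = 0 := by rw [hx, redF_sub huO (one_mem _), hured, redF_one, sub_self]
  have hxnp : R.NoPoleOn Q x := fun P hP =>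
    sub_mem (hunp P hP) (one_mem _)
  -- Step 6: geometric sum
  set S : F := ∑ i ∈ Finset.range m, h ^ i with hS
  have hSO : S ∈ R.O := sum_mem fun i _ => pow_mem hhO i
  have hSred : R.redF S = (m : Fb) := by
    rw [hS, redF_sum _ _ (fun i _ => pow_mem hhO i)]
    simp only [redF_pow hhO, hhred, one_pow, Finset.sum_const, Finset.card_range, nsmul_eq_mul,
      mul_one]
  have hmFb : (m : Fb) ≠ 0 := by
    have h1 : (m : Fb) = algebraMap k Fb (m : k) := by simp
    rw [h1]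
    exact (map_ne_zero _).mpr hm
  have hgeom : h ^ m - 1 = (h - 1) * S := by
    rw [hS, mul_comm]
    exact (geom_sum_mul h m).symm
  set Y : F := zb⁻¹ * S with hY
  have hYO : Y ∈ R.O := mul_mem hzbinvO hSO
  have hYred : R.redF Y = (R.redF z)⁻¹ * (m : Fb) := by
    rw [hY, redF_mul hzbinvO hSO, hzbinvred, hSred]
  have hYord : Q.ord (R.redF Y) = -1 := by
    rw [hYred, Q.ord_mul (inv_ne_zero hzred) hmFb, Q.ord_inv, hordz]
    have h1 : (m : Fb) = algebraMap k Fb (m : k) := by simp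
    rw [h1, RH24.h20_ord_algebraMap]
    ring
  have hYred0 : R.redF Y ≠ 0 := by
    rw [hYred]
    exact mul_ne_zero (inv_ne_zero hzred) hmFb
  -- Step 7: the key identity
  have hkey : algebraMap K F c * t = x * h ^ m + algebraMap K F ε * Y := by
    have h1 : algebraMap K F c * t = f - 1 := by rw [hft]; ring
    have h2 : f = u * h ^ m := by rw [hu]; field_simp
    rw [h1, hY, ← mul_assoc, ← hhsub, mul_comm (h - 1) S, mul_comm S (h - 1), ← hgeom, hx]
    rw [h2]
    ring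
  have hcF : algebraMap K F c ≠ 0 := by simpa using hc.ne_zero
  have hεF : algebraMap K F ε ≠ 0 := by simpa using hε0
  -- final step: from `(c / e) t = W`
  have hfinal : ∀ (e : K) (W : F), e ≠ 0 → algebraMap K F (c / e) * t = W → R.redF W ≠ 0 →
      -1 ≤ Q.ord (R.redF W) → ε / e ∈ R.A →
      -1 ≤ Q.ord (R.redF t) ∧ ∃ x : K, x ∈ R.A ∧ a - b = c * x := by
    intro e W he hW hWred hWord hεe
    obtain ⟨hd1, hd2, hd3, hd4⟩ := compare_units ht hWred hW
    constructor
    · rw [hd4, h9a_ord_const_mul Q hd3] at hWord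
      exact hWord
    · refine ⟨-(ε / e * (c / e)⁻¹), neg_mem (mul_mem hεe hd2), ?_⟩
      have hc0 := hc.ne_zero
      rw [hε]
      field_simp
      ring
  by_cases hx0 : x = 0
  · -- `c t = ε Y`
    refine hfinal ε Y hε0 ?_ hYred0 (by rw [hYord]) (by rw [div_self hε0]; exact one_mem _)
    rw [hx0, zero_mul, zero_add] at hkey
    rw [map_div₀, div_mul_eq_mul_div, hkey]
    field_simp
  -- `x = cx x'`
  obtain ⟨cx, x', hcx0, hcxA, hx'red, hxeq, hcxπ⟩ := exists_unit_factor hxO hx0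
  obtain ⟨-, hcxπ'⟩ := hcxπ hxred
  have hx'O := mem_O_of_redF hx'red
  have hcxF : algebraMap K F cx ≠ 0 := by simpa using hcx0
  have hx'np : R.NoPoleOn Q x' := by
    intro P hP
    have h1 : x' = algebraMap K F cx⁻¹ * x := by
      rw [hxeq, map_inv₀]; field_simp
    rw [h1]
    exact mul_mem (P.algebraMap_mem' _) (hxnp P hP)
  have hx'ord : 0 ≤ Q.ord (R.redF x') := h9a_ord_red_nonneg hpd hx'np
  set X : F := x' * h ^ m with hX
  have hXO : X ∈ R.O := mul_mem hx'O hhmO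
  have hXred : R.redF X = R.redF x' := by rw [hX, redF_mul hx'O hhmO, hhmred, mul_one]
  have hkey' : algebraMap K F c * t = algebraMap K F cx * X + algebraMap K F ε * Y := by
    have h1 : x * h ^ m = algebraMap K F cx * X := by
      rw [hX, ← mul_assoc, ← hxeq]
    rw [hkey, h1]
  by_cases hcase : cx / ε ∈ R.A
  · -- `(c / ε) t = (cx / ε) X + Y`
    have hWO : algebraMap K F (cx / ε) * X ∈ R.O := mul_mem (R.const_mem _ hcase) hXO
    have hWred : R.redF (algebraMap K F (cx / ε) * X + Y) =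
        algebraMap k Fb (R.π ⟨cx / ε, hcase⟩) * R.redF x' + R.redF Y := by
      rw [redF_add hWO hYO, redF_mul (R.const_mem _ hcase) hXO, redF_const hcase, hXred]
    have hWord : Q.ord (R.redF (algebraMap K F (cx / ε) * X + Y)) = -1 := by
      rw [hWred]
      by_cases hπ0 : R.π ⟨cx / ε, hcase⟩ = 0
      · rw [hπ0, map_zero, zero_mul, zero_add, hYord]
      · have h1 : algebraMap k Fb (R.π ⟨cx / ε, hcase⟩) * R.redF x' ≠ 0 :=
          mul_ne_zero ((map_ne_zero _).mpr hπ0) hx'red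
        rw [add_comm, RH24.h20_ord_add_eq_of_lt Q hYred0 h1, hYord]
        rw [hYord, h9a_ord_const_mul Q hπ0]
        omega
    have hWred0 : R.redF (algebraMap K F (cx / ε) * X + Y) ≠ 0 := by
      intro h0
      rw [h0, Place.ord_zero] at hWord
      omega
    refine hfinal ε _ hε0 ?_ hWred0 (by rw [hWord]) (by rw [div_self hε0]; exact one_mem _)
    rw [map_div₀, map_div₀, div_mul_eq_mul_div, hkey']
    field_simp
  · -- `(c / cx) t = X + (ε / cx) Y`
    obtain ⟨hinv, hπinv⟩ := pi_inv_eq_zero (R := R) hcase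
    have hinv' : ε / cx ∈ R.A := by
      have : ε / cx = (cx / ε)⁻¹ := by rw [inv_div]
      rw [this]; exact hinv
    have hπinv' : R.π ⟨ε / cx, hinv'⟩ = 0 := by
      have h1 : (⟨ε / cx, hinv'⟩ : R.A) = ⟨(cx / ε)⁻¹, hinv⟩ := by
        ext; simp [inv_div]
      rw [h1, hπinv]
    have hWO : algebraMap K F (ε / cx) * Y ∈ R.O := mul_mem (R.const_mem _ hinv') hYO
    have hWred : R.redF (X + algebraMap K F (ε / cx) * Y) = R.redF x' := by
      rw [redF_add hXO hWO, redF_mul (R.const_mem _ hinv') hYO, redF_const hinv', hπinv',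
        map_zero, zero_mul, add_zero, hXred]
    refine hfinal cx _ hcx0 ?_ (by rw [hWred]; exact hx'red) (by rw [hWred]; omega) hinv'
    rw [map_div₀, map_div₀, div_mul_eq_mul_div, hkey']
    field_simp

end RedDatum

end H9S18
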