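/-
Item 75 (S18), Block A, slice A3 (helper9): the statements A3a (`LAStatement`) and A3b
(`LACloseStatement`) from the core computation `la_core`.
-/
import Mathlib
import Fermat.Agent.S18.A3LA

set_option autoImplicit false

noncomputable section

open AlgebraicCurve
open scoped WithZero

namespace H9S18

namespace RedDatum

variable {K F k Fb : Type*} [Field K] [Field F] [Algebra K F] [Field k] [Field Fb] [Algebra k Fb]
variable {R : RedDatum K F k Fb}

/-- the data of `f` on a disc containing a point of `E'` and a different point of `E` -/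
theorem la_disc_data {m : ℕ} {Eb : Divisor k Fb} {E E' : Divisor K F} (hE : Eff E)
    (hE' : Eff E') (hpE : R.push E = Eb) (hpE' : R.push E' = Eb) {f : F}
    (hdiv : ∀ P : Place K F, P.ord f = m * (E' P - E P)) {Q : Place k Fb} (hQ : Eb Q = 1)
    {P' P₀ : Place K F} (hP' : R.r P' = Q) (hP₀ : R.r P₀ = Q) (hE'P : E' P' = 1)
    (hEP : E P₀ = 1) (hne : P' ≠ P₀) :
    P'.ord f = m ∧ P₀.ord f = -(m : ℤ) ∧
      ∀ P : Place K F, R.r P = Q → P ≠ P' → P ≠ P₀ → P.ord f = 0 := by
  have h1 : R.push E Q = 1 := by rw [hpE, hQ]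
  have h2 : R.push E' Q = 1 := by rw [hpE', hQ]
  have hEo : ∀ P : Place K F, R.r P = Q → P ≠ P₀ → E P = 0 := fun P hP hne' =>
    R.push_eq_imp_zero (fun P'' _ => hE P'') hP₀ (by rw [h1, hEP]) hP hne'
  have hE'o : ∀ P : Place K F, R.r P = Q → P ≠ P' → E' P = 0 := fun P hP hne' =>
    R.push_eq_imp_zero (fun P'' _ => hE' P'') hP' (by rw [h2, hE'P]) hP hne'
  refine ⟨?_, ?_, fun P hP hn1 hn2 => ?_⟩
  · rw [hdiv, hE'P, hEo P' hP' hne]; ring
  · rw [hdiv, hEP, hE'o P₀ hP₀ (Ne.symm hne)]; ring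
  · rw [hdiv, hEo P hP hn2, hE'o P hP hn1]; ring

/-- on a disc where `f` has neither zeros nor poles, `t = (f - 1) / c` has no pole -/
theorem la_noPole {Q : Place k Fb} {f : F} (hf : ∀ P : Place K F, R.r P = Q → P.ord f = 0)
    (hf0 : f ≠ 0) {c : K} (hc0 : c ≠ 0) {t : F} (hft : f = 1 + algebraMap K F c * t) :
    R.NoPoleOn Q t := by
  intro P hP
  have hcF : algebraMap K F c ≠ 0 := by simpa using hc0
  have h1 : t = algebraMap K F c⁻¹ * (f - 1) := by
    rw [hft, map_inv₀]; field_simp; ring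
  rw [h1]
  refine mul_mem (P.algebraMap_mem' _) (sub_mem ?_ (one_mem _))
  rw [RH24.h20_mem_iff_ord_nonneg P hf0, hf P hP]

/-- A3a. -/
theorem la (hF : CurveFacts K F) (hcoord : R.ExistsCoordStatement) {m : ℕ}
    (hm : (m : k) ≠ 0) : R.LAStatement m := by
  classical
  intro Eb hEb E E' hE hE' hpE hpE' f hf0 hdiv c hc t ht hft
  rw [← redF_eq ht]
  by_cases hred : R.redF t = 0
  · exact Or.inl hred
  right
  intro Q
  have hpd := hF.hpd
  rcases hEb Q with hQ | hQ
  · -- no point of `E`, `E'` in the disc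
    have h1 : R.push E Q = 0 := by rw [hpE, hQ]
    have h2 : R.push E' Q = 0 := by rw [hpE', hQ]
    have hford : ∀ P : Place K F, R.r P = Q → P.ord f = 0 := fun P hP => by
      rw [hdiv, eq_zero_of_push_eq_zero hE h1 hP, eq_zero_of_push_eq_zero hE' h2 hP]; ring
    have hnp := la_noPole hford hf0 hc.ne_zero hft
    have := h9a_ord_red_nonneg hpd hnp
    rw [hQ]
    omega
  · have h1 : R.push E Q = 1 := by rw [hpE, hQ]
    have h2 : R.push E' Q = 1 := by rw [hpE', hQ]
    obtain ⟨P₀, hP₀, hEP, hEo⟩ := exists_point_of_push_eq_one hE h1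
    obtain ⟨P', hP', hE'P, hE'o⟩ := exists_point_of_push_eq_one hE' h2
    rw [hQ]
    by_cases hne : P' = P₀
    · subst hne
      have hford : ∀ P : Place K F, R.r P = Q → P.ord f = 0 := fun P hP => by
        rw [hdiv]
        by_cases hPP : P = P'
        · subst hPP; rw [hEP, hE'P]; ring
        · rw [hEo P hP hPP, hE'o P hP hPP]; ring
      have hnp := la_noPole hford hf0 hc.ne_zero hft
      have := h9a_ord_red_nonneg hpd hnp
      omega
    · obtain ⟨z, hz, hnp, hord⟩ := hcoord Q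
      obtain ⟨a, ha⟩ := hF.value P' z (hnp P' hP')
      obtain ⟨b, hb⟩ := hF.value P₀ z (hnp P₀ hP₀)
      obtain ⟨d1, d2, d3⟩ := la_disc_data hE hE' hpE hpE' hdiv hQ hP' hP₀ hE'P hEP hne
      exact (la_core hF hm hz hnp hord hP' hP₀ hne ha hb hf0 d1 d2 d3 hc hred hft).1

/-- A3b. -/
theorem laClose (hF : CurveFacts K F) {m : ℕ} (hm : (m : k) ≠ 0) : R.LACloseStatement m := by
  classical
  intro Eb hEb E E' hE hE' hpE hpE' f hf0 hdiv c hc hdvd Q z hz hnp hord P' P₀ hP' hP₀ hE'P hEP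
    a b ha hb
  have hpd := hF.hpd
  have hm0 : (m : ℤ) ≠ 0 := by
    intro h0
    have : m = 0 := by exact_mod_cast h0
    apply hm
    rw [this]; simp
  by_cases hne : P' = P₀
  · subst hne
    have := ha.unique P' hb
    exact ⟨0, zero_mem _, by rw [this]; ring⟩
  have hQ : Eb Q = 1 := by
    have h1 := R.push_ge_of_nonneg_on (fun P'' _ => hE P'') hP₀
    rw [hpE, hEP] at h1
    rcases hEb Q with h | h
    · omega
    · exact h
  obtain ⟨d1, d2, d3⟩ := la_disc_data hE hE' hpE hpE' hdiv hQ hP' hP₀ hE'P hEP hne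
  obtain ⟨t, ht, hft⟩ := hdvd
  have hft' : f = 1 + algebraMap K F c * t := by rw [← hft]; ring
  -- `t ≠ 0` since `f` has a zero
  have ht0 : t ≠ 0 := by
    rintro rfl
    rw [mul_zero, add_zero] at hft'
    rw [hft', Place.ord_one] at d1
    exact hm0 d1.symm
  obtain ⟨d, t', hd0, hdA, ht'red, hteq, -⟩ := exists_unit_factor ht ht0
  have hcd : R.Small (c * d) := hc.mul_right hdA hd0
  have hft'' : f = 1 + algebraMap K F (c * d) * t' := by
    rw [hft', hteq, map_mul]; ring
  obtain ⟨-, x, hx, hxeq⟩ :=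
    la_core hF hm hz hnp hord hP' hP₀ hne ha hb hf0 d1 d2 d3 hcd ht'red hft''
  exact ⟨d * x, mul_mem hdA hx, by rw [hxeq]; ring⟩

end RedDatum

end H9S18
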