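import Mathlib
import Fermat.Agent.S18.GVSep_helper28
import Fermat.Agent.S28.DegreeBounds

/-!
# W2-B (S18), foundation slice GV, part 11 (helper28): `F_k / k(J)` is separable

For a perfect field `k` of characteristic `p`, every element of
`F_k = modularFunctionFieldFullC k N` is integral and separable over `k(J)`.
-/

set_option autoImplicit false
open ModularCurve HahnSeries Polynomial

noncomputable section

namespace H28GV

theorem gvTheta_jq_ne_zero (k : Type*) [Field k] : gvTheta (jqModC k) ≠ 0 := by
  intro h
  have h1 := congrArg (fun f => f.coeff (-1 : ℤ)) h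
  simp only [gvTheta_coeff, HahnSeries.coeff_zero] at h1
  rw [P2MW.S_ModularCurve_coeff_jqModC_neg_one.ModularCurve.CharLRows.coeff_jqModC_neg_one k,
    mul_one] at h1
  have h2 : ((-1 : ℤ) : k) = -1 := by push_cast; rfl
  rw [h2, neg_eq_zero] at h1
  exact one_ne_zero h1

/-- every element of `F_k` is integral over `k(J)` -/
theorem gv_full_isIntegral (k : Type) [Field k] (N : ℕ) [NeZero N] (z : LaurentSeries k)
    (hz : z ∈ modularFunctionFieldFullC k N) :
    IsIntegral ↥(IntermediateField.adjoin k {jqModC k}) z := by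
  obtain ⟨E, hfd, -, hmem⟩ := H28S28.h10_tower k N (NeZero.ne N)
    (H28S28.h10_hasPolys_of_hasModEq N (fun p hp _ => H28S28.h10_hasModEq_all p hp))
  have := hfd
  have hle := H28S28.h10_full_le k N E hmem
  have hzE : z ∈ E := hle hz
  have h1 : IsIntegral ↥(IntermediateField.adjoin k {jqModC k}) (⟨z, hzE⟩ : ↥E) :=
    IsIntegral.of_finite _ _
  exact (IntermediateField.isIntegral_iff (x := (⟨z, hzE⟩ : ↥E))).mp h1

/-- **every element of `F_k` is separable over `k(J)`** (`k` perfect of characteristic `p`) -/
theorem gv_full_isSeparable (k : Type) [Field k] (p : ℕ) [Fact p.Prime] [CharP k p]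
    [PerfectField k] (N : ℕ) [NeZero N] (z : LaurentSeries k)
    (hz : z ∈ modularFunctionFieldFullC k N) :
    IsSeparable ↥(IntermediateField.adjoin k {jqModC k}) z :=
  gv_isSeparable p (jqModC k)
    (P2MW.S_ModularCurve_coeff_jqModC_neg_one.ModularCurve.CharLRows.transcendental_jqModC k)
    (gvTheta_jq_ne_zero k) z (gv_full_isIntegral k N z hz)

end H28GV
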