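import Mathlib
import Fermat.Agent.RRD.Principal
import Fermat.Agent.S18.GVSepJ_helper28
import Fermat.Agent.S28.WP2
import Fermat.Agent.S28.DegreeBounds

/-!
# Item 75 (S18), slice C10, part 1 (helper27): the reduced function field `F_k / k(j)`

For any field `k` and any level `N ≠ 0`, with `F_k = modularFunctionFieldFullC k N`:

* `h27c10_jC k N : F_k` is `j`, transcendental over `k` (`h27c10_jC_transcendental`);
* `h27c10_finiteDimensional` : `F_k / k(j)` is finite;
* `h27c10_isSeparable` : `F_k / k(j)` is separable when `k` is perfect of characteristic `p`;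
* `h27c10_const` : for `k` algebraically closed of characteristic `p`, a function without zeros
  and poles is constant;
* `h27c10_hasPrincipalDivisors_red`, `h27c10_deg_eq_one_red`.
-/

set_option autoImplicit false
set_option linter.style.longLine false
set_option linter.unusedSectionVars false
set_option linter.style.haveILetI false

noncomputable section

open ModularCurve IntermediateField AlgebraicCurve

namespace H27C10

section Red

variable (k : Type) [Field k] (N : ℕ) [NeZero N]

/-- `j` as an element of the function field `F_k`. -/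
def h27c10_jC : ↥(modularFunctionFieldFullC k N) := ⟨jqModC k, jqModC_mem_full k N⟩

theorem h27c10_coe_jC :
    ((h27c10_jC k N : ↥(modularFunctionFieldFullC k N)) : LaurentSeries k) = jqModC k := rfl

theorem h27c10_jC_transcendental : Transcendental k (h27c10_jC k N) := by
  have h := P2MW.S_ModularCurve_coeff_jqModC_neg_one.ModularCurve.CharLRows.transcendental_jqModC k
  rw [← h27c10_coe_jC k N] at h
  exact (transcendental_algebraMap_iff
    (algebraMap (modularFunctionFieldFullC k N) (LaurentSeries k)).injective).mp h

/-- the subfield `k(j)` of `F_k` maps onto the subfield `k(j)` of `k((q))` -/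
theorem h27c10_map_adjoin :
    (k⟮h27c10_jC k N⟯).map (modularFunctionFieldFullC k N).val = k⟮jqModC k⟯ := by
  rw [IntermediateField.adjoin_map, Set.image_singleton]
  rfl

theorem h27c10_coe_mem (x : k⟮h27c10_jC k N⟯) :
    (((x : modularFunctionFieldFullC k N) : LaurentSeries k)) ∈ k⟮jqModC k⟯ := by
  rw [← h27c10_map_adjoin k N]
  exact ⟨x.1, x.2, rfl⟩

/-- the identification of the two copies of `k(j)` -/
def h27c10_iso : k⟮h27c10_jC k N⟯ →+* k⟮jqModC k⟯ where
  toFun x := ⟨_, h27c10_coe_mem k N x⟩
  map_one' := rfl
  map_mul' _ _ := rfl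
  map_zero' := rfl
  map_add' _ _ := rfl

theorem h27c10_iso_surjective : Function.Surjective (h27c10_iso k N) := by
  rintro ⟨c, hc⟩
  rw [← h27c10_map_adjoin k N] at hc
  obtain ⟨x, hx, hxc⟩ := hc
  exact ⟨⟨x, hx⟩, Subtype.ext hxc⟩

theorem h27c10_iso_injective : Function.Injective (h27c10_iso k N) :=
  (h27c10_iso k N).injective

/-- **`F_k / k(j)` is finite**, of degree `≤ ψ(N)`. -/
theorem h27c10_finiteDimensional :
    FiniteDimensional k⟮h27c10_jC k N⟯ (modularFunctionFieldFullC k N) := by
  classical
  have hrank : Module.rank k⟮h27c10_jC k N⟯ (modularFunctionFieldFullC k N)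
      ≤ ((dedekindPsi N : ℕ) : Cardinal) := by
    apply rank_le
    intro t ht
    have hg : Function.Injective
        (Subtype.val : modularFunctionFieldFullC k N → LaurentSeries k) :=
      Subtype.val_injective
    have hcard : (t.image (Subtype.val : modularFunctionFieldFullC k N → LaurentSeries k)).card
        = t.card := Finset.card_image_of_injective t hg
    rw [← hcard]
    apply H28S28.h10_degreeUpperBoundC' k N (fun p hp _ => H28S28.h10_hasModEq_all p hp)
    · intro x hx
      obtain ⟨y, _, rfl⟩ := Finset.mem_image.mp hx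
      exact y.2
    · -- transfer of linear independence
      let i : k⟮h27c10_jC k N⟯ → k⟮jqModC k⟯ := fun x => h27c10_iso k N x
      have hsurj : Function.Surjective i := h27c10_iso_surjective k N
      let j : modularFunctionFieldFullC k N →+ LaurentSeries k :=
        (modularFunctionFieldFullC k N).val.toRingHom.toAddMonoidHom
      have hinj : ∀ m : modularFunctionFieldFullC k N, j m = 0 → m = 0 := by
        intro m hm
        exact Subtype.ext hm
      have hc : ∀ (r : k⟮h27c10_jC k N⟯) (m : modularFunctionFieldFullC k N),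
          j (r • m) = i r • j m := by
        intro r m
        rfl
      have h1 : LinearIndependent ↥k⟮jqModC k⟯
          (⇑j ∘ fun x : ↥t => (x : modularFunctionFieldFullC k N)) :=
        ht.map_of_surjective_injective i j hsurj hinj hc
      have h2 : LinearIndependent ↥k⟮jqModC k⟯
          (fun x : ↥(Set.range (⇑j ∘ fun x : ↥t => (x : modularFunctionFieldFullC k N))) =>
            (x : LaurentSeries k)) := h1.linearIndepOn_id
      let f : ↥(t.image (Subtype.val : modularFunctionFieldFullC k N → LaurentSeries k)) →
          ↥(Set.range (⇑j ∘ fun x : ↥t => (x : modularFunctionFieldFullC k N))) := fun x => ⟨x.1, by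
            obtain ⟨y, hy, hxy⟩ := Finset.mem_image.mp x.2
            exact ⟨⟨y, hy⟩, hxy⟩⟩
      have hf : Function.Injective f := by
        intro a b hab
        have h3 : (f a).1 = (f b).1 := congrArg Subtype.val hab
        exact Subtype.ext h3
      exact h2.comp f hf
  exact IsNoetherian.iff_fg.mp
    (IsNoetherian.iff_rank_lt_aleph0.mpr (lt_of_le_of_lt hrank Cardinal.natCast_lt_aleph0))

/-- **`F_k / k(j)` is separable** (`k` perfect of characteristic `p`). -/
theorem h27c10_isSeparable (p : ℕ) [Fact p.Prime] [CharP k p] [PerfectField k] :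
    Algebra.IsSeparable k⟮h27c10_jC k N⟯ (modularFunctionFieldFullC k N) := by
  refine ⟨fun x => ?_⟩
  have hsep : IsSeparable ↥k⟮jqModC k⟯ (x : LaurentSeries k) :=
    H28GV.gv_full_isSeparable k p N (x : LaurentSeries k) x.2
  -- a set-theoretic inverse of the identification
  obtain ⟨s, hs⟩ := (h27c10_iso_surjective k N).hasRightInverse
  let e : k⟮h27c10_jC k N⟯ ≃+* k⟮jqModC k⟯ :=
    RingEquiv.ofBijective (h27c10_iso k N) ⟨h27c10_iso_injective k N, h27c10_iso_surjective k N⟩
  set q : Polynomial ↥k⟮h27c10_jC k N⟯ :=
    (minpoly ↥k⟮jqModC k⟯ (x : LaurentSeries k)).map (e.symm : ↥k⟮jqModC k⟯ →+* ↥k⟮h27c10_jC k N⟯)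
    with hq
  have hqsep : q.Separable := Polynomial.Separable.map hsep
  have hcomp : ((modularFunctionFieldFullC k N).val.toRingHom.comp
      (algebraMap ↥k⟮h27c10_jC k N⟯ ↥(modularFunctionFieldFullC k N))).comp
        (e.symm : ↥k⟮jqModC k⟯ →+* ↥k⟮h27c10_jC k N⟯) =
      algebraMap ↥k⟮jqModC k⟯ (LaurentSeries k) := by
    ext c
    obtain ⟨c', rfl⟩ := e.surjective c
    simp only [RingHom.coe_comp, Function.comp_apply, RingEquiv.coe_toRingHom,
      RingEquiv.symm_apply_apply]
    rfl
  have hroot : Polynomial.aeval x q = 0 := by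
    apply Subtype.ext
    have h1 : (((Polynomial.aeval x q : ↥(modularFunctionFieldFullC k N))) : LaurentSeries k) =
        (modularFunctionFieldFullC k N).val.toRingHom (Polynomial.aeval x q) := rfl
    rw [h1, Polynomial.aeval_def, Polynomial.hom_eval₂, hq, Polynomial.eval₂_map, hcomp]
    exact minpoly.aeval _ _
  exact hqsep.of_dvd (minpoly.dvd _ x hroot)

end Red

section AlgClosed

variable (k : Type) [Field k] [IsAlgClosed k] (N : ℕ) [NeZero N]

theorem h27c10_hasPrincipalDivisors_red (p : ℕ) [Fact p.Prime] [CharP k p] :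
    HasPrincipalDivisors k ↥(modularFunctionFieldFullC k N) := by
  haveI := h27c10_finiteDimensional k N
  haveI := h27c10_isSeparable k N p
  exact RRD.hasPrincipalDivisors (h27c10_jC k N) (h27c10_jC_transcendental k N)

theorem h27c10_deg_eq_one_red (p : ℕ) [Fact p.Prime] [CharP k p]
    (Q : Place k ↥(modularFunctionFieldFullC k N)) : Q.deg = 1 := by
  haveI := h27c10_finiteDimensional k N
  haveI := h27c10_isSeparable k N p
  exact RRD.deg_eq_one (h27c10_jC k N) (h27c10_jC_transcendental k N) Q

/-- **constants**: a function on the reduced curve without zeros and poles is constant. -/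
theorem h27c10_const (p : ℕ) [Fact p.Prime] [CharP k p] (φ : ↥(modularFunctionFieldFullC k N))
    (hφ : ∀ Q : Place k ↥(modularFunctionFieldFullC k N), Q.ord φ = 0) :
    φ ∈ Set.range (algebraMap k ↥(modularFunctionFieldFullC k N)) := by
  haveI := h27c10_finiteDimensional k N
  haveI := h27c10_isSeparable k N p
  obtain ⟨c, hc⟩ := RRD.exists_const_of_ord_eq_zero (h27c10_jC k N)
    (h27c10_jC_transcendental k N) φ (fun v => (hφ v).ge)
  exact ⟨c, hc.symm⟩

end AlgClosed

end H27C10
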