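import Mathlib
import Fermat.Agent.S18.DefsC
import Fermat.Agent.S18.A0Export_helper28
import Fermat.Agent.S18.C10Red_helper27
import Fermat.Agent.FF.PrincipalDivisors
import Fermat.Agent.S24.BDegreeFinal

/-!
# Item 75 (S18), slice C10 (helper27): the top reduction

`h27c10_topReduction : H7S18.TopReductionStatement`: S18 at `(N, ℓ, A)` follows from the Kummer
statements `(K)_m`, `m` prime to `ℓ`.

Proof: `z = [D]`, `m • D = div f`, `r_* D` principal. By helper28's `gv_kummer_form`,
`f = a · εY₁ / εY₂` with `ρY₁ = γ ^ m · ρY₂`; `(K)_m` gives `εY₁ = g ^ m · εY₂`, so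
`m • D = m • div g`, hence `D = div g` and `z = 0`.
-/

set_option autoImplicit false
set_option linter.style.longLine false
set_option linter.unusedSectionVars false
set_option linter.style.haveILetI false
set_option synthInstance.maxHeartbeats 400000
set_option maxHeartbeats 1600000

noncomputable section

open ModularCurve IntermediateField AlgebraicCurve

namespace H27C10

/-- the residue field of `A` over `ℓ` has characteristic `ℓ` -/
theorem h27c10_charP {L : Type*} [Field L] (A : ValuationSubring L) (ℓ : ℕ) [Fact ℓ.Prime]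
    (hA : A.LiesOverPrime ℓ) : CharP (IsLocalRing.ResidueField A) ℓ :=
  (CharP.charP_iff_prime_eq_zero (Fact.out : ℓ.Prime)).mpr (H28GV.gv_residue_natCast_eq_zero A ℓ hA)

/-- **C10**: the top reduction. -/
theorem h27c10_topReduction : H7S18.TopReductionStatement := by
  intro N _ ℓ _ hℓN A hA hK h m hm z hmz hred
  classical
  have hm0 : 0 < m := Nat.pos_of_ne_zero (by rintro rfl; exact hm (dvd_zero ℓ))
  have hmZ : (m : ℤ) ≠ 0 := by exact_mod_cast hm0.ne'
  haveI hfd : FiniteDimensional RH24.Kbar⟮RH24.Jbar N⟯ (modularFunctionFieldBar N) :=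
    (RH24.B_degree N).1
  haveI hPD : HasPrincipalDivisors (AlgebraicClosure ℚ) ↥(modularFunctionFieldBar N) :=
    H27FF.h27ff_hasPrincipalDivisors (RH24.Jbar N) (RH24.B_transcendental N)
  haveI hkac : IsAlgClosed (IsLocalRing.ResidueField A) := H28GV.gv_residue_isAlgClosed A
  haveI hchar : CharP (IsLocalRing.ResidueField A) ℓ := h27c10_charP A ℓ hA
  obtain ⟨D, rfl⟩ := Pic0.mk_surjective z
  -- step 1: `m • D` is principal
  have h1 : (m • (D : Divisor (AlgebraicClosure ℚ) ↥(modularFunctionFieldBar N))) ∈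
      Divisor.principal (K := AlgebraicClosure ℚ) (F := ↥(modularFunctionFieldBar N)) := by
    have h2 : Pic0.mk (m • D) = 0 := hmz
    have h3 := (QuotientAddGroup.eq_zero_iff _).mp h2
    rw [AddSubgroup.mem_addSubgroupOf, AddSubgroupClass.coe_nsmul] at h3
    exact h3
  obtain ⟨f, hf, hDf⟩ := h1
  -- step 2: `r_* D` is principal
  rw [reductionModL_mk h D] at hred
  have hprin : Finsupp.mapDomain (placeReductionModL h)
      (D : Divisor (AlgebraicClosure ℚ) ↥(modularFunctionFieldBar N)) ∈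
      Divisor.principal (K := IsLocalRing.ResidueField A)
        (F := ↥(modularFunctionFieldFullC (IsLocalRing.ResidueField A) N)) := by
    have h3 := (QuotientAddGroup.eq_zero_iff _).mp hred
    rw [AddSubgroup.mem_addSubgroupOf] at h3
    exact h3
  -- step 3: the Kummer form
  obtain ⟨B⟩ := H28GV.gv_basis_bar A ℓ hA N hℓN
  have hconst : ∀ φ : ↥(modularFunctionFieldFullC (IsLocalRing.ResidueField A) N), φ ≠ 0 →
      (∀ Q : Place (IsLocalRing.ResidueField A)
        ↥(modularFunctionFieldFullC (IsLocalRing.ResidueField A) N), Q.ord φ = 0) →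
        φ ∈ Set.range (algebraMap (IsLocalRing.ResidueField A)
          ↥(modularFunctionFieldFullC (IsLocalRing.ResidueField A) N)) :=
    fun φ _ hφ => h27c10_const (IsLocalRing.ResidueField A) N ℓ φ hφ
  have hroot : ∀ c : IsLocalRing.ResidueField A, c ≠ 0 →
      ∃ d : IsLocalRing.ResidueField A, d ^ m = c :=
    fun c _ => IsAlgClosed.exists_pow_nat_eq c hm0
  obtain ⟨a, Y₁, Y₂, γ, ha, hγ, hρ1, hρ2, hY1L, hY2L, hY1k, hY2k, hrel, hrho⟩ :=
    H28GV.gv_kummer_form B (H28GV.gv_residue_unit A) (placeReductionModL h)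
      (isPlaceReductionModL_placeReductionModL h) hconst m hroot
      (D : Divisor (AlgebraicClosure ℚ) ↥(modularFunctionFieldBar N)) f hf hDf hprin
  -- membership in `F`
  have h₁ : coeffMap A.subtype Y₁ ∈
      laurentBaseChange (AlgebraicClosure ℚ) (modularFunctionFieldFull N) :=
    H28GV.gv_mem_base_of_full N hY1L
  have h₂ : coeffMap A.subtype Y₂ ∈
      laurentBaseChange (AlgebraicClosure ℚ) (modularFunctionFieldFull N) :=
    H28GV.gv_mem_base_of_full N hY2L
  set y₁ : ↥(modularFunctionFieldBar N) := ⟨coeffMap A.subtype Y₁, h₁⟩ with hy₁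
  set y₂ : ↥(modularFunctionFieldBar N) := ⟨coeffMap A.subtype Y₂, h₂⟩ with hy₂
  have hy₂0 : y₂ ≠ 0 := by
    intro h0
    have h4 : coeffMap A.subtype Y₂ = 0 := congrArg Subtype.val h0
    exact H28GV.gvEps_ne_zero_of_rho A (IsLocalRing.residue A) Y₂ hρ2 h4
  have hy₁0 : y₁ ≠ 0 := by
    intro h0
    have h4 : coeffMap A.subtype Y₁ = 0 := congrArg Subtype.val h0
    exact H28GV.gvEps_ne_zero_of_rho A (IsLocalRing.residue A) Y₁ hρ1 h4
  have ha' : algebraMap (AlgebraicClosure ℚ) ↥(modularFunctionFieldBar N) a ≠ 0 := by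
    rw [Ne, map_eq_zero]
    exact ha
  -- the relation in `F`
  have hrelF : f * y₂ = algebraMap (AlgebraicClosure ℚ) ↥(modularFunctionFieldBar N) a * y₁ := by
    apply Subtype.ext
    show (f : LaurentSeries (AlgebraicClosure ℚ)) * coeffMap A.subtype Y₂ =
      ((algebraMap (AlgebraicClosure ℚ) ↥(modularFunctionFieldBar N) a :
        ↥(modularFunctionFieldBar N)) : LaurentSeries (AlgebraicClosure ℚ)) *
        coeffMap A.subtype Y₁
    rw [H28GV.gv_coe_algebraMap]
    exact hrel
  have hord : ∀ P : Place (AlgebraicClosure ℚ) ↥(modularFunctionFieldBar N),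
      P.ord y₁ - P.ord y₂ = P.ord f := by
    intro P
    have h5 := congrArg P.ord hrelF
    rw [P.ord_mul hf hy₂0, P.ord_mul ha' hy₁0, RH24.h20_ord_algebraMap, zero_add] at h5
    omega
  -- step 4: `(K)_m`
  have hγs : (γ : LaurentSeries (IsLocalRing.ResidueField A)) ≠ 0 := fun h0 =>
    hγ (Subtype.ext h0)
  obtain ⟨g, hg, hgeq⟩ := hK m hm0 hm Y₁ Y₂ (γ : LaurentSeries (IsLocalRing.ResidueField A))
    h₁ h₂ hY1k hY2k hρ2 hγs γ.2 hrho (by
      intro P
      have h6 := hord P
      have h7 := hDf P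
      rw [Finsupp.smul_apply, nsmul_eq_mul] at h7
      exact ⟨(D : Divisor (AlgebraicClosure ℚ) ↥(modularFunctionFieldBar N)) P,
        h6.trans h7.symm⟩)
  set gF : ↥(modularFunctionFieldBar N) := ⟨g, hg⟩ with hgF
  have hgrel : y₁ = gF ^ m * y₂ := Subtype.ext hgeq
  have hgF0 : gF ≠ 0 := by
    intro h0
    rw [h0, zero_pow hm0.ne', zero_mul] at hgrel
    exact hy₁0 hgrel
  -- step 5: `D = div g`
  have hDg : ∀ P : Place (AlgebraicClosure ℚ) ↥(modularFunctionFieldBar N),
      (D : Divisor (AlgebraicClosure ℚ) ↥(modularFunctionFieldBar N)) P = P.ord gF := by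
    intro P
    have h6 := hord P
    have h7 := hDf P
    rw [Finsupp.smul_apply, nsmul_eq_mul] at h7
    have h8 : P.ord y₁ = (m : ℤ) * P.ord gF + P.ord y₂ := by
      rw [hgrel, P.ord_mul (pow_ne_zero m hgF0) hy₂0, ← zpow_natCast, P.ord_zpow]
    have h9 : (m : ℤ) * (D : Divisor (AlgebraicClosure ℚ) ↥(modularFunctionFieldBar N)) P =
        (m : ℤ) * P.ord gF := by
      rw [h7, ← h6, h8]
      ring
    exact mul_left_cancel₀ hmZ h9
  have hDprin : (D : Divisor (AlgebraicClosure ℚ) ↥(modularFunctionFieldBar N)) ∈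
      Divisor.principal (K := AlgebraicClosure ℚ) (F := ↥(modularFunctionFieldBar N)) :=
    ⟨gF, hgF0, hDg⟩
  exact (QuotientAddGroup.eq_zero_iff _).mpr (AddSubgroup.mem_addSubgroupOf.mpr hDprin)

end H27C10
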