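import Mathlib
import Fermat.Prelude.Def_AlgebraicCurve_DivisorClassGroup

/-!
# Item 75 (S18), slice C2-G5 (helper16): the centre of a place on `K[t]`

For a place `V` of `E/K` with `0 ≤ V.ord t`, the set of `f : K[X]` with `0 < V.ord (f(t))`
is a proper prime ideal of `K[X]`; if it contains an irreducible `P₁` it is `(P₁)`.

* `H16C2G5.h16_centre_dvd` (G5): `P₁` irreducible, `0 < V.ord (P₁(t))`, `0 < V.ord (f(t))` ⟹ `P₁ ∣ f`.
-/

namespace H16C2G5

open Polynomial AlgebraicCurve

variable {K : Type*} [Field K] {E : Type*} [Field E] [Algebra K E]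

/-- `0 ≤ ord x → x ∈ O_V` (also for `x = 0`). -/
theorem h16_mem_of_ord_nonneg (V : Place K E) {x : E} (hx : 0 ≤ V.ord x) :
    x ∈ V.toValuationSubring := by
  rcases eq_or_ne x 0 with rfl | h0
  · exact zero_mem _
  obtain ⟨π, hπ⟩ := IsDiscreteValuationRing.exists_irreducible V.toValuationSubring
  obtain ⟨u, hu⟩ := V.exists_unit_mul_zpow h0 hπ
  rw [hu, show V.ord x = (((V.ord x).toNat : ℕ) : ℤ) from (Int.toNat_of_nonneg hx).symm,
    zpow_natCast]
  exact mul_mem (u : V.toValuationSubring).2 (pow_mem (π : V.toValuationSubring).2 _)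

/-- an element of `O_V` of positive order lies in the maximal ideal. -/
theorem h16_mem_maximalIdeal_of_ord_pos (V : Place K E) (x : V.toValuationSubring)
    (hx : 0 < V.ord (x : E)) : x ∈ IsLocalRing.maximalIdeal V.toValuationSubring := by
  rw [IsLocalRing.mem_maximalIdeal, mem_nonunits_iff]
  intro hu
  obtain ⟨u, rfl⟩ := hu
  rw [V.ord_coe_unit u] at hx
  exact lt_irrefl _ hx

/-- polynomials in `t` over `K` lie in `O_V` when `t` does. -/
theorem h16_aeval_mem (V : Place K E) {t : E} (ht : t ∈ V.toValuationSubring) (g : K[X]) :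
    aeval t g ∈ V.toValuationSubring := by
  induction g using Polynomial.induction_on' with
  | add p q hp hq => rw [map_add]; exact add_mem hp hq
  | monomial n a =>
    rw [aeval_monomial]
    exact mul_mem (V.algebraMap_mem' a) (pow_mem ht n)

/-- the centre ideal of `V` on `K[X]` (via `X ↦ t`). -/
noncomputable def h16_centre (V : Place K E) (t : E) (ht : t ∈ V.toValuationSubring) : Ideal K[X] :=
  (IsLocalRing.maximalIdeal V.toValuationSubring).comap
    ((aeval (R := K) (⟨t, ht⟩ : V.toValuationSubring)) : K[X] →+* V.toValuationSubring)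

theorem h16_coe_aeval (V : Place K E) {t : E} (ht : t ∈ V.toValuationSubring) (g : K[X]) :
    ((aeval (R := K) (⟨t, ht⟩ : V.toValuationSubring) g : V.toValuationSubring) : E)
      = aeval t g := by
  have h := Polynomial.aeval_algHom_apply
    (IsScalarTower.toAlgHom K V.toValuationSubring E) (⟨t, ht⟩ : V.toValuationSubring) g
  simpa using h.symm

theorem h16_mem_centre (V : Place K E) {t : E} (ht : t ∈ V.toValuationSubring) (g : K[X])
    (hg : 0 < V.ord (aeval t g)) : g ∈ h16_centre V t ht := by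
  rw [h16_centre, Ideal.mem_comap]
  apply h16_mem_maximalIdeal_of_ord_pos
  rw [RingHom.coe_coe, h16_coe_aeval]
  exact hg

theorem h16_centre_ne_top (V : Place K E) {t : E} (ht : t ∈ V.toValuationSubring) :
    h16_centre V t ht ≠ ⊤ :=
  Ideal.comap_ne_top _ (IsLocalRing.maximalIdeal.isMaximal _).ne_top

/-- **G5** (centre of a place): if `0 ≤ V.ord t`, `P₁` is irreducible with `0 < V.ord (P₁(t))`
and `0 < V.ord (f(t))` then `P₁ ∣ f`. -/
theorem h16_centre_dvd (V : Place K E) (t : E) (hVt : 0 ≤ V.ord t)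
    (P₁ : K[X]) (hP₁ : Irreducible P₁) (hVP : 0 < V.ord (aeval t P₁))
    (f : K[X]) (hf : 0 < V.ord (aeval t f)) : P₁ ∣ f := by
  have ht : t ∈ V.toValuationSubring := h16_mem_of_ord_nonneg V hVt
  have hmax : (Ideal.span {P₁} : Ideal K[X]).IsMaximal :=
    PrincipalIdealRing.isMaximal_of_irreducible hP₁
  have hle : Ideal.span {P₁} ≤ h16_centre V t ht := by
    rw [Ideal.span_singleton_le_iff_mem]
    exact h16_mem_centre V ht P₁ hVP
  have heq : Ideal.span {P₁} = h16_centre V t ht :=
    hmax.eq_of_le (h16_centre_ne_top V ht) hle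
  have hfm : f ∈ Ideal.span {P₁} := by
    rw [heq]
    exact h16_mem_centre V ht f hf
  exact Ideal.mem_span_singleton.mp hfm

/-- G5 in the exact universe-0 shape requested by helper18. -/
theorem h16_centre_dvd0 {K : Type} [Field K] {E : Type} [Field E] [Algebra K E]
    (V : Place K E) (t : E) (hVt : 0 ≤ V.ord t)
    (P₁ : K[X]) (hP₁ : Irreducible P₁) (hVP : 0 < V.ord (aeval t P₁))
    (f : K[X]) (hf : 0 < V.ord (aeval t f)) : P₁ ∣ f :=
  h16_centre_dvd V t hVt P₁ hP₁ hVP f hf

/-- converse direction, useful for the dictionary: if `P₁ ∣ f`, `f(t) ≠ 0` and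
`0 < V.ord (P₁(t))` then `0 < V.ord (f(t))`. -/
theorem h16_ord_pos_of_dvd (V : Place K E) (t : E) (hVt : 0 ≤ V.ord t)
    (P₁ : K[X]) (hVP : 0 < V.ord (aeval t P₁))
    (f : K[X]) (hdvd : P₁ ∣ f) (hf0 : aeval t f ≠ 0) : 0 < V.ord (aeval t f) := by
  have ht : t ∈ V.toValuationSubring := h16_mem_of_ord_nonneg V hVt
  obtain ⟨g, rfl⟩ := hdvd
  rw [map_mul] at hf0 ⊢
  have hP0 : aeval t P₁ ≠ 0 := left_ne_zero_of_mul hf0
  have hg0 : aeval t g ≠ 0 := right_ne_zero_of_mul hf0
  rw [V.ord_mul hP0 hg0]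
  have hg : 0 ≤ V.ord (aeval t g) := by
    have hmem := h16_aeval_mem V ht g
    obtain ⟨π, hπ⟩ := IsDiscreteValuationRing.exists_irreducible V.toValuationSubring
    obtain ⟨n, u, hu⟩ :=
      IsDiscreteValuationRing.eq_unit_mul_pow_irreducible
        (x := (⟨aeval t g, hmem⟩ : V.toValuationSubring))
        (by simpa [Subtype.ext_iff] using hg0) hπ
    have hcoe : aeval t g = ((u : V.toValuationSubring) : E) * ((π : E) ^ (n : ℤ)) := by
      have h := congrArg (Subtype.val) hu
      push_cast at h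
      rw [zpow_natCast]
      exact h
    rw [hcoe, V.ord_unit_smul_zpow u hπ (n : ℤ)]
    exact Int.natCast_nonneg n
  omega

end H16C2G5
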