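import Mathlib
import Fermat.Agent.S18.DefsC

/-!
# S18 route Y', slice C6d (helper16): constants of the Kummer cover

`H16C6d.h16_constStatement : H7S18.ConstStatement`.

`K₁` algebraically closed in `F₁`, `[E₁ : F₁] = p` prime, `g ∈ E₁` with `g ^ p = u ∈ F₁`, and
`u` is not a `p`-th power in `F' ⊇ L ⊇ K₁` (`L` algebraically closed).  Then `K₁` is
algebraically closed in `E₁`.

Proof.  Let `x ∈ E₁` be algebraic over `K₁`.  `[F₁(x) : F₁]` divides `p`.  If it is `1` then
`x ∈ F₁` and we are done.  Otherwise `E₁ = F₁(x)`; the minimal polynomial of `x` over `F₁` divides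
the minimal polynomial over `K₁`, which splits in `L`, hence in `F'`: there is an
`F₁`-embedding `E₁ → F'`, and the image of `g` is a `p`-th root of `u` in `F'`.
-/

set_option autoImplicit false

open Polynomial IntermediateField

namespace H16C6d

theorem h16_constStatement : H7S18.ConstStatement := by
  intro K₁ _ _ L _ _ _ F₁ _ _ F' _ _ _ _ _ _ E₁ _ _ _ _ hcl p hp u g hg hfin _hgen hnot x hx
  classical
  have hfd : FiniteDimensional F₁ E₁ :=
    Module.finite_of_finrank_pos (by rw [hfin]; exact hp.pos)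
  have hxint : IsIntegral F₁ x := IsIntegral.of_finite F₁ x
  -- the degree of `F₁(x)` divides `p`
  have hdvd : Module.finrank F₁ F₁⟮x⟯ ∣ p := by
    have := Module.finrank_mul_finrank F₁ F₁⟮x⟯ E₁
    rw [hfin] at this
    exact Dvd.intro _ this
  rcases (Nat.dvd_prime hp).1 hdvd with h1 | h1
  · -- `x ∈ F₁`
    have hbot : F₁⟮x⟯ = ⊥ := IntermediateField.finrank_eq_one_iff.1 h1
    have hxmem : x ∈ (⊥ : IntermediateField F₁ E₁) := by
      rw [← hbot]
      exact IntermediateField.mem_adjoin_simple_self F₁ x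
    obtain ⟨y, rfl⟩ := IntermediateField.mem_bot.1 hxmem
    have hy : IsAlgebraic K₁ y :=
      (isAlgebraic_algebraMap_iff (algebraMap F₁ E₁).injective).1 hx
    obtain ⟨c, rfl⟩ := hcl y hy
    exact ⟨c, (IsScalarTower.algebraMap_apply K₁ F₁ E₁ c)⟩
  · -- `E₁ = F₁(x)`: contradiction
    exfalso
    have htop : F₁⟮x⟯ = ⊤ := by
      apply IntermediateField.eq_of_le_of_finrank_eq le_top
      rw [h1, IntermediateField.finrank_top', hfin]
    -- the minimal polynomial of `x` over `F₁` has a root in `F'`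
    have hxintK : IsIntegral K₁ x := hx.isIntegral
    have hdvd2 : minpoly F₁ x ∣ (minpoly K₁ x).map (algebraMap K₁ F₁) :=
      minpoly.dvd_map_of_isScalarTower K₁ F₁ x
    have hsplitL : ((minpoly K₁ x).map (algebraMap K₁ L)).Splits := IsAlgClosed.splits _
    have hsplitF' : ((minpoly K₁ x).map (algebraMap K₁ F')).Splits := by
      have := hsplitL.map (algebraMap L F')
      rwa [Polynomial.map_map, ← IsScalarTower.algebraMap_eq K₁ L F'] at this
    have hsplit : ((minpoly F₁ x).map (algebraMap F₁ F')).Splits := by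
      refine hsplitF'.of_dvd ?_ ?_
      · exact (Polynomial.map_ne_zero (minpoly.ne_zero hxintK))
      · have := Polynomial.map_dvd (algebraMap F₁ F') hdvd2
        rwa [Polynomial.map_map, ← IsScalarTower.algebraMap_eq K₁ F₁ F'] at this
    have hdeg : ((minpoly F₁ x).map (algebraMap F₁ F')).degree ≠ 0 := by
      rw [Polynomial.degree_map]
      exact (minpoly.degree_pos hxint).ne'
    obtain ⟨r, hr⟩ := hsplit.exists_eval_eq_zero hdeg
    have hrmem : r ∈ (minpoly F₁ x).aroots F' := by
      rw [Polynomial.mem_aroots]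
      refine ⟨minpoly.ne_zero hxint, ?_⟩
      rwa [Polynomial.aeval_def, ← Polynomial.eval_map]
    let φ : F₁⟮x⟯ →ₐ[F₁] F' := (IntermediateField.algHomAdjoinIntegralEquiv F₁ hxint).symm ⟨r, hrmem⟩
    have hgmem : g ∈ F₁⟮x⟯ := by rw [htop]; exact IntermediateField.mem_top
    apply hnot
    refine ⟨φ ⟨g, hgmem⟩, ?_⟩
    rw [← map_pow]
    have : (⟨g, hgmem⟩ : F₁⟮x⟯) ^ p = algebraMap F₁ F₁⟮x⟯ u := by
      apply Subtype.ext
      simpa using hg
    rw [this, AlgHom.commutes]

end H16C6d
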