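/-
helper19: S18 route Y', slice C6d: proof of `H7S18.ConstStatement`
(the constant field `K₁` stays algebraically closed in the Kummer cover `E₁ = F₁(g)`, `g^p = u`,
when `u` is not a `p`-th power in `F' = L · F₁`, `L` algebraically closed).
-/
import Mathlib
import Fermat.Agent.S18.DefsC

set_option autoImplicit false
set_option linter.unusedSectionVars false
set_option linter.style.haveILetI false

namespace H19S18

open Polynomial IntermediateField H7S18

/-- an element of a field extension `Ω` of an algebraically closed field `L` that is algebraic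
over `L` lies in `L`. -/
theorem h19_mem_range_of_isAlgebraic_of_isAlgClosed {L Ω : Type*} [Field L] [IsAlgClosed L]
    [Field Ω] [Algebra L Ω] (y : Ω) (hy : IsAlgebraic L y) : y ∈ (algebraMap L Ω).range := by
  apply minpoly.mem_range_of_degree_eq_one
  exact IsAlgClosed.degree_eq_one_of_irreducible L (minpoly.irreducible hy.isIntegral)

/-- **C6d (constants of the Kummer cover).** -/
theorem h19_ConstStatement : H7S18.ConstStatement := by
  intro K₁ _ _ L _ _ _ F₁ _ _ F' _ _ _ _ _ _ E₁ _ _ _ _ hF₁ p hp u g hg hrank hgen hnp x hx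
  classical
  haveI : FiniteDimensional F₁ E₁ :=
    Module.finite_of_finrank_pos (by rw [hrank]; exact hp.pos)
  -- case distinction: `F₁⟮x⟯ = ⊥` or `⊤`
  haveI : IsSimpleOrder (IntermediateField F₁ E₁) :=
    IntermediateField.isSimpleOrder_of_finrank_prime F₁ E₁ (by rw [hrank]; exact hp)
  rcases eq_bot_or_eq_top (F₁⟮x⟯) with hbot | htop
  · -- `x ∈ F₁`
    have hxmem : x ∈ (⊥ : IntermediateField F₁ E₁) :=
      IntermediateField.adjoin_simple_eq_bot_iff.mp hbot
    obtain ⟨f, rfl⟩ := IntermediateField.mem_bot.mp hxmem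
    have hf : IsAlgebraic K₁ f :=
      (isAlgebraic_algebraMap_iff (algebraMap F₁ E₁).injective).mp hx
    obtain ⟨k, rfl⟩ := hF₁ f hf
    exact ⟨k, by rw [← IsScalarTower.algebraMap_apply]⟩
  · -- `F₁⟮x⟯ = ⊤`: contradiction
    exfalso
    set Ω := AlgebraicClosure F' with hΩ
    let φ : E₁ →ₐ[F₁] Ω := IsAlgClosed.lift
    -- `φ x` lies in `L`
    have hxL : IsAlgebraic L (φ x) := by
      have h1 : IsAlgebraic K₁ (φ x) := by
        obtain ⟨q, hq0, hq⟩ := hx
        refine ⟨q, hq0, ?_⟩
        have h2 : aeval (φ x) q = φ (aeval x q) := by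
          rw [aeval_def, aeval_def]
          change _ = (φ : E₁ →+* Ω) _
          rw [Polynomial.hom_eval₂]
          congr 1
          ext k
          simp only [RingHom.coe_comp, Function.comp_apply, RingHom.coe_coe]
          rw [IsScalarTower.algebraMap_apply K₁ F₁ E₁, AlgHom.commutes,
            ← IsScalarTower.algebraMap_apply]
        rw [h2, hq, map_zero]
      exact h1.extendScalars (algebraMap K₁ L).injective
    obtain ⟨l, hl⟩ := h19_mem_range_of_isAlgebraic_of_isAlgClosed (φ x) hxL
    -- `g ∈ F₁[x]`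
    have hxalg : IsAlgebraic F₁ x := Algebra.IsAlgebraic.isAlgebraic x
    have hgmem : g ∈ Algebra.adjoin F₁ {x} := by
      have h1 : g ∈ F₁⟮x⟯ := by rw [htop]; trivial
      have h2 := IntermediateField.adjoin_simple_toSubalgebra_of_isAlgebraic hxalg
      have h3 : g ∈ (F₁⟮x⟯).toSubalgebra := h1
      rwa [h2] at h3
    obtain ⟨P, hP⟩ := Algebra.adjoin_mem_exists_aeval F₁ x hgmem
    -- the element `v ∈ F'`
    set v : F' := eval₂ (algebraMap F₁ F') (algebraMap L F' l) P with hv
    have hφg : φ g = algebraMap F' Ω v := by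
      rw [← hP, ← Polynomial.aeval_algHom_apply, aeval_def, hv, Polynomial.hom_eval₂]
      have e1 : (algebraMap F' Ω).comp (algebraMap F₁ F') = algebraMap F₁ Ω :=
        (IsScalarTower.algebraMap_eq F₁ F' Ω).symm
      have e2 : φ x = algebraMap F' Ω (algebraMap L F' l) := by
        rw [← hl, ← IsScalarTower.algebraMap_apply]
      rw [e1, e2]
    apply hnp
    refine ⟨v, ?_⟩
    apply (algebraMap F' Ω).injective
    rw [map_pow, ← hφg, ← map_pow, hg, AlgHom.commutes, ← IsScalarTower.algebraMap_apply]

end H19S18
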