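/-
Item 75 (S18), slice C6r (helper2): `H7S18.PlaceRestrictStatement`.

`E / F` an algebraic extension of fields over `K`; every place `V` of `E / K` restricts to a
place `W` of `F / K`, and `ord_V = e · ord_W` on `F` for some `e ≥ 1`.
-/
import Mathlib
import Fermat.Agent.S18.DefsC
import Fermat.Agent.S24.PlaceBasic

set_option autoImplicit false
set_option linter.unusedSectionVars false

noncomputable section

open AlgebraicCurve
open scoped WithZero

namespace H2C6r

section generic

variable {K : Type*} [Field K] {F : Type*} [Field F] [Algebra K F]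
  {E : Type*} [Field E] [Algebra K E] [Algebra F E] [IsScalarTower K F E]

/-- The restriction to `F` of the normalised valuation of a place of `E`. -/
def resVal (V : Place K E) : Valuation F ℤᵐ⁰ := V.adicValuation.comap (algebraMap F E)

theorem resVal_apply (V : Place K E) (f : F) :
    resVal (F := F) V f = V.adicValuation (algebraMap F E f) := rfl

theorem resVal_algebraMap_le (V : Place K E) (c : K) :
    resVal (F := F) V (algebraMap K F c) ≤ 1 := by
  rw [resVal_apply, ← IsScalarTower.algebraMap_apply,
    ← RH24.h20_mem_iff_adicValuation_le_one]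
  exact V.algebraMap_mem' c

/-- An algebraic extension of a field contained in a valuation ring is contained in it. -/
theorem mem_of_forall_mem (A : ValuationSubring E) [Algebra.IsAlgebraic F E]
    (h : ∀ f : F, algebraMap F E f ∈ A) (x : E) : x ∈ A := by
  have hx : IsIntegral F x := (Algebra.IsAlgebraic.isAlgebraic x).isIntegral
  let φ : F →+* A := (algebraMap F E).codRestrict A.toSubring h
  have hφ : (algebraMap A E).comp φ = algebraMap F E := by
    ext f; rfl
  have hxA : IsIntegral A x := by
    obtain ⟨p, hp, hpx⟩ := hx
    refine ⟨p.map φ, hp.map φ, ?_⟩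
    rw [Polynomial.eval₂_map, hφ]
    exact hpx
  obtain ⟨y, hy⟩ := (IsIntegrallyClosed.isIntegral_iff (R := A) (K := E)).mp hxA
  rw [← hy]
  exact y.2

theorem resVal_nontrivial (V : Place K E) [Algebra.IsAlgebraic F E] :
    ∃ f : F, resVal (F := F) V f ≠ 0 ∧ resVal (F := F) V f ≠ 1 := by
  by_contra hcon
  simp only [not_exists, not_and, not_not] at hcon
  apply V.ne_top'
  refine SetLike.ext fun x => ⟨fun _ => ValuationSubring.mem_top x, fun _ => ?_⟩
  refine mem_of_forall_mem (F := F) V.toValuationSubring (fun f => ?_) x
  rw [RH24.h20_mem_iff_adicValuation_le_one, ← resVal_apply]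
  by_cases hf : resVal (F := F) V f = 0
  · rw [hf]; exact zero_le_one
  · exact (hcon f hf).le

/-- The restriction of a place of `E / K` to `F`. -/
def resPlace (V : Place K E) [Algebra.IsAlgebraic F E] : Place K F :=
  RH24.h20_placeOfVal (resVal (F := F) V) (resVal_algebraMap_le V) (resVal_nontrivial V)

theorem mem_resPlace_iff (V : Place K E) [Algebra.IsAlgebraic F E] (f : F) :
    f ∈ (resPlace (F := F) V).toValuationSubring ↔ algebraMap F E f ∈ V.toValuationSubring := by
  rw [RH24.h20_mem_iff_adicValuation_le_one V, ← resVal_apply]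
  exact Valuation.mem_valuationSubring_iff _ _

/-- `ord_V = e · ord_W` on `F`, with `W = V ∩ F` and `e ≥ 1`. -/
theorem exists_ord_resPlace (V : Place K E) [Algebra.IsAlgebraic F E] :
    ∃ e : ℕ, 0 < e ∧
      ∀ f : F, V.ord (algebraMap F E f) = e * (resPlace (F := F) V).ord f := by
  obtain ⟨e, he, h⟩ := RH24.h20_val_eq_pow_ord (resPlace (F := F) V) (resVal (F := F) V) rfl
  refine ⟨e, he, fun f => ?_⟩
  rcases eq_or_ne f 0 with rfl | hf
  · simp
  have hf' : algebraMap F E f ≠ 0 := by simpa using hf
  have h1 := h f hf
  rw [resVal_apply, RH24.h20_adicValuation_eq V hf'] at h1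
  have h2 := WithZero.exp_injective h1
  omega

end generic

/-- **C6r**: restriction of places along an algebraic extension. -/
theorem placeRestrict : H7S18.PlaceRestrictStatement := by
  intro K _ F _ _ E _ _ _ _ _ V
  obtain ⟨e, he, h⟩ := exists_ord_resPlace (F := F) V
  exact ⟨resPlace (F := F) V, e, he, h⟩

end H2C6r

end
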