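import Mathlib
import Fermat.Agent.S18.C7Defs_helper28
import Fermat.Agent.S28.DegreeBounds

/-!
# S18 (item 75), route Y', slice C7b (helper12): `[F_k(N) : k(j)] = ψ(N)`

For every field `k` in which the primes dividing `N` are invertible:
* upper bound: S28 WP2 over an arbitrary field (`H28S28.h10_degreeUpperBoundC'`);
* lower bound: S28 WP3 over the algebraic closure `K` of `k` (`H26WP3.h26_induct'`) and descent
  from `K` to `k` (monomials in the `j(q^d)` are defined over `k`; linear independence over
  `K(j)` implies linear independence over `k(j)`).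
-/

set_option autoImplicit false
set_option linter.style.haveILetI false
set_option linter.unusedSectionVars false

open ModularCurve HahnSeries Polynomial IntermediateField

noncomputable section

namespace H12C7b

open H28S28

section Pullback

variable (k : Type) [Field k] (K : Type) [Field K] [Algebra k K]

/-- The coefficient map `k((q)) → K((q))`. -/
def cmap : LaurentSeries k →+* LaurentSeries K := coeffMap (algebraMap k K)

theorem cmap_injective : Function.Injective (cmap k K) := (cmap k K).injective

theorem cmap_J : cmap k K (jqModC k) = jqModC K := coeffMap_jqModC _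

theorem cmap_algebraMap (r : k) :
    cmap k K (algebraMap k (LaurentSeries k) r) =
      algebraMap K (LaurentSeries K) (algebraMap k K r) := by
  rw [cmap, algebraMap_laurentSeries_eq_single, algebraMap_laurentSeries_eq_single,
    coeffMap_single]

theorem cmap_mem_base {a : LaurentSeries k} (ha : a ∈ adjoin k {jqModC k}) :
    cmap k K a ∈ adjoin K {jqModC K} := by
  induction ha using IntermediateField.adjoin_induction with
  | mem x hx =>
    rw [Set.mem_singleton_iff] at hx
    rw [hx, cmap_J]
    exact subset_adjoin K _ (Set.mem_singleton _)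
  | algebraMap r =>
    rw [cmap_algebraMap]
    exact IntermediateField.algebraMap_mem _ _
  | add x y _ _ hx hy =>
    rw [map_add]
    exact add_mem hx hy
  | inv x _ hx =>
    rw [map_inv₀]
    exact inv_mem hx
  | mul x y _ _ hx hy =>
    rw [map_mul]
    exact mul_mem hx hy

theorem cmap_monomial (N : ℕ) {x : LaurentSeries K}
    (hx : x ∈ Submonoid.closure (divisorExpansionsC K N)) :
    ∃ y ∈ Submonoid.closure (divisorExpansionsC k N), cmap k K y = x := by
  induction hx using Submonoid.closure_induction with
  | mem x hx =>
    obtain ⟨d, hd, hdN, rfl⟩ := hx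
    have := hd
    refine ⟨qExpand k d (jqModC k), Submonoid.subset_closure ⟨d, hd, hdN, rfl⟩, ?_⟩
    rw [cmap, coeffMap_qExpand, coeffMap_jqModC]
  | one => exact ⟨1, one_mem _, map_one _⟩
  | mul x y _ _ hx hy =>
    obtain ⟨x', hx', rfl⟩ := hx
    obtain ⟨y', hy', rfl⟩ := hy
    exact ⟨x' * y', mul_mem hx' hy', map_mul _ _ _⟩

end Pullback

section Descent

/-- descent of the lower bound from `K ⊇ k` to `k`: a finite family of `ψ(N)` elements of
`F_k(N)`, linearly independent over `k(j)` -/
theorem descent (N : ℕ) [NeZero N] (k : Type) [Field k] (K : Type) [Field K] [Algebra k K]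
    (h : dedekindPsi N ≤ IntermediateField.relfinrank
      (IntermediateField.adjoin K {jqModC K}) (modularFunctionFieldFullC K N)) :
    ∃ s : Finset (LaurentSeries k),
      (∀ x ∈ s, x ∈ modularFunctionFieldFullC k N) ∧
      LinearIndependent (↥(IntermediateField.adjoin k {jqModC k}))
        (fun x : s => (x : LaurentSeries k)) ∧
      s.card = dedekindPsi N := by
  classical
  have hA : adjoin K {jqModC K} ≤ adjoin K (divisorExpansionsC K N) := by
    rw [adjoin_le_iff, Set.singleton_subset_iff]
    exact jqModC_mem_full K N
  obtain ⟨t, htM, htli, htcard⟩ :=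
    H18WP3.h18_exists_indep_monomials (divisorExpansionsC K N) _ hA _ h
  have hpre : ∀ x : t, ∃ y ∈ Submonoid.closure (divisorExpansionsC k N),
      cmap k K y = x := fun x => cmap_monomial k K N (htM x x.2)
  choose y hyM hy using hpre
  have hyinj : Function.Injective y := fun a b hab => Subtype.ext (by rw [← hy a, ← hy b, hab])
  have hyli : LinearIndependent (adjoin k {jqModC k}) y := by
    rw [linearIndependent_iff']
    intro u g hsum i hi
    have h1 := congrArg (cmap k K) hsum
    rw [map_sum, map_zero] at h1
    have hterm : ∀ j : t, cmap k K (g j • y j) =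
        (⟨cmap k K (g j), cmap_mem_base k K (g j).2⟩ : adjoin K {jqModC K}) •
          (j : LaurentSeries K) := by
      intro j
      rw [IntermediateField.smul_def, IntermediateField.smul_def, smul_eq_mul, smul_eq_mul,
        map_mul, hy]
    simp_rw [hterm] at h1
    have h2 := (linearIndependent_iff'.mp htli) u
      (fun j => (⟨cmap k K (g j), cmap_mem_base k K (g j).2⟩ : adjoin K {jqModC K})) h1 i hi
    have h3 : cmap k K (g i) = 0 := congrArg Subtype.val h2
    have h4 : (g i : LaurentSeries k) = 0 :=
      cmap_injective k K (by rw [h3, map_zero])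
    exact Subtype.ext h4
  refine ⟨Finset.univ.image y, ?_, ?_, ?_⟩
  · intro x hx
    obtain ⟨a, -, rfl⟩ := Finset.mem_image.mp hx
    have hle : Submonoid.closure (divisorExpansionsC k N) ≤
        (modularFunctionFieldFullC k N).toSubalgebra.toSubmonoid := by
      rw [Submonoid.closure_le]
      exact subset_adjoin k _
    exact hle (hyM a)
  · have h1 : LinearIndepOn (adjoin k {jqModC k}) id (Set.range y) :=
      hyli.linearIndepOn_id
    have h2 : ((Finset.univ.image y : Finset (LaurentSeries k)) :
        Set (LaurentSeries k)) = Set.range y := by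
      rw [Finset.coe_image, Finset.coe_univ, Set.image_univ]
    rw [← h2] at h1
    exact h1
  · rw [Finset.card_image_of_injective _ hyinj, Finset.card_univ, Fintype.card_coe, htcard]

end Descent

section Degree

variable (k : Type) [Field k] (N : ℕ) [NeZero N]

theorem base_le : adjoin k {jqModC k} ≤ modularFunctionFieldFullC k N := by
  rw [adjoin_le_iff, Set.singleton_subset_iff]
  exact jqModC_mem_full k N

/-- `F_k(N)` as an extension of `k(j)` -/
abbrev EE : IntermediateField (adjoin k {jqModC k}) (LaurentSeries k) :=
  extendScalars (base_le k N)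

/-- upper bound for the rank -/
theorem rank_le_psi :
    Module.rank (adjoin k {jqModC k}) (EE k N) ≤ ((dedekindPsi N : ℕ) : Cardinal) := by
  classical
  apply rank_le
  intro t ht
  have hg : Function.Injective (Subtype.val : EE k N → LaurentSeries k) := Subtype.val_injective
  have hcard : (t.image (Subtype.val : EE k N → LaurentSeries k)).card = t.card :=
    Finset.card_image_of_injective t hg
  rw [← hcard]
  apply h10_degreeUpperBoundC' k N (fun p hp _ => h10_hasModEq_all p hp)
  · intro x hx
    obtain ⟨y, _, rfl⟩ := Finset.mem_image.mp hx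
    exact (mem_extendScalars (base_le k N)).mp y.2
  · have h1 : LinearIndependent (adjoin k {jqModC k})
        (⇑((EE k N).val.toLinearMap) ∘ fun x : ↥t => (x : EE k N)) :=
      ht.map' (EE k N).val.toLinearMap (LinearMap.ker_eq_bot.mpr Subtype.val_injective)
    have h2 : LinearIndependent (adjoin k {jqModC k})
        (fun x : ↥(Set.range (⇑((EE k N).val.toLinearMap) ∘ fun x : ↥t => (x : EE k N))) =>
          (x : LaurentSeries k)) := h1.linearIndepOn_id
    let f : ↥(t.image (Subtype.val : EE k N → LaurentSeries k)) →
        ↥(Set.range (⇑((EE k N).val.toLinearMap) ∘ fun x : ↥t => (x : EE k N))) := fun x => ⟨x.1, by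
          obtain ⟨y, hy, hxy⟩ := Finset.mem_image.mp x.2
          exact ⟨⟨y, hy⟩, hxy⟩⟩
    have hf : Function.Injective f := by
      intro a b hab
      have h3 : (f a).1 = (f b).1 := congrArg Subtype.val hab
      exact Subtype.ext h3
    exact h2.comp f hf

theorem finite_ext : Module.Finite (adjoin k {jqModC k}) (EE k N) :=
  IsNoetherian.iff_fg.mp
    (IsNoetherian.iff_rank_lt_aleph0.mpr
      (lt_of_le_of_lt (rank_le_psi k N) Cardinal.natCast_lt_aleph0))

/-- **the degree, inside `k((q))`** -/
theorem relfinrank_eq (hchar : ∀ r : ℕ, r.Prime → r ∣ N → (r : k) ≠ 0) :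
    relfinrank (adjoin k {jqModC k}) (modularFunctionFieldFullC k N) = dedekindPsi N := by
  classical
  rw [relfinrank_eq_finrank_of_le (base_le k N)]
  haveI := finite_ext k N
  apply le_antisymm (Module.finrank_le_of_rank_le (rank_le_psi k N))
  -- lower bound over the algebraic closure
  have hK : dedekindPsi N ≤ relfinrank (adjoin (AlgebraicClosure k) {jqModC (AlgebraicClosure k)})
      (modularFunctionFieldFullC (AlgebraicClosure k) N) := by
    apply H26WP3.h26_induct' (AlgebraicClosure k) N (fun p hp _ => h10_hasModEq_all p hp)
    intro r hr hrN h0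
    apply hchar r hr hrN
    have h1 : algebraMap k (AlgebraicClosure k) (r : k) = 0 := by
      rw [map_natCast]; exact h0
    exact (map_eq_zero _).mp h1
  obtain ⟨s, hsM, hsli, hscard⟩ := descent N k (AlgebraicClosure k) hK
  rw [← hscard]
  let v : s → EE k N := fun x => ⟨x.1, (mem_extendScalars (base_le k N)).mpr (hsM x.1 x.2)⟩
  have hv : LinearIndependent (adjoin k {jqModC k}) v := by
    apply LinearIndependent.of_comp (EE k N).val.toLinearMap
    exact hsli
  have := hv.fintype_card_le_finrank
  rwa [Fintype.card_coe] at this

end Degree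

/-- **C7b** -/
theorem c7Deg : H28UG.C7DegStatement := by
  intro k _ N _ hchar M hM j hj
  subst hM
  rw [← relfinrank_eq k N hchar, ← relfinrank_top_right,
    ← relfinrank_map_map _ _ (modularFunctionFieldFullC k N).val, adjoin_map, Set.image_singleton,
    ← AlgHom.fieldRange_eq_map, IntermediateField.fieldRange_val]
  congr 2
  rw [← hj]
  rfl

end H12C7b
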