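import Mathlib
import Fermat.Agent.S18.C7Defs_helper28
import Fermat.Agent.S28.WP2
import Fermat.Agent.S28.DegreeBounds
import Fermat.Agent.S18.GVBasisGen_helper28

/-!
# Item 75 (S18), slice C7b (helper27): `[F_k(N) : k(j)] = ψ(N)`

`h27c7b_deg : H28UG.C7DegStatement`: for every field `k` in which the primes dividing `N` are
invertible, `Module.finrank ↥k⟮j⟯ ↥M = dedekindPsi N` for `M = modularFunctionFieldFullC k N`.

`≥` is S28 WP3 over the algebraic closure, descended by helper28
(`H28GV.gv_basis_nonempty_gen`), `≤` is S28 WP2 (`H28S28.h10_tower`); the transfer from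
`relfinrank` inside `k((q))` to the `finrank` of subtypes is `relfinrank_map_map`.
-/

set_option autoImplicit false
set_option linter.style.longLine false
set_option linter.unusedSectionVars false
set_option linter.style.haveILetI false

noncomputable section

open ModularCurve IntermediateField

namespace H27C7b

/-- transfer: the degree of `M / k(j)` as a `finrank` of subtypes is the `relfinrank` inside the
ambient field -/
theorem h27c7b_finrank_eq_relfinrank {k E : Type*} [Field k] [Field E] [Algebra k E]
    (M : IntermediateField k E) (j : ↥M) :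
    Module.finrank ↥k⟮j⟯ ↥M = relfinrank (adjoin k {(j : E)}) M := by
  rw [← relfinrank_top_right, ← relfinrank_map_map (k⟮j⟯) (⊤ : IntermediateField k ↥M) M.val,
    IntermediateField.adjoin_map, Set.image_singleton, ← AlgHom.fieldRange_eq_map,
    IntermediateField.fieldRange_val]
  rfl

theorem h27c7b_adjoin_le (k : Type) [Field k] (N : ℕ) [NeZero N] :
    adjoin k {jqModC k} ≤ modularFunctionFieldFullC k N := by
  rw [adjoin_le_iff]
  rintro x rfl
  exact jqModC_mem_full k N

/-- `[F_k(N) : k(j)] ≤ ψ(N)` in `finrank` form, with finite-dimensionality -/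
theorem h27c7b_finrank_le (k : Type) [Field k] (N : ℕ) [NeZero N] :
    FiniteDimensional ↥(adjoin k {jqModC k}) ↥(extendScalars (h27c7b_adjoin_le k N)) ∧
    Module.finrank ↥(adjoin k {jqModC k}) ↥(extendScalars (h27c7b_adjoin_le k N)) ≤
      dedekindPsi N := by
  obtain ⟨E, hfd, hrank, hmem⟩ := H28S28.h10_tower k N (NeZero.ne N)
    (H28S28.h10_hasPolys_of_hasModEq N (fun p hp _ => H28S28.h10_hasModEq_all p hp))
  haveI := hfd
  have hle := H28S28.h10_full_le k N E hmem
  have h2 : extendScalars (h27c7b_adjoin_le k N) ≤ E := fun x hx => hle hx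
  have h3 : FiniteDimensional ↥(adjoin k {jqModC k})
      ↥(extendScalars (h27c7b_adjoin_le k N)) := by
    haveI : FiniteDimensional ↥(adjoin k {jqModC k}) ↥E.toSubalgebra.toSubmodule := hfd
    exact Submodule.finiteDimensional_of_le
      (S₁ := (extendScalars (h27c7b_adjoin_le k N)).toSubalgebra.toSubmodule)
      (S₂ := E.toSubalgebra.toSubmodule) h2
  exact ⟨h3, (IntermediateField.finrank_le_of_le_right h2).trans hrank⟩

/-- `ψ(N) ≤ [F_k(N) : k(j)]` in `finrank` form -/
theorem h27c7b_le_finrank (k : Type) [Field k] (N : ℕ) [NeZero N]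
    (hchar : ∀ r : ℕ, r.Prime → r ∣ N → (r : k) ≠ 0) :
    dedekindPsi N ≤
      Module.finrank ↥(adjoin k {jqModC k}) ↥(extendScalars (h27c7b_adjoin_le k N)) := by
  haveI := (h27c7b_finrank_le k N).1
  obtain ⟨B⟩ := H28GV.gv_basis_nonempty_gen (⊤ : ValuationSubring k)
    (⊤ : ValuationSubring k).subtype N hchar
  set v : Fin (dedekindPsi N) → ↥(extendScalars (h27c7b_adjoin_le k N)) :=
    fun i => ⟨H28GV.gvRho (⊤ : ValuationSubring k) (⊤ : ValuationSubring k).subtype (B.y i),
      B.rho_mem i⟩ with hv
  have hli : LinearIndependent ↥(adjoin k {jqModC k}) v := by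
    apply LinearIndependent.of_comp (extendScalars (h27c7b_adjoin_le k N)).val.toLinearMap
    exact B.li
  have hcard := hli.fintype_card_le_finrank
  rwa [Fintype.card_fin] at hcard

/-- **C7b** -/
theorem h27c7b_deg : H28UG.C7DegStatement := by
  intro k _ N _ hchar M hM j hj
  subst hM
  rw [h27c7b_finrank_eq_relfinrank, hj, relfinrank_eq_finrank_of_le (h27c7b_adjoin_le k N)]
  exact le_antisymm (h27c7b_finrank_le k N).2 (h27c7b_le_finrank k N hchar)

end H27C7b
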