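import Fermat.Agent.S18.C9Trunc_helper4
import Fermat.Agent.S16.B3Formal_helper19

/-!
# Item 75 (S18), slice C9 (helper4): the Hauptmodul identities of level 2 and 3 modulo `q^17`

With `D = q ∏ (1 - qⁿ)^24`, `D₂ = D(q²)`, `D₃ = D(q³)` and `E₄ = 1 + 240 ∑ σ₃(n) qⁿ` in `ℤ[[q]]`:

* `H4HM.tr_A2` : `E₄³ D D₂ - (D + 256 D₂)³ ≡ 0 mod q^17`;
* `H4HM.tr_A3` : `D D₃ (E₄³ - 756 D - 19131876 D₃)² - (D² + 196830 D D₃ + 3^18 D₃²)² ≡ 0 mod q^17`.

All coefficient computations are done by the kernel (`decide +kernel`) on explicit lists.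
-/

set_option autoImplicit false

namespace H4HM

open ModularCurve PowerSeries

/-- `Δ` as a formal power series -/
noncomputable def Dser : PowerSeries ℤ := PowerSeries.X * dedekindEtaUnit

/-- the identity of level `2` as a formal power series (to be shown to vanish) -/
noncomputable def A2 : PowerSeries ℤ :=
  eisenstein4 * eisenstein4 * eisenstein4 * (Dser * dil 2 Dser)
    - (Dser + PowerSeries.C 256 * dil 2 Dser) * (Dser + PowerSeries.C 256 * dil 2 Dser)
      * (Dser + PowerSeries.C 256 * dil 2 Dser)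

/-- the auxiliary series `E₄³ - 756 Δ - 19131876 Δ₃` -/
noncomputable def X3 : PowerSeries ℤ :=
  eisenstein4 * eisenstein4 * eisenstein4 - PowerSeries.C 756 * Dser
    - PowerSeries.C 19131876 * dil 3 Dser

/-- the auxiliary series `Δ² + 196830 Δ Δ₃ + 3^18 Δ₃²` -/
noncomputable def Y3 : PowerSeries ℤ :=
  Dser * Dser + PowerSeries.C 196830 * (Dser * dil 3 Dser)
    + PowerSeries.C 387420489 * (dil 3 Dser * dil 3 Dser)

/-- the identity of level `3` as a formal power series (to be shown to vanish) -/
noncomputable def A3 : PowerSeries ℤ :=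
  Dser * dil 3 Dser * (X3 * X3) - Y3 * Y3

theorem tr_E4 :
    tr 17 eisenstein4 =
      [1, 240, 2160, 6720, 17520, 30240, 60480, 82560, 140400, 181680, 272160, 319680, 490560, 527520, 743040, 846720, 1123440] := by
  rw [eisenstein4, tr_mk]
  decide +kernel

theorem tr_E6 :
    tr 17 H19S16.h19_e6 =
      [1, -504, -16632, -122976, -532728, -1575504, -4058208, -8471232, -17047800, -29883672, -51991632, -81170208, -129985632, -187132176, -279550656, -384422976, -545530104] := by
  rw [H19S16.h19_e6, tr_mk]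
  decide +kernel

theorem tr_E4sq :
    tr 17 (eisenstein4 * eisenstein4) =
      [1, 480, 61920, 1050240, 7926240, 37500480, 135480960, 395301120, 1014559200, 2296875360, 4837561920, 9353842560, 17342613120, 30119288640, 50993844480, 82051050240, 129863578080] := by
  rw [tr_mul, tr_E4]
  decide +kernel

theorem tr_E4cube :
    tr 17 (eisenstein4 * eisenstein4 * eisenstein4) =
      [1, 720, 179280, 16954560, 396974160, 4632858720, 34413301440, 187477879680, 814940600400, 2975469665040, 9486467837280, 27053330840640, 70485969919680, 169930679355360, 384163875688320, 820167497170560, 1668890801059920] := by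
  rw [tr_mul _ (eisenstein4 * eisenstein4) eisenstein4, tr_E4sq, tr_E4]
  decide +kernel

theorem tr_E6sq :
    tr 17 (H19S16.h19_e6 * H19S16.h19_e6) =
      [1, -1008, 220752, 16519104, 399517776, 4624512480, 34423752384, 187506813312, 814794618960, 2975666040144, 9486668147040, 27052407031104, 70486610910912, 169931677686624, 384163181281152, 820165393918080, 1668889095288912] := by
  rw [tr_mul, tr_E6]
  decide +kernel

theorem tr_D :
    tr 17 Dser =
      [0, 1, -24, 252, -1472, 4830, -6048, -16744, 84480, -113643, -115920, 534612, -370944, -577738, 401856, 1217160, 987136] := by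
  have h := H19S16.h19_formal_rel
  rw [show (1728 : PowerSeries ℤ) = PowerSeries.C (1728 : ℤ) from
    (map_ofNat PowerSeries.C 1728).symm, pow_succ, pow_succ, pow_one, pow_two] at h
  refine lsmul_cancel (c := 1728) (by norm_num) (by decide) ?_
  show tr 17 (PowerSeries.C 1728 * (PowerSeries.X * dedekindEtaUnit)) = _
  rw [← h, tr_sub, tr_E4cube, tr_E6sq]
  decide +kernel

theorem tr_D2 :
    tr 17 (dil 2 Dser) =
      [0, 0, 1, 0, -24, 0, 252, 0, -1472, 0, 4830, 0, -6048, 0, -16744, 0, 84480] := by
  rw [tr_dil, tr_D]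
  decide +kernel

theorem tr_D3 :
    tr 17 (dil 3 Dser) =
      [0, 0, 0, 1, 0, 0, -24, 0, 0, 252, 0, 0, -1472, 0, 0, 4830, 0] := by
  rw [tr_dil, tr_D]
  decide +kernel

theorem tr_DD2 :
    tr 17 (Dser * dil 2 Dser) =
      [0, 0, 0, 1, -24, 228, -896, -966, 23232, -70632, -105984, 1139259, -1616672, -6856092, 25638144, 4388766, -164169216] := by
  rw [tr_mul, tr_D, tr_D2]
  decide +kernel

theorem tr_DD3 :
    tr 17 (Dser * dil 3 Dser) =
      [0, 0, 0, 0, 1, -24, 252, -1496, 5406, -12096, 18836, -37488, 95013, -86480, -240420, 461448, 156468] := by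
  rw [tr_mul, tr_D, tr_D3]
  decide +kernel

theorem tr_S2 :
    tr 17 (Dser + PowerSeries.C 256 * dil 2 Dser) =
      [0, 1, 232, 252, -7616, 4830, 58464, -16744, -292352, -113643, 1120560, 534612, -1919232, -577738, -3884608, 1217160, 22614016] := by
  rw [tr_add, tr_smul, tr_D, tr_D2]
  decide +kernel

theorem tr_S2sq :
    tr 17 ((Dser + PowerSeries.C 256 * dil 2 Dser) * (Dser + PowerSeries.C 256 * dil 2 Dser)) =
      [0, 0, 1, 464, 54328, 101696, -3460660, -1480416, 87531584, -52458624, -1011512338, 621972208, 8173130912, -2241968832, -52692169096, -2059497888, 252607098368] := by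
  rw [tr_mul, tr_S2]
  decide +kernel

theorem tr_A2 :
    tr 17 A2 =
      [0, 0, 0, 0, 0, 0, 0, 0, 0, 0, 0, 0, 0, 0, 0, 0, 0] := by
  have h1 : tr 17 (eisenstein4 * eisenstein4 * eisenstein4 * (Dser * dil 2 Dser)) =
      lmul 17 (tr 17 (eisenstein4 * eisenstein4 * eisenstein4)) (tr 17 (Dser * dil 2 Dser)) :=
    tr_mul _ _ _
  have h2 : tr 17 ((Dser + PowerSeries.C 256 * dil 2 Dser) * (Dser + PowerSeries.C 256 * dil 2 Dser)
      * (Dser + PowerSeries.C 256 * dil 2 Dser)) =
      lmul 17 (tr 17 ((Dser + PowerSeries.C 256 * dil 2 Dser) * (Dser + PowerSeries.C 256 * dil 2 Dser)))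
        (tr 17 (Dser + PowerSeries.C 256 * dil 2 Dser)) := tr_mul _ _ _
  rw [A2, tr_sub, h1, h2, tr_E4cube, tr_DD2, tr_S2sq, tr_S2]
  decide +kernel

theorem tr_X3 :
    tr 17 X3 =
      [1, -36, 197424, -2367828, 398086992, 4629207240, 34877038752, 187490538144, 814876733520, 2970734346396, 9486555472800, 27052926673968, 70514412474816, 169931116125288, 384163571885184, 820074170036520, 1668890054785104] := by
  rw [X3, tr_sub, tr_sub, tr_smul, tr_smul, tr_E4cube, tr_D, tr_D3]
  decide +kernel

theorem tr_Dsq :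
    tr 17 (Dser * Dser) =
      [0, 0, 1, -48, 1080, -15040, 143820, -985824, 4857920, -16295040, 28412910, 38671600, -424520544, 1268350272, -1211937160, -4306546080, 18293091840] := by
  rw [tr_mul, tr_D]
  decide +kernel

theorem tr_D3sq :
    tr 17 (dil 3 Dser * dil 3 Dser) =
      [0, 0, 0, 0, 0, 0, 1, 0, 0, -48, 0, 0, 1080, 0, 0, -15040, 0] := by
  rw [tr_mul, tr_D3]
  decide +kernel

theorem tr_Y3 :
    tr 17 Y3 =
      [0, 0, 1, -48, 197910, -4738960, 437165469, -295443504, 1068920900, -20993334192, 3735902790, -7340091440, 436691016366, -15753508128, -48533805760, -5740283890800, 49090688280] := by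
  rw [Y3, tr_add, tr_add, tr_smul, tr_smul, tr_Dsq, tr_DD3, tr_D3sq]
  decide +kernel

theorem tr_X3sq :
    tr 17 (X3 * X3) =
      [1, -72, 396144, -18950184, 39942893376, -954335999088, 162526913211024, -59505997601088, 150310179590128992, 3594466247553264312, 48631417400980693152, 469494553014161059680, 3590732165460948648864, 22953669471447451867728, 126950632927311897842688, 621886626324436636458576, 2745675023060155245187104] := by
  rw [tr_mul, tr_X3]
  decide +kernel

theorem tr_Y3sq :
    tr 17 (Y3 * Y3) =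
      [0, 0, 0, 0, 1, -96, 398124, -28477280, 40497639198, -1918333919232, 195527078239364, -4260506392772544, 194338960283947653, -276756497621582912, 1222330942278791628, -19025088944838264288, 17056116962597468244] := by
  rw [tr_mul, tr_Y3]
  decide +kernel

theorem tr_A3 :
    tr 17 A3 =
      [0, 0, 0, 0, 0, 0, 0, 0, 0, 0, 0, 0, 0, 0, 0, 0, 0] := by
  have h1 : tr 17 (Dser * dil 3 Dser * (X3 * X3)) =
      lmul 17 (tr 17 (Dser * dil 3 Dser)) (tr 17 (X3 * X3)) := tr_mul _ _ _
  rw [A3, tr_sub, h1, tr_DD3, tr_X3sq, tr_Y3sq]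
  decide +kernel

/-- the coefficients of `A2` of index `< 17` vanish -/
theorem coeff_A2 {i : ℕ} (hi : i < 17) : PowerSeries.coeff i A2 = 0 := by
  have h := tr_getD hi A2
  rw [tr_A2] at h
  rw [← h]
  interval_cases i <;> rfl

/-- the coefficients of `A3` of index `< 17` vanish -/
theorem coeff_A3 {i : ℕ} (hi : i < 17) : PowerSeries.coeff i A3 = 0 := by
  have h := tr_getD hi A3
  rw [tr_A3] at h
  rw [← h]
  interval_cases i <;> rfl

end H4HM
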