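import Mathlib
import Fermat.Prelude.Def_ModularCurve_X0
import Fermat.Agent.Kum.KLList

/-!
# S18 route Y', slice C9 (helper16), part 1: certified truncated power-series arithmetic

`H16C9.Tr n a l` : the list `l : List ℤ` gives the first `n` coefficients of `a : PowerSeries ℤ`.
Closed under `+`, `*`, scalar multiples, powers, and `List.take n`; the list operations are the
structurally recursive `ladd`, `lmul`, `lsmul` of `Kum/KLList`, which the kernel can evaluate.

Base cases: `eisenstein4`, `etaProd` (finite products), `X`.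
-/

set_option autoImplicit false

open Fermat.Agent.H7KL

namespace H16C9

/-- `l` lists the first `n` coefficients of `a` -/
def Tr (n : ℕ) (a : PowerSeries ℤ) (l : List ℤ) : Prop :=
  ∀ i, i < n → PowerSeries.coeff i a = l.getD i 0

theorem h16c9_getD_ladd (a b : List ℤ) (i : ℕ) :
    (ladd a b).getD i 0 = a.getD i 0 + b.getD i 0 := by
  rw [← coeff_lOfList, ← coeff_lOfList, ← coeff_lOfList, lOfList_ladd, Polynomial.coeff_add]

theorem h16c9_getD_lsmul (c : ℤ) (a : List ℤ) (i : ℕ) :
    (lsmul c a).getD i 0 = c * a.getD i 0 := by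
  rw [← coeff_lOfList, ← coeff_lOfList, lOfList_lsmul, Polynomial.coeff_C_mul]

theorem h16c9_getD_lmul (a b : List ℤ) (i : ℕ) :
    (lmul a b).getD i 0 =
      ∑ p ∈ Finset.HasAntidiagonal.antidiagonal i, a.getD p.1 0 * b.getD p.2 0 := by
  rw [← coeff_lOfList, lOfList_lmul, Polynomial.coeff_mul]
  refine Finset.sum_congr rfl fun p _ => ?_
  rw [coeff_lOfList, coeff_lOfList]

variable {n : ℕ} {a b : PowerSeries ℤ} {la lb : List ℤ}

theorem Tr.add (ha : Tr n a la) (hb : Tr n b lb) : Tr n (a + b) (ladd la lb) := by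
  intro i hi
  rw [map_add, ha i hi, hb i hi, h16c9_getD_ladd]

theorem Tr.mul (ha : Tr n a la) (hb : Tr n b lb) : Tr n (a * b) (lmul la lb) := by
  intro i hi
  rw [PowerSeries.coeff_mul, h16c9_getD_lmul]
  refine Finset.sum_congr rfl fun p hp => ?_
  have h := Finset.HasAntidiagonal.mem_antidiagonal.1 hp
  rw [ha p.1 (by omega), hb p.2 (by omega)]

theorem Tr.smul (c : ℤ) (ha : Tr n a la) : Tr n (PowerSeries.C c * a) (lsmul c la) := by
  intro i hi
  rw [PowerSeries.coeff_C_mul, ha i hi, h16c9_getD_lsmul]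

theorem Tr.neg (ha : Tr n a la) : Tr n (-a) (lsmul (-1) la) := by
  intro i hi
  rw [map_neg, ha i hi, h16c9_getD_lsmul]
  ring

theorem Tr.sub (ha : Tr n a la) (hb : Tr n b lb) :
    Tr n (a - b) (ladd la (lsmul (-1) lb)) := by
  rw [sub_eq_add_neg]
  exact ha.add hb.neg

theorem Tr.take (ha : Tr n a la) : Tr n a (la.take n) := by
  intro i hi
  rw [ha i hi]
  simp [List.getD_eq_getElem?_getD, hi]

theorem Tr.one : Tr n (1 : PowerSeries ℤ) [1] := by
  intro i _
  rw [PowerSeries.coeff_one]
  cases i <;> simp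

theorem Tr.X : Tr n (PowerSeries.X : PowerSeries ℤ) [0, 1] := by
  intro i _
  rw [PowerSeries.coeff_X]
  rcases i with _ | _ | i <;> simp

theorem Tr.congr {a' : PowerSeries ℤ} (ha : Tr n a la) (h : a = a') : Tr n a' la := h ▸ ha

theorem Tr.congr_list {la' : List ℤ} (ha : Tr n a la) (h : la = la') : Tr n a la' := h ▸ ha

/-- truncated multiplication -/
def tmul (n : ℕ) (a b : List ℤ) : List ℤ := (lmul a b).take n

theorem Tr.tmul (ha : Tr n a la) (hb : Tr n b lb) : Tr n (a * b) (tmul n la lb) :=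
  (ha.mul hb).take

/-- truncated power -/
def tpow (n : ℕ) (a : List ℤ) : ℕ → List ℤ
  | 0 => [1]
  | (k + 1) => tmul n (tpow n a k) a

theorem Tr.tpow (ha : Tr n a la) (k : ℕ) : Tr n (a ^ k) (tpow n la k) := by
  induction k with
  | zero => rw [pow_zero]; exact Tr.one
  | succ k ih => rw [pow_succ]; exact ih.tmul ha

/-- a series vanishes to order `n` if its truncated list is zero -/
theorem Tr.coeff_eq_zero (ha : Tr n a la) (h : ∀ i, i < n → la.getD i 0 = 0) (i : ℕ)
    (hi : i < n) : PowerSeries.coeff i a = 0 := by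
  rw [ha i hi, h i hi]

/-- `Tr` for a series given by a coefficient function -/
theorem Tr.mk (f : ℕ → ℤ) (n : ℕ) : Tr n (PowerSeries.mk f) ((List.range n).map f) := by
  intro i hi
  rw [PowerSeries.coeff_mk]
  simp [List.getD_eq_getElem?_getD, hi]

/-! ### the substitution `q ↦ q^N` -/

/-- `a(q^N)` -/
noncomputable def V (N : ℕ) (a : PowerSeries ℤ) : PowerSeries ℤ :=
  PowerSeries.mk fun i => if N ∣ i then PowerSeries.coeff (i / N) a else 0

/-- the list of `a(q^N)` -/
def lV (N : ℕ) (l : List ℤ) (n : ℕ) : List ℤ :=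
  (List.range n).map fun i => if N ∣ i then l.getD (i / N) 0 else 0

theorem Tr.V (N : ℕ) (ha : Tr n a la) : Tr n (V N a) (lV N la n) := by
  intro i hi
  unfold H16C9.V lV
  rw [PowerSeries.coeff_mk]
  simp only [List.getD_eq_getElem?_getD, List.getElem?_map, List.getElem?_range hi,
    Option.map_some, Option.getD_some]
  split_ifs with h
  · have h2 : i / N < n := lt_of_le_of_lt (Nat.div_le_self i N) hi
    rw [ha _ h2, List.getD_eq_getElem?_getD]
  · rfl

end H16C9

namespace H16C9

open scoped PowerSeries.WithPiTopology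
open ModularCurve

/-! ### base cases -/

/-- partial products of `∏ (1 - qᵏ)` -/
noncomputable def etaPart (m : ℕ) : PowerSeries ℤ :=
  ∏ k ∈ Finset.range m, (1 - PowerSeries.X ^ (k + 1))

theorem h16c9_coeff_etaPart_succ (i m : ℕ) (h : i ≤ m) :
    PowerSeries.coeff i (etaPart (m + 1)) = PowerSeries.coeff i (etaPart m) := by
  unfold etaPart
  rw [Finset.prod_range_succ, mul_sub, mul_one, map_sub, PowerSeries.coeff_mul_X_pow',
    if_neg (by omega), sub_zero]

theorem h16c9_coeff_etaPart_stable (i n m : ℕ) (hi : i < n) (hm : n ≤ m) :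
    PowerSeries.coeff i (etaPart m) = PowerSeries.coeff i (etaPart n) := by
  induction m, hm using Nat.le_induction with
  | base => rfl
  | succ m hm ih => rw [h16c9_coeff_etaPart_succ i m (by omega), ih]

theorem h16c9_coeff_etaProd (i n : ℕ) (hi : i < n) :
    PowerSeries.coeff i etaProd = PowerSeries.coeff i (etaPart n) := by
  have h1 : Filter.Tendsto (fun m : ℕ => ∏ k ∈ Finset.range m,
      ((1 : PowerSeries ℤ) - PowerSeries.X ^ (k + 1))) Filter.atTop (nhds etaProd) :=
    (PowerSeries.WithPiTopology.multipliable_one_sub_X_pow ℤ).hasProd.tendsto_prod_nat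
  have h2 : Filter.Tendsto (fun m : ℕ => PowerSeries.coeff i (etaPart m)) Filter.atTop
      (nhds (PowerSeries.coeff i etaProd)) :=
    ((PowerSeries.WithPiTopology.continuous_coeff ℤ i).tendsto _).comp h1
  have h3 : Filter.Tendsto (fun m : ℕ => PowerSeries.coeff i (etaPart m)) Filter.atTop
      (nhds (PowerSeries.coeff i (etaPart n))) := by
    refine tendsto_const_nhds.congr' ?_
    filter_upwards [Filter.eventually_ge_atTop n] with m hm
    exact (h16c9_coeff_etaPart_stable i n m hi hm).symm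
  exact tendsto_nhds_unique h2 h3

/-- the list of `1 - q^(m+1)` -/
def lOneSub (n m : ℕ) : List ℤ := ladd [1] (lsmul (-1) (tpow n [0, 1] (m + 1)))

theorem Tr.oneSub (n m : ℕ) : Tr n (1 - PowerSeries.X ^ (m + 1)) (lOneSub n m) :=
  Tr.sub Tr.one (Tr.tpow Tr.X (m + 1))

/-- the list of the partial product -/
def lEta (n : ℕ) : ℕ → List ℤ
  | 0 => [1]
  | (m + 1) => tmul n (lEta n m) (lOneSub n m)

theorem Tr.etaPart (n m : ℕ) : Tr n (etaPart m) (lEta n m) := by
  induction m with
  | zero =>
    unfold H16C9.etaPart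
    rw [Finset.prod_range_zero]
    exact Tr.one
  | succ m ih =>
    unfold H16C9.etaPart
    rw [Finset.prod_range_succ]
    exact Tr.tmul ih (Tr.oneSub n m)

theorem Tr.etaProd (n : ℕ) : Tr n etaProd (lEta n n) := by
  intro i hi
  rw [h16c9_coeff_etaProd i n hi]
  exact Tr.etaPart n n i hi

/-- the list of `Δ = q ∏ (1 - qᵏ)^24` -/
def lDelta (n : ℕ) : List ℤ := tmul n [0, 1] (tpow n (lEta n n) 24)

theorem Tr.delta (n : ℕ) : Tr n (PowerSeries.X * dedekindEtaUnit) (lDelta n) :=
  Tr.tmul Tr.X (Tr.tpow (Tr.etaProd n) 24)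

/-- the coefficients of `E₄` -/
def e4c (n : ℕ) : ℤ := if n = 0 then 1 else 240 * ∑ d ∈ n.divisors, (d : ℤ) ^ 3

/-- the list of `E₄` -/
def lE4 (n : ℕ) : List ℤ := (List.range n).map e4c

theorem Tr.e4 (n : ℕ) : Tr n eisenstein4 (lE4 n) := Tr.mk _ n

end H16C9
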