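import Mathlib
import Fermat.Agent.S18.C9List_helper16
import Fermat.Agent.S16.B1_helper16
import Fermat.Agent.H23.DeltaN
import Fermat.Agent.H23.Rel

/-!
# S18 route Y', slice C9 (helper16), part 2: the Hauptmodul identities as formal identities

With `E = eisenstein4`, `D = q ∏ (1 - qⁿ)^24` and `D_N = D(q^N)` in `ℤ⟦q⟧`:

* level 2 (`h16c9_level2`): `E³ · D · D₂ = (D + 256 D₂)³`;
* level 3 (`h16c9_level3`): `D₃ · D · (E³ - 756 D - 19131876 D₃)² = (D² + 196830 D D₃ + 387420489 D₃²)²`.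

Both are proved by the Sturm bound of the prelude (`ModularForm.sturm_bound_Gamma0`) for the
modular forms of weight `36` resp. `48` on `Γ₀(2)` resp. `Γ₀(3)`, the index bound
`[SL₂(ℤ) : Γ₀(p)] ≤ p + 1`, and a kernel-checked computation of the first `10` resp. `17`
coefficients.
-/

set_option autoImplicit false
set_option linter.style.haveILetI false
set_option linter.unusedSectionVars false

noncomputable section

open UpperHalfPlane ModularForm ModularFormClass CongruenceSubgroup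
open scoped MatrixGroups
open Fermat.Agent.H7KL H16S16

namespace H16C9

local notation "Γ₀(" N ")" => CongruenceSubgroup.Gamma0 N

/-- The index of `Γ₀(p)` in `SL(2, ℤ)` is at most `p + 1` for `p` prime. -/
theorem h16c9_Gamma0_index_le (p : ℕ) [hp : Fact p.Prime] :
    (CongruenceSubgroup.Gamma0 p).index ≤ p + 1 := by
  classical
  let φ : SL(2, ℤ) → Option (ZMod p) := fun A =>
    if ((A 1 0 : ℤ) : ZMod p) = 0 then none
    else some (((A 0 0 : ℤ) : ZMod p) * (((A 1 0 : ℤ) : ZMod p))⁻¹)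
  have hφ : ∀ A B : SL(2, ℤ), φ A = φ B → A⁻¹ * B ∈ CongruenceSubgroup.Gamma0 p := by
    intro A B h
    rw [CongruenceSubgroup.Gamma0_mem]
    have hm : (A⁻¹ * B) 1 0 = -(A 1 0) * (B 0 0) + (A 0 0) * (B 1 0) := by
      rw [Matrix.SpecialLinearGroup.coe_mul, Matrix.SpecialLinearGroup.coe_inv,
        Matrix.adjugate_fin_two]
      simp [Matrix.mul_apply, Fin.sum_univ_two]
    rw [hm]
    push_cast
    simp only [φ] at h
    by_cases hA : ((A 1 0 : ℤ) : ZMod p) = 0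
    · by_cases hB : ((B 1 0 : ℤ) : ZMod p) = 0
      · rw [hA, hB]; ring
      · rw [if_pos hA, if_neg hB] at h
        exact absurd h (by simp)
    · by_cases hB : ((B 1 0 : ℤ) : ZMod p) = 0
      · rw [if_neg hA, if_pos hB] at h
        exact absurd h (by simp)
      · rw [if_neg hA, if_neg hB] at h
        have h' := Option.some.inj h
        have h2 : ((A 0 0 : ℤ) : ZMod p) = ((B 0 0 : ℤ) : ZMod p) * (((B 1 0 : ℤ) : ZMod p))⁻¹
            * ((A 1 0 : ℤ) : ZMod p) := by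
          rw [← h', mul_assoc, inv_mul_cancel₀ hA, mul_one]
        rw [h2]
        field_simp
        ring
  let ψ : SL(2, ℤ) ⧸ CongruenceSubgroup.Gamma0 p → Option (ZMod p) := fun q => φ q.out
  have hψ : Function.Injective ψ := by
    intro q1 q2 h
    have := hφ _ _ h
    rw [← QuotientGroup.eq] at this
    simpa using this
  have : NeZero p := ⟨hp.out.ne_zero⟩
  calc (CongruenceSubgroup.Gamma0 p).index
      = Nat.card (SL(2, ℤ) ⧸ CongruenceSubgroup.Gamma0 p) := rfl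
    _ ≤ Nat.card (Option (ZMod p)) := Nat.card_le_card_of_injective ψ hψ
    _ = p + 1 := by
        rw [Nat.card_eq_fintype_card, Fintype.card_option, ZMod.card]

theorem h16c9_map_injective :
    Function.Injective (PowerSeries.map (Int.castRingHom ℂ)) := by
  intro x y h
  ext n
  have := congrArg (PowerSeries.coeff n) h
  simpa using this

/-- **Sturm, certified form**: an integral `q`-expansion of a modular form of weight `12 w` on
`Γ₀(p)` whose first `w (p + 1) + 1` coefficients vanish is zero. -/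
theorem h16c9_formal_zero (p : ℕ) [hp : Fact p.Prime] {k : ℤ} (w : ℕ) (hk : k = 12 * (w : ℤ))
    (F : ModularForm Γ₀(p) k) (A : PowerSeries ℤ) (hF : IntQ (⇑F) A) (l : List ℤ)
    (hl : Tr (w * (p + 1) + 1) A l) (hz : ∀ i, i < w * (p + 1) + 1 → l.getD i 0 = 0) :
    A = 0 := by
  have : NeZero p := ⟨hp.out.ne_zero⟩
  have hF0 : F = 0 := by
    refine ModularForm.sturm_bound_Gamma0 p F ?_
    intro n hn
    have hidx := h16c9_Gamma0_index_le p
    have hb : (k * ((Γ₀(p)).index : ℤ)).toNat / 12 ≤ w * (p + 1) := by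
      have h1 : (k * ((Γ₀(p)).index : ℤ)).toNat = 12 * w * (Γ₀(p)).index := by
        rw [hk]
        have : (12 * (w : ℤ) * ((Γ₀(p)).index : ℤ)) = ((12 * w * (Γ₀(p)).index : ℕ) : ℤ) := by
          push_cast; ring
        rw [this, Int.toNat_natCast]
      rw [h1, mul_assoc, Nat.mul_div_cancel_left _ (by norm_num : 0 < 12)]
      exact Nat.mul_le_mul_left _ hidx
    have hn' : n < w * (p + 1) + 1 := by omega
    have h2 := hF.coeff n
    unfold qCoeff at h2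
    rw [h2, hl.coeff_eq_zero hz n hn', Int.cast_zero]
  have h3 : PowerSeries.map (Int.castRingHom ℂ) A = 0 := by
    have h4 : IntQ (⇑F) A := hF
    unfold IntQ at h4
    rw [← h4, hF0]
    exact UpperHalfPlane.qExpansion_zero 1
  exact h16c9_map_injective (by rw [h3, map_zero])

/-! ### the forms -/

/-- `E₄` as a modular form of weight `4` on `Γ₀(N)` -/
def e4N (N : ℕ) : ModularForm Γ₀(N) 4 where
  toFun := E₄
  slash_action_eq' := by
    rintro _ ⟨γ, -, rfl⟩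
    have hmem : (Matrix.SpecialLinearGroup.mapGL ℝ γ : GL (Fin 2) ℝ) ∈ 𝒮ℒ := ⟨γ, rfl⟩
    exact SlashInvariantFormClass.slash_action_eq E₄ _ hmem
  holo' := ModularFormClass.holo E₄
  bdd_at_cusps' := by
    intro c hc
    have hle : Subgroup.map (Matrix.SpecialLinearGroup.mapGL ℝ) Γ₀(N) ≤ 𝒮ℒ := by
      rintro _ ⟨γ, -, rfl⟩
      exact ⟨γ, rfl⟩
    exact ModularFormClass.bdd_at_cusps E₄ (hc.mono hle)

theorem h16c9_intQ_e4N (N : ℕ) : IntQ (⇑(e4N N)) ModularCurve.eisenstein4 :=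
  H23M.qExpansion_E4

theorem h16c9_intQ_deltaN (N : ℕ) [NeZero N] :
    IntQ (⇑(H23.deltaNForm N)) (V N h16b_D) := by
  apply intQ_of_coeff
  intro n
  unfold qCoeff
  rw [H23.coe_deltaNForm, H23.Rel.qExpansion_deltaN_coeff]
  unfold H16C9.V
  rw [PowerSeries.coeff_mk]
  split_ifs with h
  · exact (h16b_intQ_delta 1).coeff (n / N)
  · simp

theorem IntQ.mcast {N : ℕ} {a b : ℤ} (h : a = b) {F : ModularForm Γ₀(N) a} {A : PowerSeries ℤ}
    (hF : IntQ (⇑F) A) : IntQ (⇑(ModularForm.mcast h F)) A := hF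

theorem Tr.zsmul {n : ℕ} {a : PowerSeries ℤ} {la : List ℤ} (c : ℤ) (ha : Tr n a la) :
    Tr n (c • a) (lsmul c la) := by
  intro i hi
  rw [map_zsmul, ha i hi, h16c9_getD_lsmul, smul_eq_mul]

/-! ### level 2 -/

/-- the formal series `D + 256 D₂` -/
def S2 : PowerSeries ℤ := h16b_D + (256 : ℤ) • V 2 h16b_D

/-- the difference of the two sides of the level-2 identity -/
def A2 : PowerSeries ℤ :=
  (((ModularCurve.eisenstein4 * ModularCurve.eisenstein4) * ModularCurve.eisenstein4) * h16b_D)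
      * V 2 h16b_D
    - (S2 * S2) * S2

/-- the modular form `Δ + 256 Δ(2z)` -/
def s2Form : ModularForm Γ₀(2) 12 := h16b_delta 2 + ((256 : ℤ) : ℂ) • H23.deltaNForm 2

theorem h16c9_intQ_s2 : IntQ (⇑s2Form) S2 :=
  (h16b_intQ_delta 2).add ((h16c9_intQ_deltaN 2).smul 256)

/-- the modular form of weight `36` on `Γ₀(2)` with `q`-expansion `A2` -/
def f2Form : ModularForm Γ₀(2) 36 :=
  ModularForm.mcast (by norm_num)
      (((((e4N 2).mul (e4N 2)).mul (e4N 2)).mul (h16b_delta 2)).mul (H23.deltaNForm 2))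
    - ModularForm.mcast (by norm_num) ((s2Form.mul s2Form).mul s2Form)

theorem h16c9_intQ_f2 : IntQ (⇑f2Form) A2 :=
  IntQ.sub
    (IntQ.mcast _ (((((h16c9_intQ_e4N 2).mul (h16c9_intQ_e4N 2)).mul (h16c9_intQ_e4N 2)).mul
      (h16b_intQ_delta 2)).mul (h16c9_intQ_deltaN 2)))
    (IntQ.mcast _ ((h16c9_intQ_s2.mul h16c9_intQ_s2).mul h16c9_intQ_s2))

/-- the list of `D + 256 D₂` -/
def lS2 (n : ℕ) : List ℤ := ladd (lDelta n) (lsmul 256 (lV 2 (lDelta n) n))

theorem Tr.S2 (n : ℕ) : Tr n S2 (lS2 n) :=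
  (Tr.delta n).add ((Tr.V 2 (Tr.delta n)).zsmul 256)

/-- the list of `A2` -/
def lA2 (n : ℕ) : List ℤ :=
  ladd (tmul n (tmul n (tmul n (tmul n (lE4 n) (lE4 n)) (lE4 n)) (lDelta n)) (lV 2 (lDelta n) n))
    (lsmul (-1) (tmul n (tmul n (lS2 n) (lS2 n)) (lS2 n)))

theorem Tr.A2 (n : ℕ) : Tr n A2 (lA2 n) :=
  Tr.sub (((((Tr.e4 n).tmul (Tr.e4 n)).tmul (Tr.e4 n)).tmul (Tr.delta n)).tmul
      (Tr.V 2 (Tr.delta n)))
    (((Tr.S2 n).tmul (Tr.S2 n)).tmul (Tr.S2 n))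

set_option maxRecDepth 1000000 in
theorem h16c9_lA2_zero : ∀ i, i < 10 → (lA2 10).getD i 0 = 0 := by
  decide +kernel

theorem h16c9_A2_eq_zero : A2 = 0 :=
  h16c9_formal_zero 2 3 (by norm_num) f2Form A2 h16c9_intQ_f2 (lA2 10) (Tr.A2 10)
    h16c9_lA2_zero

/-- **Level 2**: `E₄³ · Δ · Δ(q²) = (Δ + 256 Δ(q²))³` in `ℤ⟦q⟧`. -/
theorem h16c9_level2 :
    ModularCurve.eisenstein4 ^ 3 * h16b_D * V 2 h16b_D
      = (h16b_D + (256 : ℤ) • V 2 h16b_D) ^ 3 := by
  have h := h16c9_A2_eq_zero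
  unfold A2 S2 at h
  rw [sub_eq_zero] at h
  rw [pow_three', pow_three', ← h]

/-! ### level 3 -/

/-- `E₄³ - 756 D - 19131876 D₃` -/
def P3 : PowerSeries ℤ :=
  ((ModularCurve.eisenstein4 * ModularCurve.eisenstein4) * ModularCurve.eisenstein4
      - (756 : ℤ) • h16b_D) - (19131876 : ℤ) • V 3 h16b_D

/-- `D² + 196830 D D₃ + 387420489 D₃²` -/
def Q3 : PowerSeries ℤ :=
  (h16b_D * h16b_D + (196830 : ℤ) • (h16b_D * V 3 h16b_D))
    + (387420489 : ℤ) • (V 3 h16b_D * V 3 h16b_D)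

/-- the difference of the two sides of the (squared) level-3 identity -/
def A3 : PowerSeries ℤ := ((V 3 h16b_D * h16b_D) * (P3 * P3)) - Q3 * Q3

/-- the modular form `E₄³ - 756 Δ - 19131876 Δ(3z)` of weight `12` -/
def p3Form : ModularForm Γ₀(3) 12 :=
  (ModularForm.mcast (by norm_num) (((e4N 3).mul (e4N 3)).mul (e4N 3))
      - ((756 : ℤ) : ℂ) • h16b_delta 3) - ((19131876 : ℤ) : ℂ) • H23.deltaNForm 3

theorem h16c9_intQ_p3 : IntQ (⇑p3Form) P3 :=
  IntQ.sub (IntQ.sub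
    (IntQ.mcast _ (((h16c9_intQ_e4N 3).mul (h16c9_intQ_e4N 3)).mul (h16c9_intQ_e4N 3)))
    ((h16b_intQ_delta 3).smul 756)) ((h16c9_intQ_deltaN 3).smul 19131876)

/-- the modular form `Δ² + 196830 Δ Δ(3z) + 387420489 Δ(3z)²` of weight `24` -/
def q3Form : ModularForm Γ₀(3) (12 + 12) :=
  ((h16b_delta 3).mul (h16b_delta 3)
      + ((196830 : ℤ) : ℂ) • (h16b_delta 3).mul (H23.deltaNForm 3))
    + ((387420489 : ℤ) : ℂ) • (H23.deltaNForm 3).mul (H23.deltaNForm 3)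

theorem h16c9_intQ_q3 : IntQ (⇑q3Form) Q3 :=
  IntQ.add (IntQ.add ((h16b_intQ_delta 3).mul (h16b_intQ_delta 3))
    (((h16b_intQ_delta 3).mul (h16c9_intQ_deltaN 3)).smul 196830))
    (((h16c9_intQ_deltaN 3).mul (h16c9_intQ_deltaN 3)).smul 387420489)

/-- the modular form of weight `48` on `Γ₀(3)` with `q`-expansion `A3` -/
def f3Form : ModularForm Γ₀(3) 48 :=
  ModularForm.mcast (by norm_num)
      (((H23.deltaNForm 3).mul (h16b_delta 3)).mul (p3Form.mul p3Form))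
    - ModularForm.mcast (by norm_num) (q3Form.mul q3Form)

theorem h16c9_intQ_f3 : IntQ (⇑f3Form) A3 :=
  IntQ.sub
    (IntQ.mcast _ (((h16c9_intQ_deltaN 3).mul (h16b_intQ_delta 3)).mul
      (h16c9_intQ_p3.mul h16c9_intQ_p3)))
    (IntQ.mcast _ (h16c9_intQ_q3.mul h16c9_intQ_q3))

/-- the list of `P3` -/
def lP3 (n : ℕ) : List ℤ :=
  ladd (ladd (tmul n (tmul n (lE4 n) (lE4 n)) (lE4 n)) (lsmul (-1) (lsmul 756 (lDelta n))))
    (lsmul (-1) (lsmul 19131876 (lV 3 (lDelta n) n)))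

theorem Tr.P3 (n : ℕ) : Tr n P3 (lP3 n) :=
  Tr.sub (Tr.sub (((Tr.e4 n).tmul (Tr.e4 n)).tmul (Tr.e4 n)) ((Tr.delta n).zsmul 756))
    ((Tr.V 3 (Tr.delta n)).zsmul 19131876)

/-- the list of `Q3` -/
def lQ3 (n : ℕ) : List ℤ :=
  ladd (ladd (tmul n (lDelta n) (lDelta n))
      (lsmul 196830 (tmul n (lDelta n) (lV 3 (lDelta n) n))))
    (lsmul 387420489 (tmul n (lV 3 (lDelta n) n) (lV 3 (lDelta n) n)))

theorem Tr.Q3 (n : ℕ) : Tr n Q3 (lQ3 n) :=
  Tr.add (Tr.add ((Tr.delta n).tmul (Tr.delta n))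
    (((Tr.delta n).tmul (Tr.V 3 (Tr.delta n))).zsmul 196830))
    (((Tr.V 3 (Tr.delta n)).tmul (Tr.V 3 (Tr.delta n))).zsmul 387420489)

/-- the list of `A3` -/
def lA3 (n : ℕ) : List ℤ :=
  ladd (tmul n (tmul n (lV 3 (lDelta n) n) (lDelta n)) (tmul n (lP3 n) (lP3 n)))
    (lsmul (-1) (tmul n (lQ3 n) (lQ3 n)))

theorem Tr.A3 (n : ℕ) : Tr n A3 (lA3 n) :=
  Tr.sub (((Tr.V 3 (Tr.delta n)).tmul (Tr.delta n)).tmul ((Tr.P3 n).tmul (Tr.P3 n)))
    ((Tr.Q3 n).tmul (Tr.Q3 n))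

set_option maxRecDepth 1000000 in
theorem h16c9_lA3_zero : ∀ i, i < 17 → (lA3 17).getD i 0 = 0 := by
  decide +kernel

theorem h16c9_A3_eq_zero : A3 = 0 :=
  haveI : Fact (Nat.Prime 3) := ⟨Nat.prime_three⟩
  h16c9_formal_zero 3 4 (by norm_num) f3Form A3 h16c9_intQ_f3 (lA3 17) (Tr.A3 17)
    h16c9_lA3_zero

/-- **Level 3** (squared form):
`Δ(q³) · Δ · (E₄³ - 756 Δ - 19131876 Δ(q³))² = (Δ² + 196830 Δ Δ(q³) + 387420489 Δ(q³)²)²`
in `ℤ⟦q⟧`. -/
theorem h16c9_level3 :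
    V 3 h16b_D * h16b_D *
        (ModularCurve.eisenstein4 ^ 3 - (756 : ℤ) • h16b_D - (19131876 : ℤ) • V 3 h16b_D) ^ 2
      = (h16b_D ^ 2 + (196830 : ℤ) • (h16b_D * V 3 h16b_D)
          + (387420489 : ℤ) • V 3 h16b_D ^ 2) ^ 2 := by
  have h := h16c9_A3_eq_zero
  unfold A3 P3 Q3 at h
  rw [sub_eq_zero] at h
  rw [pow_three', pow_two, pow_two, pow_two, pow_two, ← h]

end H16C9
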