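import Fermat.Agent.S18.C9Coeffs_helper4
import Fermat.Agent.S16.B1_helper16
import Fermat.Agent.S16.B3_helper19
import Fermat.Agent.S16.H12B2Key
import Fermat.Agent.H23.DeltaN
import Fermat.Agent.H23.Rel
import Fermat.Prelude.Thm_ModularForm_sturm_bound_Gamma0

/-!
# Item 75 (S18), slice C9 (helper4): the Hauptmodul identities of level 2 and 3 in `ℤ[[q]]`

* `H4HM.A2_eq_zero` : `E₄³ Δ Δ₂ = (Δ + 256 Δ₂)³` as formal power series (`Δ₂ = Δ(q²)`);
* `H4HM.A3_eq_zero` : `Δ Δ₃ (E₄³ - 756 Δ - 19131876 Δ₃)² = (Δ² + 196830 Δ Δ₃ + 3^18 Δ₃²)²`.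

Proof: both sides are the `q`-expansions of modular forms of weight `36` on `Γ₀(2)`, resp.
weight `48` on `Γ₀(3)`; the Sturm bound is `≤ 16`, and the coefficients of index `≤ 16` agree
(`C9Coeffs_helper4`).
-/

set_option autoImplicit false
set_option linter.unusedSectionVars false

noncomputable section

namespace H4HM

open UpperHalfPlane ModularForm CongruenceSubgroup ModularCurve ModularFormClass
open H16S16 H19S16 H23
open scoped MatrixGroups

/-! ### the index of `Γ₀(p)` -/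

theorem index_Gamma0_le (p : ℕ) [Fact p.Prime] : (Gamma0 p).index ≤ p + 1 := by
  classical
  let f : Option (Fin p) → SL(2, ℤ) ⧸ Gamma0 p := fun o => QuotientGroup.mk (H12B2.rep p o)
  have hf : Function.Surjective f := by
    intro q
    induction q using QuotientGroup.induction_on with
    | H g =>
      obtain ⟨o, ho⟩ := H12B2.exists_rep p g
      exact ⟨o, (QuotientGroup.eq.mpr ho)⟩
  have h := Nat.card_le_card_of_surjective f hf
  have hc : Nat.card (Option (Fin p)) = p + 1 := by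
    rw [Nat.card_eq_fintype_card, Fintype.card_option, Fintype.card_fin]
  rw [hc] at h
  exact h

/-! ### integral `q`-expansions of the building blocks -/

variable (N : ℕ) [NeZero N]

theorem Dser_eq : Dser = h16b_D := rfl

theorem intQ_E4N : IntQ (⇑(h19_E4N N)) eisenstein4 := H23M.qExpansion_E4

theorem intQ_DN : IntQ (⇑(h16b_delta N)) Dser := h16b_intQ_delta N

theorem intQ_deltaNForm : IntQ (⇑(deltaNForm N)) (dil N Dser) := by
  apply intQ_of_coeff
  intro n
  unfold qCoeff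
  rw [coe_deltaNForm, Rel.qExpansion_deltaN_coeff, dil, PowerSeries.coeff_mk]
  split_ifs with h
  · have := (intQ_DN N).coeff (n / N)
    unfold qCoeff at this
    exact this
  · simp

theorem zsmul_eq_C_mul (c : ℤ) (A : PowerSeries ℤ) : c • A = PowerSeries.C c * A := by
  ext n
  simp

/-! ### level 2 -/

/-- `E₄³` on `Γ₀(N)` -/
def E4cubeN : ModularForm (Gamma0 N) ((4 + 4) + 4) := ((h19_E4N N).mul (h19_E4N N)).mul (h19_E4N N)

theorem intQ_E4cubeN : IntQ (⇑(E4cubeN N)) (eisenstein4 * eisenstein4 * eisenstein4) :=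
  ((intQ_E4N N).mul (intQ_E4N N)).mul (intQ_E4N N)

/-- `Δ Δ_N` on `Γ₀(N)` -/
def DDN : ModularForm (Gamma0 N) (12 + 12) := (h16b_delta N).mul (deltaNForm N)

theorem intQ_DDN : IntQ (⇑(DDN N)) (Dser * dil N Dser) :=
  (intQ_DN N).mul (intQ_deltaNForm N)

/-- `Δ + 256 Δ₂` -/
def S2form : ModularForm (Gamma0 2) 12 := h16b_delta 2 + ((256 : ℤ) : ℂ) • deltaNForm 2

theorem intQ_S2form : IntQ (⇑S2form) (Dser + PowerSeries.C 256 * dil 2 Dser) := by
  have h := (intQ_DN 2).add ((intQ_deltaNForm 2).smul 256)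
  rw [zsmul_eq_C_mul] at h
  exact h

/-- the modular form `E₄³ Δ Δ₂ - (Δ + 256 Δ₂)³` of weight `36` on `Γ₀(2)` -/
def F2 : ModularForm (Gamma0 2) 36 :=
  (((E4cubeN 2).mul (DDN 2)).mcast (by norm_num) : ModularForm (Gamma0 2) 36)
    - (((S2form.mul S2form).mul S2form).mcast (by norm_num) : ModularForm (Gamma0 2) 36)

theorem intQ_mcast {k k' : ℤ} (h : k = k') {F : ModularForm (Gamma0 N) k} {A : PowerSeries ℤ}
    (hF : IntQ (⇑F) A) : IntQ (⇑(F.mcast h : ModularForm (Gamma0 N) k')) A := hF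

theorem intQ_F2 : IntQ (⇑F2) A2 :=
  (intQ_mcast 2 _ ((intQ_E4cubeN 2).mul (intQ_DDN 2))).sub
    (intQ_mcast 2 _ ((intQ_S2form.mul intQ_S2form).mul intQ_S2form))

theorem F2_eq_zero : F2 = 0 := by
  haveI : Fact (Nat.Prime 2) := ⟨Nat.prime_two⟩
  apply ModularForm.sturm_bound_Gamma0
  intro n hn
  have hidx : (Gamma0 2).index ≤ 3 := index_Gamma0_le 2
  have hn' : n < 17 := by
    have h1 : ((36 : ℤ) * ((Gamma0 2).index : ℤ)).toNat ≤ 36 * 3 := by
      have : ((36 : ℤ) * ((Gamma0 2).index : ℤ)).toNat = 36 * (Gamma0 2).index := by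
        rw [show ((36 : ℤ) * ((Gamma0 2).index : ℤ)) = ((36 * (Gamma0 2).index : ℕ) : ℤ) by
          push_cast; ring]
        exact Int.toNat_natCast _
      rw [this]
      omega
    have h2 : ((36 : ℤ) * ((Gamma0 2).index : ℤ)).toNat / 12 ≤ 9 := by
      calc ((36 : ℤ) * ((Gamma0 2).index : ℤ)).toNat / 12 ≤ (36 * 3) / 12 :=
            Nat.div_le_div_right h1
        _ = 9 := by norm_num
    omega
  have h := intQ_F2.coeff n
  unfold qCoeff at h
  rw [h, coeff_A2 hn']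
  simp

/-- **Hauptmodul identity of level 2** in `ℤ[[q]]`. -/
theorem A2_eq_zero : A2 = 0 := by
  apply h19_map_intCast_injective
  have h : qExpansion 1 (⇑F2) = PowerSeries.map (Int.castRingHom ℂ) A2 := intQ_F2
  rw [← h, F2_eq_zero, map_zero]
  exact qExpansion_zero 1

/-! ### level 3 -/

/-- `E₄³ - 756 Δ - 19131876 Δ₃` -/
def X3form : ModularForm (Gamma0 3) 12 :=
  ((E4cubeN 3).mcast (by norm_num) : ModularForm (Gamma0 3) 12)
    - ((756 : ℤ) : ℂ) • h16b_delta 3 - ((19131876 : ℤ) : ℂ) • deltaNForm 3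

theorem intQ_X3form : IntQ (⇑X3form) X3 := by
  have h := ((intQ_mcast 3 (by norm_num : ((4 : ℤ) + 4) + 4 = 12) (intQ_E4cubeN 3)).sub
    ((intQ_DN 3).smul 756)).sub ((intQ_deltaNForm 3).smul 19131876)
  rw [zsmul_eq_C_mul, zsmul_eq_C_mul] at h
  exact h

/-- `Δ² + 196830 Δ Δ₃ + 3^18 Δ₃²` -/
def Y3form : ModularForm (Gamma0 3) (12 + 12) :=
  (h16b_delta 3).mul (h16b_delta 3) + ((196830 : ℤ) : ℂ) • DDN 3
    + ((387420489 : ℤ) : ℂ) • (deltaNForm 3).mul (deltaNForm 3)

theorem intQ_Y3form : IntQ (⇑Y3form) Y3 := by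
  have h := (((intQ_DN 3).mul (intQ_DN 3)).add ((intQ_DDN 3).smul 196830)).add
    (((intQ_deltaNForm 3).mul (intQ_deltaNForm 3)).smul 387420489)
  rw [zsmul_eq_C_mul, zsmul_eq_C_mul] at h
  exact h

/-- the modular form `Δ Δ₃ X₃² - Y₃²` of weight `48` on `Γ₀(3)` -/
def F3 : ModularForm (Gamma0 3) 48 :=
  (((DDN 3).mul (X3form.mul X3form)).mcast (by norm_num) : ModularForm (Gamma0 3) 48)
    - ((Y3form.mul Y3form).mcast (by norm_num) : ModularForm (Gamma0 3) 48)

theorem intQ_F3 : IntQ (⇑F3) A3 :=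
  (intQ_mcast 3 _ ((intQ_DDN 3).mul (intQ_X3form.mul intQ_X3form))).sub
    (intQ_mcast 3 _ (intQ_Y3form.mul intQ_Y3form))

theorem F3_eq_zero : F3 = 0 := by
  haveI : Fact (Nat.Prime 3) := ⟨Nat.prime_three⟩
  apply ModularForm.sturm_bound_Gamma0
  intro n hn
  have hidx : (Gamma0 3).index ≤ 4 := index_Gamma0_le 3
  have hn' : n < 17 := by
    have h1 : ((48 : ℤ) * ((Gamma0 3).index : ℤ)).toNat ≤ 48 * 4 := by
      have : ((48 : ℤ) * ((Gamma0 3).index : ℤ)).toNat = 48 * (Gamma0 3).index := by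
        rw [show ((48 : ℤ) * ((Gamma0 3).index : ℤ)) = ((48 * (Gamma0 3).index : ℕ) : ℤ) by
          push_cast; ring]
        exact Int.toNat_natCast _
      rw [this]
      omega
    have h2 : ((48 : ℤ) * ((Gamma0 3).index : ℤ)).toNat / 12 ≤ 16 := by
      calc ((48 : ℤ) * ((Gamma0 3).index : ℤ)).toNat / 12 ≤ (48 * 4) / 12 :=
            Nat.div_le_div_right h1
        _ = 16 := by norm_num
    omega
  have h := intQ_F3.coeff n
  unfold qCoeff at h
  rw [h, coeff_A3 hn']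
  simp

/-- **Hauptmodul identity of level 3** (squared form) in `ℤ[[q]]`. -/
theorem A3_eq_zero : A3 = 0 := by
  apply h19_map_intCast_injective
  have h : qExpansion 1 (⇑F3) = PowerSeries.map (Int.castRingHom ℂ) A3 := intQ_F3
  rw [← h, F3_eq_zero, map_zero]
  exact qExpansion_zero 1

end H4HM
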