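import Fermat.Agent.S18.C9Forms_helper4
import Fermat.Agent.S28.ModEq.FormalJ

/-!
# Item 75 (S18), slice C9 (helper4): the Hauptmoduln of level 2 and 3 as integral `q`-series

In `ℤ[[q]]`, with `U = ∏ (1 - qⁿ)^24`, `U_k = U(q^k)`:

* `H4HM.T2 = U / U₂` and `H4HM.hm2Z : E₄³ U⁻¹ T2² = (T2 + 256 q)³`;
* `H4HM.T3` with `H4HM.T3_sq : T3² U₃ = U` and
  `H4HM.hm3Z : E₄³ U⁻¹ T3³ = (T3 + 27 q) (T3 + 243 q)³`.

`t₂ = q⁻¹ T2 = Δ(q)/Δ(q²)` and `t₃ = q⁻¹ T3 = (η(q)/η(q³))^12` are the Hauptmoduln of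
`X₀(2)`, `X₀(3)`; `j = q⁻¹ E₄³ U⁻¹`.
-/

set_option autoImplicit false

noncomputable section

namespace H4HM

open ModularCurve PowerSeries

/-! ### dilation of `q U` -/

theorem dil_X_mul {k : ℕ} (hk : 0 < k) (A : PowerSeries ℤ) :
    dil k (X * A) = X ^ k * dil k A := by
  ext n
  rw [dil, coeff_mk, coeff_X_pow_mul', dil, coeff_mk]
  by_cases h : k ∣ n
  · rw [if_pos h]
    obtain ⟨m, rfl⟩ := h
    rw [Nat.mul_div_cancel_left m hk]
    rcases Nat.eq_zero_or_pos m with hm | hm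
    · subst hm
      rw [if_neg (by omega)]
      simp
    · have hle : k ≤ k * m := Nat.le_mul_of_pos_right k hm
      rw [if_pos hle]
      have hd : k ∣ k * m - k := Nat.dvd_sub (dvd_mul_right k m) (dvd_refl k)
      rw [if_pos hd]
      obtain ⟨m', rfl⟩ : ∃ m', m = m' + 1 := ⟨m - 1, by omega⟩
      have e1 : k * (m' + 1) - k = k * m' := by
        rw [Nat.mul_succ]; omega
      rw [e1, Nat.mul_div_cancel_left m' hk, coeff_succ_X_mul]
  · rw [if_neg h]
    split_ifs with h1 h2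
    · exfalso
      apply h
      have := Nat.dvd_add h2 (dvd_refl k)
      rwa [Nat.sub_add_cancel h1] at this
    · rfl
    · rfl

theorem constantCoeff_dil (k : ℕ) (A : PowerSeries ℤ) :
    constantCoeff (dil k A) = constantCoeff A := by
  rw [← coeff_zero_eq_constantCoeff_apply, ← coeff_zero_eq_constantCoeff_apply, dil, coeff_mk]
  simp

/-- `U(q²)` -/
def U2 : PowerSeries ℤ := dil 2 dedekindEtaUnit

/-- `U(q³)` -/
def U3 : PowerSeries ℤ := dil 3 dedekindEtaUnit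

/-- `1 / U(q²)` -/
def U2inv : PowerSeries ℤ := U2.invOfUnit 1

/-- `1 / U(q³)` -/
def U3inv : PowerSeries ℤ := U3.invOfUnit 1

theorem U2_mul_inv : U2 * U2inv = 1 :=
  mul_invOfUnit _ _ (by rw [U2, constantCoeff_dil, constantCoeff_dedekindEtaUnit]; rfl)

theorem U3_mul_inv : U3 * U3inv = 1 :=
  mul_invOfUnit _ _ (by rw [U3, constantCoeff_dil, constantCoeff_dedekindEtaUnit]; rfl)

theorem dil_two_Dser : dil 2 Dser = X ^ 2 * U2 := dil_X_mul (by norm_num) _

theorem dil_three_Dser : dil 3 Dser = X ^ 3 * U3 := dil_X_mul (by norm_num) _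

/-! ### level 2 -/

/-- the identity of level 2 after cancelling `q³` -/
theorem hm2_core :
    eisenstein4 ^ 3 * dedekindEtaUnit * U2 = (dedekindEtaUnit + 256 * X * U2) ^ 3 := by
  have h := A2_eq_zero
  rw [A2, dil_two_Dser, Dser, sub_eq_zero] at h
  have hC : (PowerSeries.C (256 : ℤ) : PowerSeries ℤ) = 256 := map_ofNat PowerSeries.C 256
  rw [hC] at h
  have hX : (X : PowerSeries ℤ) ^ 3 ≠ 0 := pow_ne_zero 3 X_ne_zero
  apply mul_left_cancel₀ hX
  linear_combination h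

/-- `T₂ = U / U(q²)`, the numerator of the Hauptmodul `t₂ = q⁻¹ T₂` of level 2 -/
def T2 : PowerSeries ℤ := dedekindEtaUnit * U2inv

theorem T2_mul_U2 : T2 * U2 = dedekindEtaUnit := by
  rw [T2, mul_assoc, mul_comm U2inv, U2_mul_inv, mul_one]

theorem constantCoeff_T2 : constantCoeff T2 = 1 := by
  have h := congrArg constantCoeff T2_mul_U2
  rw [map_mul, U2, constantCoeff_dil, constantCoeff_dedekindEtaUnit, mul_one] at h
  exact h

/-- **Hauptmodul identity of level 2**: `j t₂² = (t₂ + 256)³`, multiplied by `q³`. -/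
theorem hm2Z :
    eisenstein4 ^ 3 * dedekindEtaUnitInv * T2 ^ 2 = (T2 + 256 * X) ^ 3 := by
  have h0 := hm2_core
  have h1 := dedekindEtaUnit_mul_inv
  have h2 := U2_mul_inv
  have e1 : T2 + 256 * X = (dedekindEtaUnit + 256 * X * U2) * U2inv := by
    rw [T2]
    linear_combination (-256 * X) * h2
  rw [e1, mul_pow, ← h0, T2]
  linear_combination (eisenstein4 ^ 3 * dedekindEtaUnit * U2inv ^ 2) * h1
    - (eisenstein4 ^ 3 * dedekindEtaUnit * U2inv ^ 2) * h2

/-! ### level 3 -/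

/-- `Y' = U² + 196830 q² U U₃ + 3^18 q⁴ U₃²` -/
def Y3' : PowerSeries ℤ :=
  dedekindEtaUnit ^ 2 + 196830 * X ^ 2 * dedekindEtaUnit * U3 + 387420489 * X ^ 4 * U3 ^ 2

theorem X3_eq : X3 = eisenstein4 ^ 3 - 756 * X * dedekindEtaUnit - 19131876 * X ^ 3 * U3 := by
  have hC1 : (PowerSeries.C (756 : ℤ) : PowerSeries ℤ) = 756 := map_ofNat PowerSeries.C 756
  have hC2 : (PowerSeries.C (19131876 : ℤ) : PowerSeries ℤ) = 19131876 :=
    map_ofNat PowerSeries.C 19131876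
  rw [X3, dil_three_Dser, Dser, hC1, hC2]
  ring

theorem Y3_eq : Y3 = X ^ 2 * Y3' := by
  have hC1 : (PowerSeries.C (196830 : ℤ) : PowerSeries ℤ) = 196830 :=
    map_ofNat PowerSeries.C 196830
  have hC2 : (PowerSeries.C (387420489 : ℤ) : PowerSeries ℤ) = 387420489 :=
    map_ofNat PowerSeries.C 387420489
  rw [Y3, Y3', dil_three_Dser, Dser, hC1, hC2]
  ring

theorem constantCoeff_X3 : constantCoeff X3 = 1 := by
  rw [X3_eq]
  simp [constantCoeff_eisenstein4]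

/-- `1 / X₃` -/
def X3inv : PowerSeries ℤ := X3.invOfUnit 1

theorem X3_mul_inv : X3 * X3inv = 1 :=
  mul_invOfUnit _ _ (by rw [constantCoeff_X3]; rfl)

/-- the identity of level 3 after cancelling `q⁴` -/
theorem hm3_core : dedekindEtaUnit * U3 * X3 ^ 2 = Y3' ^ 2 := by
  have h := A3_eq_zero
  rw [A3, Y3_eq, dil_three_Dser, Dser, sub_eq_zero] at h
  have hX : (X : PowerSeries ℤ) ^ 4 ≠ 0 := pow_ne_zero 4 X_ne_zero
  apply mul_left_cancel₀ hX
  linear_combination h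

/-- `T₃`, the numerator of the Hauptmodul `t₃ = q⁻¹ T₃ = (η(q)/η(q³))^12` of level 3 -/
def T3 : PowerSeries ℤ := Y3' * U3inv * X3inv

theorem T3_mul : T3 * U3 * X3 = Y3' := by
  have h2 := U3_mul_inv
  have h3 := X3_mul_inv
  rw [T3]
  linear_combination (Y3' * X3 * X3inv) * h2 + Y3' * h3

/-- `t₃² = Δ(q)/Δ(q³)` -/
theorem T3_sq : T3 ^ 2 * U3 = dedekindEtaUnit := by
  have h0 := hm3_core
  have h2 := U3_mul_inv
  have h3 := X3_mul_inv
  have e : T3 ^ 2 * U3 = Y3' ^ 2 * (U3inv ^ 2 * U3 * X3inv ^ 2) := by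
    rw [T3]; ring
  rw [e, ← h0]
  linear_combination (dedekindEtaUnit * (U3 * U3inv * X3 ^ 2 * X3inv ^ 2
    + X3 ^ 2 * X3inv ^ 2)) * h2
    + (dedekindEtaUnit * (X3 * X3inv + 1)) * h3

theorem constantCoeff_Y3' : constantCoeff Y3' = 1 := by
  rw [Y3']
  simp [constantCoeff_dedekindEtaUnit]

theorem constantCoeff_T3 : constantCoeff T3 = 1 := by
  have h := congrArg constantCoeff T3_mul
  rw [map_mul, map_mul, U3, constantCoeff_dil, constantCoeff_dedekindEtaUnit, constantCoeff_X3,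
    mul_one, mul_one, constantCoeff_Y3'] at h
  exact h

/-- **Hauptmodul identity of level 3**: `j t₃³ = (t₃ + 27)(t₃ + 243)³`, multiplied by `q⁴`. -/
theorem hm3Z :
    eisenstein4 ^ 3 * dedekindEtaUnitInv * T3 ^ 3 = (T3 + 27 * X) * (T3 + 243 * X) ^ 3 := by
  have h1 := dedekindEtaUnit_mul_inv
  have h2 := U3_mul_inv
  have hT := T3_mul
  have hS := T3_sq
  rw [X3_eq, Y3'] at hT
  -- `T3 * E₄³ = U₃ * (T3 + 27 q)(T3 + 243 q)³`
  have key : U3 * (T3 * eisenstein4 ^ 3) =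
      U3 * (U3 * ((T3 + 27 * X) * (T3 + 243 * X) ^ 3)) := by
    linear_combination hT + (-756 * X * T3 * U3 - dedekindEtaUnit - T3 ^ 2 * U3
      - 196830 * X ^ 2 * U3) * hS
  have hU3 : U3 ≠ 0 := by
    intro h0
    have := U3_mul_inv
    rw [h0, zero_mul] at this
    exact zero_ne_one this
  have key' := mul_left_cancel₀ hU3 key
  linear_combination (dedekindEtaUnitInv * T3 ^ 2) * key'
    + (dedekindEtaUnitInv * (T3 + 27 * X) * (T3 + 243 * X) ^ 3) * hS
    + ((T3 + 27 * X) * (T3 + 243 * X) ^ 3) * h1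

end H4HM
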