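import Mathlib

/-!
# Item 75 (S18), slice C9 (helper4): verified truncated arithmetic of integral power series

`H4HM.tr n A` is the list of the first `n` coefficients of `A : PowerSeries ℤ`; the list
operations `lmul`, `ladd`, `lsub`, `lsmul`, `ldil` are computable (kernel `decide`) and compute
the truncations of products, sums, differences, integer multiples and dilations `q ↦ q^k`.
-/

set_option autoImplicit false

namespace H4HM

/-- the first `n` coefficients of a power series -/
noncomputable def tr (n : ℕ) (A : PowerSeries ℤ) : List ℤ :=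
  (List.range n).map fun i => PowerSeries.coeff i A

/-- coefficient `i` of the product of two truncated series -/
def lmulC (l₁ l₂ : List ℤ) (i : ℕ) : ℤ :=
  ((List.range (i + 1)).map fun j => l₁.getD j 0 * l₂.getD (i - j) 0).sum

/-- truncated product -/
def lmul (n : ℕ) (l₁ l₂ : List ℤ) : List ℤ := (List.range n).map (lmulC l₁ l₂)

/-- truncated sum -/
def ladd (n : ℕ) (l₁ l₂ : List ℤ) : List ℤ :=
  (List.range n).map fun i => l₁.getD i 0 + l₂.getD i 0

/-- truncated difference -/
def lsub (n : ℕ) (l₁ l₂ : List ℤ) : List ℤ :=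
  (List.range n).map fun i => l₁.getD i 0 - l₂.getD i 0

/-- truncated multiple -/
def lsmul (n : ℕ) (c : ℤ) (l : List ℤ) : List ℤ :=
  (List.range n).map fun i => c * l.getD i 0

/-- truncated dilation `q ↦ q^k` -/
def ldil (n k : ℕ) (l : List ℤ) : List ℤ :=
  (List.range n).map fun i => if k ∣ i then l.getD (i / k) 0 else 0

theorem tr_length (n : ℕ) (A : PowerSeries ℤ) : (tr n A).length = n := by
  simp [tr]

theorem tr_getD {n i : ℕ} (h : i < n) (A : PowerSeries ℤ) :
    (tr n A).getD i 0 = PowerSeries.coeff i A := by
  unfold tr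
  rw [List.getD_eq_getElem _ _ (by simpa using h)]
  simp

theorem tr_ext {n : ℕ} {A B : PowerSeries ℤ} (h : tr n A = tr n B) {i : ℕ} (hi : i < n) :
    PowerSeries.coeff i A = PowerSeries.coeff i B := by
  rw [← tr_getD hi A, ← tr_getD hi B, h]

theorem tr_congr {n : ℕ} {A B : PowerSeries ℤ}
    (h : ∀ i, i < n → PowerSeries.coeff i A = PowerSeries.coeff i B) : tr n A = tr n B := by
  unfold tr
  apply List.map_congr_left
  intro i hi
  exact h i (List.mem_range.mp hi)

theorem list_sum_map_range {M : Type*} [AddCommMonoid M] (f : ℕ → M) (m : ℕ) :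
    ((List.range m).map f).sum = ∑ j ∈ Finset.range m, f j := by
  induction m with
  | zero => simp
  | succ m ih =>
    rw [List.range_succ, List.map_append, List.sum_append, ih, Finset.sum_range_succ]
    simp

theorem tr_mul (n : ℕ) (A B : PowerSeries ℤ) :
    tr n (A * B) = lmul n (tr n A) (tr n B) := by
  unfold lmul
  unfold tr
  apply List.map_congr_left
  intro i hi
  have hi' : i < n := List.mem_range.mp hi
  rw [PowerSeries.coeff_mul, Finset.Nat.sum_antidiagonal_eq_sum_range_succ_mk, lmulC,
    list_sum_map_range]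
  refine Finset.sum_congr rfl fun j hj => ?_
  have hj' : j < i + 1 := Finset.mem_range.mp hj
  have h1 := tr_getD (show j < n by omega) A
  have h2 := tr_getD (show i - j < n by omega) B
  unfold tr at h1 h2
  rw [h1, h2]

theorem tr_add (n : ℕ) (A B : PowerSeries ℤ) :
    tr n (A + B) = ladd n (tr n A) (tr n B) := by
  unfold ladd
  unfold tr
  apply List.map_congr_left
  intro i hi
  have hi' : i < n := List.mem_range.mp hi
  have h1 := tr_getD hi' A
  have h2 := tr_getD hi' B
  unfold tr at h1 h2
  rw [h1, h2, map_add]

theorem tr_sub (n : ℕ) (A B : PowerSeries ℤ) :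
    tr n (A - B) = lsub n (tr n A) (tr n B) := by
  unfold lsub
  unfold tr
  apply List.map_congr_left
  intro i hi
  have hi' : i < n := List.mem_range.mp hi
  have h1 := tr_getD hi' A
  have h2 := tr_getD hi' B
  unfold tr at h1 h2
  rw [h1, h2, map_sub]

theorem tr_smul (n : ℕ) (c : ℤ) (A : PowerSeries ℤ) :
    tr n (PowerSeries.C c * A) = lsmul n c (tr n A) := by
  unfold lsmul
  unfold tr
  apply List.map_congr_left
  intro i hi
  have hi' : i < n := List.mem_range.mp hi
  have h1 := tr_getD hi' A
  unfold tr at h1
  rw [h1, PowerSeries.coeff_C_mul]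

/-- the dilation `q ↦ q^k` of a power series -/
noncomputable def dil (k : ℕ) (A : PowerSeries ℤ) : PowerSeries ℤ :=
  PowerSeries.mk fun i => if k ∣ i then PowerSeries.coeff (i / k) A else 0

theorem tr_dil (n k : ℕ) (A : PowerSeries ℤ) :
    tr n (dil k A) = ldil n k (tr n A) := by
  unfold ldil
  unfold tr
  apply List.map_congr_left
  intro i hi
  have hi' : i < n := List.mem_range.mp hi
  have h1 := tr_getD (show i / k < n from lt_of_le_of_lt (Nat.div_le_self i k) hi') A
  unfold tr at h1
  rw [h1, dil, PowerSeries.coeff_mk]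

theorem tr_mk (n : ℕ) (f : ℕ → ℤ) : tr n (PowerSeries.mk f) = (List.range n).map f := by
  unfold tr
  apply List.map_congr_left
  intro i _
  rw [PowerSeries.coeff_mk]

/-- cancellation of a nonzero integer factor -/
theorem lsmul_cancel {n : ℕ} {c : ℤ} (hc : c ≠ 0) {A : PowerSeries ℤ} {l : List ℤ}
    (hl : l.length = n) (h : tr n (PowerSeries.C c * A) = lsmul n c l) : tr n A = l := by
  apply List.ext_getElem
  · rw [tr_length, hl]
  · intro i h1 h2
    have hi : i < n := by rw [tr_length] at h1; exact h1
    have e1 : (tr n (PowerSeries.C c * A)).getD i 0 = c * PowerSeries.coeff i A := by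
      rw [tr_getD hi, PowerSeries.coeff_C_mul]
    have e2 : (lsmul n c l).getD i 0 = c * l.getD i 0 := by
      unfold lsmul
      rw [List.getD_eq_getElem _ _ (by simpa using hi)]
      simp
    rw [h, e2] at e1
    have e3 := mul_left_cancel₀ hc e1
    have e4 : (tr n A)[i] = PowerSeries.coeff i A := by
      have := tr_getD hi A
      rwa [List.getD_eq_getElem _ _ h1] at this
    rw [e4, ← e3, List.getD_eq_getElem _ _ h2]

end H4HM
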