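import Mathlib
import Fermat.Agent.S18.GVMain_helper28

/-!
# W2-B (S18), foundation slice GV, part 8 (helper28): orthonormal bases of subspaces of `F_L`

**(GV4)** `gv_ortho_basis`: every finitely generated `L`-subspace `V` of `F_L` has, after
multiplication by one `ε g` (`g = Q(j)`, `Q ∈ A[X]` with nonzero reduction), a basis of
`A`-integral series `ε x_j` whose reductions `ρ x_j ∈ F_k` are linearly independent over `k`.
Hence `V` has the basis `ε x_j / ε g` of Gauss units with `k`-linearly independent reductions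
`ρ x_j / ρ g`; the number of basis elements is `dim_L V`.
-/

set_option autoImplicit false
open ModularCurve HahnSeries

noncomputable section

namespace H28GV

variable {L : Type} [Field L] {A : ValuationSubring L} {k : Type} [Field k] {π : A →+* k}
variable {N : ℕ}

theorem gvRho_powFam_mem (B : GVBasis A π N) (d : ℕ) (p : Fin d × Fin (dedekindPsi N)) :
    gvRho A π (gvPowFam A (jqModC A) B.y d p) ∈ modularFunctionFieldFullC k N := by
  rw [gvPowFam, map_mul, map_pow, gvRho_jq]
  exact mul_mem (pow_mem (jqModC_mem_full k N) _) (B.rho_mem p.2)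

theorem gvRho_comb_mem {ι : Type*} [Fintype ι] (w : ι → LaurentSeries A)
    (hw : ∀ i, gvRho A π (w i) ∈ modularFunctionFieldFullC k N) (b : ι → A) :
    gvRho A π (gvComb A w b) ∈ modularFunctionFieldFullC k N := by
  rw [gvComb, map_sum]
  refine sum_mem (fun i _ => ?_)
  rw [map_mul, gvRho_C]
  refine mul_mem ?_ (hw i)
  have h3 : (HahnSeries.C (π (b i)) : LaurentSeries k) =
      algebraMap k (LaurentSeries k) (π (b i)) := by
    rw [algebraMap_laurentSeries_eq_single]; rfl
  rw [h3]
  exact IntermediateField.algebraMap_mem _ _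

/-- right multiplication by a fixed series, as an `L`-linear map -/
def gvMulR (z : LaurentSeries L) : LaurentSeries L →ₗ[L] LaurentSeries L where
  toFun x := x * z
  map_add' x y := add_mul x y z
  map_smul' c x := by
    show (c • x) * z = c • (x * z)
    rw [← HahnSeries.C_mul_eq_smul, ← HahnSeries.C_mul_eq_smul, mul_assoc]

@[simp] theorem gvMulR_apply (z x : LaurentSeries L) : gvMulR z x = x * z := rfl

/-- the key computation: `C a · ε (P(t)) · ε y` lies in the span of the `ε (t^e y)` -/
theorem gv_term_mem_span {ι : Type*} [Fintype ι] (t : LaurentSeries A) (y : ι → LaurentSeries A)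
    (d : ℕ) (P : Polynomial A) (hP : P.natDegree < d) (a : L) (i : ι) :
    HahnSeries.C a * gvEps A (gvEv A t P) * gvEps A (y i) ∈
      Submodule.span L (Set.range fun p => gvEps A (gvPowFam A t y d p)) := by
  rw [gvEv_eq_sum A t P d hP, map_sum, Finset.mul_sum, Finset.sum_mul]
  refine Submodule.sum_mem _ (fun e _ => ?_)
  have h1 : HahnSeries.C a * gvEps A (HahnSeries.C (P.coeff e) * t ^ (e : ℕ)) * gvEps A (y i) =
      (a * ((P.coeff e : A) : L)) • gvEps A (gvPowFam A t y d (e, i)) := by
    rw [gvPowFam, map_mul, map_mul, gvEps_C, ← HahnSeries.C_mul_eq_smul, map_mul]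
    ring
  rw [h1]
  exact Submodule.smul_mem _ _ (Submodule.subset_span ⟨(e, i), rfl⟩)

variable [NeZero N]

/-- **(GV4)** orthonormal bases of finitely generated subspaces of `F_L`. -/
theorem gv_ortho_basis (B : GVBasis A π N) (V : Submodule L (LaurentSeries L))
    (hV : ∀ v ∈ V, v ∈ modularFunctionFieldFullC L N) (hfg : V.FG) :
    ∃ (Q : Polynomial A) (n : ℕ) (x : Fin n → LaurentSeries A),
      gvRho A π (gvEv A (jqModC A) Q) ≠ 0 ∧
      LinearIndependent k (fun j => gvRho A π (x j)) ∧
      (∀ j, gvEps A (x j) ∈ modularFunctionFieldFullC L N) ∧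
      (∀ j, gvRho A π (x j) ∈ modularFunctionFieldFullC k N) ∧
      (∀ j, gvEps A (x j) / gvEps A (gvEv A (jqModC A) Q) ∈ V) ∧
      (∀ v ∈ V, v * gvEps A (gvEv A (jqModC A) Q) ∈
        Submodule.span L (Set.range fun j => gvEps A (x j))) := by
  classical
  obtain ⟨S, hS⟩ := hfg
  have hSV : ∀ s : S, (s : LaurentSeries L) ∈ modularFunctionFieldFullC L N := fun s =>
    hV _ (hS ▸ Submodule.subset_span s.2)
  have hex := fun s : S => B.span_eps (s : LaurentSeries L) (hSV s)
  choose c hc hsc using hex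
  obtain ⟨Q, a, P, hQ, -, -, hcQ⟩ := gv_common_den A π (jqModC A) (gv_trans_rho_jq A π)
    (fun p : S × Fin (dedekindPsi N) => c p.1 p.2)
    (fun p => by rw [gvEps_jq]; exact hc p.1 p.2)
  set g : LaurentSeries A := gvEv A (jqModC A) Q with hg
  have hg0 : gvEps A g ≠ 0 := gvEps_ne_zero_of_rho A π g hQ
  set d : ℕ := (Finset.univ.sup fun p : S × Fin (dedekindPsi N) => (P p).natDegree) + 1 with hd
  have hPd : ∀ p, (P p).natDegree < d := fun p =>
    Nat.lt_succ_of_le (Finset.le_sup (f := fun p : S × Fin (dedekindPsi N) => (P p).natDegree)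
      (Finset.mem_univ p))
  set w : Fin d × Fin (dedekindPsi N) → LaurentSeries A := gvPowFam A (jqModC A) B.y d with hw
  have hwli : LinearIndependent k (fun p => gvRho A π (w p)) :=
    gv_pow_family_li A π (jqModC A) B.y (gv_trans_rho_jq A π) B.li' d
  -- every generator times `ε g` lies in the span of the `ε w_p`
  have hgen : ∀ s : S, (s : LaurentSeries L) * gvEps A g ∈
      Submodule.span L (Set.range fun p => gvEps A (w p)) := by
    intro s
    rw [hsc s, Finset.sum_mul]
    refine Submodule.sum_mem _ (fun i _ => ?_)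
    have h1 : c s i * gvEps A (B.y i) * gvEps A g =
        HahnSeries.C (a (s, i)) * gvEps A (gvEv A (jqModC A) (P (s, i))) * gvEps A (B.y i) := by
      rw [mul_right_comm, hcQ (s, i)]
    rw [h1]
    exact gv_term_mem_span (jqModC A) B.y d (P (s, i)) (hPd (s, i)) (a (s, i)) i
  set V' : Submodule L (LaurentSeries L) := V.map (gvMulR (gvEps A g)) with hV'
  have hV'W : V' ≤ Submodule.span L (Set.range fun p => gvEps A (w p)) := by
    rw [hV', ← hS, Submodule.map_span, Submodule.span_le]
    rintro _ ⟨s, hs, rfl⟩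
    exact hgen ⟨s, hs⟩
  obtain ⟨n, x, hxV, hxli, hxspan⟩ := gv_ortho_sub A π hwli V' hV'W
  refine ⟨Q, n, fun j => gvComb A w (x j), hQ, hxli, ?_, ?_, ?_, ?_⟩
  · intro j
    obtain ⟨v, hv, hvx⟩ := hxV j
    rw [← hvx]
    exact mul_mem (hV v hv) (gvEps_ev_mem Q)
  · intro j
    exact gvRho_comb_mem w (fun p => gvRho_powFam_mem B d p) (x j)
  · intro j
    obtain ⟨v, hv, hvx⟩ := hxV j
    have h2 : gvEps A (gvComb A w (x j)) / gvEps A g = v := by
      rw [← hvx]
      exact mul_div_cancel_right₀ v hg0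
    rw [h2]
    exact hv
  · intro v hv
    exact hxspan (Submodule.mem_map_of_mem hv)

/-- the number of elements of the orthonormal basis of (GV4) is `dim_L V` -/
theorem gv_ortho_basis_card (V : Submodule L (LaurentSeries L)) (g : LaurentSeries A)
    (hg : gvRho A π g ≠ 0) (n : ℕ) (x : Fin n → LaurentSeries A)
    (hli : LinearIndependent k (fun j => gvRho A π (x j)))
    (hxV : ∀ j, gvEps A (x j) / gvEps A g ∈ V)
    (hspan : ∀ v ∈ V, v * gvEps A g ∈ Submodule.span L (Set.range fun j => gvEps A (x j))) :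
    Module.finrank L V = n := by
  classical
  have hg0 : gvEps A g ≠ 0 := gvEps_ne_zero_of_rho A π g hg
  have hliL : LinearIndependent L (fun j => gvEps A (x j)) := gv_ortho_linearIndependent A π hli
  have hinj : Function.Injective (gvMulR (gvEps A g)) := by
    intro u v huv
    simp only [gvMulR_apply] at huv
    exact mul_right_cancel₀ hg0 huv
  have hmap : V.map (gvMulR (gvEps A g)) =
      Submodule.span L (Set.range fun j => gvEps A (x j)) := by
    apply le_antisymm
    · rintro _ ⟨v, hv, rfl⟩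
      exact hspan v hv
    · rw [Submodule.span_le]
      rintro _ ⟨j, rfl⟩
      refine ⟨_, hxV j, ?_⟩
      simp only [gvMulR_apply]
      exact div_mul_cancel₀ _ hg0
  have h1 : Module.finrank L V = Module.finrank L (V.map (gvMulR (gvEps A g))) :=
    (Submodule.equivMapOfInjective _ hinj V).finrank_eq
  rw [h1, hmap, finrank_span_eq_card hliL, Fintype.card_fin]

/-- integrality of the coordinates: an element of `gvO` which is an `L`-combination of an
orthonormal family has coordinates in `A`. -/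
theorem gv_ortho_coord_mem (hπ : ∀ a : A, π a ≠ 0 → ((a : L))⁻¹ ∈ A)
    {n : ℕ} (x : Fin n → LaurentSeries A)
    (hli : LinearIndependent k (fun j => gvRho A π (x j)))
    (a : Fin n → L) (h : (∑ j, a j • gvEps A (x j)) ∈ gvO A π) : ∀ j, a j ∈ A := by
  classical
  by_cases ha0 : a = 0
  · intro j
    rw [ha0]
    exact A.zero_mem
  obtain ⟨c, b, hc, ⟨j₀, hb1⟩, hab⟩ := gv_scale A a ha0
  have h1 : (∑ j, a j • gvEps A (x j)) = HahnSeries.C c * gvEps A (gvComb A x b) := by
    rw [gvEps_comb, Finset.mul_sum]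
    refine Finset.sum_congr rfl (fun j _ => ?_)
    rw [HahnSeries.C_mul_eq_smul, smul_smul, hab j]
    rfl
  have hred : gvRho A π (gvComb A x b) ≠ 0 :=
    gvRho_comb_ne_zero A π hli b ⟨j₀, by rw [hb1, map_one]; exact one_ne_zero⟩
  have hunit : gvRed A π ⟨gvEps A (gvComb A x b), gvEps_mem_gvO A π _⟩ ≠ 0 := by
    rw [gvRed_eps]; exact hred
  have hCc : (HahnSeries.C c : LaurentSeries L) ∈ gvO A π := by
    have h2 : (HahnSeries.C c : LaurentSeries L) =
        (∑ j, a j • gvEps A (x j)) * (gvEps A (gvComb A x b))⁻¹ := by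
      rw [h1, mul_assoc, mul_inv_cancel₀ (gvEps_ne_zero_of_rho A π _ hred), mul_one]
    rw [h2]
    exact (gvO A π).mul_mem h (gv_inv_mem A π ⟨_, gvEps_mem_gvO A π _⟩ hunit)
  have hcA : c ∈ A := gv_const_mem hπ c hCc
  intro j
  rw [hab j]
  exact A.mul_mem _ _ hcA (b j).2

/-- **(GV4), packaged**: a finitely generated subspace `V ≤ F_L` has a basis
`ε f_j / ε g`, `j < dim_L V`, of quotients of `A`-integral series of `F_L`, with `ρ g ≠ 0` and
the `ρ f_j ∈ F_k` linearly independent over `k`; the elements of `V ∩ gvO` are exactly the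
`A`-combinations. -/
theorem gv_ortho_basis_units (B : GVBasis A π N)
    (hπ : ∀ a : A, π a ≠ 0 → ((a : L))⁻¹ ∈ A) (V : Submodule L (LaurentSeries L))
    (hV : ∀ v ∈ V, v ∈ modularFunctionFieldFullC L N) (hfg : V.FG) :
    ∃ (g : LaurentSeries A) (f : Fin (Module.finrank L V) → LaurentSeries A),
      gvRho A π g ≠ 0 ∧ gvEps A g ∈ modularFunctionFieldFullC L N ∧
      gvRho A π g ∈ modularFunctionFieldFullC k N ∧
      (∀ j, gvEps A (f j) ∈ modularFunctionFieldFullC L N) ∧
      (∀ j, gvRho A π (f j) ∈ modularFunctionFieldFullC k N) ∧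
      LinearIndependent k (fun j => gvRho A π (f j)) ∧
      (∀ j, gvEps A (f j) / gvEps A g ∈ V) ∧
      (∀ v ∈ V, ∃ a : Fin (Module.finrank L V) → L,
        v * gvEps A g = ∑ j, a j • gvEps A (f j)) ∧
      (∀ v ∈ V, v ∈ gvO A π → ∃ a : Fin (Module.finrank L V) → A,
        v * gvEps A g = gvEps A (gvComb A f a)) := by
  classical
  obtain ⟨Q, n, x, hQ, hli, hxL, hxk, hxV, hspan⟩ := gv_ortho_basis B V hV hfg
  have hn := gv_ortho_basis_card V (gvEv A (jqModC A) Q) hQ n x hli hxV hspan
  subst hn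
  have hcoord : ∀ v ∈ V, ∃ a : Fin (Module.finrank L V) → L,
      v * gvEps A (gvEv A (jqModC A) Q) = ∑ j, a j • gvEps A (x j) := by
    intro v hv
    have h1 := hspan v hv
    rw [← Fintype.range_linearCombination] at h1
    obtain ⟨a, ha⟩ := h1
    refine ⟨a, ?_⟩
    rw [← ha, Fintype.linearCombination_apply]
  refine ⟨gvEv A (jqModC A) Q, x, hQ, gvEps_ev_mem Q, gvRho_ev_mem Q, hxL, hxk, hli, hxV,
    hcoord, ?_⟩
  intro v hv hvO
  obtain ⟨a, ha⟩ := hcoord v hv
  have hmem : (∑ j, a j • gvEps A (x j)) ∈ gvO A π := by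
    rw [← ha]
    exact (gvO A π).mul_mem hvO (gvEps_mem_gvO A π _)
  have haA := gv_ortho_coord_mem hπ x hli a hmem
  refine ⟨fun j => ⟨a j, haA j⟩, ?_⟩
  rw [ha, gvEps_comb]
  rfl

end H28GV
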