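/-
helper18: S18 (item 75), route Y', slice C2 (purity at a maximal ideal without branch point),
part A: elementary saturation lemmas in the abstract setting.

`T` an integrally closed domain (a UFD), `E` a field containing `T`, `M₀` the integral closure of
`T` in `E`.
* `h18pa_remove`   : remove one prime factor from a denominator (Lemma U).
* `h18pa_denom`    : denominators can be made prime to a prime ideal `𝔪` as soon as this is
                     possible at every prime element of `𝔪` (height one primes).
-/
import Mathlib
import Fermat.Agent.S18.LemmaU_helper19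

set_option autoImplicit false

namespace H18S18

section PurityA

variable {T E : Type*} [CommRing T] [IsDomain T] [UniqueFactorizationMonoid T]
  [Field E] [Algebra T E] [Module.IsTorsionFree T E]

/-- Lemma U, one prime factor removed: if `s y` and `(P c) y` are integral and `P ∤ s`, then
`c y` is integral. -/
theorem h18pa_remove (P s c : T) (hP : Prime P) (hs : ¬ P ∣ s) (y : E)
    (h1 : IsIntegral T (algebraMap T E s * y))
    (h2 : IsIntegral T (algebraMap T E (P * c) * y)) :
    IsIntegral T (algebraMap T E c * y) := by
  apply H19S18.h19_lemmaU_gen P s hP hs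
  · have : algebraMap T E P * (algebraMap T E c * y) = algebraMap T E (P * c) * y := by
      rw [map_mul]; ring
    rw [this]; exact h2
  · have : algebraMap T E s * (algebraMap T E c * y) =
        algebraMap T E c * (algebraMap T E s * y) := by ring
    rw [this]
    exact isIntegral_algebraMap.mul h1

/-- Denominators prime to a prime ideal: if `c₀ y` is integral and for every prime element `P`
of `𝔪` dividing `c₀` there is a denominator of `y` prime to `P`, then there is a denominator of
`y` outside `𝔪`. -/
theorem h18pa_denom (𝔪 : Ideal T) (h𝔪 : 𝔪.IsPrime) (c₀ : T) :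
    ∀ y : E, c₀ ≠ 0 → IsIntegral T (algebraMap T E c₀ * y) →
      (∀ P : T, Prime P → P ∈ 𝔪 → P ∣ c₀ →
        ∃ s : T, ¬ P ∣ s ∧ IsIntegral T (algebraMap T E s * y)) →
      ∃ c : T, c ∉ 𝔪 ∧ IsIntegral T (algebraMap T E c * y) := by
  induction c₀ using UniqueFactorizationMonoid.induction_on_prime with
  | h₁ => intro y h; exact absurd rfl h
  | h₂ u hu =>
    intro y _ h _
    obtain ⟨v, hv⟩ := hu.exists_left_inv
    refine ⟨1, fun h1 => h𝔪.ne_top ((Ideal.eq_top_iff_one _).mpr h1), ?_⟩
    have : algebraMap T E 1 * y = algebraMap T E v * (algebraMap T E u * y) := by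
      rw [← mul_assoc, ← map_mul, hv]
    rw [this]
    exact isIntegral_algebraMap.mul h
  | h₃ a p ha hp ih =>
    intro y _ h hloc
    by_cases hpm : p ∈ 𝔪
    · obtain ⟨s, hs, hsy⟩ := hloc p hp hpm (dvd_mul_right p a)
      have h1 := h18pa_remove p s a hp hs y hsy h
      exact ih y ha h1 (fun P hP hPm hPa => hloc P hP hPm (Dvd.dvd.mul_left hPa p))
    · have h1 : IsIntegral T (algebraMap T E a * (algebraMap T E p * y)) := by
        have : algebraMap T E a * (algebraMap T E p * y) = algebraMap T E (p * a) * y := by
          rw [map_mul]; ring
        rw [this]; exact h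
      obtain ⟨c, hc, hcy⟩ := ih (algebraMap T E p * y) ha h1 (fun P hP hPm hPa => by
        obtain ⟨s, hs, hsy⟩ := hloc P hP hPm (Dvd.dvd.mul_left hPa p)
        refine ⟨s, hs, ?_⟩
        have : algebraMap T E s * (algebraMap T E p * y) =
            algebraMap T E p * (algebraMap T E s * y) := by ring
        rw [this]
        exact isIntegral_algebraMap.mul hsy)
      refine ⟨c * p, fun h' => (h𝔪.mem_or_mem h').elim hc hpm, ?_⟩
      have : algebraMap T E (c * p) * y = algebraMap T E c * (algebraMap T E p * y) := by
        rw [map_mul]; ring
      rw [this]; exact hcy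

end PurityA

end H18S18
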