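/-
helper18: S18 (item 75), route Y', slice C2, part B: a basis of the integral closure adapted to
a prime element `π` with `T / π` a PID.

`T` an integrally closed noetherian domain with fraction field `L`, `E / L` finite separable,
`M₀` the integral closure of `T` in `E`.  If `π ∈ T` is prime and `T / π` is a principal ideal
ring, there are `e₁, …, eₙ ∈ M₀` which are linearly independent modulo `π M₀` over `T / π` and
generate `M₀` up to a denominator `s₀ ≡ 1 mod π`.
-/
import Mathlib
import Fermat.Agent.S18.LemmaU_helper19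

set_option autoImplicit false

namespace H18S18

section PurityB

variable {T : Type*} (L : Type*) {E : Type*} [CommRing T] [IsDomain T] [IsIntegrallyClosed T]
  [IsNoetherianRing T] [Field L] [Algebra T L] [IsFractionRing T L]
  [Field E] [Algebra T E] [Algebra L E] [IsScalarTower T L E] [FiniteDimensional L E]
  [Algebra.IsSeparable L E] [Module.IsTorsionFree T E]

include L in
theorem h18pb_basis (π : T) (hπ : Prime π)
    (hPID : IsPrincipalIdealRing (T ⧸ Ideal.span {π})) :
    ∃ (n : ℕ) (e : Fin n → E), (∀ i, IsIntegral T (e i)) ∧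
      (∀ c : Fin n → T, (∃ m : E, IsIntegral T m ∧
          ∑ i, algebraMap T E (c i) * e i = algebraMap T E π * m) → ∀ i, π ∣ c i) ∧
      (∃ s₀ : T, π ∣ s₀ - 1 ∧ ∀ m : E, IsIntegral T m →
          ∃ c : Fin n → T, algebraMap T E s₀ * m = ∑ i, algebraMap T E (c i) * e i) := by
  classical
  set M₀ := integralClosure T E with hM₀
  have hfin : Module.Finite T M₀ := IsIntegralClosure.finite T L E M₀
  set I : Ideal T := Ideal.span {π} with hI
  have hIp : I.IsPrime := (Ideal.span_singleton_prime hπ.ne_zero).mpr hπ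
  have : IsDomain (T ⧸ I) := Ideal.Quotient.isDomain I
  set N : Submodule T M₀ := I • (⊤ : Submodule T M₀) with hN
  have hcoe : ∀ (r : T) (m : M₀), ((r • m : M₀) : E) = algebraMap T E r * (m : E) :=
    fun r m => by rw [Subalgebra.coe_smul, Algebra.smul_def]
  have hcoesum : ∀ (n : ℕ) (c : Fin n → T) (f : Fin n → M₀),
      ((∑ i, c i • f i : M₀) : E) = ∑ i, algebraMap T E (c i) * (f i : E) := by
    intro n c f
    rw [AddSubmonoidClass.coe_finsetSum]
    exact Finset.sum_congr rfl (fun i _ => hcoe _ _)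
  -- membership in `N`
  have hmemN : ∀ m : M₀, m ∈ N ↔ ∃ m' : M₀, m = π • m' := by
    intro m
    rw [hN, hI, Submodule.ideal_span_singleton_smul, Submodule.mem_smul_pointwise_iff_exists]
    constructor
    · rintro ⟨s, -, hs⟩; exact ⟨s, hs.symm⟩
    · rintro ⟨s, hs⟩; exact ⟨s, trivial, hs.symm⟩
  have : Module.Finite (T ⧸ I) (M₀ ⧸ N) :=
    Module.Finite.of_restrictScalars_finite T (T ⧸ I) (M₀ ⧸ N)
  -- torsion freeness
  have : Module.IsTorsionFree (T ⧸ I) (M₀ ⧸ N) := by
    refine ⟨fun r hr => ?_⟩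
    obtain ⟨r, rfl⟩ := Ideal.Quotient.mk_surjective r
    have hr0 : ¬ π ∣ r := by
      intro h
      have : Ideal.Quotient.mk I r = 0 :=
        Ideal.Quotient.eq_zero_iff_mem.mpr (Ideal.mem_span_singleton.mpr h)
      exact hr.ne_zero this
    intro q₁ q₂ h
    obtain ⟨m₁, rfl⟩ := Submodule.Quotient.mk_surjective _ q₁
    obtain ⟨m₂, rfl⟩ := Submodule.Quotient.mk_surjective _ q₂
    have h' : Submodule.Quotient.mk (p := N) (r • m₁) = Submodule.Quotient.mk (p := N) (r • m₂) :=
      h
    rw [Submodule.Quotient.eq, ← smul_sub] at h'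
    rw [Submodule.Quotient.eq]
    obtain ⟨m', hm'⟩ := (hmemN _).mp h'
    rw [hmemN]
    -- `y = (m₁ - m₂) / π`
    have hπE : algebraMap T E π ≠ 0 := by
      intro h0
      exact hπ.ne_zero ((FaithfulSMul.algebraMap_injective T E) (h0.trans (map_zero _).symm))
    set y : E := ((m₁ - m₂ : M₀) : E) / algebraMap T E π with hy
    have h1 : algebraMap T E π * y = ((m₁ - m₂ : M₀) : E) := by
      rw [hy]; field_simp
    have h2 : algebraMap T E r * y = (m' : E) := by
      have h3 : algebraMap T E r * ((m₁ - m₂ : M₀) : E) = algebraMap T E π * (m' : E) := by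
        have := congrArg (fun z : M₀ => (z : E)) hm'
        rwa [hcoe, hcoe] at this
      rw [hy, ← mul_div_assoc, div_eq_iff hπE, h3, mul_comm]
    have hyint : IsIntegral T y := by
      apply H19S18.h19_lemmaU_gen π r hπ hr0
      · rw [h1]; exact (m₁ - m₂).2
      · rw [h2]; exact m'.2
    refine ⟨⟨y, hyint⟩, ?_⟩
    apply Subtype.ext
    rw [hcoe]
    exact h1.symm
  have : Module.Free (T ⧸ I) (M₀ ⧸ N) := Module.free_of_finite_type_torsion_free'
  set ι := Module.Free.ChooseBasisIndex (T ⧸ I) (M₀ ⧸ N) with hι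
  let b₀ : Module.Basis ι (T ⧸ I) (M₀ ⧸ N) := Module.Free.chooseBasis (T ⧸ I) (M₀ ⧸ N)
  let b : Module.Basis (Fin (Fintype.card ι)) (T ⧸ I) (M₀ ⧸ N) :=
    b₀.reindex (Fintype.equivFin ι)
  have hlift : ∀ i, ∃ m : M₀, Submodule.Quotient.mk (p := N) m = b i := fun i =>
    Submodule.Quotient.mk_surjective _ (b i)
  choose e he using hlift
  refine ⟨Fintype.card ι, fun i => (e i : E), fun i => (e i).2, ?_, ?_⟩
  · rintro c ⟨m, hm, hsum⟩ i
    have h1 : (∑ i, c i • e i : M₀) = π • (⟨m, hm⟩ : M₀) := by
      apply Subtype.ext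
      rw [hcoesum, hcoe]
      exact hsum
    have h2 : (∑ i, c i • e i : M₀) ∈ N := (hmemN _).mpr ⟨_, h1⟩
    have h3 : Submodule.Quotient.mk (p := N) (∑ i, c i • e i : M₀) = 0 :=
      (Submodule.Quotient.mk_eq_zero _).mpr h2
    have h4 : ∑ i, Ideal.Quotient.mk I (c i) • b i = 0 := by
      rw [← h3, ← Submodule.mkQ_apply, map_sum]
      apply Finset.sum_congr rfl
      intro j _
      rw [← he j]
      rfl
    have h5 := Fintype.linearIndependent_iff.mp b.linearIndependent _ h4 i
    exact Ideal.mem_span_singleton.mp (Ideal.Quotient.eq_zero_iff_mem.mp h5)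
  · -- Nakayama
    set S : Submodule T M₀ := Submodule.span T (Set.range e) with hS
    have hdecomp : ∀ m : M₀, ∃ m' : M₀, m - π • m' ∈ S := by
      intro m
      have h1 := b.sum_repr (Submodule.Quotient.mk (p := N) m)
      have hr : ∀ i, ∃ r : T, Ideal.Quotient.mk I r = b.repr (Submodule.Quotient.mk m) i :=
        fun i => Ideal.Quotient.mk_surjective _
      choose r hr using hr
      have h2 : Submodule.Quotient.mk (p := N) (m - ∑ i, r i • e i) = 0 := by
        rw [Submodule.Quotient.mk_sub, sub_eq_zero]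
        conv_lhs => rw [← h1]
        rw [← Submodule.mkQ_apply N (∑ i, r i • e i), map_sum]
        apply Finset.sum_congr rfl
        intro j _
        rw [← hr j, ← he j]
        rfl
      obtain ⟨m', hm'⟩ := (hmemN _).mp ((Submodule.Quotient.mk_eq_zero _).mp h2)
      refine ⟨m', ?_⟩
      have : m - π • m' = ∑ i, r i • e i := by
        rw [← hm']; abel
      rw [this]
      exact Submodule.sum_mem _ (fun i _ => Submodule.smul_mem _ _
        (Submodule.subset_span ⟨i, rfl⟩))
    have hle : (⊤ : Submodule T (M₀ ⧸ S)) ≤ I • (⊤ : Submodule T (M₀ ⧸ S)) := by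
      intro q _
      obtain ⟨m, rfl⟩ := Submodule.Quotient.mk_surjective _ q
      obtain ⟨m', hm'⟩ := hdecomp m
      have : Submodule.Quotient.mk (p := S) m = π • Submodule.Quotient.mk (p := S) m' := by
        rw [← Submodule.Quotient.mk_smul, Submodule.Quotient.eq]
        exact hm'
      rw [this]
      exact Submodule.smul_mem_smul (Ideal.mem_span_singleton_self π) trivial
    obtain ⟨s₀, hs₀, hs₀'⟩ := Submodule.exists_sub_one_mem_and_smul_eq_zero_of_fg_of_le_smul I
      (⊤ : Submodule T (M₀ ⧸ S)) (Module.Finite.fg_top) hle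
    refine ⟨s₀, Ideal.mem_span_singleton.mp hs₀, fun m hm => ?_⟩
    have h1 := hs₀' (Submodule.Quotient.mk (p := S) ⟨m, hm⟩) trivial
    rw [← Submodule.Quotient.mk_smul, Submodule.Quotient.mk_eq_zero] at h1
    obtain ⟨c, hc⟩ := (Submodule.mem_span_range_iff_exists_fun T).mp h1
    refine ⟨c, ?_⟩
    have := congrArg (fun z : M₀ => (z : E)) hc
    rw [hcoesum, hcoe] at this
    exact this.symm

end PurityB

end H18S18
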