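/-
helper18: S18 (item 75), route Y', slice C2, part C: the fibre `M₀ / 𝔪 M₀` is reduced when the
dual basis has denominators prime to `𝔪`.

Setting: `T` integrally closed domain, `L = Frac T`, `E / L` finite separable, `b` an `L`-basis of
`E` consisting of integral elements such that `s₀ M₀ ⊆ ⊕ T bᵢ` (`s₀ ∉ 𝔪`), `𝔪 = (π, p)`.
* `h18pc_trace_mem` : `u ∈ M₀`, `u² ∈ 𝔪 M₀`  ⟹  `tr u ∈ 𝔪`.
* `h18pc_reduced`   : `w ∈ M₀`, `w² ∈ 𝔪 M₀`  ⟹  `w ∈ 𝔪 M₀`, if `c · bᵢ^∨ ∈ M₀` for some `c ∉ 𝔪`.
-/
import Mathlib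

set_option autoImplicit false
set_option linter.unusedSectionVars false

namespace H18S18

section PurityC

variable {T L E : Type*} [CommRing T] [IsDomain T] [IsIntegrallyClosed T]
  [Field L] [Algebra T L] [IsFractionRing T L]
  [Field E] [Algebra T E] [Algebra L E] [IsScalarTower T L E] [FiniteDimensional L E]

/-- `y ∈ π M₀ + p M₀`. -/
def InmM (π p : T) (y : E) : Prop :=
  ∃ m₁ m₂ : E, IsIntegral T m₁ ∧ IsIntegral T m₂ ∧
    y = algebraMap T E π * m₁ + algebraMap T E p * m₂

omit [IsDomain T] [IsIntegrallyClosed T] [IsFractionRing T L] [FiniteDimensional L E] in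
theorem h18pc_repr_mul {n : ℕ} (b : Module.Basis (Fin n) L E) (c : T) (z : E) (i : Fin n) :
    b.repr (algebraMap T E c * z) i = algebraMap T L c * b.repr z i := by
  have : algebraMap T E c * z = (algebraMap T L c) • z := by
    rw [Algebra.smul_def, ← IsScalarTower.algebraMap_apply]
  rw [this, map_smul, Finsupp.smul_apply, smul_eq_mul]

omit [IsDomain T] [IsIntegrallyClosed T] [IsFractionRing T L] [FiniteDimensional L E] in
theorem h18pc_inmM_mul (π p : T) {y f : E} (hy : InmM π p y) (hf : IsIntegral T f) :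
    InmM π p (y * f) := by
  obtain ⟨m₁, m₂, h₁, h₂, rfl⟩ := hy
  exact ⟨m₁ * f, m₂ * f, h₁.mul hf, h₂.mul hf, by ring⟩

theorem h18pc_trace_mem {n : ℕ} (b : Module.Basis (Fin n) L E)
    (s₀ : T) (𝔪 : Ideal T) (h𝔪 : 𝔪.IsMaximal) (π p : T) (hπ : π ∈ 𝔪) (hp : p ∈ 𝔪)
    (hs₀ : s₀ ∉ 𝔪) (hbi : ∀ i, IsIntegral T (b i))
    (hb : ∀ m : E, IsIntegral T m → ∀ i, ∃ c : T,
      b.repr (algebraMap T E s₀ * m) i = algebraMap T L c)
    (u : E) (hu : IsIntegral T u) (hu2 : InmM π p (u * u)) :
    ∃ τ ∈ 𝔪, Algebra.trace L E u = algebraMap T L τ := by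
  classical
  have hinj : Function.Injective (algebraMap T L) := IsFractionRing.injective T L
  have hA : ∀ i j, ∃ c : T, b.repr (algebraMap T E s₀ * (u * b j)) i = algebraMap T L c :=
    fun i j => hb _ (hu.mul (hbi j)) i
  choose A hA using hA
  set Am : Matrix (Fin n) (Fin n) T := Matrix.of A with hAm
  have h1 : Algebra.leftMulMatrix b (algebraMap T E s₀ * u) = Am.map (algebraMap T L) := by
    ext i j
    rw [Algebra.leftMulMatrix_eq_repr_mul, mul_assoc, hA]
    rfl
  -- entries of `Am * Am`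
  have h2 : ∀ i j, (Am * Am) i j ∈ 𝔪 := by
    intro i j
    obtain ⟨m₁, m₂, hm₁, hm₂, hmm⟩ := hu2
    obtain ⟨c₁, hc₁⟩ := hb _ (hm₁.mul (hbi j)) i
    obtain ⟨c₂, hc₂⟩ := hb _ (hm₂.mul (hbi j)) i
    have h3 : (Am * Am).map (algebraMap T L) =
        Algebra.leftMulMatrix b ((algebraMap T E s₀ * u) * (algebraMap T E s₀ * u)) := by
      rw [map_mul, h1, Matrix.map_mul]
    have h4 : algebraMap T L ((Am * Am) i j) =
        algebraMap T L (s₀ * (π * c₁ + p * c₂)) := by
      have := congrFun (congrFun h3 i) j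
      rw [Matrix.map_apply] at this
      rw [this, Algebra.leftMulMatrix_eq_repr_mul]
      have e1 : algebraMap T E s₀ * u * (algebraMap T E s₀ * u) * b j =
          algebraMap T E s₀ * (algebraMap T E π * (algebraMap T E s₀ * (m₁ * b j)) +
            algebraMap T E p * (algebraMap T E s₀ * (m₂ * b j))) := by
        have : algebraMap T E s₀ * u * (algebraMap T E s₀ * u) * b j =
            algebraMap T E s₀ * (algebraMap T E s₀ * ((u * u) * b j)) := by ring
        rw [this, hmm]; ring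
      have r1 : b.repr (algebraMap T E π * (algebraMap T E s₀ * (m₁ * b j))) i =
          algebraMap T L π * algebraMap T L c₁ := by
        rw [h18pc_repr_mul, hc₁]
      have r2 : b.repr (algebraMap T E p * (algebraMap T E s₀ * (m₂ * b j))) i =
          algebraMap T L p * algebraMap T L c₂ := by
        rw [h18pc_repr_mul, hc₂]
      rw [e1, h18pc_repr_mul, map_add, Finsupp.add_apply, r1, r2]
      simp only [map_mul, map_add]
    rw [hinj h4]
    exact 𝔪.mul_mem_left _ (𝔪.add_mem (𝔪.mul_mem_right _ hπ) (𝔪.mul_mem_right _ hp))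
  -- nilpotency modulo `𝔪`
  let _ : Field (T ⧸ 𝔪) := Ideal.Quotient.field 𝔪
  have h5 : (Am.map (Ideal.Quotient.mk 𝔪)) * (Am.map (Ideal.Quotient.mk 𝔪)) = 0 := by
    rw [← Matrix.map_mul]
    ext i j
    rw [Matrix.map_apply, Matrix.zero_apply]
    exact Ideal.Quotient.eq_zero_iff_mem.mpr (h2 i j)
  have h6 : IsNilpotent (Am.map (Ideal.Quotient.mk 𝔪)) := ⟨2, by rw [pow_two, h5]⟩
  have h7 : (Am.map (Ideal.Quotient.mk 𝔪)).trace = 0 :=
    (Matrix.isNilpotent_trace_of_isNilpotent h6).eq_zero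
  have h8 : Am.trace ∈ 𝔪 := by
    rw [← Ideal.Quotient.eq_zero_iff_mem, ← h7]
    simp only [Matrix.trace, Matrix.diag_apply, Matrix.map_apply, map_sum]
  -- trace of `s₀ u`
  have h9 : Algebra.trace L E (algebraMap T E s₀ * u) = algebraMap T L Am.trace := by
    rw [Algebra.trace_eq_matrix_trace b, h1]
    simp only [Matrix.trace, Matrix.diag_apply, Matrix.map_apply, map_sum]
  have h10 : IsIntegral T (Algebra.trace L E u) := Algebra.isIntegral_trace hu
  obtain ⟨τ, hτ⟩ := (IsIntegrallyClosed.isIntegral_iff (R := T) (K := L)).mp h10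
  refine ⟨τ, ?_, hτ.symm⟩
  have h11 : algebraMap T L (s₀ * τ) = algebraMap T L Am.trace := by
    rw [← h9, map_mul, hτ]
    have : algebraMap T E s₀ * u = (algebraMap T L s₀) • u := by
      rw [Algebra.smul_def, ← IsScalarTower.algebraMap_apply]
    rw [this, map_smul, smul_eq_mul]
  have h12 : s₀ * τ ∈ 𝔪 := by rw [hinj h11]; exact h8
  exact (h𝔪.isPrime.mem_or_mem h12).resolve_left hs₀

variable [Algebra.IsSeparable L E]

/-- The fibre `M₀ / 𝔪 M₀` is reduced. -/
theorem h18pc_reduced {n : ℕ} (b : Module.Basis (Fin n) L E)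
    (s₀ : T) (𝔪 : Ideal T) (h𝔪 : 𝔪.IsMaximal) (π p : T) (hπ : π ∈ 𝔪) (hp : p ∈ 𝔪)
    (h𝔪gen : ∀ x ∈ 𝔪, ∃ α β : T, x = α * π + β * p)
    (hs₀ : s₀ ∉ 𝔪) (hbi : ∀ i, IsIntegral T (b i))
    (hb : ∀ m : E, IsIntegral T m → ∀ i, ∃ c : T,
      b.repr (algebraMap T E s₀ * m) i = algebraMap T L c)
    (c : T) (hc : c ∉ 𝔪)
    (hdual : ∀ i, IsIntegral T (algebraMap T E c *
      ((Algebra.traceForm L E).dualBasis (traceForm_nondegenerate L E) b i)))
    (w : E) (hw : IsIntegral T w) (hw2 : InmM π p (w * w)) : InmM π p w := by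
  classical
  set d := (Algebra.traceForm L E).dualBasis (traceForm_nondegenerate L E) b with hd
  -- coordinates of `w`
  have hrepr : ∀ i, b.repr w i = Algebra.trace L E (w * d i) := by
    intro i
    have h1 : (Algebra.traceForm L E).dualBasis (traceForm_nondegenerate L E) d = b :=
      LinearMap.BilinForm.dualBasis_dualBasis (traceForm_nondegenerate L E)
        (Algebra.traceForm_isSymm L) b
    conv_lhs => rw [← h1]
    rw [LinearMap.BilinForm.dualBasis_repr_apply, Algebra.traceForm_apply]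
  have hτ : ∀ i, ∃ τ ∈ 𝔪, algebraMap T L c * b.repr w i = algebraMap T L τ := by
    intro i
    have hu : IsIntegral T (w * (algebraMap T E c * d i)) := hw.mul (hdual i)
    have hu2 : InmM π p ((w * (algebraMap T E c * d i)) * (w * (algebraMap T E c * d i))) := by
      have : (w * (algebraMap T E c * d i)) * (w * (algebraMap T E c * d i)) =
          (w * w) * ((algebraMap T E c * d i) * (algebraMap T E c * d i)) := by ring
      rw [this]
      exact h18pc_inmM_mul π p hw2 ((hdual i).mul (hdual i))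
    obtain ⟨τ, hτm, hτ⟩ := h18pc_trace_mem b s₀ 𝔪 h𝔪 π p hπ hp hs₀ hbi hb _ hu hu2
    refine ⟨τ, hτm, ?_⟩
    rw [← hτ, hrepr]
    have : w * (algebraMap T E c * d i) = (algebraMap T L c) • (w * d i) := by
      rw [Algebra.smul_def, ← IsScalarTower.algebraMap_apply]; ring
    rw [this, map_smul, smul_eq_mul]
  choose τ hτm hτ using hτ
  have hαβ : ∀ i, ∃ α β : T, τ i = α * π + β * p := fun i => h𝔪gen _ (hτm i)
  choose α β hαβ using hαβ
  -- `c w = ∑ τ i • b i`
  have hcw : algebraMap T E c * w = ∑ i, algebraMap T E (τ i) * b i := by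
    conv_lhs => rw [← b.sum_repr w]
    rw [Finset.mul_sum]
    apply Finset.sum_congr rfl
    intro i _
    rw [Algebra.smul_def, ← mul_assoc, IsScalarTower.algebraMap_apply T L E c, ← map_mul, hτ,
      ← IsScalarTower.algebraMap_apply]
  have hcw' : InmM π p (algebraMap T E c * w) := by
    refine ⟨∑ i, algebraMap T E (α i) * b i, ∑ i, algebraMap T E (β i) * b i,
      IsIntegral.sum _ (fun i _ => isIntegral_algebraMap.mul (hbi i)),
      IsIntegral.sum _ (fun i _ => isIntegral_algebraMap.mul (hbi i)), ?_⟩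
    rw [hcw, Finset.mul_sum, Finset.mul_sum, ← Finset.sum_add_distrib]
    apply Finset.sum_congr rfl
    intro i _
    rw [hαβ i]
    simp only [map_add, map_mul]
    ring
  -- invert `c` modulo `𝔪`
  obtain ⟨c', i, hi, hc'⟩ := h𝔪.exists_inv hc
  obtain ⟨α', β', hi'⟩ := h𝔪gen i hi
  obtain ⟨m₁, m₂, hm₁, hm₂, hmm⟩ := hcw'
  refine ⟨algebraMap T E c' * m₁ + algebraMap T E α' * w,
    algebraMap T E c' * m₂ + algebraMap T E β' * w,
    (isIntegral_algebraMap.mul hm₁).add (isIntegral_algebraMap.mul hw),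
    (isIntegral_algebraMap.mul hm₂).add (isIntegral_algebraMap.mul hw), ?_⟩
  have h1 : w = algebraMap T E c' * (algebraMap T E c * w) + algebraMap T E i * w := by
    have : (1 : E) = algebraMap T E (c' * c + i) := by rw [hc', map_one]
    calc w = 1 * w := (one_mul w).symm
      _ = algebraMap T E (c' * c + i) * w := by rw [← this]
      _ = _ := by rw [map_add, map_mul]; ring
  conv_lhs => rw [h1, hmm, hi']
  simp only [map_add, map_mul]
  ring

end PurityC

end H18S18
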