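/-
helper18: S18 (item 75), route Y', slice C2, part D: the adapted family of part B is a basis of
`E / L`; coordinates of integral elements.
-/
import Mathlib


set_option autoImplicit false
set_option linter.unusedSectionVars false

namespace H18S18

section PurityD

variable {T : Type*} (L : Type*) {E : Type*} [CommRing T] [IsDomain T] [IsIntegrallyClosed T]
  [IsNoetherianRing T] [Field L] [Algebra T L] [IsFractionRing T L]
  [Field E] [Algebra T E] [Algebra L E] [IsScalarTower T L E] [FiniteDimensional L E]
  [Module.IsTorsionFree T E]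

omit [IsIntegrallyClosed T] [FiniteDimensional L E] in
include L in
/-- a relation `∑ cᵢ eᵢ = 0` with coefficients in `T` is trivial -/
theorem h18pd_rel_zero (π : T) (hπ : Prime π) {n : ℕ} (e : Fin n → E)
    (ha : ∀ c : Fin n → T, (∃ m : E, IsIntegral T m ∧
          ∑ i, algebraMap T E (c i) * e i = algebraMap T E π * m) → ∀ i, π ∣ c i)
    (c : Fin n → T) (hc : ∑ i, algebraMap T E (c i) * e i = 0) : ∀ i, c i = 0 := by
  have hπE : algebraMap T E π ≠ 0 := by
    intro h0
    exact hπ.ne_zero ((FaithfulSMul.algebraMap_injective T E) (h0.trans (map_zero _).symm))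
  have key : ∀ k : ℕ, ∀ c : Fin n → T, ∑ i, algebraMap T E (c i) * e i = 0 →
      ∀ i, π ^ k ∣ c i := by
    intro k
    induction k with
    | zero => intro c _ i; simp
    | succ k ih =>
      intro c hc i
      have h1 : ∀ i, π ∣ c i := ha c ⟨0, isIntegral_zero, by rw [hc, mul_zero]⟩
      choose c' hc' using h1
      have h2 : ∑ i, algebraMap T E (c' i) * e i = 0 := by
        have : algebraMap T E π * ∑ i, algebraMap T E (c' i) * e i = 0 := by
          rw [← hc, Finset.mul_sum]
          apply Finset.sum_congr rfl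
          intro j _
          rw [hc' j, map_mul]; ring
        exact (mul_eq_zero.mp this).resolve_left hπE
      obtain ⟨d, hd⟩ := ih c' h2 i
      exact ⟨d, by rw [hc' i, hd]; ring⟩
  intro i
  by_contra hne
  obtain ⟨k, a, hk, hka⟩ := WfDvdMonoid.max_power_factor hne hπ.irreducible
  obtain ⟨d, hd⟩ := key (k + 1) c hc i
  apply hk
  refine ⟨d, ?_⟩
  have : π ^ k * a = π ^ k * (π * d) := by rw [← hka, hd]; ring
  exact mul_left_cancel₀ (pow_ne_zero k hπ.ne_zero) this

omit [IsIntegrallyClosed T] in
/-- the adapted family is a basis of `E / L` -/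
theorem h18pd_basisL (π : T) (hπ : Prime π) {n : ℕ} (e : Fin n → E)
    (ha : ∀ c : Fin n → T, (∃ m : E, IsIntegral T m ∧
          ∑ i, algebraMap T E (c i) * e i = algebraMap T E π * m) → ∀ i, π ∣ c i)
    (s₀ : T) (hs₀ : π ∣ s₀ - 1)
    (hb : ∀ m : E, IsIntegral T m →
          ∃ c : Fin n → T, algebraMap T E s₀ * m = ∑ i, algebraMap T E (c i) * e i) :
    ∃ b : Module.Basis (Fin n) L E, ∀ i, b i = e i := by
  classical
  have hinjL : Function.Injective (algebraMap T L) := IsFractionRing.injective T L
  have hinjE : Function.Injective (algebraMap T E) := FaithfulSMul.algebraMap_injective T E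
  have hs₀0 : s₀ ≠ 0 := by
    rintro rfl
    rw [zero_sub, dvd_neg] at hs₀
    exact hπ.not_isUnit (isUnit_of_dvd_one hs₀)
  have hli : LinearIndependent L e := by
    rw [Fintype.linearIndependent_iff]
    intro g hg i
    obtain ⟨d, hd⟩ := IsLocalization.exist_integer_multiples (nonZeroDivisors T)
      (Finset.univ : Finset (Fin n)) g
    have hd' : ∀ i, ∃ c : T, algebraMap T L c = (d : T) • g i := fun i => hd i (Finset.mem_univ i)
    choose c hc using hd'
    have h1 : ∑ i, algebraMap T E (c i) * e i = 0 := by
      have : ∑ i, algebraMap T E (c i) * e i = (d : T) • ∑ i, g i • e i := by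
        rw [Finset.smul_sum]
        apply Finset.sum_congr rfl
        intro j _
        rw [IsScalarTower.algebraMap_apply T L E, hc j, ← Algebra.smul_def, smul_assoc]
      rw [this, hg, smul_zero]
    have h2 := h18pd_rel_zero L π hπ e ha c h1 i
    have h3 : (d : T) • g i = 0 := by rw [← hc i, h2, map_zero]
    rw [Algebra.smul_def, mul_eq_zero] at h3
    rcases h3 with h3 | h3
    · exact absurd (hinjL (h3.trans (map_zero _).symm)) (nonZeroDivisors.ne_zero d.2)
    · exact h3
  have hsp : ⊤ ≤ Submodule.span L (Set.range e) := by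
    intro y _
    have halg : IsAlgebraic T y := by
      have h1 : IsAlgebraic L y := Algebra.IsAlgebraic.isAlgebraic y
      exact (IsFractionRing.isAlgebraic_iff T L E).mpr h1
    obtain ⟨d, hd0, hd⟩ := halg.exists_integral_multiple
    obtain ⟨c, hc⟩ := hb _ hd
    have hsd : algebraMap T L (s₀ * d) ≠ 0 := by
      intro h
      exact mul_ne_zero hs₀0 hd0 (hinjL (h.trans (map_zero _).symm))
    have hy : y = ∑ i, ((algebraMap T L (s₀ * d))⁻¹ * algebraMap T L (c i)) • e i := by
      have h1 : (algebraMap T L (s₀ * d)) • y = ∑ i, (algebraMap T L (c i)) • e i := by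
        have h2 : ∑ i, (algebraMap T L (c i)) • e i = ∑ i, algebraMap T E (c i) * e i :=
          Finset.sum_congr rfl (fun j _ => by
            rw [Algebra.smul_def, ← IsScalarTower.algebraMap_apply])
        rw [h2, ← hc, Algebra.smul_def, ← IsScalarTower.algebraMap_apply, map_mul,
          Algebra.smul_def, mul_assoc]
      have h3 : y = (algebraMap T L (s₀ * d))⁻¹ • ((algebraMap T L (s₀ * d)) • y) := by
        rw [smul_smul, inv_mul_cancel₀ hsd, one_smul]
      rw [h3, h1, Finset.smul_sum]
      exact Finset.sum_congr rfl (fun j _ => by rw [smul_smul])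
    rw [hy]
    exact Submodule.sum_mem _ (fun i _ => Submodule.smul_mem _ _ (Submodule.subset_span ⟨i, rfl⟩))
  exact ⟨Module.Basis.mk hli hsp, fun i => Module.Basis.mk_apply hli hsp i⟩

omit [IsIntegrallyClosed T] [IsNoetherianRing T] [FiniteDimensional L E]
  [Module.IsTorsionFree T E] [IsDomain T] [IsFractionRing T L] in
/-- coordinates of integral elements -/
theorem h18pd_coord {n : ℕ} (b : Module.Basis (Fin n) L E)
    (s₀ : T)
    (hb : ∀ m : E, IsIntegral T m →
          ∃ c : Fin n → T, algebraMap T E s₀ * m = ∑ i, algebraMap T E (c i) * b i)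
    (m : E) (hm : IsIntegral T m) (i : Fin n) :
    ∃ c : T, b.repr (algebraMap T E s₀ * m) i = algebraMap T L c := by
  obtain ⟨c, hc⟩ := hb m hm
  refine ⟨c i, ?_⟩
  have h2 : ∑ i, algebraMap T E (c i) * b i = ∑ i, (algebraMap T L (c i)) • b i :=
    Finset.sum_congr rfl (fun j _ => by
      rw [Algebra.smul_def, ← IsScalarTower.algebraMap_apply])
  rw [hc, h2, Module.Basis.repr_sum_self]

end PurityD

end H18S18
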