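/-
helper18: S18 (item 75), route Y', slice C2, part E: the abstract purity theorem.

`T` a noetherian UFD with fraction field `L`, `E / L` finite separable, `M₀` the integral closure
of `T` in `E`, `π ∈ T` prime with `T / π` a PID, `O_E = M₀ [ (T ∖ (π))⁻¹ ]`, `𝔪 ∋ π` a maximal ideal
of `T`.  If `M₀` is self-dual for the trace form at `(π)` and at every other prime element of
`𝔪`, then every idempotent of `O_E / π O_E` lies in the image of `(M₀)_𝔪`.
-/
import Mathlib
import Fermat.Agent.S18.LemmaU_helper19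
import Fermat.Agent.S18.H18PurityA
import Fermat.Agent.S18.H18PurityB
import Fermat.Agent.S18.H18PurityC
import Fermat.Agent.S18.H18PurityD

set_option autoImplicit false
set_option linter.unusedSectionVars false

namespace H18S18

section OEp

variable {T E : Type*} [CommRing T] [Field E] [Algebra T E]

/-- `y ∈ O_E`: some multiple `s y`, `π ∤ s`, is integral over `T`. -/
def OEp (π : T) (y : E) : Prop := ∃ s : T, ¬ π ∣ s ∧ IsIntegral T (algebraMap T E s * y)

theorem oEp_of_isIntegral {π : T} (hπ : Prime π) {y : E} (hy : IsIntegral T y) : OEp π y :=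
  ⟨1, fun h => hπ.not_isUnit (isUnit_of_dvd_one h), by rwa [map_one, one_mul]⟩

theorem oEp_zero {π : T} (hπ : Prime π) : OEp π (0 : E) := oEp_of_isIntegral hπ isIntegral_zero

theorem oEp_add {π : T} (hπ : Prime π) {x y : E} (hx : OEp π x) (hy : OEp π y) :
    OEp π (x + y) := by
  obtain ⟨s₁, h₁, hx⟩ := hx
  obtain ⟨s₂, h₂, hy⟩ := hy
  refine ⟨s₁ * s₂, fun h => (hπ.dvd_or_dvd h).elim h₁ h₂, ?_⟩
  have : algebraMap T E (s₁ * s₂) * (x + y) =
      algebraMap T E s₂ * (algebraMap T E s₁ * x) + algebraMap T E s₁ * (algebraMap T E s₂ * y) := by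
    rw [map_mul]; ring
  rw [this]
  exact (isIntegral_algebraMap.mul hx).add (isIntegral_algebraMap.mul hy)

theorem oEp_mul {π : T} (hπ : Prime π) {x y : E} (hx : OEp π x) (hy : OEp π y) :
    OEp π (x * y) := by
  obtain ⟨s₁, h₁, hx⟩ := hx
  obtain ⟨s₂, h₂, hy⟩ := hy
  refine ⟨s₁ * s₂, fun h => (hπ.dvd_or_dvd h).elim h₁ h₂, ?_⟩
  have : algebraMap T E (s₁ * s₂) * (x * y) =
      (algebraMap T E s₁ * x) * (algebraMap T E s₂ * y) := by
    rw [map_mul]; ring
  rw [this]
  exact hx.mul hy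

theorem oEp_neg {π : T} {x : E} (hx : OEp π x) : OEp π (-x) := by
  obtain ⟨s₁, h₁, hx⟩ := hx
  exact ⟨s₁, h₁, by rw [mul_neg]; exact hx.neg⟩

theorem oEp_sub {π : T} (hπ : Prime π) {x y : E} (hx : OEp π x) (hy : OEp π y) :
    OEp π (x - y) := by
  rw [sub_eq_add_neg]; exact oEp_add hπ hx (oEp_neg hy)

theorem oEp_algebraMap {π : T} (hπ : Prime π) (r : T) : OEp π (algebraMap T E r) :=
  oEp_of_isIntegral hπ isIntegral_algebraMap

theorem oEp_smul {π : T} (r : T) {x : E} (hx : OEp π x) : OEp π (algebraMap T E r * x) := by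
  obtain ⟨s₁, h₁, hx⟩ := hx
  refine ⟨s₁, h₁, ?_⟩
  have : algebraMap T E s₁ * (algebraMap T E r * x) = algebraMap T E r * (algebraMap T E s₁ * x) := by
    ring
  rw [this]
  exact isIntegral_algebraMap.mul hx

end OEp

section PurityE

variable {T : Type*} (L : Type*) {E : Type*} [CommRing T] [IsDomain T]
  [UniqueFactorizationMonoid T]
  [IsNoetherianRing T] [Field L] [Algebra T L] [IsFractionRing T L]
  [Field E] [Algebra T E] [Algebra L E] [IsScalarTower T L E] [FiniteDimensional L E]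
  [Algebra.IsSeparable L E] [Module.IsTorsionFree T E]

/-- saturation: `O_E ∩ π⁻¹ M₀ = M₀` -/
theorem h18pe_sat {π : T} (hπ : Prime π) {y : E} (hy : OEp π y)
    (h : IsIntegral T (algebraMap T E π * y)) : IsIntegral T y := by
  obtain ⟨s, hs, hsy⟩ := hy
  exact H19S18.h19_lemmaU_gen π s hπ hs y h hsy

theorem h18pe_repr_eq_trace {n : ℕ} (b : Module.Basis (Fin n) L E) (w : E) (i : Fin n) :
    b.repr w i = Algebra.trace L E
      (w * (Algebra.traceForm L E).dualBasis (traceForm_nondegenerate L E) b i) := by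
  classical
  have h1 : (Algebra.traceForm L E).dualBasis (traceForm_nondegenerate L E)
      ((Algebra.traceForm L E).dualBasis (traceForm_nondegenerate L E) b) = b :=
    LinearMap.BilinForm.dualBasis_dualBasis (traceForm_nondegenerate L E)
      (Algebra.traceForm_isSymm L) b
  conv_lhs => rw [← h1]
  rw [LinearMap.BilinForm.dualBasis_repr_apply, Algebra.traceForm_apply]

/-- denominators of the dual basis outside `𝔪` -/
theorem h18pe_dual_denoms {n : ℕ} (b : Module.Basis (Fin n) L E) (s₀ : T)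
    (𝔪 : Ideal T) (h𝔪 : 𝔪.IsPrime) (hs₀ : s₀ ∉ 𝔪)
    (hb : ∀ m : E, IsIntegral T m → ∀ i, ∃ c : T,
      b.repr (algebraMap T E s₀ * m) i = algebraMap T L c)
    (π : T) (hπ : Prime π)
    (hG : ∀ y : E, (∀ m : E, IsIntegral T m →
        ∃ a : T, Algebra.trace L E (y * m) = algebraMap T L a) →
        ∃ s : T, ¬ π ∣ s ∧ IsIntegral T (algebraMap T E s * y))
    (hH : ∀ P : T, Prime P → P ∈ 𝔪 → ¬ Associated P π → ∀ y : E,
        (∀ m : E, IsIntegral T m → ∃ a : T, Algebra.trace L E (y * m) = algebraMap T L a) →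
        ∃ s : T, ¬ P ∣ s ∧ IsIntegral T (algebraMap T E s * y)) :
    ∃ c : T, c ∉ 𝔪 ∧ ∀ i, IsIntegral T (algebraMap T E c *
      ((Algebra.traceForm L E).dualBasis (traceForm_nondegenerate L E) b i)) := by
  classical
  set d := (Algebra.traceForm L E).dualBasis (traceForm_nondegenerate L E) b with hd
  have hdual : ∀ i, ∀ m : E, IsIntegral T m →
      ∃ a : T, Algebra.trace L E ((algebraMap T E s₀ * d i) * m) = algebraMap T L a := by
    intro i m hm
    obtain ⟨c, hc⟩ := hb m hm i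
    refine ⟨c, ?_⟩
    rw [← hc, h18pe_repr_eq_trace L b]
    congr 1
    ring
  have hci : ∀ i, ∃ c : T, c ∉ 𝔪 ∧ IsIntegral T (algebraMap T E c * (algebraMap T E s₀ * d i)) := by
    intro i
    obtain ⟨s, hs, hsy⟩ := hG _ (hdual i)
    have hs0 : s ≠ 0 := fun h => hs (h ▸ dvd_zero π)
    refine h18pa_denom 𝔪 h𝔪 s _ hs0 hsy (fun P hP hPm hPs => ?_)
    have hPπ : ¬ Associated P π := fun h => hs (h.symm.dvd.trans hPs)
    exact hH P hP hPm hPπ _ (hdual i)
  choose c hc hcint using hci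
  refine ⟨(∏ j, c j) * s₀, ?_, fun i => ?_⟩
  · intro h
    rcases h𝔪.mem_or_mem h with h | h
    · obtain ⟨j, -, hj⟩ := (h𝔪.prod_mem_iff).mp h
      exact hc j hj
    · exact hs₀ h
  · have h1 : (∏ j, c j) = (∏ j ∈ Finset.univ.erase i, c j) * c i := by
      rw [mul_comm]
      exact (Finset.mul_prod_erase Finset.univ c (Finset.mem_univ i)).symm
    have h2 : algebraMap T E ((∏ j, c j) * s₀) * d i =
        algebraMap T E (∏ j ∈ Finset.univ.erase i, c j) *
          (algebraMap T E (c i) * (algebraMap T E s₀ * d i)) := by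
      rw [h1]
      simp only [map_mul]
      ring
    rw [h2]
    exact isIntegral_algebraMap.mul (hcint i)

/-- **Abstract purity theorem.** -/
theorem h18_purity_abs (π : T) (hπ : Prime π)
    (hPID : IsPrincipalIdealRing (T ⧸ Ideal.span {π}))
    (𝔪 : Ideal T) (h𝔪 : 𝔪.IsMaximal) (hπ𝔪 : π ∈ 𝔪)
    (hG : ∀ y : E, (∀ m : E, IsIntegral T m →
        ∃ a : T, Algebra.trace L E (y * m) = algebraMap T L a) →
        ∃ s : T, ¬ π ∣ s ∧ IsIntegral T (algebraMap T E s * y))
    (hH : ∀ P : T, Prime P → P ∈ 𝔪 → ¬ Associated P π → ∀ y : E,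
        (∀ m : E, IsIntegral T m → ∃ a : T, Algebra.trace L E (y * m) = algebraMap T L a) →
        ∃ s : T, ¬ P ∣ s ∧ IsIntegral T (algebraMap T E s * y))
    (x : E) (hx : OEp π x) (z : E) (hz : OEp π z)
    (hxx : x * x - x = algebraMap T E π * z) :
    ∃ s : T, s ∉ 𝔪 ∧ ∃ a : E, IsIntegral T a ∧ ∃ z' : E, OEp π z' ∧
      algebraMap T E s * x - a = algebraMap T E π * z' := by
  classical
  have hinjE : Function.Injective (algebraMap T E) := FaithfulSMul.algebraMap_injective T E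
  have hπE : algebraMap T E π ≠ 0 := fun h0 => hπ.ne_zero (hinjE (h0.trans (map_zero _).symm))
  -- the adapted basis
  obtain ⟨n, e, hei, ha, s₀, hs₀, hb⟩ := h18pb_basis L (E := E) π hπ hPID
  obtain ⟨b, hbe⟩ := h18pd_basisL L π hπ e ha s₀ hs₀ hb
  have hbi : ∀ i, IsIntegral T (b i) := fun i => by rw [hbe]; exact hei i
  have hb' : ∀ m : E, IsIntegral T m →
      ∃ c : Fin n → T, algebraMap T E s₀ * m = ∑ i, algebraMap T E (c i) * b i := by
    intro m hm
    obtain ⟨c, hc⟩ := hb m hm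
    exact ⟨c, by rw [hc]; exact Finset.sum_congr rfl (fun i _ => by rw [hbe])⟩
  have hcoord := h18pd_coord L b s₀ hb'
  have hs₀𝔪 : s₀ ∉ 𝔪 := by
    intro h
    obtain ⟨d, hd⟩ := hs₀
    have h1 : (1 : T) = s₀ - π * d := by rw [← hd]; ring
    exact h𝔪.ne_top ((Ideal.eq_top_iff_one _).mpr
      (h1 ▸ 𝔪.sub_mem h (𝔪.mul_mem_right _ hπ𝔪)))
  obtain ⟨c, hc𝔪, hcd⟩ := h18pe_dual_denoms L b s₀ 𝔪 h𝔪.isPrime hs₀𝔪 hcoord π hπ hG hH
  -- by contradiction
  by_contra hcon
  have hD𝔪 : ∀ s : T, (∃ a : E, IsIntegral T a ∧ ∃ z' : E, OEp π z' ∧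
      algebraMap T E s * x - a = algebraMap T E π * z') → s ∈ 𝔪 := by
    intro s hs
    by_contra hs𝔪
    exact hcon ⟨s, hs𝔪, hs⟩
  -- the ideal `D`
  let D : Ideal T :=
    { carrier := {s | ∃ a : E, IsIntegral T a ∧ ∃ z' : E, OEp π z' ∧
        algebraMap T E s * x - a = algebraMap T E π * z'}
      add_mem' := by
        rintro s₁ s₂ ⟨a₁, ha₁, z₁, hz₁, h₁⟩ ⟨a₂, ha₂, z₂, hz₂, h₂⟩
        refine ⟨a₁ + a₂, ha₁.add ha₂, z₁ + z₂, oEp_add hπ hz₁ hz₂, ?_⟩
        rw [map_add, mul_add, ← h₁, ← h₂]; ring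
      zero_mem' := ⟨0, isIntegral_zero, 0, oEp_zero hπ, by simp⟩
      smul_mem' := by
        rintro r s ⟨a, ha, z', hz', h⟩
        refine ⟨algebraMap T E r * a, isIntegral_algebraMap.mul ha, algebraMap T E r * z',
          oEp_smul r hz', ?_⟩
        rw [smul_eq_mul, map_mul]
        have : algebraMap T E π * (algebraMap T E r * z') =
            algebraMap T E r * (algebraMap T E π * z') := by ring
        rw [this, ← h]; ring }
  have hDmem : ∀ s : T, s ∈ D ↔ ∃ a : E, IsIntegral T a ∧ ∃ z' : E, OEp π z' ∧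
      algebraMap T E s * x - a = algebraMap T E π * z' := fun s => Iff.rfl
  have hD𝔪' : ∀ s ∈ D, s ∈ 𝔪 := fun s hs => hD𝔪 s ((hDmem s).mp hs)
  set I : Ideal T := Ideal.span {π} with hI
  have hsurj : Function.Surjective (Ideal.Quotient.mk I) := Ideal.Quotient.mk_surjective
  -- generators modulo `π`
  have hgen : ∀ J : Ideal T, ∃ g ∈ J, ∀ d ∈ J, ∃ α β : T, d = α * g + β * π := by
    intro J
    obtain ⟨g', hg'⟩ := (hPID.principal (J.map (Ideal.Quotient.mk I))).principal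
    have hg'mem : g' ∈ J.map (Ideal.Quotient.mk I) := by
      rw [hg']; exact Submodule.mem_span_singleton_self g'
    obtain ⟨g, hgJ, hg⟩ := (Ideal.mem_map_iff_of_surjective _ hsurj).mp hg'mem
    refine ⟨g, hgJ, fun d hd => ?_⟩
    have h1 : Ideal.Quotient.mk I d ∈ J.map (Ideal.Quotient.mk I) := Ideal.mem_map_of_mem _ hd
    rw [hg'] at h1
    obtain ⟨α', hα'⟩ := Ideal.mem_span_singleton'.mp h1
    obtain ⟨α, rfl⟩ := hsurj α'
    have h2 : Ideal.Quotient.mk I (d - α * g) = 0 := by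
      rw [map_sub, map_mul, hg, hα', sub_self]
    obtain ⟨β, hβ⟩ := Ideal.mem_span_singleton.mp (Ideal.Quotient.eq_zero_iff_mem.mp h2)
    exact ⟨α, β, by linear_combination hβ⟩
  obtain ⟨q, hqD, hqgen⟩ := hgen D
  obtain ⟨p, hp𝔪, hpgen⟩ := hgen 𝔪
  have h𝔪gen : ∀ y ∈ 𝔪, ∃ α β : T, y = α * π + β * p := by
    intro y hy
    obtain ⟨α, β, h⟩ := hpgen y hy
    exact ⟨β, α, by rw [h]; ring⟩
  -- Step A
  obtain ⟨sx, hsx, hsxx⟩ := hx
  have hsxD : sx ∈ D := ⟨algebraMap T E sx * x, hsxx, 0, oEp_zero hπ, by simp⟩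
  have hπq : ¬ π ∣ q := by
    intro h
    obtain ⟨α, β, hαβ⟩ := hqgen sx hsxD
    apply hsx
    rw [hαβ]
    exact dvd_add (Dvd.dvd.mul_left h α) (Dvd.intro_left β rfl)
  -- Step B
  obtain ⟨q', β₀, hq⟩ := hpgen q (hD𝔪' q hqD)
  -- Step C
  obtain ⟨a, hai, z₁, hz₁, haz⟩ := (hDmem q).mp hqD
  have hxO : OEp π x := ⟨sx, hsx, hsxx⟩
  set z₂ : E := algebraMap T E q * algebraMap T E q * z
    - 2 * algebraMap T E q * x * z₁ + algebraMap T E π * z₁ * z₁ + algebraMap T E q * z₁ with hz₂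
  have hz₂O : OEp π z₂ := by
    refine oEp_add hπ (oEp_add hπ (oEp_sub hπ ?_ ?_) ?_) (oEp_smul q hz₁)
    · rw [mul_assoc]; exact oEp_smul q (oEp_smul q hz)
    · have : 2 * algebraMap T E q * x * z₁ = algebraMap T E (2 * q) * (x * z₁) := by
        rw [map_mul, map_ofNat]; ring
      rw [this]; exact oEp_smul _ (oEp_mul hπ hxO hz₁)
    · rw [mul_assoc]; exact oEp_smul π (oEp_mul hπ hz₁ hz₁)
  have ha_eq : a = algebraMap T E q * x - algebraMap T E π * z₁ := by rw [← haz]; ring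
  have haa : a * a - algebraMap T E q * a = algebraMap T E π * z₂ := by
    rw [hz₂, ha_eq]
    linear_combination (algebraMap T E q * algebraMap T E q) * hxx
  have hz₂i : IsIntegral T z₂ := by
    apply h18pe_sat hπ hz₂O
    rw [← haa]
    exact (hai.mul hai).sub (isIntegral_algebraMap.mul hai)
  have haa' : InmM π p (a * a) := by
    refine ⟨algebraMap T E β₀ * a + z₂, algebraMap T E q' * a,
      (isIntegral_algebraMap.mul hai).add hz₂i, isIntegral_algebraMap.mul hai, ?_⟩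
    have : a * a = algebraMap T E q * a + algebraMap T E π * z₂ := by rw [← haa]; ring
    rw [this, hq]
    simp only [map_add, map_mul]
    ring
  -- Step D
  obtain ⟨m₁, m₂, hm₁, hm₂, ham⟩ := h18pc_reduced b s₀ 𝔪 h𝔪 π p hπ𝔪 hp𝔪 h𝔪gen hs₀𝔪 hbi hcoord
    c hc𝔪 hcd a hai haa'
  -- Step E
  set z₃ : E := z₁ + m₁ - algebraMap T E β₀ * x with hz₃
  have hz₃O : OEp π z₃ :=
    oEp_sub hπ (oEp_add hπ hz₁ (oEp_of_isIntegral hπ hm₁)) (oEp_smul β₀ hxO)
  have hpz : algebraMap T E p * (algebraMap T E q' * x - m₂) = algebraMap T E π * z₃ := by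
    have h1 : algebraMap T E q = algebraMap T E q' * algebraMap T E p +
        algebraMap T E β₀ * algebraMap T E π := by
      rw [hq]; simp only [map_add, map_mul]
    rw [hz₃]
    linear_combination haz + ham - x * h1
  set z₄ : E := (algebraMap T E q' * x - m₂) / algebraMap T E π with hz₄
  have hπz₄ : algebraMap T E π * z₄ = algebraMap T E q' * x - m₂ := by
    rw [hz₄]; field_simp
  have hpz₄ : algebraMap T E p * z₄ = z₃ := by
    have : algebraMap T E π * (algebraMap T E p * z₄) = algebraMap T E π * z₃ := by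
      rw [← hpz, ← hπz₄]; ring
    exact mul_left_cancel₀ hπE this
  have hπp : ¬ π ∣ p := by
    intro h
    apply hπq
    rw [hq]
    exact dvd_add (Dvd.dvd.mul_left h q') (Dvd.intro_left β₀ rfl)
  have hz₄O : OEp π z₄ := by
    obtain ⟨s₃, hs₃, hs₃z⟩ := hz₃O
    refine ⟨sx, hsx, ?_⟩
    apply H19S18.h19_lemmaU_gen π (s₃ * p) hπ (fun h => (hπ.dvd_or_dvd h).elim hs₃ hπp)
    · have : algebraMap T E π * (algebraMap T E sx * z₄) =
          algebraMap T E q' * (algebraMap T E sx * x) - algebraMap T E sx * m₂ := by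
        have : algebraMap T E π * (algebraMap T E sx * z₄) =
            algebraMap T E sx * (algebraMap T E π * z₄) := by ring
        rw [this, hπz₄]; ring
      rw [this]
      exact (isIntegral_algebraMap.mul hsxx).sub (isIntegral_algebraMap.mul hm₂)
    · have : algebraMap T E (s₃ * p) * (algebraMap T E sx * z₄) =
          algebraMap T E sx * (algebraMap T E s₃ * z₃) := by
        rw [← hpz₄, map_mul]; ring
      rw [this]
      exact isIntegral_algebraMap.mul hs₃z
  have hq'D : q' ∈ D := ⟨m₂, hm₂, z₄, hz₄O, hπz₄.symm⟩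
  -- Step F
  obtain ⟨α', β', hq'⟩ := hqgen q' hq'D
  have h1 : π ∣ q * (1 - α' * p) := by
    refine ⟨β' * p + β₀, ?_⟩
    have : q = (α' * q + β' * π) * p + β₀ * π := by rw [← hq']; exact hq
    linear_combination (1 : T) * this
  have h2 : π ∣ 1 - α' * p := (hπ.dvd_or_dvd h1).resolve_left hπq
  have h3 : (1 : T) ∈ 𝔪 := by
    obtain ⟨d, hd⟩ := h2
    have : (1 : T) = π * d + α' * p := by rw [← hd]; ring
    rw [this]
    exact 𝔪.add_mem (𝔪.mul_mem_right _ hπ𝔪) (𝔪.mul_mem_left _ hp𝔪)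
  exact h𝔪.ne_top ((Ideal.eq_top_iff_one _).mpr h3)

end PurityE

end H18S18
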