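import Mathlib
import Fermat.Agent.S18.Asm_helper7
import Fermat.Agent.S18.C2HbFinal_helper19
import Fermat.Agent.S18.C7_helper28

/-!
# S18 (item 75), route Y': the unconditional main theorems (helper7)

* `H7S18.h7s18_kummerTame : KummerTameStatement` — the Kummer/tameness theorem (the input of the
  Eichler–Shimura slice ES of item 80).
* `H7S18.h7s18_main` — the statement of S18 itself (same as `Fermat.Agent.S18.result`).
-/

set_option autoImplicit false

open ModularCurve

namespace H7S18

/-- **KummerTame**, unconditional. -/
theorem h7s18_kummerTame : KummerTameStatement :=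
  h7s18_kummerTame_of H19S18.h19_localIdemUnr H28UG.gaussStatement

/-- The statement of S18, unconditional (for reuse by other items; `Fermat.Agent.S18.result`
is the graded copy). -/
theorem h7s18_main (N : ℕ) [NeZero N] {ℓ : ℕ} [Fact ℓ.Prime] (hℓN : ¬ ℓ ∣ N)
    (A : ValuationSubring (AlgebraicClosure ℚ)) (hA : A.LiesOverPrime ℓ)
    (h : ModularCurve.ReductionInputsModL A N) (m : ℕ) (hm : ¬ ℓ ∣ m)
    (z : ModularCurve.JZero N) (hmz : m • z = 0)
    (hz : ModularCurve.reductionModL A N z = 0) : z = 0 :=
  h7s18_asm H19S18.h19_localIdemUnr H28UG.gaussStatement N hℓN A hA h m hm z hmz hz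

end H7S18
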